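import Mathlib

/-
S24 helper (helper25): the field of meromorphic functions on the upper half plane as the
fraction field of the ring of holomorphic functions, with order functions at points, the
action of SL(2, Z), orders at elliptic fixed points, and conjugate embeddings of a fraction
field.  Mathlib only.
-/

set_option autoImplicit false
set_option linter.unusedSectionVars false

open scoped Manifold MatrixGroups UpperHalfPlane Topology
open UpperHalfPlane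

namespace Fermat.Agent.S24

/-! ## Generic: extension of an order function from a domain to its fraction field -/

section ExtOrd

variable {A : Type*} [CommRing A] [IsDomain A] {F : Type*} [Field F] [Algebra A F]
  [IsFractionRing A F]

/-- Extension of an "order function" `o : A → ℤ` to the fraction field. -/
noncomputable def h25_extOrd (o : A → ℤ) (x : F) : ℤ :=
  open Classical in
  if x = 0 then 0 else
    o (IsLocalization.sec (nonZeroDivisors A) x).1 -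
      o ((IsLocalization.sec (nonZeroDivisors A) x).2 : A)

@[simp]
theorem h25_extOrd_zero (o : A → ℤ) : h25_extOrd o (0 : F) = 0 := by
  simp [h25_extOrd]

theorem h25_extOrd_div (o : A → ℤ)
    (hmul : ∀ a b : A, a ≠ 0 → b ≠ 0 → o (a * b) = o a + o b) {a b : A} (ha : a ≠ 0)
    (hb : b ≠ 0) :
    h25_extOrd o (algebraMap A F a / algebraMap A F b) = o a - o b := by
  have hinj : Function.Injective (algebraMap A F) := IsFractionRing.injective A F
  have hb' : algebraMap A F b ≠ 0 := by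
    rwa [Ne, map_eq_zero_iff _ hinj]
  have ha' : algebraMap A F a ≠ 0 := by
    rwa [Ne, map_eq_zero_iff _ hinj]
  unfold h25_extOrd
  rw [if_neg (div_ne_zero ha' hb')]
  set x : F := algebraMap A F a / algebraMap A F b with hx
  set c := (IsLocalization.sec (nonZeroDivisors A) x).1 with hc
  set d := (IsLocalization.sec (nonZeroDivisors A) x).2 with hd
  have hspec : x * algebraMap A F (d : A) = algebraMap A F c :=
    IsLocalization.sec_spec (nonZeroDivisors A) x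
  have hd0 : (d : A) ≠ 0 := nonZeroDivisors.coe_ne_zero d
  have hkey : a * (d : A) = c * b := by
    apply hinj
    rw [map_mul, map_mul, ← hspec, hx]
    field_simp
  have hc0 : c ≠ 0 := by
    rintro h0
    rw [h0, zero_mul] at hkey
    exact (mul_ne_zero ha hd0) hkey
  have h1 := hmul a d ha hd0
  have h2 := hmul c b hc0 hb
  rw [hkey] at h1
  omega

theorem h25_extOrd_algebraMap (o : A → ℤ)
    (hmul : ∀ a b : A, a ≠ 0 → b ≠ 0 → o (a * b) = o a + o b) {a : A} (ha : a ≠ 0) :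
    h25_extOrd o (algebraMap A F a) = o a := by
  have h1 : o (1 : A) = 0 := by
    have := hmul 1 1 one_ne_zero one_ne_zero
    rw [mul_one] at this
    omega
  have := h25_extOrd_div (F := F) o hmul ha (one_ne_zero (α := A))
  rw [map_one, div_one] at this
  rw [this, h1, sub_zero]

theorem h25_exists_eq_div (x : F) (hx : x ≠ 0) :
    ∃ a b : A, a ≠ 0 ∧ b ≠ 0 ∧ x = algebraMap A F a / algebraMap A F b := by
  obtain ⟨a, b, hb, rfl⟩ := IsFractionRing.div_surjective A x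
  have hb0 : b ≠ 0 := nonZeroDivisors.ne_zero hb
  refine ⟨a, b, ?_, hb0, rfl⟩
  rintro rfl
  simp at hx

theorem h25_extOrd_mul (o : A → ℤ)
    (hmul : ∀ a b : A, a ≠ 0 → b ≠ 0 → o (a * b) = o a + o b) {x y : F} (hx : x ≠ 0)
    (hy : y ≠ 0) : h25_extOrd o (x * y) = h25_extOrd o x + h25_extOrd o y := by
  obtain ⟨a, b, ha, hb, rfl⟩ := h25_exists_eq_div (A := A) x hx
  obtain ⟨c, d, hc, hd, rfl⟩ := h25_exists_eq_div (A := A) y hy
  have h : algebraMap A F a / algebraMap A F b * (algebraMap A F c / algebraMap A F d)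
      = algebraMap A F (a * c) / algebraMap A F (b * d) := by
    rw [map_mul, map_mul, div_mul_div_comm]
  rw [h, h25_extOrd_div o hmul (mul_ne_zero ha hc) (mul_ne_zero hb hd),
    h25_extOrd_div o hmul ha hb, h25_extOrd_div o hmul hc hd, hmul a c ha hc, hmul b d hb hd]
  ring

theorem h25_extOrd_inv (o : A → ℤ)
    (hmul : ∀ a b : A, a ≠ 0 → b ≠ 0 → o (a * b) = o a + o b) {x : F} (hx : x ≠ 0) :
    h25_extOrd o x⁻¹ = - h25_extOrd o x := by
  obtain ⟨a, b, ha, hb, rfl⟩ := h25_exists_eq_div (A := A) x hx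
  rw [inv_div, h25_extOrd_div o hmul hb ha, h25_extOrd_div o hmul ha hb]
  ring

theorem h25_extOrd_add (o : A → ℤ)
    (hmul : ∀ a b : A, a ≠ 0 → b ≠ 0 → o (a * b) = o a + o b)
    (hadd : ∀ a b : A, a ≠ 0 → b ≠ 0 → a + b ≠ 0 → min (o a) (o b) ≤ o (a + b))
    {x y : F} (hx : x ≠ 0) (hy : y ≠ 0) (hxy : x + y ≠ 0) :
    min (h25_extOrd o x) (h25_extOrd o y) ≤ h25_extOrd o (x + y) := by
  obtain ⟨a, b, ha, hb, rfl⟩ := h25_exists_eq_div (A := A) x hx
  obtain ⟨c, d, hc, hd, rfl⟩ := h25_exists_eq_div (A := A) y hy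
  have hinj : Function.Injective (algebraMap A F) := IsFractionRing.injective A F
  have hb' : algebraMap A F b ≠ 0 := by rwa [Ne, map_eq_zero_iff _ hinj]
  have hd' : algebraMap A F d ≠ 0 := by rwa [Ne, map_eq_zero_iff _ hinj]
  have h : algebraMap A F a / algebraMap A F b + algebraMap A F c / algebraMap A F d
      = algebraMap A F (a * d + c * b) / algebraMap A F (b * d) := by
    rw [map_add, map_mul, map_mul, map_mul]
    field_simp
  have hsum : a * d + c * b ≠ 0 := by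
    rintro h0
    rw [h, h0, map_zero, zero_div] at hxy
    exact hxy rfl
  rw [h, h25_extOrd_div o hmul hsum (mul_ne_zero hb hd),
    h25_extOrd_div o hmul ha hb, h25_extOrd_div o hmul hc hd, hmul b d hb hd]
  have h1 := hadd (a * d) (c * b) (mul_ne_zero ha hd) (mul_ne_zero hc hb) hsum
  rw [hmul a d ha hd, hmul c b hc hb] at h1
  omega

end ExtOrd



/-- Holomorphic functions on the upper half plane, as a subring of `ℍ → ℂ`. -/
def h25_Hol : Subring (ℍ → ℂ) where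
  carrier := {f | MDiff f}
  mul_mem' hf hg := hf.mul hg
  one_mem' := mdifferentiable_const
  add_mem' hf hg := hf.add hg
  zero_mem' := mdifferentiable_const
  neg_mem' hf := hf.neg

theorem h25_mem_Hol {f : ℍ → ℂ} : f ∈ h25_Hol ↔ MDiff f := Iff.rfl

instance h25_instIsDomainHol : IsDomain h25_Hol := by
  have : NoZeroDivisors h25_Hol := ⟨by
    intro a b h
    have h' : (a : ℍ → ℂ) * (b : ℍ → ℂ) = 0 := congrArg Subtype.val h
    rcases (UpperHalfPlane.mul_eq_zero_iff a.2 b.2).mp h' with h0 | h0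
    · exact Or.inl (Subtype.ext h0)
    · exact Or.inr (Subtype.ext h0)⟩
  exact NoZeroDivisors.to_isDomain _

/-- The field of meromorphic functions on `ℍ`. -/
abbrev h25_Mer : Type := FractionRing h25_Hol

/-! ## Orders of holomorphic functions -/

theorem h25_analyticAt (f : h25_Hol) (τ : ℍ) :
    AnalyticAt ℂ ((f : ℍ → ℂ) ∘ ofComplex) (τ : ℂ) :=
  (UpperHalfPlane.mdifferentiable_iff.mp f.2).analyticAt
    (isOpen_upperHalfPlaneSet.mem_nhds τ.im_pos)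

theorem h25_meromorphicAt (f : h25_Hol) (τ : ℍ) :
    MeromorphicAt ((f : ℍ → ℂ) ∘ ofComplex) (τ : ℂ) :=
  (h25_analyticAt f τ).meromorphicAt

theorem h25_order_ne_top {f : h25_Hol} (hf : f ≠ 0) (τ : ℍ) :
    meromorphicOrderAt ((f : ℍ → ℂ) ∘ ofComplex) (τ : ℂ) ≠ ⊤ := by
  intro htop
  apply hf
  have han := h25_analyticAt f τ
  rw [han.meromorphicOrderAt_eq] at htop
  have htop' : analyticOrderAt ((f : ℍ → ℂ) ∘ ofComplex) (τ : ℂ) = ⊤ := by
    cases h : analyticOrderAt ((f : ℍ → ℂ) ∘ ofComplex) (τ : ℂ) with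
    | top => rfl
    | coe n => rw [h] at htop; simp at htop
  rw [analyticOrderAt_eq_top] at htop'
  have hdiff := UpperHalfPlane.mdifferentiable_iff.mp f.2
  have hana : AnalyticOnNhd ℂ ((f : ℍ → ℂ) ∘ ofComplex) {z : ℂ | 0 < z.im} :=
    hdiff.analyticOnNhd isOpen_upperHalfPlaneSet
  have hpre : IsPreconnected {z : ℂ | 0 < z.im} :=
    (Complex.isConnected_of_upperHalfPlane subset_rfl (by grind)).isPreconnected
  have hzero := hana.eqOn_zero_of_preconnected_of_eventuallyEq_zero hpre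
    (z₀ := (τ : ℂ)) τ.im_pos htop'
  apply Subtype.ext
  funext w
  have := hzero w.im_pos
  simpa [ofComplex_apply] using this

/-- The order of vanishing at `τ` of a holomorphic function (`0` for the zero function). -/
noncomputable def h25_ordHol (τ : ℍ) (f : h25_Hol) : ℤ :=
  (meromorphicOrderAt ((f : ℍ → ℂ) ∘ ofComplex) (τ : ℂ)).untop₀

theorem h25_coe_ordHol {f : h25_Hol} (hf : f ≠ 0) (τ : ℍ) :
    ((h25_ordHol τ f : ℤ) : WithTop ℤ) = meromorphicOrderAt ((f : ℍ → ℂ) ∘ ofComplex) (τ : ℂ) :=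
  WithTop.coe_untop₀_of_ne_top (h25_order_ne_top hf τ)

theorem h25_ordHol_nonneg (τ : ℍ) (f : h25_Hol) : 0 ≤ h25_ordHol τ f := by
  by_cases hf : f = 0
  · subst hf
    simp [h25_ordHol]
  · have h := (h25_analyticAt f τ).meromorphicOrderAt_nonneg
    rw [← h25_coe_ordHol hf τ] at h
    exact_mod_cast h

theorem h25_ordHol_mul (τ : ℍ) (f g : h25_Hol) (hf : f ≠ 0) (hg : g ≠ 0) :
    h25_ordHol τ (f * g) = h25_ordHol τ f + h25_ordHol τ g := by
  have h := meromorphicOrderAt_mul (h25_meromorphicAt f τ) (h25_meromorphicAt g τ)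
  have hfg : (((f * g : h25_Hol) : ℍ → ℂ) ∘ ofComplex)
      = ((f : ℍ → ℂ) ∘ ofComplex) * ((g : ℍ → ℂ) ∘ ofComplex) := rfl
  unfold h25_ordHol
  rw [hfg, h, WithTop.untop₀_add (h25_order_ne_top hf τ) (h25_order_ne_top hg τ)]

theorem h25_ordHol_add (τ : ℍ) (f g : h25_Hol) (hf : f ≠ 0) (hg : g ≠ 0) (hfg : f + g ≠ 0) :
    min (h25_ordHol τ f) (h25_ordHol τ g) ≤ h25_ordHol τ (f + g) := by
  have h := meromorphicOrderAt_add (h25_meromorphicAt f τ) (h25_meromorphicAt g τ)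
  have hfg' : (((f + g : h25_Hol) : ℍ → ℂ) ∘ ofComplex)
      = ((f : ℍ → ℂ) ∘ ofComplex) + ((g : ℍ → ℂ) ∘ ofComplex) := rfl
  rw [← hfg', ← h25_coe_ordHol hf τ, ← h25_coe_ordHol hg τ, ← h25_coe_ordHol hfg τ] at h
  exact_mod_cast h

theorem h25_ordHol_eq_zero_of_ne (τ : ℍ) (f : h25_Hol) (hf : (f : ℍ → ℂ) τ ≠ 0) :
    h25_ordHol τ f = 0 := by
  have han := h25_analyticAt f τ
  have h0 : analyticOrderAt ((f : ℍ → ℂ) ∘ ofComplex) (τ : ℂ) = 0 := by
    rw [han.analyticOrderAt_eq_zero]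
    simpa [ofComplex_apply] using hf
  unfold h25_ordHol
  rw [han.meromorphicOrderAt_eq, h0]
  rfl

theorem h25_ordHol_pos_of_eq_zero (τ : ℍ) (f : h25_Hol) (hf0 : f ≠ 0) (hf : (f : ℍ → ℂ) τ = 0) :
    0 < h25_ordHol τ f := by
  have han := h25_analyticAt f τ
  have h0 : analyticOrderAt ((f : ℍ → ℂ) ∘ ofComplex) (τ : ℂ) ≠ 0 := by
    rw [han.analyticOrderAt_ne_zero]
    simpa [ofComplex_apply] using hf
  have h := h25_coe_ordHol hf0 τ
  rw [han.meromorphicOrderAt_eq] at h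
  rcases lt_or_eq_of_le (h25_ordHol_nonneg τ f) with hlt | heq
  · exact hlt
  · exfalso
    rw [← heq] at h
    apply h0
    cases hn : analyticOrderAt ((f : ℍ → ℂ) ∘ ofComplex) (τ : ℂ) with
    | top => rw [hn] at h; simp at h
    | coe n =>
      rw [hn] at h
      have : ((0 : ℤ) : WithTop ℤ) = ((n : ℤ) : WithTop ℤ) := by simpa using h
      have hn0 : (0 : ℤ) = (n : ℤ) := by exact_mod_cast this
      have : n = 0 := by omega
      subst this
      rfl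



/-! ## Orders on the field of meromorphic functions -/

/-- The order at `τ` of a meromorphic function on `ℍ` (`0` for the zero function). -/
noncomputable def h25_ord (τ : ℍ) (F : h25_Mer) : ℤ := h25_extOrd (h25_ordHol τ) F

@[simp]
theorem h25_ord_zero (τ : ℍ) : h25_ord τ 0 = 0 := h25_extOrd_zero _

theorem h25_ord_div (τ : ℍ) {a b : h25_Hol} (ha : a ≠ 0) (hb : b ≠ 0) :
    h25_ord τ (algebraMap h25_Hol h25_Mer a / algebraMap h25_Hol h25_Mer b)
      = h25_ordHol τ a - h25_ordHol τ b :=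
  h25_extOrd_div _ (h25_ordHol_mul τ) ha hb

theorem h25_ord_algebraMap (τ : ℍ) {a : h25_Hol} (ha : a ≠ 0) :
    h25_ord τ (algebraMap h25_Hol h25_Mer a) = h25_ordHol τ a :=
  h25_extOrd_algebraMap _ (h25_ordHol_mul τ) ha

theorem h25_ord_mul (τ : ℍ) {F G : h25_Mer} (hF : F ≠ 0) (hG : G ≠ 0) :
    h25_ord τ (F * G) = h25_ord τ F + h25_ord τ G :=
  h25_extOrd_mul _ (h25_ordHol_mul τ) hF hG

theorem h25_ord_inv (τ : ℍ) {F : h25_Mer} (hF : F ≠ 0) :
    h25_ord τ F⁻¹ = - h25_ord τ F :=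
  h25_extOrd_inv _ (h25_ordHol_mul τ) hF

theorem h25_ord_add (τ : ℍ) {F G : h25_Mer} (hF : F ≠ 0) (hG : G ≠ 0) (hFG : F + G ≠ 0) :
    min (h25_ord τ F) (h25_ord τ G) ≤ h25_ord τ (F + G) :=
  h25_extOrd_add _ (h25_ordHol_mul τ) (h25_ordHol_add τ) hF hG hFG

/-- The constant function as a holomorphic function. -/
def h25_const (c : ℂ) : h25_Hol := ⟨fun _ => c, mdifferentiable_const⟩

theorem h25_const_ne_zero {c : ℂ} (hc : c ≠ 0) : h25_const c ≠ 0 := by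
  intro h
  apply hc
  have := congrFun (congrArg Subtype.val h) UpperHalfPlane.I
  simpa [h25_const] using this

theorem h25_ord_const (τ : ℍ) {c : ℂ} (hc : c ≠ 0) :
    h25_ord τ (algebraMap h25_Hol h25_Mer (h25_const c)) = 0 := by
  rw [h25_ord_algebraMap τ (h25_const_ne_zero hc)]
  exact h25_ordHol_eq_zero_of_ne τ _ (by simpa [h25_const] using hc)



/-! ## The action of `SL(2, ℤ)` -/

theorem h25_det_pos (γ : SL(2, ℤ)) :
    0 < ((γ : GL (Fin 2) ℝ) : Matrix (Fin 2) (Fin 2) ℝ).det := by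
  have h : ((γ : GL (Fin 2) ℝ) : Matrix (Fin 2) (Fin 2) ℝ).det = 1 := by
    have := (Matrix.SpecialLinearGroup.map (Int.castRingHom ℝ) γ).det_coe
    simpa using this
  rw [h]; exact one_pos


theorem h25_mdiff_comp_smul {f : ℍ → ℂ} (hf : MDiff f) (γ : SL(2, ℤ)) :
    MDiff (fun τ : ℍ => f (γ • τ)) := by
  have h : MDiff (fun τ : ℍ => ((γ : GL (Fin 2) ℝ)) • τ) :=
    UpperHalfPlane.mdifferentiable_smul (by simp)
  exact hf.comp h

/-- `SL(2, ℤ)` acts on holomorphic functions by `(γ • f) τ = f (γ⁻¹ • τ)`. -/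
noncomputable instance h25_instSMulHol : SMul SL(2, ℤ) h25_Hol where
  smul γ f := ⟨fun τ => (f : ℍ → ℂ) (γ⁻¹ • τ), h25_mdiff_comp_smul f.2 γ⁻¹⟩

theorem h25_smul_Hol_apply (γ : SL(2, ℤ)) (f : h25_Hol) (τ : ℍ) :
    ((γ • f : h25_Hol) : ℍ → ℂ) τ = (f : ℍ → ℂ) (γ⁻¹ • τ) := rfl

noncomputable instance h25_instMulSemiringActionHol : MulSemiringAction SL(2, ℤ) h25_Hol where
  one_smul f := by
    apply Subtype.ext
    funext τ
    simp [h25_smul_Hol_apply]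
  mul_smul γ₁ γ₂ f := by
    apply Subtype.ext
    funext τ
    simp [h25_smul_Hol_apply, mul_smul]
  smul_zero γ := rfl
  smul_add γ f g := rfl
  smul_one γ := rfl
  smul_mul γ f g := rfl

noncomputable instance h25_instMulSemiringActionMer : MulSemiringAction SL(2, ℤ) h25_Mer :=
  IsFractionRing.mulSemiringAction SL(2, ℤ) h25_Hol h25_Mer

instance h25_instSMulDistribClass : SMulDistribClass SL(2, ℤ) h25_Hol h25_Mer :=
  IsFractionRing.smulDistribClass SL(2, ℤ) h25_Hol h25_Mer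

theorem h25_smul_algebraMap (γ : SL(2, ℤ)) (f : h25_Hol) :
    γ • algebraMap h25_Hol h25_Mer f = algebraMap h25_Hol h25_Mer (γ • f) :=
  (algebraMap.coe_smul' γ f h25_Mer).symm

theorem h25_smul_ne_zero (γ : SL(2, ℤ)) {f : h25_Hol} (hf : f ≠ 0) : γ • f ≠ 0 := by
  intro h
  apply hf
  have := congrArg (fun x => γ⁻¹ • x) h
  simpa using this

theorem h25_ordHol_smul (γ : SL(2, ℤ)) (τ : ℍ) (f : h25_Hol) :
    h25_ordHol τ (γ • f) = h25_ordHol (γ⁻¹ • τ) f := by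
  unfold h25_ordHol
  have h := UpperHalfPlane.meromorphicOrderAt_comp_smul (f := (f : ℍ → ℂ)) (τ := τ)
    (g := ((γ⁻¹ : SL(2, ℤ)) : GL (Fin 2) ℝ)) (h25_det_pos _)
  have h1 : ((γ • f : h25_Hol) : ℍ → ℂ) ∘ ofComplex
      = fun z => (f : ℍ → ℂ) (((γ⁻¹ : SL(2, ℤ)) : GL (Fin 2) ℝ) • ofComplex z) := rfl
  rw [h1, h]
  rfl

theorem h25_ord_smul (γ : SL(2, ℤ)) (τ : ℍ) (F : h25_Mer) :
    h25_ord τ (γ • F) = h25_ord (γ⁻¹ • τ) F := by
  by_cases hF : F = 0
  · subst hF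
    simp [h25_ord]
  obtain ⟨a, b, ha, hb, rfl⟩ := h25_exists_eq_div (A := h25_Hol) F hF
  rw [smul_div₀', h25_smul_algebraMap, h25_smul_algebraMap,
    h25_ord_div τ (h25_smul_ne_zero γ ha) (h25_smul_ne_zero γ hb), h25_ord_div _ ha hb,
    h25_ordHol_smul, h25_ordHol_smul]




theorem h25_ordHol_eq_of_analyticOrderAt {τ : ℍ} {f : h25_Hol} {n : ℕ}
    (h : analyticOrderAt ((f : ℍ → ℂ) ∘ ofComplex) (τ : ℂ) = n) : h25_ordHol τ f = n := by
  unfold h25_ordHol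
  rw [(h25_analyticAt f τ).meromorphicOrderAt_eq, h]
  rfl

/-! ## Orders at elliptic fixed points -/

/-- the Möbius map of `γ` in the coordinate of `ℂ` -/
noncomputable def h25_moeb (γ : SL(2, ℤ)) (z : ℂ) : ℂ := ((γ • ofComplex z : ℍ) : ℂ)

theorem h25_moeb_coe (γ : SL(2, ℤ)) (τ : ℍ) : h25_moeb γ (τ : ℂ) = ((γ • τ : ℍ) : ℂ) := by
  simp [h25_moeb, ofComplex_apply]

theorem h25_analyticAt_moeb (γ : SL(2, ℤ)) (τ : ℍ) : AnalyticAt ℂ (h25_moeb γ) (τ : ℂ) :=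
  UpperHalfPlane.analyticAt_smul (g := (γ : GL (Fin 2) ℝ)) (h25_det_pos γ) τ

theorem h25_moeb_sub_eventuallyEq (γ : SL(2, ℤ)) (τ : ℍ) :
    (fun z : ℂ => h25_moeb γ z - h25_moeb γ (τ : ℂ)) =ᶠ[𝓝[≠] (τ : ℂ)]
      fun z : ℂ => (z - (τ : ℂ)) ^ (1 : ℤ) •
        ((((γ 1 0 : ℤ) : ℂ) * z + ((γ 1 1 : ℤ) : ℂ))⁻¹ *
          (((γ 1 0 : ℤ) : ℂ) * τ + ((γ 1 1 : ℤ) : ℂ))⁻¹) := by
  have hopen : {z : ℂ | 0 < z.im} ∈ 𝓝 (τ : ℂ) := isOpen_upperHalfPlaneSet.mem_nhds τ.im_pos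
  filter_upwards [nhdsWithin_le_nhds hopen] with z hz
  have hz' : 0 < z.im := hz
  have e1 : h25_moeb γ z = (((γ 0 0 : ℤ) : ℂ) * z + ((γ 0 1 : ℤ) : ℂ)) /
      (((γ 1 0 : ℤ) : ℂ) * z + ((γ 1 1 : ℤ) : ℂ)) := by
    unfold h25_moeb
    rw [ofComplex_apply_of_im_pos hz', UpperHalfPlane.coe_specialLinearGroup_apply]
    simp
  have e2 : h25_moeb γ (τ : ℂ) = (((γ 0 0 : ℤ) : ℂ) * τ + ((γ 0 1 : ℤ) : ℂ)) /
      (((γ 1 0 : ℤ) : ℂ) * τ + ((γ 1 1 : ℤ) : ℂ)) := by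
    rw [h25_moeb_coe, UpperHalfPlane.coe_specialLinearGroup_apply]
    simp
  have hd1 : (((γ 1 0 : ℤ) : ℂ) * z + ((γ 1 1 : ℤ) : ℂ)) ≠ 0 := by
    have := UpperHalfPlane.denom_ne_zero (γ : GL (Fin 2) ℝ) (⟨z, hz'⟩ : ℍ)
    simpa [UpperHalfPlane.denom] using this
  have hd2 : (((γ 1 0 : ℤ) : ℂ) * τ + ((γ 1 1 : ℤ) : ℂ)) ≠ 0 := by
    have := UpperHalfPlane.denom_ne_zero (γ : GL (Fin 2) ℝ) τ
    simpa [UpperHalfPlane.denom] using this
  have hdet : ((γ 0 0 : ℤ) : ℂ) * ((γ 1 1 : ℤ) : ℂ) - ((γ 0 1 : ℤ) : ℂ) * ((γ 1 0 : ℤ) : ℂ) = 1 := by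
    have h := γ.det_coe
    rw [Matrix.det_fin_two] at h
    exact_mod_cast h
  rw [e1, e2, zpow_one, smul_eq_mul, div_sub_div _ _ hd1 hd2, div_eq_iff (mul_ne_zero hd1 hd2)]
  have h3 : ∀ A B : ℂ, A ≠ 0 → B ≠ 0 → (z - (τ : ℂ)) * (A⁻¹ * B⁻¹) * (A * B) = z - τ := by
    intro A B hA hB
    field_simp
  rw [h3 _ _ hd1 hd2]
  linear_combination ((z : ℂ) - τ) * hdet


theorem h25_denom_ne_zero (γ : SL(2, ℤ)) (τ : ℍ) :
    (((γ 1 0 : ℤ) : ℂ) * τ + ((γ 1 1 : ℤ) : ℂ)) ≠ 0 := by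
  have := UpperHalfPlane.denom_ne_zero (γ : GL (Fin 2) ℝ) τ
  simpa [UpperHalfPlane.denom] using this

theorem h25_trailingCoeff_moeb (γ : SL(2, ℤ)) (τ : ℍ) :
    meromorphicTrailingCoeffAt (fun z : ℂ => h25_moeb γ z - h25_moeb γ (τ : ℂ)) (τ : ℂ)
      = ((((γ 1 0 : ℤ) : ℂ) * τ + ((γ 1 1 : ℤ) : ℂ)) ^ 2)⁻¹ := by
  have hd2 := h25_denom_ne_zero γ τ
  have hg : AnalyticAt ℂ (fun z : ℂ => (((γ 1 0 : ℤ) : ℂ) * z + ((γ 1 1 : ℤ) : ℂ))⁻¹ *
      (((γ 1 0 : ℤ) : ℂ) * τ + ((γ 1 1 : ℤ) : ℂ))⁻¹) (τ : ℂ) :=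
    (((analyticAt_const.mul analyticAt_id).add analyticAt_const).inv hd2).mul analyticAt_const
  have hg0 : (fun z : ℂ => (((γ 1 0 : ℤ) : ℂ) * z + ((γ 1 1 : ℤ) : ℂ))⁻¹ *
      (((γ 1 0 : ℤ) : ℂ) * τ + ((γ 1 1 : ℤ) : ℂ))⁻¹) (τ : ℂ) ≠ 0 :=
    mul_ne_zero (inv_ne_zero hd2) (inv_ne_zero hd2)
  rw [AnalyticAt.meromorphicTrailingCoeffAt_of_ne_zero_of_eq_nhdsNE (n := 1) hg hg0
    (h25_moeb_sub_eventuallyEq γ τ)]
  rw [sq, mul_inv]

theorem h25_trailingCoeff_smul {γ : SL(2, ℤ)} {τ : ℍ} (hγ : γ • τ = τ) (f : h25_Hol) :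
    meromorphicTrailingCoeffAt (((γ⁻¹ • f : h25_Hol) : ℍ → ℂ) ∘ ofComplex) (τ : ℂ)
      = (((((γ 1 0 : ℤ) : ℂ) * τ + ((γ 1 1 : ℤ) : ℂ)) ^ 2)⁻¹) ^ (h25_ordHol τ f) *
        meromorphicTrailingCoeffAt ((f : ℍ → ℂ) ∘ ofComplex) (τ : ℂ) := by
  have hfun : (((γ⁻¹ • f : h25_Hol) : ℍ → ℂ) ∘ ofComplex)
      = ((f : ℍ → ℂ) ∘ ofComplex) ∘ (h25_moeb γ) := by
    funext z
    simp [h25_smul_Hol_apply, h25_moeb, ofComplex_apply]
  have hfix : h25_moeb γ (τ : ℂ) = (τ : ℂ) := by rw [h25_moeb_coe, hγ]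
  have han := h25_analyticAt_moeb γ τ
  have hderiv : deriv (h25_moeb γ) (τ : ℂ) ≠ 0 :=
    UpperHalfPlane.deriv_smul_ne_zero (g := (γ : GL (Fin 2) ℝ)) (h25_det_pos γ) τ
  have hnc : ¬ Filter.EventuallyConst (h25_moeb γ) (𝓝 (τ : ℂ)) := by
    rw [eventuallyConst_iff_analyticOrderAt_sub_eq_top,
      han.analyticOrderAt_sub_eq_one_of_deriv_ne_zero hderiv]
    simp
  have hmer : MeromorphicAt ((f : ℍ → ℂ) ∘ ofComplex) (h25_moeb γ (τ : ℂ)) := by
    rw [hfix]; exact h25_meromorphicAt f τ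
  rw [hfun, MeromorphicAt.meromorphicTrailingCoeffAt_comp hmer han hnc, h25_trailingCoeff_moeb,
    hfix, smul_eq_mul]
  rfl


theorem h25_trailingCoeff_ne_zero {f : h25_Hol} (hf : f ≠ 0) (τ : ℍ) :
    meromorphicTrailingCoeffAt ((f : ℍ → ℂ) ∘ ofComplex) (τ : ℂ) ≠ 0 :=
  (h25_meromorphicAt f τ).meromorphicTrailingCoeffAt_ne_zero (h25_order_ne_top hf τ)

/-- **Elliptic points.** If `γ` fixes `τ` and the meromorphic function `F ≠ 0` is `γ`-invariant,
then `((c τ + d)^2) ^ ord_τ F = 1`, where `(c, d)` is the bottom row of `γ`. -/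
theorem h25_zpow_ord_eq_one {γ : SL(2, ℤ)} {τ : ℍ} (hγ : γ • τ = τ) {F : h25_Mer} (hF0 : F ≠ 0)
    (hF : γ • F = F) :
    ((((γ 1 0 : ℤ) : ℂ) * τ + ((γ 1 1 : ℤ) : ℂ)) ^ 2) ^ (h25_ord τ F) = 1 := by
  obtain ⟨a, b, ha, hb, rfl⟩ := h25_exists_eq_div (A := h25_Hol) F hF0
  have hF' : γ⁻¹ • (algebraMap h25_Hol h25_Mer a / algebraMap h25_Hol h25_Mer b)
      = algebraMap h25_Hol h25_Mer a / algebraMap h25_Hol h25_Mer b := by
    conv_lhs => rw [← hF]
    rw [inv_smul_smul]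
  rw [smul_div₀', h25_smul_algebraMap, h25_smul_algebraMap] at hF'
  have hinj : Function.Injective (algebraMap h25_Hol h25_Mer) :=
    IsFractionRing.injective h25_Hol h25_Mer
  have hb' : algebraMap h25_Hol h25_Mer b ≠ 0 := by rwa [Ne, map_eq_zero_iff _ hinj]
  have hγb : γ⁻¹ • b ≠ 0 := h25_smul_ne_zero γ⁻¹ hb
  have hγb' : algebraMap h25_Hol h25_Mer (γ⁻¹ • b) ≠ 0 := by rwa [Ne, map_eq_zero_iff _ hinj]
  have hkey : (γ⁻¹ • a) * b = a * (γ⁻¹ • b) := by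
    apply hinj
    rw [map_mul, map_mul]
    field_simp at hF'
    linear_combination hF'
  have hfun : (((γ⁻¹ • a : h25_Hol) : ℍ → ℂ) ∘ ofComplex) * ((b : ℍ → ℂ) ∘ ofComplex)
      = ((a : ℍ → ℂ) ∘ ofComplex) * (((γ⁻¹ • b : h25_Hol) : ℍ → ℂ) ∘ ofComplex) := by
    have := congrArg (fun x : h25_Hol => (x : ℍ → ℂ) ∘ ofComplex) hkey
    exact this
  have htc : meromorphicTrailingCoeffAt
      ((((γ⁻¹ • a : h25_Hol) : ℍ → ℂ) ∘ ofComplex) * ((b : ℍ → ℂ) ∘ ofComplex)) (τ : ℂ)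
      = meromorphicTrailingCoeffAt
      (((a : ℍ → ℂ) ∘ ofComplex) * (((γ⁻¹ • b : h25_Hol) : ℍ → ℂ) ∘ ofComplex)) (τ : ℂ) := by
    rw [hfun]
  rw [MeromorphicAt.meromorphicTrailingCoeffAt_mul (h25_meromorphicAt _ τ) (h25_meromorphicAt _ τ),
    MeromorphicAt.meromorphicTrailingCoeffAt_mul (h25_meromorphicAt _ τ) (h25_meromorphicAt _ τ),
    h25_trailingCoeff_smul hγ a, h25_trailingCoeff_smul hγ b] at htc
  have hta := h25_trailingCoeff_ne_zero ha τ
  have htb := h25_trailingCoeff_ne_zero hb τ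
  set L : ℂ := ((((γ 1 0 : ℤ) : ℂ) * τ + ((γ 1 1 : ℤ) : ℂ)) ^ 2) with hL
  have hL0 : L ≠ 0 := pow_ne_zero 2 (h25_denom_ne_zero γ τ)
  have h1 : L⁻¹ ^ (h25_ordHol τ a) = L⁻¹ ^ (h25_ordHol τ b) := by
    have h2 : L⁻¹ ^ (h25_ordHol τ a) * (meromorphicTrailingCoeffAt ((a : ℍ → ℂ) ∘ ofComplex) (τ : ℂ) *
        meromorphicTrailingCoeffAt ((b : ℍ → ℂ) ∘ ofComplex) (τ : ℂ))
        = L⁻¹ ^ (h25_ordHol τ b) * (meromorphicTrailingCoeffAt ((a : ℍ → ℂ) ∘ ofComplex) (τ : ℂ) *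
        meromorphicTrailingCoeffAt ((b : ℍ → ℂ) ∘ ofComplex) (τ : ℂ)) := by
      linear_combination htc
    exact mul_right_cancel₀ (mul_ne_zero hta htb) h2
  rw [h25_ord_div τ ha hb, zpow_sub₀ hL0]
  rw [inv_zpow, inv_zpow, inv_inj] at h1
  rw [h1, div_self (zpow_ne_zero _ hL0)]



theorem h25_sq_eq_neg_one_of_S_fixed {τ : ℍ} (hτ : ModularGroup.S • τ = τ) :
    (τ : ℂ) ^ 2 = -1 := by
  have h := congrArg (fun w : ℍ => (w : ℂ)) hτ
  simp only [UpperHalfPlane.modular_S_smul] at h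
  have h' : (-(τ : ℂ))⁻¹ = τ := h
  have hτ0 : (τ : ℂ) ≠ 0 := UpperHalfPlane.ne_zero τ
  field_simp at h'
  linear_combination -h'

theorem h25_quad_of_ST_fixed {τ : ℍ} (hτ : (ModularGroup.S * ModularGroup.T) • τ = τ) :
    (τ : ℂ) ^ 2 + τ + 1 = 0 := by
  have h := congrArg (fun w : ℍ => (w : ℂ)) hτ
  simp only [mul_smul, UpperHalfPlane.modular_T_smul, UpperHalfPlane.modular_S_smul] at h
  have h' : (-(((1 : ℝ) +ᵥ τ : ℍ) : ℂ))⁻¹ = τ := h
  rw [UpperHalfPlane.coe_vadd] at h'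
  have hne : ((1 : ℝ) : ℂ) + (τ : ℂ) ≠ 0 := by
    have := UpperHalfPlane.ne_zero ((1 : ℝ) +ᵥ τ)
    rwa [UpperHalfPlane.coe_vadd] at this
  push_cast at h' hne
  field_simp at h'
  linear_combination -h'




/-- An `S`-invariant meromorphic function has even order at a fixed point of `S` (i.e. at `i`). -/
theorem h25_two_dvd_ord_of_S {τ : ℍ} (hτ : ModularGroup.S • τ = τ) {F : h25_Mer} (hF0 : F ≠ 0)
    (hF : ModularGroup.S • F = F) : (2 : ℤ) ∣ h25_ord τ F := by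
  have h := h25_zpow_ord_eq_one hτ hF0 hF
  have hc : ((ModularGroup.S 1 0 : ℤ) : ℂ) = 1 := by simp [ModularGroup.S]
  have hd : ((ModularGroup.S 1 1 : ℤ) : ℂ) = 0 := by simp [ModularGroup.S]
  rw [hc, hd, one_mul, add_zero, h25_sq_eq_neg_one_of_S_fixed hτ] at h
  rcases Int.even_or_odd (h25_ord τ F) with he | ho
  · exact even_iff_two_dvd.mp he
  · exfalso
    rw [ho.neg_one_zpow] at h
    norm_num at h

/-- An `S*T`-invariant meromorphic function has order divisible by `3` at a fixed point of `S*T`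
(i.e. at `ρ`). -/
theorem h25_three_dvd_ord_of_ST {τ : ℍ} (hτ : (ModularGroup.S * ModularGroup.T) • τ = τ)
    {F : h25_Mer} (hF0 : F ≠ 0) (hF : (ModularGroup.S * ModularGroup.T) • F = F) :
    (3 : ℤ) ∣ h25_ord τ F := by
  have h := h25_zpow_ord_eq_one hτ hF0 hF
  have hc0 : ((ModularGroup.S * ModularGroup.T : SL(2, ℤ)) 1 0 : ℤ) = 1 := by
    rw [Matrix.SpecialLinearGroup.coe_mul]
    simp [ModularGroup.S, ModularGroup.T, Matrix.mul_apply, Fin.sum_univ_two]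
  have hd0 : ((ModularGroup.S * ModularGroup.T : SL(2, ℤ)) 1 1 : ℤ) = 1 := by
    rw [Matrix.SpecialLinearGroup.coe_mul]
    simp [ModularGroup.S, ModularGroup.T, Matrix.mul_apply, Fin.sum_univ_two]
  have hc : (((ModularGroup.S * ModularGroup.T) 1 0 : ℤ) : ℂ) = 1 := by rw [hc0]; simp
  have hd : (((ModularGroup.S * ModularGroup.T) 1 1 : ℤ) : ℂ) = 1 := by rw [hd0]; simp
  have hq := h25_quad_of_ST_fixed hτ
  have hL : ((1 : ℂ) * τ + 1) ^ 2 = τ := by linear_combination hq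
  rw [hc, hd, hL] at h
  have h3 : (τ : ℂ) ^ 3 = 1 := by linear_combination ((τ : ℂ) - 1) * hq
  have h1 : (τ : ℂ) ≠ 1 := by
    intro h1
    have hpos := τ.im_pos
    have him : (τ : ℂ).im = 0 := by rw [h1]; simp
    rw [UpperHalfPlane.coe_im] at him
    linarith
  have hτ0 : (τ : ℂ) ≠ 0 := UpperHalfPlane.ne_zero τ
  set u : ℂˣ := Units.mk0 (τ : ℂ) hτ0 with hu
  have hu3 : u ^ 3 = 1 := by
    apply Units.ext
    rw [Units.val_pow_eq_pow_val]
    exact h3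
  have hu1 : u ≠ 1 := by
    intro hu1
    apply h1
    have := congrArg Units.val hu1
    simpa [hu] using this
  have hord : orderOf u = 3 := orderOf_eq_prime hu3 hu1
  have hum : u ^ (h25_ord τ F) = 1 := by
    apply Units.ext
    rw [Units.val_zpow_eq_zpow_val]
    exact h
  have := (orderOf_dvd_iff_zpow_eq_one (x := u) (i := h25_ord τ F)).mpr hum
  rw [hord] at this
  exact_mod_cast this




/-! ## Embeddings of a fraction field into `h25_Mer` and their conjugates -/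

section Family

variable {A : Type*} [CommRing A] [IsDomain A] {F : Type*} [Field F] [Algebra A F]
  [IsFractionRing A F] (ev : A →+* h25_Hol) (hev : Function.Injective ev)

/-- The embedding `F = Frac A → Mer` induced by an injective ring hom `A → Hol`. -/
noncomputable def h25_lift : F →+* h25_Mer :=
  IsFractionRing.lift (g := (algebraMap h25_Hol h25_Mer).comp ev)
    ((IsFractionRing.injective h25_Hol h25_Mer).comp hev)

theorem h25_lift_algebraMap (a : A) :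
    h25_lift ev hev (algebraMap A F a) = algebraMap h25_Hol h25_Mer (ev a) :=
  IsFractionRing.lift_algebraMap _ a

/-- The `g`-conjugate embedding `f ↦ g • (lift f)`, i.e. `τ ↦ f (g⁻¹ τ)`. -/
noncomputable def h25_sigma (g : SL(2, ℤ)) : F →+* h25_Mer :=
  (MulSemiringAction.toRingHom SL(2, ℤ) h25_Mer g).comp (h25_lift ev hev)

theorem h25_sigma_apply (g : SL(2, ℤ)) (f : F) :
    h25_sigma ev hev g f = g • h25_lift ev hev f := rfl

theorem h25_sigma_algebraMap (g : SL(2, ℤ)) (a : A) :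
    h25_sigma ev hev g (algebraMap A F a) = algebraMap h25_Hol h25_Mer (g • ev a) := by
  rw [h25_sigma_apply, h25_lift_algebraMap, h25_smul_algebraMap]

theorem h25_sigma_mul (g h : SL(2, ℤ)) (f : F) :
    h25_sigma ev hev (g * h) f = g • h25_sigma ev hev h f := by
  rw [h25_sigma_apply, h25_sigma_apply, mul_smul]

theorem h25_sigma_ne_zero (g : SL(2, ℤ)) {f : F} (hf : f ≠ 0) : h25_sigma ev hev g f ≠ 0 :=
  (map_ne_zero _).mpr hf

/-- If all `ev a` are invariant under `h`, so is the whole image of `F`. -/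
theorem h25_lift_invariant {h : SL(2, ℤ)} (hh : ∀ a : A, h • ev a = ev a) (f : F) :
    h • h25_lift ev hev f = h25_lift ev hev f := by
  obtain ⟨a, b, hb, rfl⟩ := IsFractionRing.div_surjective A f
  rw [map_div₀, smul_div₀', h25_lift_algebraMap, h25_lift_algebraMap, h25_smul_algebraMap,
    h25_smul_algebraMap, hh a, hh b]

theorem h25_sigma_mul_of_invariant (g : SL(2, ℤ)) {h : SL(2, ℤ)} (hh : ∀ a : A, h • ev a = ev a) :
    h25_sigma (F := F) ev hev (g * h) = h25_sigma ev hev g := by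
  ext f
  rw [h25_sigma_apply, h25_sigma_apply, mul_smul, h25_lift_invariant ev hev hh f]

/-- Separation: if `σ g = σ g'` then `g⁻¹ g'` fixes every `ev a`. -/
theorem h25_invariant_of_sigma_eq {g g' : SL(2, ℤ)}
    (h : h25_sigma (F := F) ev hev g = h25_sigma ev hev g')
    (a : A) : (g⁻¹ * g') • ev a = ev a := by
  have h1 := congrArg (fun φ : F →+* h25_Mer => φ (algebraMap A F a)) h
  simp only [h25_sigma_algebraMap] at h1
  have h2 : g • ev a = g' • ev a := IsFractionRing.injective h25_Hol h25_Mer h1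
  rw [mul_smul, ← h2, inv_smul_smul]

/-- The order function at `τ₀` of the `g`-conjugate. -/
noncomputable def h25_w (τ₀ : ℍ) (g : SL(2, ℤ)) (f : F) : ℤ := h25_ord τ₀ (h25_sigma ev hev g f)

theorem h25_w_mul (τ₀ : ℍ) (g : SL(2, ℤ)) {f₁ f₂ : F} (h₁ : f₁ ≠ 0) (h₂ : f₂ ≠ 0) :
    h25_w ev hev τ₀ g (f₁ * f₂) = h25_w ev hev τ₀ g f₁ + h25_w ev hev τ₀ g f₂ := by
  unfold h25_w
  rw [map_mul, h25_ord_mul τ₀ (h25_sigma_ne_zero ev hev g h₁) (h25_sigma_ne_zero ev hev g h₂)]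

theorem h25_w_add (τ₀ : ℍ) (g : SL(2, ℤ)) {f₁ f₂ : F} (h₁ : f₁ ≠ 0) (h₂ : f₂ ≠ 0)
    (h₁₂ : f₁ + f₂ ≠ 0) :
    min (h25_w ev hev τ₀ g f₁) (h25_w ev hev τ₀ g f₂) ≤ h25_w ev hev τ₀ g (f₁ + f₂) := by
  unfold h25_w
  have := h25_ord_add τ₀ (h25_sigma_ne_zero ev hev g h₁) (h25_sigma_ne_zero ev hev g h₂)
    (by rw [← map_add]; exact h25_sigma_ne_zero ev hev g h₁₂)
  rwa [← map_add] at this

theorem h25_w_algebraMap (τ₀ : ℍ) (g : SL(2, ℤ)) {a : A} (ha : a ≠ 0) :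
    h25_w ev hev τ₀ g (algebraMap A F a) = h25_ordHol (g⁻¹ • τ₀) (ev a) := by
  unfold h25_w
  have hne : g • ev a ≠ 0 := h25_smul_ne_zero g (by rwa [Ne, map_eq_zero_iff _ hev])
  rw [h25_sigma_algebraMap, h25_ord_algebraMap τ₀ hne, h25_ordHol_smul]

/-- (G): moving the coset by an element fixing `τ₀` does not change the order function. -/
theorem h25_w_mul_left_of_fixed {τ₀ : ℍ} {s : SL(2, ℤ)} (hs : s • τ₀ = τ₀) (g : SL(2, ℤ)) (f : F) :
    h25_w ev hev τ₀ (s * g) f = h25_w ev hev τ₀ g f := by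
  unfold h25_w
  rw [h25_sigma_mul, h25_ord_smul]
  have : s⁻¹ • τ₀ = τ₀ := by
    conv_lhs => rw [← hs]
    rw [inv_smul_smul]
  rw [this]

/-- The conjugate by `g` is invariant under `s` as soon as `g⁻¹ s g` fixes every `ev a`. -/
theorem h25_sigma_invariant {s g : SL(2, ℤ)} (hsg : ∀ a : A, (g⁻¹ * s * g) • ev a = ev a) (f : F) :
    s • h25_sigma ev hev g f = h25_sigma ev hev g f := by
  have h1 : s * g = g * (g⁻¹ * s * g) := by group
  rw [← h25_sigma_mul, h1, h25_sigma_mul_of_invariant (F := F) ev hev g hsg]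

/-- (M) at a fixed point of `S`: orders of `S`-stable conjugates are even. -/
theorem h25_two_dvd_w {τ₀ : ℍ} (hτ : ModularGroup.S • τ₀ = τ₀) {g : SL(2, ℤ)}
    (hsg : ∀ a : A, (g⁻¹ * ModularGroup.S * g) • ev a = ev a) {f : F} (hf : f ≠ 0) :
    (2 : ℤ) ∣ h25_w ev hev τ₀ g f :=
  h25_two_dvd_ord_of_S hτ (h25_sigma_ne_zero ev hev g hf) (h25_sigma_invariant ev hev hsg f)

/-- (M) at a fixed point of `S * T`: orders of `S*T`-stable conjugates are divisible by `3`. -/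
theorem h25_three_dvd_w {τ₀ : ℍ} (hτ : (ModularGroup.S * ModularGroup.T) • τ₀ = τ₀)
    {g : SL(2, ℤ)}
    (hsg : ∀ a : A, (g⁻¹ * (ModularGroup.S * ModularGroup.T) * g) • ev a = ev a) {f : F}
    (hf : f ≠ 0) : (3 : ℤ) ∣ h25_w ev hev τ₀ g f :=
  h25_three_dvd_ord_of_ST hτ (h25_sigma_ne_zero ev hev g hf) (h25_sigma_invariant ev hev hsg f)

end Family


end Fermat.Agent.S24
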