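import Mathlib

set_option autoImplicit false

namespace Fermat.Agent.S24

open UpperHalfPlane ModularForm ModularFormClass EisensteinSeries
open scoped MatrixGroups

/-- Division by a power series of order one with leading coefficient one preserves
a subring of coefficients. -/
theorem h59_coeff_mem_of_mul (A : Subring ℂ) (a d b : PowerSeries ℂ) (hab : a = d * b)
    (ha : ∀ n, a.coeff n ∈ A) (hd : ∀ n, d.coeff n ∈ A) (hd0 : d.coeff 0 = 0)
    (hd1 : d.coeff 1 = 1) : ∀ n, b.coeff n ∈ A := by
  intro n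
  induction n using Nat.strong_induction_on with
  | _ n ih =>
    have h := congrArg (PowerSeries.coeff (n + 1)) hab
    rw [PowerSeries.coeff_mul, Finset.Nat.sum_antidiagonal_succ] at h
    simp only [hd0, zero_mul, zero_add] at h
    have hmem : ((0 : ℕ), n) ∈ Finset.HasAntidiagonal.antidiagonal n := by simp
    rw [← Finset.add_sum_erase _ _ hmem] at h
    simp only [zero_add, hd1, one_mul] at h
    have hrest : ∑ x ∈ (Finset.HasAntidiagonal.antidiagonal n).erase (0, n),
        (PowerSeries.coeff (x.1 + 1)) d * (PowerSeries.coeff x.2) b ∈ A := by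
      refine Subring.sum_mem A fun x hx => A.mul_mem (hd _) (ih _ ?_)
      rw [Finset.mem_erase, Finset.HasAntidiagonal.mem_antidiagonal] at hx
      obtain ⟨hne, hsum⟩ := hx
      rcases Nat.eq_zero_or_pos x.1 with h0 | h0
      · exfalso; apply hne; ext
        · simp [h0]
        · simp; omega
      · omega
    have : (PowerSeries.coeff n) b = (PowerSeries.coeff (n + 1)) a -
        ∑ x ∈ (Finset.HasAntidiagonal.antidiagonal n).erase (0, n),
          (PowerSeries.coeff (x.1 + 1)) d * (PowerSeries.coeff x.2) b := by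
      rw [h]; ring
    rw [this]
    exact A.sub_mem (ha _) hrest

theorem h59_mul_coeff_mem (A : Subring ℂ) (p q : PowerSeries ℂ) (hp : ∀ n, p.coeff n ∈ A)
    (hq : ∀ n, q.coeff n ∈ A) (n : ℕ) : (p * q).coeff n ∈ A := by
  rw [PowerSeries.coeff_mul]
  exact Subring.sum_mem A fun x _ => A.mul_mem (hp _) (hq _)

theorem h59_pow_coeff_mem (A : Subring ℂ) (p : PowerSeries ℂ) (hp : ∀ n, p.coeff n ∈ A)
    (j : ℕ) : ∀ n, (p ^ j).coeff n ∈ A := by
  induction j with
  | zero =>
    intro n
    rw [pow_zero, PowerSeries.coeff_one]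
    split_ifs
    · exact A.one_mem
    · exact A.zero_mem
  | succ j ih =>
    intro n
    rw [pow_succ]
    exact h59_mul_coeff_mem A _ _ ih hp n

/-- The `q`-expansion coefficients of the normalised Eisenstein series lie in every subfield. -/
theorem h59_E_coeff_mem (A : Subfield ℂ) {k : ℕ} (hk : 3 ≤ k) (hk2 : Even k) (n : ℕ) :
    (qExpansion 1 (E hk)).coeff n ∈ A := by
  rw [E_qExpansion_coeff hk hk2]
  split_ifs
  · exact A.one_mem
  · refine A.mul_mem (A.neg_mem (A.div_mem (A.mul_mem ?_ (natCast_mem A k)) ?_)) (natCast_mem A _)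
    · exact ofNat_mem A 2
    · exact SubfieldClass.ratCast_mem A _

/-- `1728 Δ = E₄³ - E₆²` on the level of `q`-expansions. -/
theorem h59_qExpansion_discriminant :
    (1728 : ℂ) • qExpansion 1 (⇑CuspForm.discriminant) =
      qExpansion 1 E₄ ^ 3 - qExpansion 1 E₆ ^ 2 := by
  let G : ModularForm 𝒮ℒ 12 :=
    ModularForm.mcast (by decide) (E₄.pow 3) - ModularForm.mcast (by decide) (E₆.pow 2)
  have hG : qExpansion 1 G = qExpansion 1 E₄ ^ 3 - qExpansion 1 E₆ ^ 2 := by
    simp only [G, FunLike.coe_sub, coe_mcast,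
      ModularForm.qExpansion_sub one_pos one_mem_strictPeriods_SL,
      ModularForm.qExpansion_pow one_pos one_mem_strictPeriods_SL]
  have hfun : (⇑G : ℍ → ℂ) = (1728 : ℂ) • ⇑CuspForm.discriminant := by
    funext z
    have h1 : G z = E₄ z ^ 3 - E₆ z ^ 2 := by
      simp only [G, coe_mcast, coe_pow, sub_apply, Pi.pow_apply]
    have h2 := ModularForm.discriminant_eq_E₄_cube_sub_E₆_sq z
    simp only [Pi.smul_apply, smul_eq_mul, CuspForm.coe_discriminant, h1, h2]
    ring
  rw [← hG, hfun]
  exact (ModularForm.qExpansion_smul one_pos one_mem_strictPeriods_SL (1728 : ℂ)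
    CuspForm.discriminant).symm

/-- The `q`-expansion coefficients of `Δ` lie in every subfield. -/
theorem h59_discriminant_coeff_mem (A : Subfield ℂ) (n : ℕ) :
    (qExpansion 1 ModularForm.discriminant).coeff n ∈ A := by
  have h := congrArg (PowerSeries.coeff n) h59_qExpansion_discriminant
  rw [PowerSeries.coeff_smul, CuspForm.coe_discriminant] at h
  have h4 := h59_pow_coeff_mem A.toSubring (qExpansion 1 E₄)
    (fun n => h59_E_coeff_mem A (by norm_num) ⟨2, rfl⟩ n) 3 n
  have h6 := h59_pow_coeff_mem A.toSubring (qExpansion 1 E₆)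
    (fun n => h59_E_coeff_mem A (by norm_num) ⟨3, rfl⟩ n) 2 n
  have h' : (qExpansion 1 ModularForm.discriminant).coeff n =
      ((qExpansion 1 E₄ ^ 3 - qExpansion 1 E₆ ^ 2).coeff n) / 1728 := by
    rw [← h, smul_eq_mul]; field_simp
  rw [h', map_sub]
  exact A.div_mem (A.sub_mem h4 h6) (ofNat_mem A 1728)


/-- **Level one forms of weight `12 m` are `Δ ^ m` times a polynomial in `j = E₄ ^ 3 / Δ`**,
with coefficients in any subfield containing the `q`-expansion coefficients. -/
theorem h59_modularForm_eq (A : Subfield ℂ) (m : ℕ) :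
    ∀ {k : ℤ} (_ : k = 12 * m) (g : ModularForm 𝒮ℒ k),
      (∀ n, (qExpansion 1 g).coeff n ∈ A) →
      ∃ P : Polynomial ℂ, P.natDegree ≤ m ∧ (∀ i, P.coeff i ∈ A) ∧
        ∀ τ : ℍ, g τ = ModularForm.discriminant τ ^ m *
          P.eval (E₄ τ ^ 3 / ModularForm.discriminant τ) := by
  induction m with
  | zero =>
    intro k hk g hA
    have hk0 : k = 0 := by simpa using hk
    subst hk0
    obtain ⟨c, hc⟩ := levelOne_weight_zero_const g
    have hc0 : c = (qExpansion 1 g).coeff 0 := by
      have := ModularFormClass.qExpansion_coeff_unique (f := g)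
        (c := fun n => if n = 0 then c else 0) one_pos one_mem_strictPeriods_SL ?_ 0
      · simpa using this
      · intro τ
        have h1 := hasSum_single (f := fun m : ℕ =>
          (if m = 0 then c else 0) • Function.Periodic.qParam 1 (τ : ℂ) ^ m) 0
          (fun b hb => by simp [hb])
        simpa [hc] using h1
    refine ⟨Polynomial.C c, by simp, ?_, ?_⟩
    · intro i
      rw [Polynomial.coeff_C]
      split_ifs
      · exact hc0 ▸ hA 0
      · exact A.zero_mem
    · intro τ
      simp [hc]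
  | succ m ih =>
    intro k hk g hA
    set c := (qExpansion 1 g).coeff 0 with hc
    have hkE : ((3 * (m + 1) : ℕ) : ℤ) * 4 = k := by rw [hk]; push_cast; ring
    let E : ModularForm 𝒮ℒ k := ModularForm.mcast hkE (E₄.pow (3 * (m + 1)))
    have hE : qExpansion 1 E = qExpansion 1 E₄ ^ (3 * (m + 1)) := by
      simp only [E, coe_mcast, ModularForm.qExpansion_pow one_pos one_mem_strictPeriods_SL]
    have hE0 : (qExpansion 1 E).coeff 0 = 1 := by
      rw [hE, PowerSeries.coeff_zero_eq_constantCoeff, map_pow,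
        ← PowerSeries.coeff_zero_eq_constantCoeff, E_qExpansion_coeff_zero (by norm_num) ⟨2, rfl⟩,
        one_pow]
    have hcuspP := ModularForm.sub_smul_isCuspForm g E hE0
    rw [ModularForm.isCuspForm_iff_coeffZero_eq_zero] at hcuspP
    set g₁ : ModularForm 𝒮ℒ k := g - (qExpansion 1 g).coeff 0 • E with hg₁
    have hfac := ModularForm.qExpansion_eq_qExpansion_discriminant_mul g₁ hcuspP
    set g' : ModularForm 𝒮ℒ (k - 12) :=
      CuspForm.discriminantEquiv (ModularForm.toCuspForm g₁ hcuspP) with hg'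
    have hk' : k - 12 = 12 * (m : ℤ) := by rw [hk]; push_cast; ring
    have hg₁q : qExpansion 1 g₁ = qExpansion 1 g - c • qExpansion 1 E₄ ^ (3 * (m + 1)) := by
      rw [hg₁, FunLike.coe_sub, ModularForm.qExpansion_sub one_pos one_mem_strictPeriods_SL,
        FunLike.coe_smul, ModularForm.qExpansion_smul one_pos one_mem_strictPeriods_SL, hE]
    have hA1 : ∀ n, (qExpansion 1 g₁).coeff n ∈ A.toSubring := by
      intro n
      rw [hg₁q, map_sub, PowerSeries.coeff_smul]
      exact A.sub_mem (hA n) (A.mul_mem (hA 0)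
        (h59_pow_coeff_mem A.toSubring _ (fun n => h59_E_coeff_mem A (by norm_num) ⟨2, rfl⟩ n) _ n))
    have hd0 : (qExpansion 1 ModularForm.discriminant).coeff 0 = 0 := by
      have h := CuspFormClass.qExpansion_coeff_zero CuspForm.discriminant one_pos
        one_mem_strictPeriods_SL
      simpa using h
    have hA' : ∀ n, (qExpansion 1 g').coeff n ∈ A :=
      h59_coeff_mem_of_mul A.toSubring _ _ _ hfac hA1 (fun n => h59_discriminant_coeff_mem A n)
        hd0 discriminant_qExpansion_coeff_one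
    obtain ⟨P', hdeg, hcoef, hP'⟩ := ih hk' g' hA'
    refine ⟨P' + Polynomial.C c * Polynomial.X ^ (m + 1), ?_, ?_, ?_⟩
    · refine (Polynomial.natDegree_add_le _ _).trans (max_le (hdeg.trans (Nat.le_succ m)) ?_)
      exact (Polynomial.natDegree_C_mul_le _ _).trans (Polynomial.natDegree_X_pow_le _)
    · intro i
      rw [Polynomial.coeff_add, Polynomial.coeff_C_mul, Polynomial.coeff_X_pow]
      refine A.add_mem (hcoef i) (A.mul_mem (hA 0) ?_)
      split_ifs
      · exact A.one_mem
      · exact A.zero_mem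
    · intro τ
      have hΔ := ModularForm.discriminant_ne_zero τ
      have h1 : ModularForm.discriminant τ * g' τ = g₁ τ := by
        rw [hg', ModularForm.discriminant_mul_discriminantEquiv_apply,
          ModularForm.toCuspForm_apply]
      have h2 : g₁ τ = g τ - c * E₄ τ ^ (3 * (m + 1)) := by
        have hEτ : E τ = E₄ τ ^ (3 * (m + 1)) := by
          simp only [E, ModularForm.mcast_apply]
          rw [ModularForm.coe_pow]; rfl
        rw [hg₁, sub_apply, smul_apply, smul_eq_mul, hEτ]
      have h3 : g τ = ModularForm.discriminant τ * g' τ + c * E₄ τ ^ (3 * (m + 1)) := by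
        rw [h1, h2]; ring
      rw [h3, hP' τ, Polynomial.eval_add, Polynomial.eval_mul, Polynomial.eval_C,
        Polynomial.eval_pow, Polynomial.eval_X]
      have hpow : (E₄ τ ^ 3 / ModularForm.discriminant τ) ^ (m + 1) =
          E₄ τ ^ (3 * (m + 1)) / ModularForm.discriminant τ ^ (m + 1) := by
        rw [div_pow, ← pow_mul]
      rw [hpow]
      generalize Polynomial.eval (E₄ τ ^ 3 / ModularForm.discriminant τ) P' = e
      field_simp
      ring


open scoped Manifold in
/-- Slash invariance of `Δ ^ m * f` for an invariant function `f`. -/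
theorem h59_slash_discriminant_pow_mul (f : ℍ → ℂ)
    (hinv : ∀ (γ : SL(2, ℤ)) (τ : ℍ), f (γ • τ) = f τ) (m : ℕ) (γ : SL(2, ℤ)) :
    (fun τ : ℍ => ModularForm.discriminant τ ^ m * f τ) ∣[(12 * (m : ℤ))] γ =
      fun τ : ℍ => ModularForm.discriminant τ ^ m * f τ := by
  ext τ
  rw [SL_slash_apply, hinv]
  have hΔ : ModularForm.discriminant (γ • τ) * denom γ τ ^ (-(12 : ℤ)) =
      ModularForm.discriminant τ := by
    have h := congrFun (SlashInvariantForm.slash_action_eqn CuspForm.discriminant
      (γ : GL (Fin 2) ℝ) ⟨γ, rfl⟩) τ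
    rw [← SL_slash, SL_slash_apply] at h
    exact h
  have hd : denom γ τ ≠ 0 := denom_ne_zero γ τ
  have hΔ' : ModularForm.discriminant (γ • τ) = ModularForm.discriminant τ * denom γ τ ^ 12 := by
    rw [← hΔ, zpow_neg, mul_assoc]
    have : (denom γ τ ^ (12 : ℤ))⁻¹ * denom γ τ ^ 12 = 1 := by
      rw [← zpow_natCast]
      exact inv_mul_cancel₀ (zpow_ne_zero _ hd)
    rw [this, mul_one]
  rw [hΔ', zpow_neg]
  have h12 : denom γ τ ^ (12 * (m : ℤ)) = (denom γ τ ^ 12) ^ m := by
    rw [← pow_mul]
    exact_mod_cast zpow_natCast (denom γ τ) (12 * m)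
  rw [h12, mul_pow]
  have hne : (denom γ τ ^ 12) ^ m ≠ 0 := pow_ne_zero _ (pow_ne_zero _ hd)
  field_simp

open scoped Manifold in
/-- The level one modular form `Δ ^ m * f` attached to an invariant holomorphic function with
a pole of order at most `m` at the cusp. -/
noncomputable def h59_formOf (f : ℍ → ℂ) (hf : MDiff f)
    (hinv : ∀ (γ : SL(2, ℤ)) (τ : ℍ), f (γ • τ) = f τ) (m : ℕ)
    (hb : IsBoundedAtImInfty (fun τ : ℍ => ModularForm.discriminant τ ^ m * f τ)) :
    ModularForm 𝒮ℒ (12 * (m : ℤ)) where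
  toFun := fun τ : ℍ => ModularForm.discriminant τ ^ m * f τ
  slash_action_eq' := fun _ ⟨γ, hγ⟩ => hγ ▸ h59_slash_discriminant_pow_mul f hinv m γ
  holo' := (CuspForm.discriminant.holo'.pow m).mul hf
  bdd_at_cusps' {c} hc := by
    rw [Subgroup.IsArithmetic.isCusp_iff_isCusp_SL2Z] at hc
    rw [OnePoint.isBoundedAt_iff_forall_SL2Z hc]
    intro γ _
    rw [h59_slash_discriminant_pow_mul f hinv m γ]
    exact hb

open scoped Manifold in
/-- **Invariants are polynomials in `j`.** A holomorphic `SL(2, ℤ)`-invariant function on the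
upper half plane with a pole of order at most `m` at the cusp (`Δ ^ m * f` bounded) is a
polynomial of degree at most `m` in `j = E₄ ^ 3 / Δ`, with coefficients in every subfield
containing the `q`-expansion coefficients of `Δ ^ m * f`. -/
theorem h59_invariant_eq_poly_of_coeff (A : Subfield ℂ) (f : ℍ → ℂ) (hf : MDiff f)
    (hinv : ∀ (γ : SL(2, ℤ)) (τ : ℍ), f (γ • τ) = f τ) (m : ℕ)
    (hb : IsBoundedAtImInfty (fun τ : ℍ => ModularForm.discriminant τ ^ m * f τ))
    (hA : ∀ n, (qExpansion 1 (fun τ : ℍ => ModularForm.discriminant τ ^ m * f τ)).coeff n ∈ A) :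
    ∃ P : Polynomial ℂ, P.natDegree ≤ m ∧ (∀ i, P.coeff i ∈ A) ∧
      ∀ τ : ℍ, f τ = P.eval (E₄ τ ^ 3 / ModularForm.discriminant τ) := by
  obtain ⟨P, hdeg, hcoef, hP⟩ := h59_modularForm_eq A m rfl (h59_formOf f hf hinv m hb) hA
  refine ⟨P, hdeg, hcoef, fun τ => ?_⟩
  have h := hP τ
  have hΔ : ModularForm.discriminant τ ^ m ≠ 0 := pow_ne_zero _ (ModularForm.discriminant_ne_zero τ)
  exact mul_left_cancel₀ hΔ h

open scoped Manifold in
/-- **Invariants are polynomials in `j`** (no rationality statement). -/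
theorem h59_invariant_eq_poly (f : ℍ → ℂ) (hf : MDiff f)
    (hinv : ∀ (γ : SL(2, ℤ)) (τ : ℍ), f (γ • τ) = f τ) (m : ℕ)
    (hb : IsBoundedAtImInfty (fun τ : ℍ => ModularForm.discriminant τ ^ m * f τ)) :
    ∃ P : Polynomial ℂ, P.natDegree ≤ m ∧
      ∀ τ : ℍ, f τ = P.eval (E₄ τ ^ 3 / ModularForm.discriminant τ) := by
  obtain ⟨P, hdeg, -, hP⟩ := h59_invariant_eq_poly_of_coeff ⊤ f hf hinv m hb (fun _ => trivial)
  exact ⟨P, hdeg, hP⟩


/-- Growth criterion: if `f = O(exp (2 π m Im τ))` at the cusp then `Δ ^ m * f` is bounded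
at the cusp. -/
theorem h59_isBoundedAtImInfty_of_isBigO (f : ℍ → ℂ) (m : ℕ)
    (hO : f =O[atImInfty] fun τ : ℍ => Real.exp (2 * Real.pi * m * τ.im)) :
    IsBoundedAtImInfty (fun τ : ℍ => ModularForm.discriminant τ ^ m * f τ) := by
  have hΔ : (fun τ : ℍ => ModularForm.discriminant τ) =O[atImInfty]
      fun τ : ℍ => Real.exp (-2 * Real.pi * τ.im / 1) :=
    CuspFormClass.exp_decay_atImInfty CuspForm.discriminant one_pos one_mem_strictPeriods_SL
  have h1 := (hΔ.pow m).mul hO
  refine h1.trans (Asymptotics.IsBigO.of_bound 1 (Filter.Eventually.of_forall fun τ => ?_))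
  have : Real.exp (-2 * Real.pi * τ.im / 1) ^ m * Real.exp (2 * Real.pi * m * τ.im) = 1 := by
    rw [← Real.exp_nat_mul, ← Real.exp_add]
    have : (m : ℝ) * (-2 * Real.pi * τ.im / 1) + 2 * Real.pi * m * τ.im = 0 := by ring
    rw [this, Real.exp_zero]
  simp only [this]
  simp

end Fermat.Agent.S24
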