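import Mathlib
import Fermat.Prelude.Def_ModularCurve_X0
import Fermat.Prelude.Def_ModularCurve_LaurentCoeff
import Fermat.Prelude.Thm_ModularCurve_coeffMap_qExpand

set_option autoImplicit false

open UpperHalfPlane ModularForm Filter Topology
open scoped MatrixGroups Manifold

namespace Fermat.Agent.S24

noncomputable section

/-! ## Part I: power series on the open unit disc -/

/-- `G` is the sum of the power series `p` on the open unit disc. -/
def h77_IsPS (p : PowerSeries ℂ) (G : ℂ → ℂ) : Prop :=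
  ∀ q : ℂ, ‖q‖ < 1 → HasSum (fun n : ℕ => p.coeff n * q ^ n) (G q)

/-- Cauchy product of two convergent power series at a point. -/
lemma h77_hasSum_mul {p p' : PowerSeries ℂ} {q a b : ℂ}
    (h : HasSum (fun n : ℕ => p.coeff n * q ^ n) a)
    (h' : HasSum (fun n : ℕ => p'.coeff n * q ^ n) b) :
    HasSum (fun n : ℕ => (p * p').coeff n * q ^ n) (a * b) := by
  have hn : Summable fun n : ℕ => ‖p.coeff n * q ^ n‖ := h.summable.norm
  have hn' : Summable fun n : ℕ => ‖p'.coeff n * q ^ n‖ := h'.summable.norm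
  have hs := summable_norm_sum_mul_antidiagonal_of_summable_norm hn hn'
  have ht := tsum_mul_tsum_eq_tsum_sum_antidiagonal_of_summable_norm hn hn'
  rw [h.tsum_eq, h'.tsum_eq] at ht
  have hterm : ∀ n : ℕ, (p * p').coeff n * q ^ n =
      ∑ kl ∈ Finset.HasAntidiagonal.antidiagonal n, p.coeff kl.1 * q ^ kl.1 * (p'.coeff kl.2 * q ^ kl.2) := by
    intro n
    rw [PowerSeries.coeff_mul, Finset.sum_mul]
    refine Finset.sum_congr rfl fun kl hkl => ?_
    rw [← Finset.HasAntidiagonal.mem_antidiagonal.mp hkl, pow_add]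
    ring
  simp_rw [hterm]
  rw [ht]
  exact hs.of_norm.hasSum

lemma h77_IsPS.mul {p p' : PowerSeries ℂ} {G G' : ℂ → ℂ} (h : h77_IsPS p G) (h' : h77_IsPS p' G') :
    h77_IsPS (p * p') (fun q => G q * G' q) :=
  fun q hq => h77_hasSum_mul (h q hq) (h' q hq)

lemma h77_IsPS.add {p p' : PowerSeries ℂ} {G G' : ℂ → ℂ} (h : h77_IsPS p G) (h' : h77_IsPS p' G') :
    h77_IsPS (p + p') (fun q => G q + G' q) := by
  intro q hq
  have := (h q hq).add (h' q hq)
  simpa [add_mul] using this

lemma h77_isPS_C (a : ℂ) : h77_IsPS (PowerSeries.C a) (fun _ => a) := by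
  intro q _
  have : (fun n : ℕ => (PowerSeries.C a : PowerSeries ℂ).coeff n * q ^ n) =
      fun n : ℕ => if n = 0 then a else 0 := by
    funext n
    rw [PowerSeries.coeff_C]
    split_ifs with hn
    · subst hn; simp
    · simp
  rw [this]
  exact hasSum_ite_eq 0 a

lemma h77_isPS_one : h77_IsPS 1 (fun _ => 1) := by
  simpa using h77_isPS_C 1

lemma h77_isPS_X_pow (k : ℕ) : h77_IsPS (PowerSeries.X ^ k) (fun q => q ^ k) := by
  intro q _
  have : (fun n : ℕ => ((PowerSeries.X : PowerSeries ℂ) ^ k).coeff n * q ^ n) =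
      fun n : ℕ => if n = k then q ^ k else 0 := by
    funext n
    rw [PowerSeries.coeff_X_pow]
    split_ifs with hn
    · subst hn; simp
    · simp
  rw [this]
  exact hasSum_ite_eq k (q ^ k)

lemma h77_IsPS.neg {p : PowerSeries ℂ} {G : ℂ → ℂ} (h : h77_IsPS p G) :
    h77_IsPS (-p) (fun q => -G q) := by
  intro q hq
  have := (h q hq).neg
  simpa [neg_mul] using this

lemma h77_IsPS.sub {p p' : PowerSeries ℂ} {G G' : ℂ → ℂ} (h : h77_IsPS p G) (h' : h77_IsPS p' G') :
    h77_IsPS (p - p') (fun q => G q - G' q) := by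
  simpa [sub_eq_add_neg] using h.add h'.neg

lemma h77_IsPS.pow {p : PowerSeries ℂ} {G : ℂ → ℂ} (h : h77_IsPS p G) (k : ℕ) :
    h77_IsPS (p ^ k) (fun q => G q ^ k) := by
  induction k with
  | zero => simpa using h77_isPS_one
  | succ k ih => simpa [pow_succ] using ih.mul h

lemma h77_IsPS.prod {ι : Type*} (s : Finset ι) {p : ι → PowerSeries ℂ} {G : ι → ℂ → ℂ}
    (h : ∀ i ∈ s, h77_IsPS (p i) (G i)) :
    h77_IsPS (∏ i ∈ s, p i) (fun q => ∏ i ∈ s, G i q) := by
  classical
  induction s using Finset.induction_on with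
  | empty => simpa using h77_isPS_one
  | insert a s ha ih =>
    simp only [Finset.prod_insert ha]
    exact (h a (Finset.mem_insert_self a s)).mul
      (ih fun i hi => h i (Finset.mem_insert_of_mem hi))

lemma h77_IsPS.congr {p : PowerSeries ℂ} {G G' : ℂ → ℂ} (h : h77_IsPS p G)
    (hG : ∀ q : ℂ, ‖q‖ < 1 → G q = G' q) : h77_IsPS p G' :=
  fun q hq => hG q hq ▸ h q hq

/-- A convergent power series on the unit disc gives a `HasFPowerSeriesOnBall`. -/
lemma h77_IsPS.hasFPowerSeriesOnBall {p : PowerSeries ℂ} {G : ℂ → ℂ} (h : h77_IsPS p G) :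
    HasFPowerSeriesOnBall G (FormalMultilinearSeries.ofScalars ℂ fun n => p.coeff n) 0 1 := by
  constructor
  · refine le_of_forall_lt_imp_le_of_dense fun r hr => ?_
    lift r to NNReal using hr.ne_top
    apply FormalMultilinearSeries.le_radius_of_summable
    have hr1 : ‖((r : ℝ) : ℂ)‖ < 1 := by
      simpa using hr
    have := (h (r : ℝ) hr1).summable.norm
    simpa [FormalMultilinearSeries.ofScalars_norm, norm_mul, norm_pow] using this
  · simp
  · intro y hy
    rw [← ENNReal.coe_one, Metric.eball_coe, NNReal.coe_one, mem_ball_zero_iff] at hy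
    simpa [FormalMultilinearSeries.ofScalars_apply_eq, mul_comm] using h y hy

lemma h77_IsPS.unique {p p' : PowerSeries ℂ} {G : ℂ → ℂ} (h : h77_IsPS p G) (h' : h77_IsPS p' G) :
    p = p' := by
  have h1 := h.hasFPowerSeriesOnBall.hasFPowerSeriesAt
  have h2 := h'.hasFPowerSeriesOnBall.hasFPowerSeriesAt
  have h3 := h1.eq_formalMultilinearSeries h2
  ext n
  have := congrArg (fun s : FormalMultilinearSeries ℂ ℂ ℂ => s.coeff n) h3
  simpa [FormalMultilinearSeries.coeff_ofScalars] using this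

lemma h77_IsPS.differentiableOn {p : PowerSeries ℂ} {G : ℂ → ℂ} (h : h77_IsPS p G) :
    DifferentiableOn ℂ G (Metric.ball 0 1) := by
  have := h.hasFPowerSeriesOnBall.differentiableOn
  rwa [← ENNReal.coe_one, Metric.eball_coe, NNReal.coe_one] at this

/-- Taylor expansion on the unit disc. -/
lemma h77_isPS_of_differentiableOn {G : ℂ → ℂ} (hG : DifferentiableOn ℂ G (Metric.ball 0 1)) :
    h77_IsPS (PowerSeries.mk fun m => ((m.factorial : ℕ) : ℂ)⁻¹ * iteratedDeriv m G 0) G := by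
  intro q hq
  have := Complex.hasSum_taylorSeries_on_ball hG (z := q) (by simpa using hq)
  simpa [mul_comm, mul_assoc, mul_left_comm] using this

lemma h77_IsPS.coeff_eq {p : PowerSeries ℂ} {G : ℂ → ℂ} (h : h77_IsPS p G) (m : ℕ) :
    p.coeff m = ((m.factorial : ℕ) : ℂ)⁻¹ * iteratedDeriv m G 0 := by
  have := h.unique (h77_isPS_of_differentiableOn h.differentiableOn)
  rw [this, PowerSeries.coeff_mk]

/-! ### The Euler product -/

/-- Convergence of iterated derivatives under locally uniform convergence. -/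
lemma h77_tendsto_iteratedDeriv {ι : Type*} {φ : Filter ι} {F : ι → ℂ → ℂ} {f : ℂ → ℂ}
    {U : Set ℂ} (hU : IsOpen U) (hF : ∀ᶠ i in φ, DifferentiableOn ℂ (F i) U)
    (hf : TendstoLocallyUniformlyOn F f φ U) (m : ℕ) :
    TendstoLocallyUniformlyOn (fun i => iteratedDeriv m (F i)) (iteratedDeriv m f) φ U ∧
      ∀ᶠ i in φ, DifferentiableOn ℂ (iteratedDeriv m (F i)) U := by
  induction m with
  | zero => simpa [iteratedDeriv_zero] using And.intro hf hF
  | succ m ih =>
    obtain ⟨h1, h2⟩ := ih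
    refine ⟨?_, ?_⟩
    · have := h1.deriv h2 hU
      simpa [iteratedDeriv_succ, Function.comp_def] using this
    · filter_upwards [h2] with i hi
      rw [iteratedDeriv_succ]
      exact hi.deriv hU

/-- The cast of integer power series to complex power series. -/
abbrev h77_cast : PowerSeries ℤ →+* PowerSeries ℂ := PowerSeries.map (Int.castRingHom ℂ)

lemma h77_isPS_one_sub_X_pow (n : ℕ) :
    h77_IsPS (h77_cast (1 - PowerSeries.X ^ (n + 1))) (fun q => 1 - q ^ (n + 1)) := by
  have : h77_cast (1 - PowerSeries.X ^ (n + 1)) = 1 - PowerSeries.X ^ (n + 1) := by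
    simp [h77_cast]
  rw [this]
  exact h77_isPS_one.sub (h77_isPS_X_pow (n + 1))

/-- The Euler function as a function on the disc. -/
def h77_euler (q : ℂ) : ℂ := ∏' n : ℕ, (1 - q ^ (n + 1))

lemma h77_differentiableOn_euler : DifferentiableOn ℂ h77_euler (Metric.ball 0 1) :=
  ModularForm.differentiableOn_tprod_one_sub_pow

lemma h77_euler_ne_zero {q : ℂ} (hq : ‖q‖ < 1) : h77_euler q ≠ 0 := by
  refine tprod_one_add_ne_zero_of_summable (f := fun n : ℕ => -q ^ (n + 1)) ?_ ?_
  · intro i h0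
    have h1 : q ^ (i + 1) = 1 := by
      have : (1 : ℂ) + -q ^ (i + 1) = 0 := h0
      linear_combination -this
    have h2 : ‖q‖ ^ (i + 1) = 1 := by rw [← norm_pow, h1, norm_one]
    have h3 : ‖q‖ ^ (i + 1) < 1 := pow_lt_one₀ (norm_nonneg _) hq (Nat.succ_ne_zero i)
    linarith
  · have := (summable_nat_add_iff 1).mpr (summable_geometric_of_lt_one (norm_nonneg q) hq)
    simpa [norm_pow] using this

lemma h77_isPS_etaProd : h77_IsPS (h77_cast ModularCurve.etaProd) h77_euler := by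
  have hT := h77_isPS_of_differentiableOn h77_differentiableOn_euler
  suffices h : h77_cast ModularCurve.etaProd =
      PowerSeries.mk fun m => ((m.factorial : ℕ) : ℂ)⁻¹ * iteratedDeriv m h77_euler 0 by
    rw [h]; exact hT
  ext m
  rw [h77_cast, PowerSeries.coeff_map, PowerSeries.coeff_mk]
  have hloc : TendstoLocallyUniformlyOn (fun (s : Finset ℕ) (q : ℂ) => ∏ n ∈ s, (1 - q ^ (n + 1)))
      h77_euler atTop (Metric.ball 0 1) :=
    ModularForm.multipliableLocallyUniformlyOn_one_sub_pow.hasProdLocallyUniformlyOn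
  have hdiff : ∀ s : Finset ℕ,
      DifferentiableOn ℂ (fun q : ℂ => ∏ n ∈ s, (1 - q ^ (n + 1))) (Metric.ball 0 1) := by
    intro s
    have h := DifferentiableOn.finsetProd (u := s) (f := fun (n : ℕ) (q : ℂ) => 1 - q ^ (n + 1))
      (s := Metric.ball (0 : ℂ) 1) (fun _ _ => by fun_prop)
    simpa [Finset.prod_fn] using h
  have hlim := ((h77_tendsto_iteratedDeriv Metric.isOpen_ball (.of_forall hdiff) hloc m).1).tendsto_at
    (Metric.mem_ball_self one_pos)
  have hfin : ∀ s : Finset ℕ, iteratedDeriv m (fun q : ℂ => ∏ n ∈ s, (1 - q ^ (n + 1))) 0 =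
      ((m.factorial : ℕ) : ℂ) *
        (((∏ n ∈ s, (1 - PowerSeries.X ^ (n + 1)) : PowerSeries ℤ).coeff m : ℤ) : ℂ) := by
    intro s
    have h1 : h77_IsPS (h77_cast (∏ n ∈ s, (1 - PowerSeries.X ^ (n + 1))))
        (fun q : ℂ => ∏ n ∈ s, (1 - q ^ (n + 1))) := by
      rw [map_prod]
      exact h77_IsPS.prod s fun i _ => h77_isPS_one_sub_X_pow i
    have h2 := h1.coeff_eq m
    rw [h77_cast, PowerSeries.coeff_map, eq_intCast] at h2
    rw [h2]
    have hm : ((m.factorial : ℕ) : ℂ) ≠ 0 := by exact_mod_cast Nat.factorial_ne_zero m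
    field_simp
  have hform : ∀ᶠ s : Finset ℕ in atTop,
      (∏ n ∈ s, (1 - PowerSeries.X ^ (n + 1)) : PowerSeries ℤ).coeff m =
        ModularCurve.etaProd.coeff m := by
    have h1 := PowerSeries.coeff_prod_one_sub_X_pow_eventually_eq ℤ m
    have h2 : ModularCurve.etaProd = PowerSeries.pentagonalSeries ℤ :=
      PowerSeries.WithPiTopology.tprod_one_sub_X_pow ℤ
    rw [h2]
    exact h1
  have hlim2 : Tendsto (fun s : Finset ℕ =>
      iteratedDeriv m (fun q : ℂ => ∏ n ∈ s, (1 - q ^ (n + 1))) 0) atTop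
      (𝓝 (((m.factorial : ℕ) : ℂ) * ((ModularCurve.etaProd.coeff m : ℤ) : ℂ))) := by
    refine tendsto_const_nhds.congr' ?_
    filter_upwards [hform] with s hs
    rw [hfin s, hs]
  have huniq := tendsto_nhds_unique hlim hlim2
  rw [huniq]
  have hm : ((m.factorial : ℕ) : ℂ) ≠ 0 := by exact_mod_cast Nat.factorial_ne_zero m
  simp [hm]

lemma h77_isPS_etaUnit : h77_IsPS (h77_cast ModularCurve.dedekindEtaUnit)
    (fun q => h77_euler q ^ 24) := by
  have := h77_isPS_etaProd.pow 24
  rwa [← map_pow] at this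

lemma h77_isPS_etaUnitInv : h77_IsPS (h77_cast ModularCurve.dedekindEtaUnitInv)
    (fun q => (h77_euler q ^ 24)⁻¹) := by
  have hd : DifferentiableOn ℂ (fun q => (h77_euler q ^ 24)⁻¹) (Metric.ball 0 1) := by
    refine DifferentiableOn.inv (h77_differentiableOn_euler.pow 24) fun q hq => ?_
    exact pow_ne_zero 24 (h77_euler_ne_zero (by simpa using hq))
  have hT := h77_isPS_of_differentiableOn hd
  set w : PowerSeries ℂ := PowerSeries.mk fun m =>
    ((m.factorial : ℕ) : ℂ)⁻¹ * iteratedDeriv m (fun q => (h77_euler q ^ 24)⁻¹) 0 with hw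
  have h1 : h77_IsPS (w * h77_cast ModularCurve.dedekindEtaUnit) (fun _ => 1) := by
    refine (hT.mul h77_isPS_etaUnit).congr fun q hq => ?_
    exact inv_mul_cancel₀ (pow_ne_zero 24 (h77_euler_ne_zero hq))
  have h2 : w * h77_cast ModularCurve.dedekindEtaUnit = 1 := h1.unique h77_isPS_one
  have h3 : h77_cast ModularCurve.dedekindEtaUnit * h77_cast ModularCurve.dedekindEtaUnitInv = 1 := by
    rw [← map_mul, ModularCurve.dedekindEtaUnit_mul_inv, map_one]
  have h4 : w = h77_cast ModularCurve.dedekindEtaUnitInv := by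
    calc w = w * (h77_cast ModularCurve.dedekindEtaUnit * h77_cast ModularCurve.dedekindEtaUnitInv) := by
          rw [h3, mul_one]
      _ = h77_cast ModularCurve.dedekindEtaUnitInv := by rw [← mul_assoc, h2, one_mul]
  rw [← h4]
  exact hT

/-! ### The Eisenstein series `E₄` and the `j`-function -/

local notation "𝕢" => Function.Periodic.qParam

lemma h77_norm_qParam_lt_one {h : ℝ} (hh : 0 < h) (τ : ℍ) : ‖𝕢 h τ‖ < 1 :=
  Function.Periodic.norm_qParam_lt_one hh τ.im_pos

lemma h77_coeff_cast_eisenstein4 (n : ℕ) :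
    (h77_cast ModularCurve.eisenstein4).coeff n = (qExpansion 1 E₄).coeff n := by
  rw [h77_cast, PowerSeries.coeff_map, ModularCurve.eisenstein4, PowerSeries.coeff_mk,
    EisensteinSeries.E_qExpansion_coeff _ ⟨2, rfl⟩]
  have hb : bernoulli 4 = -1 / 30 := by decide +kernel
  by_cases hn : n = 0
  · simp [hn]
  · simp only [hn, if_false, eq_intCast, hb]
    rw [ArithmeticFunction.sigma_apply]
    push_cast
    ring

lemma h77_hasSum_E4 (τ : ℍ) :
    HasSum (fun n : ℕ => (h77_cast ModularCurve.eisenstein4).coeff n * 𝕢 1 τ ^ n) (E₄ τ) := by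
  have := ModularForm.hasSum_qExpansion (f := E₄) (h := 1) one_pos
    _root_.one_mem_strictPeriods_SL τ
  simpa only [h77_coeff_cast_eisenstein4] using this

/-- The analytic `j`-function. -/
def h77_j (τ : ℍ) : ℂ := E₄ τ ^ 3 / ModularForm.discriminant τ

lemma h77_discriminant_eq (τ : ℍ) :
    ModularForm.discriminant τ = 𝕢 1 τ * h77_euler (𝕢 1 τ) ^ 24 := by
  rw [ModularForm.discriminant_eq_q_prod]
  congr 1
  rw [h77_euler, ← Multipliable.tprod_pow]
  exact ModularForm.multipliable_one_sub_pow (h77_norm_qParam_lt_one one_pos τ)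

lemma h77_hasSum_jNum (τ : ℍ) :
    HasSum (fun n : ℕ => (h77_cast ModularCurve.jNum).coeff n * 𝕢 1 τ ^ n) (h77_j τ * 𝕢 1 τ) := by
  have hq := h77_norm_qParam_lt_one one_pos τ
  have hq0 : 𝕢 1 (τ : ℂ) ≠ 0 := Function.Periodic.qParam_ne_zero _
  have hE : HasSum (fun n : ℕ => (h77_cast (ModularCurve.eisenstein4 ^ 3)).coeff n * 𝕢 1 τ ^ n)
      (E₄ τ ^ 3) := by
    rw [map_pow, pow_succ, pow_succ, pow_one, pow_succ, pow_succ, pow_one]
    exact h77_hasSum_mul (h77_hasSum_mul (h77_hasSum_E4 τ) (h77_hasSum_E4 τ)) (h77_hasSum_E4 τ)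
  have hI : HasSum (fun n : ℕ => (h77_cast ModularCurve.dedekindEtaUnitInv).coeff n * 𝕢 1 τ ^ n)
      ((h77_euler (𝕢 1 τ) ^ 24)⁻¹) := h77_isPS_etaUnitInv _ hq
  have := h77_hasSum_mul hE hI
  rw [← map_mul] at this
  have hval : h77_j τ * 𝕢 1 τ = E₄ τ ^ 3 * (h77_euler (𝕢 1 τ) ^ 24)⁻¹ := by
    rw [h77_j, h77_discriminant_eq]
    have he : h77_euler (𝕢 1 (τ : ℂ)) ^ 24 ≠ 0 := pow_ne_zero 24 (h77_euler_ne_zero hq)
    field_simp
  rw [hval]
  exact this

/-! ## Part II: convergent Laurent series in `q_h` on the upper half plane -/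

/-- `g` is the sum of the Laurent series `c` in the parameter `q_h = exp (2πiτ/h)`. -/
def h77_IsQExp (h : ℝ) (c : LaurentSeries ℂ) (g : ℍ → ℂ) : Prop :=
  ∀ τ : ℍ, HasSum (fun k : ℤ => c.coeff k * 𝕢 h τ ^ k) (g τ)

lemma h77_IsQExp.unique_fun {h : ℝ} {c : LaurentSeries ℂ} {g g' : ℍ → ℂ}
    (hg : h77_IsQExp h c g) (hg' : h77_IsQExp h c g') : g = g' :=
  funext fun τ => (hg τ).unique (hg' τ)

lemma h77_IsQExp.congr {h : ℝ} {c : LaurentSeries ℂ} {g g' : ℍ → ℂ}
    (hg : h77_IsQExp h c g) (hgg : ∀ τ, g τ = g' τ) : h77_IsQExp h c g' :=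
  fun τ => hgg τ ▸ hg τ

lemma h77_IsQExp.add {h : ℝ} {c c' : LaurentSeries ℂ} {g g' : ℍ → ℂ}
    (hg : h77_IsQExp h c g) (hg' : h77_IsQExp h c' g') :
    h77_IsQExp h (c + c') (fun τ => g τ + g' τ) := by
  intro τ
  have := (hg τ).add (hg' τ)
  simpa [add_mul] using this

lemma h77_IsQExp.neg {h : ℝ} {c : LaurentSeries ℂ} {g : ℍ → ℂ} (hg : h77_IsQExp h c g) :
    h77_IsQExp h (-c) (fun τ => -g τ) := by
  intro τ
  have := (hg τ).neg
  simpa [neg_mul] using this

lemma h77_IsQExp.sub {h : ℝ} {c c' : LaurentSeries ℂ} {g g' : ℍ → ℂ}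
    (hg : h77_IsQExp h c g) (hg' : h77_IsQExp h c' g') :
    h77_IsQExp h (c - c') (fun τ => g τ - g' τ) := by
  simpa [sub_eq_add_neg] using hg.add hg'.neg

lemma h77_isQExp_single (h : ℝ) (k : ℤ) (a : ℂ) :
    h77_IsQExp h (HahnSeries.single k a) (fun τ => a * 𝕢 h τ ^ k) := by
  intro τ
  have : (fun m : ℤ => (HahnSeries.single k a : LaurentSeries ℂ).coeff m * 𝕢 h τ ^ m) =
      fun m : ℤ => if m = k then a * 𝕢 h τ ^ k else 0 := by
    funext m
    by_cases hm : m = k
    · subst hm; simp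
    · simp [hm, HahnSeries.coeff_single_of_ne hm]
  rw [this]
  exact hasSum_ite_eq k _

lemma h77_isQExp_C (h : ℝ) (a : ℂ) : h77_IsQExp h (HahnSeries.C a) (fun _ => a) := by
  have := h77_isQExp_single h 0 a
  simpa [HahnSeries.C_apply] using this

lemma h77_isQExp_zero (h : ℝ) : h77_IsQExp h 0 (fun _ => 0) := by
  intro τ
  simp [hasSum_zero]

lemma h77_isQExp_one (h : ℝ) : h77_IsQExp h 1 (fun _ => 1) := by
  have := h77_isQExp_C h 1
  simpa using this

lemma h77_coeff_single_mul_ofPowerSeries (N : ℤ) (p : PowerSeries ℂ) (n : ℕ) :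
    (HahnSeries.single N (1 : ℂ) * HahnSeries.ofPowerSeries ℤ ℂ p).coeff (n + N) = p.coeff n := by
  rw [HahnSeries.coeff_single_mul, one_mul, add_sub_cancel_right,
    HahnSeries.ofPowerSeries_apply_coeff]

lemma h77_coeff_single_mul_ofPowerSeries_of_lt (N : ℤ) (p : PowerSeries ℂ) {k : ℤ} (hk : k < N) :
    (HahnSeries.single N (1 : ℂ) * HahnSeries.ofPowerSeries ℤ ℂ p).coeff k = 0 := by
  rw [HahnSeries.coeff_single_mul, one_mul]
  exact ModularCurve.ofPowerSeries_coeff_of_neg p (by omega)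

/-- A Laurent series times a power of `q`: reduction to `ℕ`-indexed power series. -/
lemma h77_hasSum_single_mul_iff (N : ℤ) (p : PowerSeries ℂ) {q : ℂ} (hq : q ≠ 0) (a : ℂ) :
    HasSum (fun k : ℤ =>
        (HahnSeries.single N (1 : ℂ) * HahnSeries.ofPowerSeries ℤ ℂ p).coeff k * q ^ k) a ↔
      HasSum (fun n : ℕ => p.coeff n * q ^ n) (a * q ^ (-N)) := by
  have hinj : Function.Injective (fun n : ℕ => (n : ℤ) + N) := fun a b hab => by
    simpa using hab
  have hsupp : ∀ k : ℤ, k ∉ Set.range (fun n : ℕ => (n : ℤ) + N) →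
      (HahnSeries.single N (1 : ℂ) * HahnSeries.ofPowerSeries ℤ ℂ p).coeff k * q ^ k = 0 := by
    intro k hk
    have hlt : k < N := by
      by_contra hge
      rw [not_lt] at hge
      exact hk ⟨(k - N).toNat, by simp; omega⟩
    rw [h77_coeff_single_mul_ofPowerSeries_of_lt N p hlt, zero_mul]
  rw [← hinj.hasSum_iff hsupp]
  have hfun : ((fun k : ℤ =>
      (HahnSeries.single N (1 : ℂ) * HahnSeries.ofPowerSeries ℤ ℂ p).coeff k * q ^ k) ∘
      fun n : ℕ => (n : ℤ) + N) = fun n : ℕ => p.coeff n * q ^ n * q ^ N := by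
    funext n
    simp only [Function.comp_apply]
    rw [h77_coeff_single_mul_ofPowerSeries, zpow_add₀ hq, zpow_natCast, mul_assoc]
  rw [hfun]
  have hqN : q ^ N ≠ 0 := zpow_ne_zero N hq
  constructor
  · intro hs
    have := hs.mul_right (q ^ (-N))
    have hfun2 : (fun n : ℕ => p.coeff n * q ^ n * q ^ N * q ^ (-N)) =
        fun n : ℕ => p.coeff n * q ^ n := by
      funext n
      rw [mul_assoc, ← zpow_add₀ hq, add_neg_cancel, zpow_zero, mul_one]
    rwa [hfun2] at this
  · intro hs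
    have := hs.mul_right (q ^ N)
    rwa [mul_assoc, ← zpow_add₀ hq, neg_add_cancel, zpow_zero, mul_one] at this

lemma h77_isQExp_single_mul_iff {h : ℝ} (N : ℤ) (p : PowerSeries ℂ) (g : ℍ → ℂ) :
    h77_IsQExp h (HahnSeries.single N 1 * HahnSeries.ofPowerSeries ℤ ℂ p) g ↔
      ∀ τ : ℍ, HasSum (fun n : ℕ => p.coeff n * 𝕢 h τ ^ n) (g τ * 𝕢 h τ ^ (-N)) :=
  forall_congr' fun τ =>
    h77_hasSum_single_mul_iff N p (Function.Periodic.qParam_ne_zero _) (g τ)

lemma h77_exists_single_mul (c : LaurentSeries ℂ) : ∃ (N : ℤ) (p : PowerSeries ℂ),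
    c = HahnSeries.single N 1 * HahnSeries.ofPowerSeries ℤ ℂ p :=
  ⟨c.order, c.powerSeriesPart, (LaurentSeries.single_order_mul_powerSeriesPart c).symm⟩

lemma h77_IsQExp.mul {h : ℝ} {c c' : LaurentSeries ℂ} {g g' : ℍ → ℂ}
    (hg : h77_IsQExp h c g) (hg' : h77_IsQExp h c' g') :
    h77_IsQExp h (c * c') (fun τ => g τ * g' τ) := by
  obtain ⟨N, p, rfl⟩ := h77_exists_single_mul c
  obtain ⟨N', p', rfl⟩ := h77_exists_single_mul c'
  have hcc : (HahnSeries.single N (1 : ℂ) * HahnSeries.ofPowerSeries ℤ ℂ p) *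
      (HahnSeries.single N' (1 : ℂ) * HahnSeries.ofPowerSeries ℤ ℂ p') =
      HahnSeries.single (N + N') (1 : ℂ) * HahnSeries.ofPowerSeries ℤ ℂ (p * p') := by
    rw [map_mul, ← one_mul (1 : ℂ), ← HahnSeries.single_mul_single, one_mul]
    ring
  rw [hcc, h77_isQExp_single_mul_iff]
  rw [h77_isQExp_single_mul_iff] at hg hg'
  intro τ
  have hq : 𝕢 h (τ : ℂ) ≠ 0 := Function.Periodic.qParam_ne_zero _
  have := h77_hasSum_mul (hg τ) (hg' τ)
  convert this using 1
  rw [neg_add, zpow_add₀ hq]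
  ring

lemma h77_IsQExp.pow {h : ℝ} {c : LaurentSeries ℂ} {g : ℍ → ℂ} (hg : h77_IsQExp h c g) (k : ℕ) :
    h77_IsQExp h (c ^ k) (fun τ => g τ ^ k) := by
  induction k with
  | zero => simpa using h77_isQExp_one h
  | succ k ih => simpa [pow_succ] using ih.mul hg

/-! ### Uniqueness of the expansion and holomorphy -/

/-- Every point of the punctured unit disc is `q_h(τ)` for some `τ` in the upper half plane. -/
lemma h77_exists_qParam_eq {h : ℝ} (hh : 0 < h) {q : ℂ} (hq : ‖q‖ < 1) (hq0 : q ≠ 0) :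
    ∃ τ : ℍ, 𝕢 h τ = q :=
  ⟨⟨Function.Periodic.invQParam h q, Function.Periodic.im_invQParam_pos_of_norm_lt_one hh hq hq0⟩,
    Function.Periodic.qParam_right_inv hh.ne' hq0⟩

/-- From the upper half plane back to the disc. -/
lemma h77_isPS_tsum_of_forall {h : ℝ} (hh : 0 < h) {p : PowerSeries ℂ} {g : ℍ → ℂ}
    (hp : ∀ τ : ℍ, HasSum (fun n : ℕ => p.coeff n * 𝕢 h τ ^ n) (g τ)) :
    h77_IsPS p (fun q => ∑' n : ℕ, p.coeff n * q ^ n) := by
  intro q hq
  by_cases hq0 : q = 0
  · subst hq0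
    have : (fun n : ℕ => p.coeff n * (0 : ℂ) ^ n) = fun n : ℕ => if n = 0 then p.coeff 0 else 0 := by
      funext n
      by_cases hn : n = 0
      · subst hn; simp
      · simp [hn]
    have hs : Summable (fun n : ℕ => p.coeff n * (0 : ℂ) ^ n) := by
      rw [this]
      exact (hasSum_ite_eq 0 (p.coeff 0)).summable
    exact hs.hasSum
  · obtain ⟨τ, rfl⟩ := h77_exists_qParam_eq hh hq hq0
    exact (hp τ).summable.hasSum

lemma h77_tsum_eq_of_forall {h : ℝ} {p : PowerSeries ℂ} {g : ℍ → ℂ}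
    (hp : ∀ τ : ℍ, HasSum (fun n : ℕ => p.coeff n * 𝕢 h τ ^ n) (g τ)) (τ : ℍ) :
    (∑' n : ℕ, p.coeff n * 𝕢 h τ ^ n) = g τ :=
  (hp τ).tsum_eq

/-- A power series vanishing on the punctured disc is zero. -/
lemma h77_ps_eq_zero {h : ℝ} (hh : 0 < h) {p : PowerSeries ℂ}
    (hp : ∀ τ : ℍ, HasSum (fun n : ℕ => p.coeff n * 𝕢 h τ ^ n) 0) : p = 0 := by
  set G : ℂ → ℂ := fun q => ∑' n : ℕ, p.coeff n * q ^ n with hG
  have hPS : h77_IsPS p G := h77_isPS_tsum_of_forall hh (g := fun _ => 0) hp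
  have hzero : ∀ q : ℂ, ‖q‖ < 1 → q ≠ 0 → G q = 0 := by
    intro q hq hq0
    obtain ⟨τ, rfl⟩ := h77_exists_qParam_eq hh hq hq0
    exact (hp τ).tsum_eq
  have hcont : ContinuousAt G 0 :=
    (hPS.differentiableOn.differentiableAt (Metric.ball_mem_nhds 0 one_pos)).continuousAt
  have h0 : G 0 = 0 := by
    have hev : ∀ᶠ q in 𝓝[≠] (0 : ℂ), (0 : ℂ) = G q := by
      filter_upwards [nhdsWithin_le_nhds (Metric.ball_mem_nhds (0 : ℂ) one_pos),
        self_mem_nhdsWithin] with q hq hq0
      exact (hzero q (by simpa using hq) hq0).symm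
    have h1 : Tendsto G (𝓝[≠] (0 : ℂ)) (𝓝 (G 0)) := hcont.tendsto.mono_left nhdsWithin_le_nhds
    exact tendsto_nhds_unique h1 (tendsto_const_nhds.congr' hev)
  have hPS0 : h77_IsPS p (fun _ => 0) := by
    refine hPS.congr fun q hq => ?_
    by_cases hq0 : q = 0
    · rw [hq0, h0]
    · exact hzero q hq hq0
  have := hPS0.unique (h77_isPS_C 0)
  simpa using this

lemma h77_IsQExp.eq_zero {h : ℝ} (hh : 0 < h) {c : LaurentSeries ℂ}
    (hc : h77_IsQExp h c (fun _ => 0)) : c = 0 := by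
  obtain ⟨N, p, rfl⟩ := h77_exists_single_mul c
  rw [h77_isQExp_single_mul_iff] at hc
  have : p = 0 := h77_ps_eq_zero hh (by simpa using hc)
  rw [this, map_zero, mul_zero]

/-- The expansion is determined by the function. -/
lemma h77_IsQExp.unique {h : ℝ} (hh : 0 < h) {c c' : LaurentSeries ℂ} {g : ℍ → ℂ}
    (hc : h77_IsQExp h c g) (hc' : h77_IsQExp h c' g) : c = c' := by
  have := (hc.sub hc').congr (g' := fun _ => 0) (fun τ => sub_self _)
  exact sub_eq_zero.mp (h77_IsQExp.eq_zero hh this)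

/-- A function with a convergent `q`-expansion is holomorphic on the upper half plane. -/
lemma h77_IsQExp.mdifferentiable {h : ℝ} (hh : 0 < h) {c : LaurentSeries ℂ} {g : ℍ → ℂ}
    (hc : h77_IsQExp h c g) : MDiff g := by
  obtain ⟨N, p, rfl⟩ := h77_exists_single_mul c
  rw [h77_isQExp_single_mul_iff] at hc
  set G : ℂ → ℂ := fun q => ∑' n : ℕ, p.coeff n * q ^ n with hG
  have hPS : h77_IsPS p G := h77_isPS_tsum_of_forall hh hc
  have hval : ∀ τ : ℍ, g τ = G (𝕢 h τ) * 𝕢 h τ ^ N := by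
    intro τ
    have hq : 𝕢 h (τ : ℂ) ≠ 0 := Function.Periodic.qParam_ne_zero _
    have h1 : G (𝕢 h τ) = g τ * 𝕢 h τ ^ (-N) := (hc τ).tsum_eq
    rw [h1, mul_assoc, ← zpow_add₀ hq, neg_add_cancel, zpow_zero, mul_one]
  rw [UpperHalfPlane.mdifferentiable_iff]
  have hd : DifferentiableOn ℂ (fun z : ℂ => G (𝕢 h z) * 𝕢 h z ^ N) {z : ℂ | 0 < z.im} := by
    intro z hz
    have hq : 𝕢 h z ≠ 0 := Function.Periodic.qParam_ne_zero _
    have hq1 : 𝕢 h z ∈ Metric.ball (0 : ℂ) 1 := by
      simpa using Function.Periodic.norm_qParam_lt_one hh hz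
    have hGd : DifferentiableAt ℂ G (𝕢 h z) :=
      hPS.differentiableOn.differentiableAt (Metric.isOpen_ball.mem_nhds hq1)
    have hqd : DifferentiableAt ℂ (𝕢 h) z := Function.Periodic.differentiable_qParam.differentiableAt
    have h1 : DifferentiableAt ℂ (fun z : ℂ => G (𝕢 h z)) z := hGd.comp z hqd
    have h2 : DifferentiableAt ℂ (fun z : ℂ => 𝕢 h z ^ N) z := hqd.zpow (Or.inl hq)
    exact (h1.mul h2).differentiableWithinAt
  refine hd.congr fun z hz => ?_
  simp only [Function.comp_apply]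
  rw [hval, UpperHalfPlane.ofComplex_apply_of_im_pos hz]

/-! ### The expansion of `j` -/

lemma h77_coeffMap_ofPowerSeries {R S : Type*} [CommRing R] [CommRing S] (f : R →+* S)
    (p : PowerSeries R) :
    ModularCurve.coeffMap f (HahnSeries.ofPowerSeries ℤ R p) =
      HahnSeries.ofPowerSeries ℤ S (p.map f) := by
  ext k
  rw [ModularCurve.coeffMap_coeff]
  by_cases hk : 0 ≤ k
  · obtain ⟨n, rfl⟩ := Int.eq_ofNat_of_zero_le hk
    rw [HahnSeries.ofPowerSeries_apply_coeff, HahnSeries.ofPowerSeries_apply_coeff,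
      PowerSeries.coeff_map]
  · rw [ModularCurve.ofPowerSeries_coeff_of_neg _ (by omega),
      ModularCurve.ofPowerSeries_coeff_of_neg _ (by omega), map_zero]

lemma h77_coeffMap_jq :
    ModularCurve.coeffMap (algebraMap ℚ ℂ) ModularCurve.jq =
      HahnSeries.single (-1 : ℤ) (1 : ℂ) * HahnSeries.ofPowerSeries ℤ ℂ (h77_cast ModularCurve.jNum) := by
  rw [ModularCurve.jq, map_mul, ModularCurve.coeffMap_single, map_one, h77_coeffMap_ofPowerSeries]
  congr 2

/-- The prelude's formal `j` is the `q`-expansion of the analytic `j`-function. -/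
theorem h77_isQExp_jq :
    h77_IsQExp 1 (ModularCurve.coeffMap (algebraMap ℚ ℂ) ModularCurve.jq) h77_j := by
  rw [h77_coeffMap_jq, h77_isQExp_single_mul_iff]
  intro τ
  have := h77_hasSum_jNum τ
  simpa using this

/-! ### Rescaling the parameter -/

lemma h77_hasSum_qExpand_iff (d : ℕ) [NeZero d] (c : LaurentSeries ℂ) (q a : ℂ) :
    HasSum (fun m : ℤ => (ModularCurve.qExpand ℂ d c).coeff m * q ^ m) a ↔
      HasSum (fun k : ℤ => c.coeff k * (q ^ d) ^ k) a := by
  have hinj : Function.Injective (fun k : ℤ => (d : ℤ) * k) :=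
    mul_right_injective₀ (by exact_mod_cast NeZero.ne d)
  have hsupp : ∀ m : ℤ, m ∉ Set.range (fun k : ℤ => (d : ℤ) * k) →
      (ModularCurve.qExpand ℂ d c).coeff m * q ^ m = 0 := by
    intro m hm
    rw [ModularCurve.qExpand_coeff_of_not_dvd d c (fun ⟨k, hk⟩ => hm ⟨k, hk.symm⟩), zero_mul]
  rw [← hinj.hasSum_iff hsupp]
  have : ((fun m : ℤ => (ModularCurve.qExpand ℂ d c).coeff m * q ^ m) ∘ fun k : ℤ => (d : ℤ) * k) =
      fun k : ℤ => c.coeff k * (q ^ d) ^ k := by
    funext k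
    simp only [Function.comp_apply]
    rw [ModularCurve.qExpand_coeff_mul, zpow_mul, zpow_natCast]
  rw [this]

lemma h77_qParam_pow (d : ℕ) [NeZero d] (h : ℝ) (z : ℂ) : 𝕢 ((d : ℝ) * h) z ^ d = 𝕢 h z := by
  have hd : (d : ℂ) ≠ 0 := by exact_mod_cast NeZero.ne d
  rw [Function.Periodic.qParam, Function.Periodic.qParam, ← Complex.exp_nat_mul]
  congr 1
  push_cast
  rw [← mul_div_assoc, mul_div_mul_left _ _ hd]

lemma h77_qParam_mul (d : ℕ) (h : ℝ) (z : ℂ) : 𝕢 h ((d : ℂ) * z) = 𝕢 h z ^ d := by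
  rw [Function.Periodic.qParam, Function.Periodic.qParam, ← Complex.exp_nat_mul]
  congr 1
  ring

/-- Passing from the parameter `q_h` to `q_{dh}` (e.g. to `q^{1/N}`-expansions). -/
lemma h77_IsQExp.qExpand_width {h : ℝ} {c : LaurentSeries ℂ} {g : ℍ → ℂ} (d : ℕ) [NeZero d]
    (hg : h77_IsQExp h c g) : h77_IsQExp ((d : ℝ) * h) (ModularCurve.qExpand ℂ d c) g := by
  intro τ
  rw [h77_hasSum_qExpand_iff, h77_qParam_pow]
  exact hg τ

lemma h77_coe_ofComplex_mul (d : ℕ) [NeZero d] (τ : ℍ) :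
    ((ofComplex ((d : ℂ) * τ) : ℍ) : ℂ) = (d : ℂ) * τ := by
  have hd : 0 < (d : ℝ) := by exact_mod_cast Nat.pos_of_ne_zero (NeZero.ne d)
  have him : 0 < ((d : ℂ) * (τ : ℂ)).im := by
    have : ((d : ℂ) * (τ : ℂ)).im = (d : ℝ) * τ.im := by simp
    rw [this]
    exact mul_pos hd τ.im_pos
  rw [UpperHalfPlane.ofComplex_apply_of_im_pos him]

/-- The expansion of `τ ↦ g (d τ)`. -/
lemma h77_IsQExp.comp_mul {h : ℝ} {c : LaurentSeries ℂ} {g : ℍ → ℂ} (d : ℕ) [NeZero d]
    (hg : h77_IsQExp h c g) :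
    h77_IsQExp h (ModularCurve.qExpand ℂ d c) (fun τ => g (ofComplex ((d : ℂ) * τ))) := by
  intro τ
  rw [h77_hasSum_qExpand_iff, ← h77_qParam_mul, ← h77_coe_ofComplex_mul]
  exact hg _

/-- The expansions of the functions `j (d τ)`. -/
theorem h77_isQExp_jqd (d : ℕ) [NeZero d] :
    h77_IsQExp 1 (ModularCurve.coeffMap (algebraMap ℚ ℂ) (ModularCurve.qExpand ℚ d ModularCurve.jq))
      (fun τ => h77_j (ofComplex ((d : ℂ) * τ))) := by
  rw [ModularCurve.coeffMap_qExpand]
  exact h77_isQExp_jq.comp_mul d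

/-! ## Part III: the packaged ring homomorphism -/

section Package

variable {K : Type*} [Field K] (ι : K →+* ℂ)

/-- Laurent series over `K` which, after applying `ι` to the coefficients, converge on the
punctured unit disc. -/
def h77_convAlg : Subalgebra K (LaurentSeries K) where
  carrier := {f | ∃ g : ℍ → ℂ, h77_IsQExp 1 (ModularCurve.coeffMap ι f) g}
  mul_mem' := by
    rintro f f' ⟨g, hg⟩ ⟨g', hg'⟩
    exact ⟨_, by rw [map_mul]; exact hg.mul hg'⟩
  add_mem' := by
    rintro f f' ⟨g, hg⟩ ⟨g', hg'⟩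
    exact ⟨_, by rw [map_add]; exact hg.add hg'⟩
  algebraMap_mem' := by
    intro a
    refine ⟨fun _ => ι a, ?_⟩
    rw [ModularCurve.algebraMap_laurentSeries_eq_single, ModularCurve.coeffMap_single]
    have := h77_isQExp_single 1 0 (ι a)
    simpa using this

lemma h77_mem_convAlg {f : LaurentSeries K} :
    f ∈ h77_convAlg ι ↔ ∃ g : ℍ → ℂ, h77_IsQExp 1 (ModularCurve.coeffMap ι f) g := Iff.rfl

/-- The function on the upper half plane attached to a convergent Laurent series. -/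
def h77_fn (f : h77_convAlg ι) : ℍ → ℂ := f.2.choose

lemma h77_fn_spec (f : h77_convAlg ι) :
    h77_IsQExp 1 (ModularCurve.coeffMap ι (f : LaurentSeries K)) (h77_fn ι f) := f.2.choose_spec

lemma h77_fn_eq {f : h77_convAlg ι} {g : ℍ → ℂ}
    (hg : h77_IsQExp 1 (ModularCurve.coeffMap ι (f : LaurentSeries K)) g) : h77_fn ι f = g :=
  (h77_fn_spec ι f).unique_fun hg

/-- The ring homomorphism from convergent Laurent series to functions on the upper half plane. -/
def h77_toFun : h77_convAlg ι →+* (ℍ → ℂ) where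
  toFun := h77_fn ι
  map_one' := h77_fn_eq ι (by
    rw [OneMemClass.coe_one, map_one]; exact h77_isQExp_one 1)
  map_mul' f f' := h77_fn_eq ι (by
    rw [MulMemClass.coe_mul, map_mul]; exact (h77_fn_spec ι f).mul (h77_fn_spec ι f'))
  map_zero' := h77_fn_eq ι (by
    rw [ZeroMemClass.coe_zero, map_zero]; exact h77_isQExp_zero 1)
  map_add' f f' := h77_fn_eq ι (by
    rw [AddMemClass.coe_add, map_add]; exact (h77_fn_spec ι f).add (h77_fn_spec ι f'))

lemma h77_toFun_spec (f : h77_convAlg ι) :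
    h77_IsQExp 1 (ModularCurve.coeffMap ι (f : LaurentSeries K)) (h77_toFun ι f) :=
  h77_fn_spec ι f

lemma h77_toFun_eq {f : h77_convAlg ι} {g : ℍ → ℂ}
    (hg : h77_IsQExp 1 (ModularCurve.coeffMap ι (f : LaurentSeries K)) g) : h77_toFun ι f = g :=
  h77_fn_eq ι hg

lemma h77_toFun_algebraMap (a : K) :
    h77_toFun ι (algebraMap K (h77_convAlg ι) a) = fun _ => ι a := by
  refine h77_toFun_eq ι ?_
  have h1 : ((algebraMap K (h77_convAlg ι) a : h77_convAlg ι) : LaurentSeries K) =
      algebraMap K (LaurentSeries K) a := rfl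
  rw [h1, ModularCurve.algebraMap_laurentSeries_eq_single, ModularCurve.coeffMap_single]
  have := h77_isQExp_single 1 0 (ι a)
  simpa using this

lemma h77_toFun_mdiff (f : h77_convAlg ι) : MDiff (h77_toFun ι f) :=
  (h77_toFun_spec ι f).mdifferentiable one_pos

lemma h77_coeffMap_injective : Function.Injective (ModularCurve.coeffMap ι : LaurentSeries K → _) := by
  intro x y hxy
  ext k
  have := congrArg (fun z : LaurentSeries ℂ => z.coeff k) hxy
  simp only [ModularCurve.coeffMap_coeff] at this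
  exact ι.injective this

lemma h77_toFun_injective : Function.Injective (h77_toFun ι) := by
  intro f f' hff
  have h1 := h77_toFun_spec ι f
  have h2 := h77_toFun_spec ι f'
  rw [hff] at h1
  exact Subtype.ext (h77_coeffMap_injective ι (h1.unique one_pos h2))

variable [Algebra ℚ K]

lemma h77_coeffMap_coeffEmb (x : LaurentSeries ℚ) :
    ModularCurve.coeffMap ι (ModularCurve.coeffEmb K x) =
      ModularCurve.coeffMap (algebraMap ℚ ℂ) x := by
  rw [ModularCurve.coeffEmb, ModularCurve.coeffMap_coeffMap]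
  exact ModularCurve.coeffMap_congr (Subsingleton.elim _ _) x

lemma h77_jqd_mem (d : ℕ) [NeZero d] :
    ModularCurve.coeffEmb K (ModularCurve.qExpand ℚ d ModularCurve.jq) ∈ h77_convAlg ι :=
  ⟨_, by rw [h77_coeffMap_coeffEmb]; exact h77_isQExp_jqd d⟩

lemma h77_toFun_jqd (d : ℕ) [NeZero d] :
    h77_toFun ι ⟨ModularCurve.coeffEmb K (ModularCurve.qExpand ℚ d ModularCurve.jq),
      h77_jqd_mem ι d⟩ = fun τ : ℍ => h77_j (ofComplex ((d : ℂ) * τ)) :=
  h77_toFun_eq ι (by rw [h77_coeffMap_coeffEmb]; exact h77_isQExp_jqd d)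

/-- The `K`-algebra generated by the formal `j (q^d)`, `d ∣ N`, consists of convergent series. -/
theorem h77_adjoin_le (N : ℕ) :
    Algebra.adjoin K (⇑(ModularCurve.coeffEmb K) '' ModularCurve.divisorExpansions N) ≤
      h77_convAlg ι := by
  refine Algebra.adjoin_le ?_
  rintro _ ⟨x, ⟨d, hd, -, rfl⟩, rfl⟩
  have := hd
  exact h77_jqd_mem ι d

end Package

/-! ## Part IV: the function field as an adjunction of the generators -/

/-- Base change of an adjoined field is the adjunction of the base-changed generators. -/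
theorem h77_laurentBaseChange_adjoin (L : Type*) [Field L] [Algebra ℚ L]
    (S : Set (LaurentSeries ℚ)) :
    ModularCurve.laurentBaseChange L (IntermediateField.adjoin ℚ S) =
      IntermediateField.adjoin L (⇑(ModularCurve.coeffEmb L) '' S) := by
  apply le_antisymm
  · rw [ModularCurve.laurentBaseChange, IntermediateField.adjoin_le_iff]
    rintro _ ⟨x, hx, rfl⟩
    -- the set of `x` whose base change lies in the right hand side is a subfield containing `S`
    let T : Subfield (LaurentSeries ℚ) :=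
      (IntermediateField.adjoin L (⇑(ModularCurve.coeffEmb L) '' S)).toSubfield.comap
        (ModularCurve.coeffEmb L)
    have hT : (IntermediateField.adjoin ℚ S).toSubfield ≤ T := by
      rw [IntermediateField.adjoin, Subfield.closure_le]
      rintro y (⟨r, rfl⟩ | hy)
      · show ModularCurve.coeffEmb L (algebraMap ℚ (LaurentSeries ℚ) r) ∈
          IntermediateField.adjoin L (⇑(ModularCurve.coeffEmb L) '' S)
        have : ModularCurve.coeffEmb L (algebraMap ℚ (LaurentSeries ℚ) r) =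
            algebraMap L (LaurentSeries L) (algebraMap ℚ L r) := by
          rw [ModularCurve.algebraMap_laurentSeries_eq_single,
            ModularCurve.algebraMap_laurentSeries_eq_single, ModularCurve.coeffEmb,
            ModularCurve.coeffMap_single]
        rw [this]
        exact IntermediateField.algebraMap_mem _ _
      · exact IntermediateField.subset_adjoin L _ ⟨y, hy, rfl⟩
    exact hT hx
  · refine IntermediateField.adjoin.mono L _ _ (Set.image_mono ?_)
    exact IntermediateField.subset_adjoin ℚ S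

/-- The prelude's function field of `X₀(N)` over `L` is generated by the formal `j (q^d)`. -/
theorem h77_laurentBaseChange_full (L : Type*) [Field L] [Algebra ℚ L] (N : ℕ) :
    ModularCurve.laurentBaseChange L (ModularCurve.modularFunctionFieldFull N) =
      IntermediateField.adjoin L (⇑(ModularCurve.coeffEmb L) '' ModularCurve.divisorExpansions N) :=
  h77_laurentBaseChange_adjoin L _

end

end Fermat.Agent.S24
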