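import Mathlib
import Fermat.Agent.S24.h59_Inv
import Fermat.Agent.S24.h77_QBridge

set_option autoImplicit false

namespace Fermat.Agent.S24

open UpperHalfPlane ModularForm EisensteinSeries
open scoped MatrixGroups Manifold

/-- A power series expansion in `q_h` is a Laurent expansion. -/
theorem h59_isQExp_ofPowerSeries {h : ℝ} (p : PowerSeries ℂ) (g : ℍ → ℂ) :
    h77_IsQExp h (HahnSeries.ofPowerSeries ℤ ℂ p) g ↔
      ∀ τ : ℍ, HasSum (fun n : ℕ => p.coeff n * Function.Periodic.qParam h τ ^ n) (g τ) := by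
  have := h77_isQExp_single_mul_iff (h := h) 0 p g
  simpa using this

theorem h59_laurent_coeff_mul_eq_zero {x y : LaurentSeries ℂ} {a b : ℤ}
    (hx : ∀ k < a, x.coeff k = 0) (hy : ∀ k < b, y.coeff k = 0) :
    ∀ k < a + b, (x * y).coeff k = 0 := by
  intro k hk
  rw [HahnSeries.coeff_mul]
  apply Finset.sum_eq_zero
  intro ij hij
  rw [Finset.mem_antidiagonal] at hij
  obtain ⟨-, -, h3⟩ := hij
  by_cases h : ij.1 < a
  · rw [hx _ h, zero_mul]
  · have : ij.2 < b := by omega
    rw [hy _ this, mul_zero]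

theorem h59_laurent_coeff_pow_eq_zero {x : LaurentSeries ℂ} (hx : ∀ k < (1 : ℤ), x.coeff k = 0)
    (m : ℕ) : ∀ k < (m : ℤ), (x ^ m).coeff k = 0 := by
  induction m with
  | zero =>
    intro k hk
    rw [pow_zero, HahnSeries.coeff_one, if_neg]
    simp only [Nat.cast_zero] at hk
    omega
  | succ m ih =>
    intro k hk
    rw [pow_succ]
    exact h59_laurent_coeff_mul_eq_zero ih hx k (by push_cast at hk ⊢; exact hk)

theorem h59_laurent_mul_coeff_mem (A : Subfield ℂ) {x y : LaurentSeries ℂ}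
    (hx : ∀ k, x.coeff k ∈ A) (hy : ∀ k, y.coeff k ∈ A) (k : ℤ) : (x * y).coeff k ∈ A := by
  rw [HahnSeries.coeff_mul]
  exact Subfield.sum_mem A fun ij _ => A.mul_mem (hx _) (hy _)

theorem h59_laurent_pow_coeff_mem (A : Subfield ℂ) {x : LaurentSeries ℂ}
    (hx : ∀ k, x.coeff k ∈ A) (m : ℕ) : ∀ k, (x ^ m).coeff k ∈ A := by
  induction m with
  | zero =>
    intro k
    rw [pow_zero, HahnSeries.coeff_one]
    split_ifs
    · exact A.one_mem
    · exact A.zero_mem
  | succ m ih =>
    intro k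
    rw [pow_succ]
    exact h59_laurent_mul_coeff_mem A ih hx k

/-- Polynomial expressions in a function with a `q_h`-expansion have the corresponding
expansion. -/
theorem h59_isQExp_aeval {h : ℝ} {cj : LaurentSeries ℂ} {f : ℍ → ℂ} (hcj : h77_IsQExp h cj f)
    (P : Polynomial ℂ) :
    h77_IsQExp h (Polynomial.aeval cj P) (fun τ => P.eval (f τ)) := by
  induction P using Polynomial.induction_on' with
  | add p q hp hq =>
    have := hp.add hq
    simpa [Polynomial.eval_add, map_add] using this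
  | monomial n a =>
    have := (h77_isQExp_C h a).mul (hcj.pow n)
    rw [Polynomial.aeval_monomial, ModularCurve.algebraMap_laurentSeries_eq_single,
      ← HahnSeries.C_apply]
    simpa [Polynomial.eval_monomial] using this

/-- The `q`-expansion of `Δ` as a Laurent expansion. -/
theorem h59_isQExp_discriminant :
    h77_IsQExp 1 (HahnSeries.ofPowerSeries ℤ ℂ (qExpansion 1 ModularForm.discriminant))
      ModularForm.discriminant := by
  rw [h59_isQExp_ofPowerSeries]
  intro τ
  exact ModularForm.hasSum_qExpansion CuspForm.discriminant one_pos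
    one_mem_strictPeriods_SL τ

/-- **Invariants are polynomials in `j`, in the language of convergent Laurent expansions.**
If the `SL(2, ℤ)`-invariant function `g` has the `q`-expansion `c`, with coefficients in the
subfield `A`, then `c` is a polynomial in the `q`-expansion `cj` of `j`, with coefficients
in `A`. -/
theorem h59_isQExp_invariant (A : Subfield ℂ) (c cj : LaurentSeries ℂ) (g : ℍ → ℂ)
    (hc : h77_IsQExp 1 c g) (hcj : h77_IsQExp 1 cj h77_j)
    (hinv : ∀ (γ : SL(2, ℤ)) (τ : ℍ), g (γ • τ) = g τ) (hA : ∀ k, c.coeff k ∈ A) :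
    ∃ P : Polynomial ℂ, (∀ i, P.coeff i ∈ A) ∧ c = Polynomial.aeval cj P ∧
      ∀ τ : ℍ, g τ = P.eval (h77_j τ) := by
  set m : ℕ := (-c.order).toNat with hm
  have hm' : -(m : ℤ) ≤ c.order := by
    have := Int.self_le_toNat (-c.order)
    omega
  set d : LaurentSeries ℂ :=
    HahnSeries.ofPowerSeries ℤ ℂ (qExpansion 1 ModularForm.discriminant) with hd
  have hdexp : h77_IsQExp 1 d ModularForm.discriminant := h59_isQExp_discriminant
  have hd0 : (qExpansion 1 ModularForm.discriminant).coeff 0 = 0 := by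
    have h := CuspFormClass.qExpansion_coeff_zero CuspForm.discriminant one_pos
      one_mem_strictPeriods_SL
    simpa using h
  have hdlb : ∀ k < (1 : ℤ), d.coeff k = 0 := by
    intro k hk
    have hk0 : k ≤ 0 := by omega
    rcases lt_or_eq_of_le hk0 with hk' | hk'
    · exact ModularCurve.ofPowerSeries_coeff_of_neg _ hk'
    · subst hk'
      rw [hd, show (0 : ℤ) = ((0 : ℕ) : ℤ) from rfl, HahnSeries.ofPowerSeries_apply_coeff, hd0]
  have hdA : ∀ k, d.coeff k ∈ A := by
    intro k
    by_cases hk : 0 ≤ k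
    · obtain ⟨n, rfl⟩ := Int.eq_ofNat_of_zero_le hk
      rw [hd, HahnSeries.ofPowerSeries_apply_coeff]
      exact h59_discriminant_coeff_mem A n
    · rw [hd, ModularCurve.ofPowerSeries_coeff_of_neg _ (by omega)]
      exact A.zero_mem
  set s : LaurentSeries ℂ := d ^ m * c with hs
  have hsexp : h77_IsQExp 1 s (fun τ => ModularForm.discriminant τ ^ m * g τ) :=
    (hdexp.pow m).mul hc
  have hclb : ∀ k < -(m : ℤ), c.coeff k = 0 := fun k hk =>
    HahnSeries.coeff_eq_zero_of_lt_order (lt_of_lt_of_le hk hm')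
  have hs0 : ∀ k < (0 : ℤ), s.coeff k = 0 := by
    intro k hk
    exact h59_laurent_coeff_mul_eq_zero (h59_laurent_coeff_pow_eq_zero hdlb m) hclb k (by omega)
  have hsA : ∀ k, s.coeff k ∈ A :=
    h59_laurent_mul_coeff_mem A (h59_laurent_pow_coeff_mem A hdA m) hA
  set p : PowerSeries ℂ := PowerSeries.mk (fun n : ℕ => s.coeff (n : ℤ)) with hp
  have hsp : s = HahnSeries.ofPowerSeries ℤ ℂ p := by
    ext k
    by_cases hk : 0 ≤ k
    · obtain ⟨n, rfl⟩ := Int.eq_ofNat_of_zero_le hk
      rw [HahnSeries.ofPowerSeries_apply_coeff, hp, PowerSeries.coeff_mk]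
    · rw [ModularCurve.ofPowerSeries_coeff_of_neg _ (by omega), hs0 k (by omega)]
  have hsum : ∀ τ : ℍ, HasSum (fun n : ℕ => p.coeff n * Function.Periodic.qParam 1 τ ^ n)
      (ModularForm.discriminant τ ^ m * g τ) := by
    rw [hsp] at hsexp
    exact (h59_isQExp_ofPowerSeries p _).1 hsexp
  have hsum' : ∀ τ : ℍ, HasSum (fun n : ℕ => (fun n => p.coeff n) n •
      Function.Periodic.qParam 1 τ ^ n) (ModularForm.discriminant τ ^ m * g τ) := by
    intro τ
    simpa [smul_eq_mul] using hsum τ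
  have hb : IsBoundedAtImInfty (fun τ : ℍ => ModularForm.discriminant τ ^ m * g τ) :=
    isBoundedAtImInfty_of_hasSum_qExpansion one_pos hsum'
  have hg : MDiff g := hc.mdifferentiable one_pos
  have hcoef : ∀ n, (qExpansion 1
      (fun τ : ℍ => ModularForm.discriminant τ ^ m * g τ)).coeff n ∈ A := by
    intro n
    have := ModularFormClass.qExpansion_coeff_unique one_pos one_mem_strictPeriods_SL
      (f := h59_formOf g hg hinv m hb) (c := fun n => p.coeff n) hsum' n
    have h2 : (qExpansion 1 (fun τ : ℍ => ModularForm.discriminant τ ^ m * g τ)).coeff n =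
        p.coeff n := this.symm
    rw [h2, hp, PowerSeries.coeff_mk]
    exact hsA _
  obtain ⟨P, -, hPA, hP⟩ := h59_invariant_eq_poly_of_coeff A g hg hinv m hb hcoef
  refine ⟨P, hPA, ?_, hP⟩
  have hPexp : h77_IsQExp 1 (Polynomial.aeval cj P) (fun τ => P.eval (h77_j τ)) :=
    h59_isQExp_aeval hcj P
  exact hc.unique one_pos (hPexp.congr (fun τ => (hP τ).symm))


/-- Version of `h59_isQExp_invariant` for the prelude's formal `j`. -/
theorem h59_isQExp_invariant_jq (A : Subfield ℂ) (c : LaurentSeries ℂ) (g : ℍ → ℂ)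
    (hc : h77_IsQExp 1 c g)
    (hinv : ∀ (γ : SL(2, ℤ)) (τ : ℍ), g (γ • τ) = g τ) (hA : ∀ k, c.coeff k ∈ A) :
    ∃ P : Polynomial ℂ, (∀ i, P.coeff i ∈ A) ∧
      c = Polynomial.aeval (ModularCurve.coeffMap (algebraMap ℚ ℂ) ModularCurve.jq) P ∧
      ∀ τ : ℍ, g τ = P.eval (h77_j τ) :=
  h59_isQExp_invariant A c _ g hc h77_isQExp_jq hinv hA

theorem h59_coeffMap_algebraMap {K : Type*} [Field K] (ι : K →+* ℂ) (a : K) :
    ModularCurve.coeffMap ι (algebraMap K (LaurentSeries K) a) =
      algebraMap ℂ (LaurentSeries ℂ) (ι a) := by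
  rw [ModularCurve.algebraMap_laurentSeries_eq_single,
    ModularCurve.algebraMap_laurentSeries_eq_single, ModularCurve.coeffMap_single]

/-- `coeffMap ι` commutes with polynomial evaluation. -/
theorem h59_coeffMap_aeval {K : Type*} [Field K] (ι : K →+* ℂ) (x : LaurentSeries K)
    (P : Polynomial K) :
    ModularCurve.coeffMap ι (Polynomial.aeval x P) =
      Polynomial.aeval (ModularCurve.coeffMap ι x) (P.map ι) := by
  rw [Polynomial.aeval_def, Polynomial.aeval_def, Polynomial.hom_eval₂, Polynomial.eval₂_map]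
  congr 1
  ext a
  exact congrArg (fun z : LaurentSeries ℂ => z.coeff _) (h59_coeffMap_algebraMap ι a)

/-- **Invariants are polynomials in `j` over `K`.** If `c` is a Laurent series over the field
`K` whose image under `ι : K →+* ℂ` is the `q`-expansion of an `SL(2, ℤ)`-invariant function,
then `c` is a polynomial over `K` in the formal `j`. -/
theorem h59_isQExp_invariant_K {K : Type*} [Field K] [Algebra ℚ K] (ι : K →+* ℂ)
    (c : LaurentSeries K) (g : ℍ → ℂ)
    (hc : h77_IsQExp 1 (ModularCurve.coeffMap ι c) g)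
    (hinv : ∀ (γ : SL(2, ℤ)) (τ : ℍ), g (γ • τ) = g τ) :
    ∃ P : Polynomial K,
      c = Polynomial.aeval (ModularCurve.coeffEmb K ModularCurve.jq) P ∧
      ∀ τ : ℍ, g τ = (P.map ι).eval (h77_j τ) := by
  obtain ⟨P₀, hP₀, hc₀, hg₀⟩ := h59_isQExp_invariant_jq ι.fieldRange _ g hc hinv
    (fun k => by rw [ModularCurve.coeffMap_coeff]; exact ⟨_, rfl⟩)
  have hlift : P₀ ∈ Polynomial.lifts ι := by
    rw [Polynomial.lifts_iff_coeff_lifts]
    intro n
    exact hP₀ n
  obtain ⟨P, rfl⟩ := (Polynomial.mem_lifts _).1 hlift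
  refine ⟨P, ?_, hg₀⟩
  apply h77_coeffMap_injective ι
  rw [hc₀, h59_coeffMap_aeval, h77_coeffMap_coeffEmb]

end Fermat.Agent.S24
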