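import Mathlib

set_option autoImplicit false

open scoped MatrixGroups ModularForm
open UpperHalfPlane Matrix Filter Topology CongruenceSubgroup

namespace Fermat.Agent.S24


/-- Hermite reduction of `[[d,0],[0,1]] * γ`. -/
theorem h64_hermite (d : ℕ) (hd : 0 < d) (γ : SL(2, ℤ)) :
    ∃ (γ' : SL(2, ℤ)) (A D : ℕ) (B : ℤ), A * D = d ∧ 0 < A ∧ 0 < D ∧
      (A : ℤ) = Int.gcd d (γ 1 0) ∧ 0 ≤ B ∧ B < D ∧
      !![(d : ℤ), 0; 0, 1] * (γ : Matrix (Fin 2) (Fin 2) ℤ)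
        = (γ' : Matrix (Fin 2) (Fin 2) ℤ) * !![(A : ℤ), B; 0, D] := by
  obtain ⟨a, b, c, e, hγ⟩ : ∃ a b c e : ℤ, a = γ 0 0 ∧ b = γ 0 1 ∧ c = γ 1 0 ∧ e = γ 1 1 :=
    ⟨_, _, _, _, rfl, rfl, rfl, rfl⟩
  obtain ⟨ha, hb, hc, he⟩ := hγ
  have hdet : a * e - b * c = 1 := by
    have := γ.det_coe
    rw [Matrix.det_fin_two] at this
    rw [ha, hb, hc, he]; exact this
  obtain ⟨A, hA⟩ : ∃ A : ℕ, A = Int.gcd d c := ⟨_, rfl⟩
  have hApos : 0 < A := by
    rw [hA]; exact Int.gcd_pos_of_ne_zero_left _ (by exact_mod_cast hd.ne')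
  have hAd : (A : ℤ) ∣ (d : ℤ) := by rw [hA]; exact Int.gcd_dvd_left _ _
  have hAc : (A : ℤ) ∣ c := by rw [hA]; exact Int.gcd_dvd_right _ _
  obtain ⟨D', hD'⟩ := hAd
  obtain ⟨c', hc'⟩ := hAc
  have hA0 : (0 : ℤ) < A := by exact_mod_cast hApos
  have hD'pos : 0 < D' := by
    have h1 : (0 : ℤ) < A * D' := by rw [← hD']; exact_mod_cast hd
    exact (mul_pos_iff_of_pos_left hA0).mp h1
  have hcop : Int.gcd c' D' = 1 := by
    have h1 : Int.gcd ((A : ℤ) * D') ((A : ℤ) * c') = A := by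
      rw [← hD', ← hc']; exact hA.symm
    rw [Int.gcd_mul_left] at h1
    simp only [Int.natAbs_natCast] at h1
    have h2 : A * Int.gcd D' c' = A * 1 := by rw [h1, mul_one]
    have h3 := Nat.eq_of_mul_eq_mul_left hApos h2
    rw [Int.gcd_comm]; exact h3
  have hbez : (1 : ℤ) = c' * Int.gcdA c' D' + D' * Int.gcdB c' D' := by
    have := Int.gcd_eq_gcd_ab c' D'
    rw [hcop] at this
    exact_mod_cast this
  obtain ⟨u, hu⟩ : ∃ u : ℤ, u = Int.gcdA c' D' := ⟨_, rfl⟩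
  obtain ⟨v, hv⟩ : ∃ v : ℤ, v = Int.gcdB c' D' := ⟨_, rfl⟩
  rw [← hu, ← hv] at hbez
  obtain ⟨B, hB⟩ : ∃ B : ℤ, B = (e * u) % D' := ⟨_, rfl⟩
  have hB0 : 0 ≤ B := by rw [hB]; exact Int.emod_nonneg _ hD'pos.ne'
  have hBlt : B < D' := by rw [hB]; exact Int.emod_lt_of_pos _ hD'pos
  obtain ⟨k, hk⟩ : ∃ k : ℤ, k = (e * u) / D' := ⟨_, rfl⟩
  have hBk : B = e * u - D' * k := by
    rw [hB, hk]; have := Int.emod_add_mul_ediv (e * u) D'; linarith
  obtain ⟨s, hs⟩ : ∃ s : ℤ, s = e * v + c' * k := ⟨_, rfl⟩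
  have hsD : e - c' * B = D' * s := by
    rw [hBk, hs]
    linear_combination e * hbez
  have hdet' : (D' * a) * s - (A * b - a * B) * c' = 1 := by
    have h1 : (D' * a) * s = a * (e - c' * B) := by rw [hsD]; ring
    rw [h1]
    have : (A : ℤ) * b * c' = b * c := by rw [hc']; ring
    linear_combination hdet - this
  have hDnat : ((D'.toNat : ℕ) : ℤ) = D' := Int.toNat_of_nonneg hD'pos.le
  refine ⟨⟨!![D' * a, A * b - a * B; c', s], ?_⟩, A, D'.toNat, B, ?_, hApos, ?_, ?_, hB0, ?_, ?_⟩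
  · rw [Matrix.det_fin_two_of]; exact hdet'
  · have : ((A * D'.toNat : ℕ) : ℤ) = (d : ℤ) := by
      push_cast; rw [hDnat, hD']
    exact_mod_cast this
  · have : (0 : ℤ) < (D'.toNat : ℤ) := by rw [hDnat]; exact hD'pos
    exact_mod_cast this
  · rw [← hc, hA]
  · rw [hDnat]; exact hBlt
  · rw [hDnat]
    ext i j
    fin_cases i <;> fin_cases j <;>
      simp [Matrix.mul_apply, Fin.sum_univ_two, ← ha, ← hb, ← hc, ← he]
    · rw [hD']; ring
    · rw [hD']; ring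
    · rw [hc']; ring
    · linear_combination hsD

/-- The affine point `(A τ + B) / D` of the upper half plane. -/
noncomputable def h64_aff (A D : ℕ) (B : ℤ) (τ : ℍ) : ℍ :=
  ofComplex (((A : ℂ) * τ + B) / D)

theorem h64_aff_im_pos {A D : ℕ} (B : ℤ) (hA : 0 < A) (hD : 0 < D) (τ : ℍ) :
    0 < ((((A : ℂ) * τ + B) / D) : ℂ).im := by
  have h1 : ((((A : ℂ) * τ + B) / D) : ℂ) = ((((A : ℝ) * (τ : ℂ).re + B) / D : ℝ) : ℂ)
      + (((A : ℝ) * (τ : ℂ).im / D : ℝ) : ℂ) * Complex.I := by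
    have hD' : (D : ℂ) ≠ 0 := by exact_mod_cast hD.ne'
    conv_lhs => rw [← Complex.re_add_im (τ : ℂ)]
    push_cast
    field_simp
    ring
  rw [h1]
  simp only [Complex.add_im, Complex.ofReal_im, Complex.mul_im, Complex.ofReal_re, Complex.I_im,
    Complex.I_re, mul_one, mul_zero, zero_add, add_zero]
  have : 0 < (τ : ℂ).im := τ.im_pos
  positivity

theorem h64_coe_aff {A D : ℕ} (B : ℤ) (hA : 0 < A) (hD : 0 < D) (τ : ℍ) :
    ((h64_aff A D B τ : ℍ) : ℂ) = ((A : ℂ) * τ + B) / D := by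
  rw [h64_aff, ofComplex_apply_of_im_pos (h64_aff_im_pos B hA hD τ)]

/-- Point form of the Hermite reduction. -/
theorem h64_hermite_coe_smul {d : ℕ} {γ γ' : SL(2, ℤ)} {A D : ℕ} {B : ℤ} (hD : 0 < D)
    (h : !![(d : ℤ), 0; 0, 1] * (γ : Matrix (Fin 2) (Fin 2) ℤ)
        = (γ' : Matrix (Fin 2) (Fin 2) ℤ) * !![(A : ℤ), B; 0, D]) (τ τ' : ℍ)
    (hτ' : (τ' : ℂ) = ((A : ℂ) * τ + B) / D) :
    (d : ℂ) * ((γ • τ : ℍ) : ℂ) = ((γ' • τ' : ℍ) : ℂ) := by
  have h00 := congrFun (congrFun h 0) 0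
  have h01 := congrFun (congrFun h 0) 1
  have h10 := congrFun (congrFun h 1) 0
  have h11 := congrFun (congrFun h 1) 1
  simp [Matrix.mul_apply, Fin.sum_univ_two] at h00 h01 h10 h11
  have e00 : (d : ℂ) * (γ 0 0 : ℂ) = (γ' 0 0 : ℂ) * A := by exact_mod_cast h00
  have e01 : (d : ℂ) * (γ 0 1 : ℂ) = (γ' 0 0 : ℂ) * B + (γ' 0 1 : ℂ) * D := by exact_mod_cast h01
  have e10 : (γ 1 0 : ℂ) = (γ' 1 0 : ℂ) * A := by exact_mod_cast h10
  have e11 : (γ 1 1 : ℂ) = (γ' 1 0 : ℂ) * B + (γ' 1 1 : ℂ) * D := by exact_mod_cast h11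
  have hden : (γ 1 0 : ℂ) * (τ : ℂ) + (γ 1 1 : ℂ) ≠ 0 := by
    have := UpperHalfPlane.denom_ne_zero (γ : GL (Fin 2) ℝ) τ
    simpa [UpperHalfPlane.denom] using this
  have hden' : (γ' 1 0 : ℂ) * (τ' : ℂ) + (γ' 1 1 : ℂ) ≠ 0 := by
    have := UpperHalfPlane.denom_ne_zero (γ' : GL (Fin 2) ℝ) τ'
    simpa [UpperHalfPlane.denom] using this
  have hD' : (D : ℂ) ≠ 0 := by exact_mod_cast hD.ne'
  rw [coe_specialLinearGroup_apply, coe_specialLinearGroup_apply]
  simp only [algebraMap_int_eq, eq_intCast, Complex.ofReal_intCast]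
  rw [hτ']
  have k1 : (γ' 1 0 : ℂ) * (((A : ℂ) * τ + B) / D) + (γ' 1 1 : ℂ)
      = ((γ 1 0 : ℂ) * (τ : ℂ) + (γ 1 1 : ℂ)) / D := by
    field_simp
    linear_combination -(τ : ℂ) * e10 - e11
  have k2 : (γ' 0 0 : ℂ) * (((A : ℂ) * τ + B) / D) + (γ' 0 1 : ℂ)
      = ((d : ℂ) * ((γ 0 0 : ℂ) * (τ : ℂ) + (γ 0 1 : ℂ))) / D := by
    field_simp
    linear_combination -(τ : ℂ) * e00 - e01
  rw [k1, k2]
  field_simp

/-- Every conjugate `f (d • γ τ)` of an `SL(2,ℤ)`-invariant function is `f ((A τ + B)/D)`. -/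
theorem h64_conj_eq {f : ℍ → ℂ} (hf : ∀ (γ : SL(2, ℤ)) (τ : ℍ), f (γ • τ) = f τ) {d : ℕ}
    {γ γ' : SL(2, ℤ)} {A D : ℕ} {B : ℤ} (hA : 0 < A) (hD : 0 < D)
    (h : !![(d : ℤ), 0; 0, 1] * (γ : Matrix (Fin 2) (Fin 2) ℤ)
        = (γ' : Matrix (Fin 2) (Fin 2) ℤ) * !![(A : ℤ), B; 0, D]) (τ : ℍ) :
    f (ofComplex ((d : ℂ) * ((γ • τ : ℍ) : ℂ))) = f (h64_aff A D B τ) := by
  rw [h64_hermite_coe_smul hD h τ (h64_aff A D B τ) (h64_coe_aff B hA hD τ), ofComplex_apply, hf]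



/-- Leading term `q⁻¹` at `i∞`. -/
def h64_LeadOne (f : ℍ → ℂ) : Prop :=
  Tendsto (fun τ : ℍ => f τ * Function.Periodic.qParam 1 (τ : ℂ)) atImInfty (𝓝 1)

theorem h64_im_aff {A D : ℕ} (B : ℤ) (hA : 0 < A) (hD : 0 < D) (τ : ℍ) :
    (h64_aff A D B τ).im = A * τ.im / D := by
  have h1 : (h64_aff A D B τ).im = ((h64_aff A D B τ : ℍ) : ℂ).im := rfl
  rw [h1, h64_coe_aff B hA hD τ]
  simp [Complex.div_natCast_im]

theorem h64_tendsto_aff {A D : ℕ} (B : ℤ) (hA : 0 < A) (hD : 0 < D) :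
    Tendsto (h64_aff A D B) atImInfty atImInfty := by
  rw [atImInfty, tendsto_comap_iff]
  have h1 : (im ∘ h64_aff A D B) = (fun y : ℝ => A * y / D) ∘ im := by
    funext τ
    simp [h64_im_aff B hA hD τ]
  rw [h1]
  refine Tendsto.comp ?_ tendsto_comap
  have hA' : (0 : ℝ) < A := by exact_mod_cast hA
  have hD' : (0 : ℝ) < D := by exact_mod_cast hD
  exact (tendsto_id.const_mul_atTop hA').atTop_div_const hD'

theorem h64_aff_ratio {f : ℍ → ℂ} (hlead : h64_LeadOne f) {A D A' D' : ℕ} {B B' : ℤ}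
    (hA : 0 < A) (hD : 0 < D) (hA' : 0 < A') (hD' : 0 < D')
    (h : ∀ τ, f (h64_aff A D B τ) = f (h64_aff A' D' B' τ)) :
    Tendsto (fun τ : ℍ => Function.Periodic.qParam 1 ((h64_aff A' D' B' τ : ℍ) : ℂ) /
      Function.Periodic.qParam 1 ((h64_aff A D B τ : ℍ) : ℂ)) atImInfty (𝓝 1) := by
  have t1 := hlead.comp (h64_tendsto_aff B hA hD)
  have t2 := hlead.comp (h64_tendsto_aff B' hA' hD')
  have t3 := t2.div t1 one_ne_zero
  rw [div_one] at t3
  have hev : ∀ᶠ τ in atImInfty, f (h64_aff A D B τ) ≠ 0 := by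
    have := t1.eventually (Metric.ball_mem_nhds (1 : ℂ) one_pos)
    filter_upwards [this] with τ hτ h0
    simp [h0] at hτ
  refine t3.congr' ?_
  filter_upwards [hev] with τ hτ
  simp only [Pi.div_apply, Function.comp_apply]
  rw [← h τ]
  field_simp

theorem h64_qParam_aff {A D : ℕ} (B : ℤ) (hA : 0 < A) (hD : 0 < D) (τ : ℍ) :
    Function.Periodic.qParam 1 ((h64_aff A D B τ : ℍ) : ℂ)
      = Complex.exp (2 * Real.pi * Complex.I * (((A : ℂ) * τ + B) / D)) := by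
  rw [h64_coe_aff B hA hD τ, Function.Periodic.qParam]
  simp

theorem h64_aff_inj {f : ℍ → ℂ} (hlead : h64_LeadOne f) {A D A' D' : ℕ} {B B' : ℤ}
    (hA : 0 < A) (hD : 0 < D) (hA' : 0 < A') (hD' : 0 < D')
    (h : ∀ τ, f (h64_aff A D B τ) = f (h64_aff A' D' B' τ)) :
    A * D' = A' * D := by
  have t := h64_aff_ratio hlead hA hD hA' hD' h
  have tn := t.norm
  simp only [norm_div, Function.Periodic.norm_qParam, norm_one] at tn
  have him : ∀ τ : ℍ, Real.exp (-2 * Real.pi * ((h64_aff A' D' B' τ : ℍ) : ℂ).im / 1) /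
      Real.exp (-2 * Real.pi * ((h64_aff A D B τ : ℍ) : ℂ).im / 1)
      = Real.exp (2 * Real.pi * ((A : ℝ) / D - (A' : ℝ) / D') * τ.im) := by
    intro τ
    have e1 : ((h64_aff A' D' B' τ : ℍ) : ℂ).im = A' * τ.im / D' := h64_im_aff B' hA' hD' τ
    have e2 : ((h64_aff A D B τ : ℍ) : ℂ).im = A * τ.im / D := h64_im_aff B hA hD τ
    rw [e1, e2, ← Real.exp_sub]
    congr 1
    ring
  simp only [him] at tn
  have hD0 : (0 : ℝ) < D := by exact_mod_cast hD
  have hD0' : (0 : ℝ) < D' := by exact_mod_cast hD'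
  set c : ℝ := 2 * Real.pi * ((A : ℝ) / D - (A' : ℝ) / D') with hc
  have hc0 : c = 0 := by
    by_contra hne
    have hev := tn.eventually (Metric.ball_mem_nhds (1 : ℝ) (by norm_num : (0 : ℝ) < 1 / 2))
    rw [Filter.Eventually, atImInfty_mem] at hev
    obtain ⟨Y, hY⟩ := hev
    rcases lt_or_gt_of_ne hne with hneg | hpos
    · -- c < 0
      set y : ℝ := max (max Y 1) (-1 / c) with hy
      have hy1 : 1 ≤ y := le_trans (le_max_right Y 1) (le_max_left _ _)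
      have hyY : Y ≤ y := le_trans (le_max_left Y 1) (le_max_left _ _)
      have hyc : -1 / c ≤ y := le_max_right _ _
      have hτ := hY ⟨⟨0, y⟩, by simp; linarith⟩ (by simpa using hyY)
      have him2 : (⟨⟨0, y⟩, by simp; linarith⟩ : ℍ).im = y := rfl
      simp only [Set.mem_ofPred_eq, Real.dist_eq] at hτ
      rw [him2] at hτ
      have h1 : c * y ≤ -1 := by
        have := mul_le_mul_of_nonpos_left hyc hneg.le
        rw [mul_div_cancel₀ _ hne] at this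
        linarith
      have h2 : Real.exp (c * y) ≤ Real.exp (-1) := Real.exp_le_exp.mpr h1
      have h3 : Real.exp (-1) < 1 / 2 := by
        rw [Real.exp_neg]
        have := Real.exp_one_gt_d9
        rw [inv_lt_comm₀ (Real.exp_pos 1) (by norm_num)]
        linarith
      have := abs_lt.mp hτ
      linarith [this.1]
    · set y : ℝ := max (max Y 1) (1 / c) with hy
      have hy1 : 1 ≤ y := le_trans (le_max_right Y 1) (le_max_left _ _)
      have hyY : Y ≤ y := le_trans (le_max_left Y 1) (le_max_left _ _)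
      have hyc : 1 / c ≤ y := le_max_right _ _
      have hτ := hY ⟨⟨0, y⟩, by simp; linarith⟩ (by simpa using hyY)
      have him2 : (⟨⟨0, y⟩, by simp; linarith⟩ : ℍ).im = y := rfl
      simp only [Set.mem_ofPred_eq, Real.dist_eq] at hτ
      rw [him2] at hτ
      have h1 : 1 ≤ c * y := by
        have := mul_le_mul_of_nonneg_left hyc hpos.le
        rw [mul_div_cancel₀ _ hne] at this
        linarith
      have h2 : Real.exp 1 ≤ Real.exp (c * y) := Real.exp_le_exp.mpr h1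
      have h3 := Real.exp_one_gt_d9
      have := abs_lt.mp hτ
      linarith [this.2]
  have hpi : (2 * Real.pi) ≠ 0 := by positivity
  have h4 : (A : ℝ) / D - (A' : ℝ) / D' = 0 := by
    rcases mul_eq_zero.mp hc0 with h | h
    · exact absurd h hpi
    · exact h
  have h5 : (A : ℝ) * D' = A' * D := by
    field_simp at h4
    linarith
  exact_mod_cast h5


theorem h64_aff_inj_B {f : ℍ → ℂ} (hlead : h64_LeadOne f) {A D A' D' : ℕ} {B B' : ℤ}
    (hA : 0 < A) (hD : 0 < D) (hA' : 0 < A') (hD' : 0 < D')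
    (h : ∀ τ, f (h64_aff A D B τ) = f (h64_aff A' D' B' τ)) :
    ∃ n : ℤ, (B' : ℝ) / D' - (B : ℝ) / D = n := by
  have hAD := h64_aff_inj hlead hA hD hA' hD' h
  have t := h64_aff_ratio hlead hA hD hA' hD' h
  have hD0 : (D : ℂ) ≠ 0 := by exact_mod_cast hD.ne'
  have hD0' : (D' : ℂ) ≠ 0 := by exact_mod_cast hD'.ne'
  have hADc : (A : ℂ) * D' = A' * D := by exact_mod_cast hAD
  have hconst : ∀ τ : ℍ, Function.Periodic.qParam 1 ((h64_aff A' D' B' τ : ℍ) : ℂ) /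
      Function.Periodic.qParam 1 ((h64_aff A D B τ : ℍ) : ℂ)
      = Complex.exp (2 * Real.pi * Complex.I * ((B' : ℂ) / D' - (B : ℂ) / D)) := by
    intro τ
    rw [h64_qParam_aff B hA hD τ, h64_qParam_aff B' hA' hD' τ, ← Complex.exp_sub]
    congr 1
    field_simp
    linear_combination (-(τ : ℂ)) * hADc
  simp only [hconst] at t
  have h1 := (tendsto_nhds_unique t tendsto_const_nhds).symm
  rw [Complex.exp_eq_one_iff] at h1
  obtain ⟨n, hn⟩ := h1
  refine ⟨n, ?_⟩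
  have hpi : (2 * (Real.pi : ℂ) * Complex.I) ≠ 0 := by
    simp [Real.pi_ne_zero, Complex.I_ne_zero]
  have h2 : (B' : ℂ) / D' - (B : ℂ) / D = n := by
    have : (2 * (Real.pi : ℂ) * Complex.I) * ((B' : ℂ) / D' - (B : ℂ) / D)
        = (2 * (Real.pi : ℂ) * Complex.I) * n := by rw [hn]; ring
    exact mul_left_cancel₀ hpi this
  have h3 : (((B' : ℝ) / D' - (B : ℝ) / D : ℝ) : ℂ) = ((n : ℝ) : ℂ) := by
    push_cast; exact h2
  exact_mod_cast h3

/-- Distinct Hermite triples of the same determinant give distinct conjugates. -/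
theorem h64_aff_inj_full {f : ℍ → ℂ} (hlead : h64_LeadOne f) {A D A' D' : ℕ} {B B' : ℤ}
    (hA : 0 < A) (hD : 0 < D) (hA' : 0 < A') (hD' : 0 < D') (hdet : A * D = A' * D')
    (hB0 : 0 ≤ B) (hB1 : B < D) (hB0' : 0 ≤ B') (hB1' : B' < D')
    (h : ∀ τ, f (h64_aff A D B τ) = f (h64_aff A' D' B' τ)) :
    A = A' ∧ D = D' ∧ B = B' := by
  have hAD := h64_aff_inj hlead hA hD hA' hD' h
  obtain ⟨n, hn⟩ := h64_aff_inj_B hlead hA hD hA' hD' h
  have hAA : A = A' := by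
    have h1 : A * A * (D * D') = A' * A' * (D * D') := by
      calc A * A * (D * D') = (A * D') * (A * D) := by ring
        _ = (A' * D) * (A' * D') := by rw [hAD, hdet]
        _ = A' * A' * (D * D') := by ring
    have h2 : A * A = A' * A' := Nat.eq_of_mul_eq_mul_right (Nat.mul_pos hD hD') h1
    exact Nat.mul_self_inj.mp h2
  subst hAA
  have hDD : D = D' := by
    have : A * D' = A * D := hAD
    exact (Nat.eq_of_mul_eq_mul_left hA this).symm
  subst hDD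
  refine ⟨rfl, rfl, ?_⟩
  have hD0 : (0 : ℝ) < D := by exact_mod_cast hD
  have h1 : (B' : ℝ) - B = n * D := by
    field_simp at hn
    linarith
  have h2 : B' - B = n * D := by exact_mod_cast h1
  have h3 : n = 0 := by
    by_contra hne
    rcases lt_or_gt_of_ne hne with hneg | hpos
    · have : n ≤ -1 := by omega
      have : n * (D : ℤ) ≤ -1 * D := mul_le_mul_of_nonneg_right this (by omega)
      omega
    · have : 1 ≤ n := by omega
      have : 1 * (D : ℤ) ≤ n * D := mul_le_mul_of_nonneg_right this (by omega)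
      omega
  rw [h3, zero_mul] at h2
  omega


/-- `f (N • γ τ) = f (N • τ)` for all `τ` iff `γ ∈ Γ₀(N)`. -/
theorem h64_conj_eq_iff {f : ℍ → ℂ} (hf : ∀ (γ : SL(2, ℤ)) (τ : ℍ), f (γ • τ) = f τ)
    (hlead : h64_LeadOne f) {N : ℕ} (hN : 0 < N) (γ : SL(2, ℤ)) :
    (∀ τ : ℍ, f (ofComplex ((N : ℂ) * ((γ • τ : ℍ) : ℂ))) = f (ofComplex ((N : ℂ) * (τ : ℂ))))
      ↔ (N : ℤ) ∣ γ 1 0 := by
  obtain ⟨γ', A, D, B, hAD, hA, hD, hgcd, hB0, hB1, hmat⟩ := h64_hermite N hN γ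
  have hbase : ∀ τ : ℍ, f (ofComplex ((N : ℂ) * (τ : ℂ))) = f (h64_aff N 1 0 τ) := by
    intro τ
    rw [h64_aff]
    congr 2
    simp
  have hconj : ∀ τ : ℍ, f (ofComplex ((N : ℂ) * ((γ • τ : ℍ) : ℂ))) = f (h64_aff A D B τ) :=
    fun τ => h64_conj_eq hf hA hD hmat τ
  constructor
  · intro h
    have h' : ∀ τ, f (h64_aff A D B τ) = f (h64_aff N 1 0 τ) := fun τ => by
      rw [← hconj, ← hbase]; exact h τ
    have h1 := h64_aff_inj hlead hA hD hN one_pos h'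
    rw [mul_one] at h1
    have hD1 : D = 1 := by
      have h2 : N * (D * D) = N * 1 := by
        calc N * (D * D) = (N * D) * D := by ring
          _ = A * D := by rw [← h1]
          _ = N * 1 := by rw [hAD, mul_one]
      have h3 := Nat.eq_of_mul_eq_mul_left hN h2
      exact Nat.eq_one_of_mul_eq_one_left h3
    subst hD1
    rw [mul_one] at h1
    subst h1
    rw [hgcd]
    exact Int.gcd_dvd_right _ _
  · intro hdvd
    have hAN : A = N := by
      have h1 : Int.gcd (N : ℤ) (γ 1 0) = N := by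
        have := Int.gcd_eq_left (Int.natCast_nonneg N) hdvd
        exact_mod_cast this
      have : (A : ℤ) = (N : ℤ) := by rw [hgcd, h1]
      exact_mod_cast this
    subst hAN
    have hD1 : D = 1 := by
      have : A * D = A * 1 := by rw [hAD, mul_one]
      exact Nat.eq_of_mul_eq_mul_left hA this
    subst hD1
    have hB : B = 0 := by
      have : B < 1 := by exact_mod_cast hB1
      omega
    subst hB
    intro τ
    rw [hconj, hbase]

theorem h64_conj_eq_conj_iff {f : ℍ → ℂ} (hf : ∀ (γ : SL(2, ℤ)) (τ : ℍ), f (γ • τ) = f τ)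
    (hlead : h64_LeadOne f) {N : ℕ} (hN : 0 < N) (γ₁ γ₂ : SL(2, ℤ)) :
    (∀ τ : ℍ, f (ofComplex ((N : ℂ) * ((γ₁ • τ : ℍ) : ℂ)))
        = f (ofComplex ((N : ℂ) * ((γ₂ • τ : ℍ) : ℂ))))
      ↔ (N : ℤ) ∣ (γ₁ * γ₂⁻¹) 1 0 := by
  rw [← h64_conj_eq_iff hf hlead hN (γ₁ * γ₂⁻¹)]
  constructor
  · intro h τ
    have := h (γ₂⁻¹ • τ)
    rwa [smul_inv_smul, ← mul_smul] at this
  · intro h τ
    have := h (γ₂ • τ)
    rwa [mul_smul, inv_smul_smul] at this

theorem h64_conj_eq_conj_iff_mem {f : ℍ → ℂ} (hf : ∀ (γ : SL(2, ℤ)) (τ : ℍ), f (γ • τ) = f τ)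
    (hlead : h64_LeadOne f) {N : ℕ} (hN : 0 < N) (γ₁ γ₂ : SL(2, ℤ)) :
    (∀ τ : ℍ, f (ofComplex ((N : ℂ) * ((γ₁ • τ : ℍ) : ℂ)))
        = f (ofComplex ((N : ℂ) * ((γ₂ • τ : ℍ) : ℂ))))
      ↔ γ₁ * γ₂⁻¹ ∈ CongruenceSubgroup.Gamma0 N := by
  rw [h64_conj_eq_conj_iff hf hlead hN, CongruenceSubgroup.Gamma0_mem,
    ZMod.intCast_zmod_eq_zero_iff_dvd]



theorem h64_jf_smul (γ : SL(2, ℤ)) (τ : ℍ) :
    ModularForm.E₄ (γ • τ) ^ 3 / ModularForm.discriminant (γ • τ)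
      = ModularForm.E₄ τ ^ 3 / ModularForm.discriminant τ := by
  have i4 : SlashInvariantFormClass (ModularForm 𝒮ℒ 4) Γ(1) 4 :=
    Gamma_one_coe_eq_SL ▸ inferInstance
  have i12 : SlashInvariantFormClass (CuspForm 𝒮ℒ 12) Γ(1) 12 :=
    Gamma_one_coe_eq_SL ▸ inferInstance
  have h4 := SlashInvariantForm.slash_action_eqn_SL'' ModularForm.E₄ (mem_Gamma_one γ) τ
  have h12 := SlashInvariantForm.slash_action_eqn_SL'' CuspForm.discriminant (mem_Gamma_one γ) τ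
  rw [CuspForm.coe_discriminant] at h12
  have hd : denom γ τ ≠ 0 := denom_ne_zero _ _
  have hΔ : ModularForm.discriminant τ ≠ 0 := ModularForm.discriminant_ne_zero τ
  generalize denom _ _ = w at h4 h12 hd
  rw [h4, h12]
  have e4 : w ^ (4 : ℤ) = w ^ (4 : ℕ) := zpow_ofNat w 4
  have e12 : w ^ (12 : ℤ) = w ^ (12 : ℕ) := zpow_ofNat w 12
  rw [e4, e12]
  field_simp

theorem h64_tendsto_E4 : Tendsto (fun τ : ℍ => ModularForm.E₄ τ) atImInfty (𝓝 1) := by
  have hcont := (ModularFormClass.analyticAt_cuspFunction_zero ModularForm.E₄ one_pos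
    one_mem_strictPeriods_SL).continuousAt
  have h1 := hcont.tendsto.comp (qParam_tendsto_atImInfty one_pos)
  have h2 : (cuspFunction 1 ModularForm.E₄ ∘ fun τ : ℍ => Function.Periodic.qParam 1 (τ : ℂ))
      = fun τ : ℍ => ModularForm.E₄ τ := by
    funext τ
    exact SlashInvariantFormClass.eq_cuspFunction ModularForm.E₄ τ
      one_mem_strictPeriods_SL one_ne_zero
  have h3 : cuspFunction 1 ModularForm.E₄ 0 = 1 := by
    have := EisensteinSeries.E_qExpansion_coeff_zero (k := 4) (by norm_num) ⟨2, rfl⟩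
    rw [qExpansion_coeff] at this
    simpa using this
  rw [h2, h3] at h1
  exact h1

theorem h64_jf_leadOne :
    h64_LeadOne (fun τ : ℍ => ModularForm.E₄ τ ^ 3 / ModularForm.discriminant τ) := by
  unfold h64_LeadOne
  have h1 := (h64_tendsto_E4.pow 3).div ModularForm.tendsto_atImInfty_tprod_one_sub_eta_q_pow
    one_ne_zero
  simp only [one_pow, div_one] at h1
  refine h1.congr fun τ => ?_
  simp only [Pi.div_apply]
  rw [ModularForm.discriminant_eq_q_prod]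
  have hq : Function.Periodic.qParam 1 (τ : ℂ) ≠ 0 := Function.Periodic.qParam_ne_zero _
  have hΔ := ModularForm.discriminant_ne_zero τ
  rw [ModularForm.discriminant_eq_q_prod] at hΔ
  have hp : (∏' (n : ℕ), (1 - ModularForm.eta_q n (τ : ℂ)) ^ 24) ≠ 0 := right_ne_zero_of_mul hΔ
  field_simp

end Fermat.Agent.S24
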