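import Mathlib
import Fermat.Prelude.Def_ModularCurve_X0
import Fermat.Prelude.Def_ModularCurve_LaurentCoeff
import Fermat.Prelude.Thm_ModularCurve_coeffMap_qExpand
import Fermat.Agent.S24.h64_Conj

set_option autoImplicit false

open scoped MatrixGroups ModularForm
open UpperHalfPlane Matrix Filter Topology

namespace Fermat.Agent.S24

/-- Twist of a Laurent series: the coefficient of index `k` is multiplied by `w ^ k`. -/
noncomputable def h64_twist {L : Type*} [Field L] (w : L) (c : LaurentSeries L) :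
    LaurentSeries L :=
  HahnSeries.ofSuppBddBelow (fun k : ℤ => c.coeff k * w ^ k)
    ⟨c.order, fun m hm => by
      by_contra hlt
      exact hm (by simp [HahnSeries.coeff_eq_zero_of_lt_order (not_le.mp hlt)])⟩

@[simp] theorem h64_twist_coeff {L : Type*} [Field L] (w : L) (c : LaurentSeries L) (k : ℤ) :
    (h64_twist w c).coeff k = c.coeff k * w ^ k := by
  rw [h64_twist]
  exact congrFun HahnSeries.coeff_ofSuppBddBelow k

theorem h64_coeffMap_twist {K L : Type*} [Field K] [Field L] (ι : K →+* L) (w : K)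
    (c : LaurentSeries K) :
    ModularCurve.coeffMap ι (h64_twist w c) = h64_twist (ι w) (ModularCurve.coeffMap ι c) := by
  ext k
  simp [map_zpow₀]

theorem h64_twist_order {L : Type*} [Field L] {w : L} (hw : w ≠ 0) (c : LaurentSeries L) :
    (h64_twist w c).order = c.order := by
  by_cases hc : c = 0
  · subst hc
    have : h64_twist w (0 : LaurentSeries L) = 0 := by
      ext k; simp
    rw [this]
  · have h1 : (h64_twist w c).coeff c.order ≠ 0 := by
      rw [h64_twist_coeff]
      exact mul_ne_zero (fun h0 => hc (HahnSeries.coeff_order_eq_zero.mp h0)) (zpow_ne_zero _ hw)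
    have hne : h64_twist w c ≠ 0 := HahnSeries.ne_zero_of_coeff_ne_zero h1
    have h2 : c.coeff (h64_twist w c).order ≠ 0 := by
      have : (h64_twist w c).coeff (h64_twist w c).order ≠ 0 :=
        fun h0 => hne (HahnSeries.coeff_order_eq_zero.mp h0)
      rw [h64_twist_coeff] at this
      exact left_ne_zero_of_mul this
    exact le_antisymm (HahnSeries.order_le_of_coeff_ne_zero h1)
      (HahnSeries.order_le_of_coeff_ne_zero h2)

/-- Width-`N` expansion of `τ ↦ f ((A τ + B) / D)` from the width-one expansion of `f`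
(`e * D = A * N`). -/
theorem h64_hasSum_aff {c : LaurentSeries ℂ} {f : ℍ → ℂ}
    (hf : ∀ τ : ℍ, HasSum (fun k : ℤ => c.coeff k * Function.Periodic.qParam (1 : ℝ) τ ^ k) (f τ))
    {A D N e : ℕ} [NeZero e] (B : ℤ) (hA : 0 < A) (hD : 0 < D) (hN : 0 < N)
    (he : e * D = A * N) (τ : ℍ) :
    HasSum (fun m : ℤ => (ModularCurve.qExpand ℂ e
        (h64_twist (Complex.exp (2 * Real.pi * Complex.I * B / D)) c)).coeff m
          * Function.Periodic.qParam (N : ℝ) τ ^ m) (f (h64_aff A D B τ)) := by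
  have h0 := hf (h64_aff A D B τ)
  set w : ℂ := Complex.exp (2 * Real.pi * Complex.I * B / D) with hw
  set F : ℤ → ℂ := fun m : ℤ => (ModularCurve.qExpand ℂ e (h64_twist w c)).coeff m
          * Function.Periodic.qParam (N : ℝ) τ ^ m with hF
  have hinj : Function.Injective (fun k : ℤ => (e : ℤ) * k) := by
    intro a b hab
    have he0 : (e : ℤ) ≠ 0 := by exact_mod_cast NeZero.ne e
    exact mul_left_cancel₀ he0 hab
  have hzero : ∀ m ∉ Set.range (fun k : ℤ => (e : ℤ) * k), F m = 0 := by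
    intro m hm
    have : ¬ (e : ℤ) ∣ m := by
      rintro ⟨k, rfl⟩
      exact hm ⟨k, rfl⟩
    simp only [hF]
    rw [ModularCurve.qExpand_coeff_of_not_dvd e _ this, zero_mul]
  have hkey : w * Function.Periodic.qParam (N : ℝ) τ ^ e
      = Function.Periodic.qParam (1 : ℝ) ((h64_aff A D B τ : ℍ) : ℂ) := by
    rw [h64_qParam_aff B hA hD τ, hw, Function.Periodic.qParam, ← Complex.exp_nat_mul,
      ← Complex.exp_add]
    congr 1
    have hD0 : (D : ℂ) ≠ 0 := by exact_mod_cast hD.ne'
    have hN0 : (N : ℂ) ≠ 0 := by exact_mod_cast hN.ne'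
    have hec : (e : ℂ) * D = A * N := by exact_mod_cast he
    have hq : (e : ℂ) / N = A / D := by
      rw [div_eq_div_iff hN0 hD0]
      linear_combination hec
    have h1 : (e : ℂ) * (2 * (Real.pi : ℂ) * Complex.I * (τ : ℂ) / ((N : ℝ) : ℂ))
        = 2 * (Real.pi : ℂ) * Complex.I * (τ : ℂ) * ((e : ℂ) / N) := by
      push_cast
      ring
    rw [h1, hq]
    ring
  have hcomp : F ∘ (fun k : ℤ => (e : ℤ) * k)
      = fun k : ℤ => c.coeff k * Function.Periodic.qParam (1 : ℝ) ((h64_aff A D B τ : ℍ) : ℂ) ^ k := by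
    funext k
    simp only [Function.comp_apply, hF]
    rw [ModularCurve.qExpand_coeff_mul, h64_twist_coeff, ← hkey, mul_zpow, _root_.zpow_mul, zpow_natCast,
      mul_assoc]
  rw [← hinj.hasSum_iff hzero, hcomp]
  exact h0

theorem h64_order_qExpand {R : Type*} [CommRing R] (e : ℕ) [NeZero e] (c : LaurentSeries R) :
    (ModularCurve.qExpand R e c).order = (e : ℤ) * c.order := by
  by_cases hc : c = 0
  · subst hc
    simp
  · have h1 : (ModularCurve.qExpand R e c).coeff ((e : ℤ) * c.order) ≠ 0 := by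
      rw [ModularCurve.qExpand_coeff_mul]
      exact fun h0 => hc (HahnSeries.coeff_order_eq_zero.mp h0)
    have hne : ModularCurve.qExpand R e c ≠ 0 := HahnSeries.ne_zero_of_coeff_ne_zero h1
    have h2 : (ModularCurve.qExpand R e c).coeff (ModularCurve.qExpand R e c).order ≠ 0 :=
      fun h0 => hne (HahnSeries.coeff_order_eq_zero.mp h0)
    have hdvd : (e : ℤ) ∣ (ModularCurve.qExpand R e c).order := by
      by_contra hnd
      exact h2 (ModularCurve.qExpand_coeff_of_not_dvd e c hnd)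
    obtain ⟨k, hk⟩ := hdvd
    rw [hk, ModularCurve.qExpand_coeff_mul] at h2
    have h3 : c.order ≤ k := HahnSeries.order_le_of_coeff_ne_zero h2
    have he0 : (0 : ℤ) < e := by exact_mod_cast Nat.pos_of_ne_zero (NeZero.ne e)
    refine le_antisymm (HahnSeries.order_le_of_coeff_ne_zero h1) ?_
    rw [hk]
    exact mul_le_mul_of_nonneg_left h3 he0.le

/-- K-rational width-`N` expansion of every conjugate `τ ↦ f (d • γ τ)`, `d ∣ N`, of an
`SL(2,ℤ)`-invariant function with a K-rational width-one expansion. -/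
theorem h64_exists_qexp_conj {K : Type*} [Field K] (ι : K →+* ℂ)
    (hroot : ∀ n : ℕ, 0 < n → ∃ ζ : K, ι ζ = Complex.exp (2 * Real.pi * Complex.I / n))
    (cK : LaurentSeries K) {f : ℍ → ℂ}
    (hf : ∀ τ : ℍ, HasSum (fun k : ℤ => (ModularCurve.coeffMap ι cK).coeff k *
      Function.Periodic.qParam (1 : ℝ) τ ^ k) (f τ))
    (hinv : ∀ (γ : SL(2, ℤ)) (τ : ℍ), f (γ • τ) = f τ)
    {d N : ℕ} (hd : 0 < d) (hN : 0 < N) (hdN : d ∣ N) (γ : SL(2, ℤ)) :
    ∃ (c : LaurentSeries K) (e : ℕ), 0 < e ∧ e * d = (Int.gcd d (γ 1 0)) ^ 2 * N ∧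
      c.order = (e : ℤ) * cK.order ∧
      ∀ τ : ℍ, HasSum (fun k : ℤ => (ModularCurve.coeffMap ι c).coeff k *
        Function.Periodic.qParam (N : ℝ) τ ^ k) (f (ofComplex ((d : ℂ) * ((γ • τ : ℍ) : ℂ)))) := by
  obtain ⟨γ', A, D, B, hAD, hA, hD, hgcd, hB0, hB1, hmat⟩ := h64_hermite d hd γ
  have hDd : D ∣ d := ⟨A, by rw [← hAD, mul_comm]⟩
  have hDN : D ∣ N := hDd.trans hdN
  obtain ⟨e, he⟩ : ∃ e : ℕ, e = A * (N / D) := ⟨_, rfl⟩
  have heD : e * D = A * N := by
    rw [he, mul_assoc, Nat.div_mul_cancel hDN]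
  have hepos : 0 < e := by
    rw [he]
    exact Nat.mul_pos hA (Nat.div_pos (Nat.le_of_dvd hN hDN) hD)
  have : NeZero e := ⟨hepos.ne'⟩
  obtain ⟨ζ, hζ⟩ := hroot D hD
  have hζ0 : ζ ≠ 0 := by
    intro h0
    rw [h0, map_zero] at hζ
    exact Complex.exp_ne_zero _ hζ.symm
  have hw : ι (ζ ^ B) = Complex.exp (2 * Real.pi * Complex.I * B / D) := by
    rw [map_zpow₀, hζ, ← Complex.exp_int_mul]
    congr 1
    ring
  refine ⟨ModularCurve.qExpand K e (h64_twist (ζ ^ B) cK), e, hepos, ?_, ?_, ?_⟩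
  · have hA' : A = Int.gcd d (γ 1 0) := by exact_mod_cast hgcd
    rw [← hA', ← hAD]
    calc e * (A * D) = A * (e * D) := by ring
      _ = A * (A * N) := by rw [heD]
      _ = A ^ 2 * N := by ring
  · rw [h64_order_qExpand, h64_twist_order (zpow_ne_zero _ hζ0)]
  · intro τ
    rw [ModularCurve.coeffMap_qExpand, h64_coeffMap_twist, hw, h64_conj_eq hinv hA hD hmat τ]
    exact h64_hasSum_aff hf B hA hD hN heD τ

end Fermat.Agent.S24
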