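import Mathlib
import Fermat.Prelude.Def_ModularCurve_ArithmeticGalois

/-!
# S24, modular layer: the function field `modularFunctionFieldBar N` as a fraction field

* `h78_gens L N`  : the generators `coeffEmb L (qExpand ℚ d jq)`, `d ∣ N`.
* `h78_AN L N`    : the `L`-subalgebra of `LaurentSeries L` they generate.
* `h78_baseChange_eq_adjoin` : `laurentBaseChange L (modularFunctionFieldFull N)` is the field
  generated over `L` by `h78_gens L N`; so it is the fraction field of `h78_AN L N`.
* `h78_j L N` : the `j`-function as an element of the function field; it is transcendental.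
* `h78_iota` : a fixed embedding `AlgebraicClosure ℚ →+* ℂ`; roots of polynomials over an
  algebraically closed field `K` lie in the range of any `ι : K →+* ℂ`.
-/

set_option autoImplicit false

open ModularCurve

namespace Fermat.Agent.S24

noncomputable section

section Generic

variable (L : Type*) [Field L] [Algebra ℚ L]

/-- The generators `j(q^d)`, `d ∣ N`, with coefficients in `L`. -/
def h78_gens (N : ℕ) : Set (LaurentSeries L) :=
  {x | ∃ (d : ℕ) (_ : NeZero d), d ∣ N ∧ x = coeffEmb L (qExpand ℚ d jq)}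

theorem h78_mem_gens {N d : ℕ} [NeZero d] (hd : d ∣ N) :
    coeffEmb L (qExpand ℚ d jq) ∈ h78_gens L N :=
  ⟨d, ‹_›, hd, rfl⟩

/-- The `L`-algebra `L[j(q^d) : d ∣ N]` inside `LaurentSeries L`. -/
def h78_AN (N : ℕ) : Subalgebra L (LaurentSeries L) :=
  Algebra.adjoin L (h78_gens L N)

theorem h78_gens_subset_AN (N : ℕ) : h78_gens L N ⊆ h78_AN L N :=
  Algebra.subset_adjoin

theorem h78_coeffEmb_algebraMap (c : ℚ) :
    coeffEmb L (algebraMap ℚ (LaurentSeries ℚ) c)
      = algebraMap L (LaurentSeries L) (algebraMap ℚ L c) := by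
  rw [algebraMap_apply_eq_single, algebraMap_laurentSeries_eq_single, coeffEmb, coeffMap_single]

/-- The base-changed function field is generated over `L` by the `j(q^d)`, `d ∣ N`. -/
theorem h78_baseChange_eq_adjoin (N : ℕ) :
    laurentBaseChange L (modularFunctionFieldFull N)
      = IntermediateField.adjoin L (h78_gens L N) := by
  apply le_antisymm
  · rw [laurentBaseChange, IntermediateField.adjoin_le_iff]
    rintro _ ⟨x, hx, rfl⟩
    have hx' : x ∈ IntermediateField.adjoin ℚ (divisorExpansions N) := hx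
    induction hx' using IntermediateField.adjoin_induction with
    | mem y hy =>
      obtain ⟨d, hne, hd, rfl⟩ := hy
      exact IntermediateField.subset_adjoin L _ ⟨d, hne, hd, rfl⟩
    | algebraMap c =>
      rw [h78_coeffEmb_algebraMap]
      exact IntermediateField.algebraMap_mem _ _
    | add y z _ _ hy hz =>
      rw [map_add]
      exact add_mem (hy (by assumption)) (hz (by assumption))
    | inv y _ hy =>
      rw [map_inv₀]
      exact inv_mem (hy (by assumption))
    | mul y z _ _ hy hz =>
      rw [map_mul]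
      exact mul_mem (hy (by assumption)) (hz (by assumption))
  · rw [IntermediateField.adjoin_le_iff]
    rintro _ ⟨d, hne, hd, rfl⟩
    have := hne
    exact coeffEmb_mem_laurentBaseChange L (jqd_mem_full N hd)

theorem h78_AN_le (N : ℕ) :
    h78_AN L N ≤ (laurentBaseChange L (modularFunctionFieldFull N)).toSubalgebra := by
  rw [h78_baseChange_eq_adjoin]
  exact IntermediateField.algebra_adjoin_le_adjoin L _

theorem h78_mem_of_mem_AN {N : ℕ} {a : LaurentSeries L} (ha : a ∈ h78_AN L N) :
    a ∈ laurentBaseChange L (modularFunctionFieldFull N) :=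
  h78_AN_le L N ha

/-- Every element of the function field is a quotient of two elements of `A_N`. -/
theorem h78_exists_frac {N : ℕ} {f : LaurentSeries L}
    (hf : f ∈ laurentBaseChange L (modularFunctionFieldFull N)) :
    ∃ a ∈ h78_AN L N, ∃ b ∈ h78_AN L N, b ≠ 0 ∧ f * b = a := by
  rw [h78_baseChange_eq_adjoin, IntermediateField.mem_adjoin_iff_div] at hf
  obtain ⟨r, hr, s, hs, rfl⟩ := hf
  by_cases hs0 : s = 0
  · subst hs0
    exact ⟨0, zero_mem _, 1, one_mem _, one_ne_zero, by simp⟩
  · exact ⟨r, hr, s, hs, hs0, div_mul_cancel₀ r hs0⟩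

/-- `A_N` as a subalgebra of the function field. -/
def h78_ANF (N : ℕ) : Subalgebra L (laurentBaseChange L (modularFunctionFieldFull N)) :=
  (h78_AN L N).comap (laurentBaseChange L (modularFunctionFieldFull N)).val

theorem h78_mem_ANF {N : ℕ} (f : laurentBaseChange L (modularFunctionFieldFull N)) :
    f ∈ h78_ANF L N ↔ (f : LaurentSeries L) ∈ h78_AN L N :=
  Iff.rfl

/-- The inclusion of `A_N` into the function field, as an algebra structure. -/
instance h78_algebraANBar (N : ℕ) :
    Algebra (h78_AN L N) (laurentBaseChange L (modularFunctionFieldFull N)) :=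
  (Subalgebra.inclusion (h78_AN_le L N)).toAlgebra

@[simp]
theorem h78_coe_algebraMap_AN {N : ℕ} (a : h78_AN L N) :
    ((algebraMap (h78_AN L N) (laurentBaseChange L (modularFunctionFieldFull N)) a :
      laurentBaseChange L (modularFunctionFieldFull N)) : LaurentSeries L) = a :=
  rfl

instance h78_isScalarTower_AN (N : ℕ) :
    IsScalarTower L (h78_AN L N) (laurentBaseChange L (modularFunctionFieldFull N)) :=
  IsScalarTower.of_algebraMap_eq fun _ => rfl

instance h78_faithfulSMul_AN (N : ℕ) :
    FaithfulSMul (h78_AN L N) (laurentBaseChange L (modularFunctionFieldFull N)) :=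
  Subalgebra.inclusion.faithfulSMul (h78_AN_le L N)

/-- The function field is the fraction field of `A_N`. -/
instance h78_isFractionRing (N : ℕ) :
    IsFractionRing (h78_AN L N) (laurentBaseChange L (modularFunctionFieldFull N)) :=
  .of_field _ _ fun ⟨f, hf⟩ => by
    obtain ⟨a, ha, b, hb, hb0, hfb⟩ := h78_exists_frac L hf
    refine ⟨⟨a, ha⟩, ⟨b, hb⟩, Subtype.ext ?_⟩
    show f = a / b
    rw [eq_div_iff hb0, hfb]

/-- The `j`-function as an element of the function field. -/
def h78_j (N : ℕ) [NeZero N] : laurentBaseChange L (modularFunctionFieldFull N) :=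
  ⟨coeffEmb L jq, coeffEmb_mem_laurentBaseChange L (by
    have h := jqd_mem_full N (one_dvd N)
    rwa [qExpand_one_apply] at h)⟩

@[simp]
theorem h78_coe_j (N : ℕ) [NeZero N] : ((h78_j L N : _) : LaurentSeries L) = coeffEmb L jq :=
  rfl

theorem h78_jq_mem_AN (N : ℕ) : coeffEmb L jq ∈ h78_AN L N := by
  have h : coeffEmb L (qExpand ℚ 1 jq) ∈ h78_gens L N := h78_mem_gens L (one_dvd N)
  rw [qExpand_one_apply] at h
  exact h78_gens_subset_AN L N h

theorem h78_j_mem_ANF (N : ℕ) [NeZero N] : h78_j L N ∈ h78_ANF L N :=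
  h78_jq_mem_AN L N

omit [Algebra ℚ L] in
theorem h78_coeff_smul (c : L) (y : LaurentSeries L) (m : ℤ) :
    (@HSMul.hSMul L (LaurentSeries L) (LaurentSeries L) (@instHSMul _ _ Algebra.toSMul) c y).coeff m
      = c * y.coeff m := by
  rw [Algebra.smul_def, algebraMap_laurentSeries_eq_single, HahnSeries.coeff_single_zero_mul]

/-- Coefficient of `q^(-n)` in `P(j)` for `P` of degree `≤ n`. -/
theorem h78_coeff_aeval_jq (P : Polynomial L) (n : ℕ) (hn : P.natDegree ≤ n) :
    (Polynomial.aeval (coeffEmb L jq) P).coeff (-(n : ℤ)) = P.coeff n := by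
  rw [Polynomial.aeval_eq_sum_range' (Nat.lt_succ_of_le hn)]
  rw [HahnSeries.coeff_sum]
  rw [Finset.sum_eq_single n]
  · rw [h78_coeff_smul, ← map_pow, coeffEmb_coeff, coeff_jq_pow_self]
    simp
  · intro k hk hkn
    have hk' : k < n := lt_of_le_of_ne (Nat.lt_succ_iff.mp (Finset.mem_range.mp hk)) hkn
    rw [h78_coeff_smul, ← map_pow, coeffEmb_coeff,
      coeff_jq_pow_of_lt (by exact_mod_cast neg_lt_neg (Nat.cast_lt.mpr hk')), map_zero,
      mul_zero]
  · intro h
    exact absurd (Finset.mem_range.mpr (Nat.lt_succ_self n)) h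

/-- Coefficients of `P(j)` below `q^(-deg P)` vanish. -/
theorem h78_coeff_aeval_jq_of_lt (P : Polynomial L) {m : ℤ} (hm : m < -(P.natDegree : ℤ)) :
    (Polynomial.aeval (coeffEmb L jq) P).coeff m = 0 := by
  rw [Polynomial.aeval_eq_sum_range, HahnSeries.coeff_sum]
  refine Finset.sum_eq_zero fun k hk => ?_
  have hk' : k ≤ P.natDegree := Nat.lt_succ_iff.mp (Finset.mem_range.mp hk)
  rw [h78_coeff_smul, ← map_pow, coeffEmb_coeff,
    coeff_jq_pow_of_lt (lt_of_lt_of_le hm (by exact_mod_cast neg_le_neg (Nat.cast_le.mpr hk'))),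
    map_zero, mul_zero]

theorem h78_aeval_jq_ne_zero {P : Polynomial L} (hP : P ≠ 0) :
    Polynomial.aeval (coeffEmb L jq) P ≠ 0 := by
  intro h
  have h1 := h78_coeff_aeval_jq L P P.natDegree le_rfl
  rw [h, HahnSeries.coeff_zero] at h1
  exact hP (Polynomial.leadingCoeff_eq_zero.mp h1.symm)

/-- The order of `P(j)` as a Laurent series in `q` is `-deg P`. -/
theorem h78_order_aeval_jq {P : Polynomial L} (hP : P ≠ 0) :
    (Polynomial.aeval (coeffEmb L jq) P).order = -(P.natDegree : ℤ) := by
  have h1 := h78_coeff_aeval_jq L P P.natDegree le_rfl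
  have hne : P.coeff P.natDegree ≠ 0 := Polynomial.leadingCoeff_ne_zero.mpr hP
  apply le_antisymm
  · exact HahnSeries.order_le_of_coeff_ne_zero (by rw [h1]; exact hne)
  · by_contra hlt
    rw [not_le] at hlt
    have h2 := h78_coeff_aeval_jq_of_lt L P hlt
    exact h78_aeval_jq_ne_zero L hP (HahnSeries.coeff_order_eq_zero.mp h2)

theorem h78_jq_transcendental : Transcendental L (coeffEmb L jq) := by
  intro h
  obtain ⟨P, hP, hP0⟩ := h
  exact h78_aeval_jq_ne_zero L hP hP0

theorem h78_j_transcendental (N : ℕ) [NeZero N] : Transcendental L (h78_j L N) := by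
  intro h
  apply h78_jq_transcendental L
  have h2 : IsAlgebraic L
      ((laurentBaseChange L (modularFunctionFieldFull N)).val (h78_j L N)) :=
    h.algHom _
  exact h2

end Generic

section Iota

/-- A fixed embedding of `AlgebraicClosure ℚ` into `ℂ`. -/
def h78_iota : AlgebraicClosure ℚ →+* ℂ :=
  letI : Algebra ℚ (AlgebraicClosure ℚ) := AlgebraicClosure.instAlgebra ℚ
  (IsAlgClosed.lift (R := ℚ) (S := AlgebraicClosure ℚ) (M := ℂ)).toRingHom

theorem h78_iota_injective : Function.Injective h78_iota :=
  h78_iota.injective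

/-- Roots in `ℂ` of a nonzero polynomial over an algebraically closed field `K ⊆ ℂ` lie in `K`. -/
theorem h78_mem_range_of_root {K : Type*} [Field K] [IsAlgClosed K] (ι : K →+* ℂ)
    {p : Polynomial K} (hp : p ≠ 0) {z : ℂ} (hz : (p.map ι).eval z = 0) :
    z ∈ Set.range ι := by
  have hsplit := IsAlgClosed.splits p
  have hp' := hsplit.eq_prod_roots
  rw [hp', Polynomial.map_mul, Polynomial.map_C, Polynomial.eval_mul, Polynomial.eval_C,
    Polynomial.map_multiset_prod, Polynomial.eval_multiset_prod, Multiset.map_map,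
    Multiset.map_map] at hz
  rcases mul_eq_zero.mp hz with h | h
  · exact absurd ((map_eq_zero ι).mp h) (Polynomial.leadingCoeff_ne_zero.mpr hp)
  · rw [Multiset.prod_eq_zero_iff, Multiset.mem_map] at h
    obtain ⟨a, _, ha⟩ := h
    refine ⟨a, ?_⟩
    simp only [Function.comp_apply, Polynomial.map_sub, Polynomial.map_X, Polynomial.map_C,
      Polynomial.eval_sub, Polynomial.eval_X, Polynomial.eval_C] at ha
    exact (sub_eq_zero.mp ha).symm

/-- Roots of unity of `ℂ` lie in the range of any embedding of an algebraically closed field. -/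
theorem h78_mem_range_of_pow_eq_one {K : Type*} [Field K] [IsAlgClosed K] (ι : K →+* ℂ)
    {z : ℂ} {n : ℕ} (hn : n ≠ 0) (hz : z ^ n = 1) : z ∈ Set.range ι := by
  have hp : (Polynomial.X ^ n - 1 : Polynomial K) ≠ 0 := by
    have h := Polynomial.X_pow_sub_C_ne_zero (Nat.pos_of_ne_zero hn) (1 : K)
    rwa [map_one] at h
  refine h78_mem_range_of_root ι hp ?_
  simp [hz]

theorem h78_exp_mem_range {K : Type*} [Field K] [IsAlgClosed K] (ι : K →+* ℂ)
    (n : ℕ) (hn : n ≠ 0) (k : ℤ) :
    Complex.exp (2 * Real.pi * Complex.I * k / n) ∈ Set.range ι := by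
  refine h78_mem_range_of_pow_eq_one ι hn ?_
  rw [← Complex.exp_nat_mul]
  have hn' : (n : ℂ) ≠ 0 := Nat.cast_ne_zero.mpr hn
  have : (n : ℂ) * (2 * Real.pi * Complex.I * k / n) = k * (2 * Real.pi * Complex.I) := by
    field_simp
  rw [this]
  exact Complex.exp_int_mul_two_pi_mul_I k

end Iota

end

end Fermat.Agent.S24
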