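import Mathlib
import Fermat.Agent.S24.h77_QBridge
import Fermat.Agent.S24.h59_InvQ
import Fermat.Agent.S24.h64_ConjQ
import Fermat.Agent.S24.h78_Field

/-!
# PROD-INV (helper14): the product of the conjugates of a `Γ₀(N)`-invariant function

* Lemma A: for a `Γ₀(N)`-invariant function `φ` on the upper half plane, the product
  `τ ↦ ∏_{x ∈ SL₂(ℤ)/Γ₀(N)} φ (g_x⁻¹ • τ)` is `SL₂(ℤ)`-invariant.
* Lemma B: finite products of `q_h`-expansions.
* Lemma C: a `1`-periodic function with a `q_N`-expansion (coefficients in a field `K ⊆ ℂ`)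
  has a `q`-expansion with coefficients in `K`.
-/

set_option autoImplicit false

open UpperHalfPlane ModularForm Filter Topology CongruenceSubgroup
open scoped MatrixGroups Manifold

namespace Fermat.Agent.S24

local notation "𝕢" => Function.Periodic.qParam

/-! ## Lemma A -/

/-- A `Γ₀(N)`-invariant function has conjugates depending only on the left coset. -/
theorem h14_conj_eq_of_coset {N : ℕ} {φ : ℍ → ℂ}
    (hφ : ∀ γ ∈ Gamma0 N, ∀ τ : ℍ, φ (γ • τ) = φ τ)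
    {g g' : SL(2, ℤ)} (h : (g : SL(2, ℤ) ⧸ Gamma0 N) = (g' : SL(2, ℤ) ⧸ Gamma0 N)) (τ : ℍ) :
    φ (g⁻¹ • τ) = φ (g'⁻¹ • τ) := by
  have hmem : g⁻¹ * g' ∈ Gamma0 N := QuotientGroup.eq.mp h
  have hinv : (g⁻¹ * g')⁻¹ ∈ Gamma0 N := inv_mem hmem
  have e : g'⁻¹ • τ = (g⁻¹ * g')⁻¹ • (g⁻¹ • τ) := by
    rw [← mul_smul]
    congr 1
    group
  rw [e, hφ _ hinv]

theorem h14_conj_out {N : ℕ} {φ : ℍ → ℂ}
    (hφ : ∀ γ ∈ Gamma0 N, ∀ τ : ℍ, φ (γ • τ) = φ τ) (g : SL(2, ℤ)) (τ : ℍ) :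
    φ ((Quotient.out (g : SL(2, ℤ) ⧸ Gamma0 N))⁻¹ • τ) = φ (g⁻¹ • τ) :=
  h14_conj_eq_of_coset hφ (QuotientGroup.out_eq' _) τ

/-- **Lemma A**: the product of the conjugates is `SL₂(ℤ)`-invariant. -/
theorem h14_conjProd_smul {N : ℕ} [Fintype (SL(2, ℤ) ⧸ Gamma0 N)] {φ : ℍ → ℂ}
    (hφ : ∀ γ ∈ Gamma0 N, ∀ τ : ℍ, φ (γ • τ) = φ τ) (γ : SL(2, ℤ)) (τ : ℍ) :
    ∏ x : SL(2, ℤ) ⧸ Gamma0 N, φ ((Quotient.out x)⁻¹ • (γ • τ))
      = ∏ x : SL(2, ℤ) ⧸ Gamma0 N, φ ((Quotient.out x)⁻¹ • τ) := by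
  have key : ∀ x : SL(2, ℤ) ⧸ Gamma0 N,
      φ ((Quotient.out x)⁻¹ • (γ • τ)) = φ ((Quotient.out (γ⁻¹ • x))⁻¹ • τ) := by
    intro x
    have e1 : (Quotient.out x)⁻¹ • (γ • τ) = (γ⁻¹ * Quotient.out x)⁻¹ • τ := by
      rw [← mul_smul]
      congr 1
      group
    have e2 : ((γ⁻¹ * Quotient.out x : SL(2, ℤ)) : SL(2, ℤ) ⧸ Gamma0 N) = γ⁻¹ • x := by
      conv_rhs => rw [← QuotientGroup.out_eq' x]
      rfl
    rw [e1, ← h14_conj_out hφ (γ⁻¹ * Quotient.out x) τ, e2]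
  rw [Finset.prod_congr rfl fun x _ => key x]
  exact Fintype.prod_equiv (MulAction.toPerm γ⁻¹) _ _ fun x => rfl

/-! ## Lemma B -/

/-- **Lemma B**: finite products of `q_h`-expansions. -/
theorem h14_isQExp_prod {ι' : Type*} (s : Finset ι') {h : ℝ} {c : ι' → LaurentSeries ℂ}
    {g : ι' → ℍ → ℂ} (hc : ∀ i ∈ s, h77_IsQExp h (c i) (g i)) :
    h77_IsQExp h (∏ i ∈ s, c i) (fun τ => ∏ i ∈ s, g i τ) := by
  classical
  induction s using Finset.induction_on with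
  | empty =>
    simp only [Finset.prod_empty]
    exact h77_isQExp_one h
  | insert i s hi ih =>
    have h1 := hc i (Finset.mem_insert_self i s)
    have h2 := ih fun j hj => hc j (Finset.mem_insert_of_mem hj)
    have := h1.mul h2
    rw [Finset.prod_insert hi]
    refine this.congr fun τ => ?_
    rw [Finset.prod_insert hi]

/-! ## Lemma C -/

theorem h14_qParam_vadd (N : ℕ) (τ : ℍ) :
    𝕢 (N : ℝ) (((1 : ℝ) +ᵥ τ : ℍ) : ℂ) = 𝕢 (N : ℝ) (1 : ℂ) * 𝕢 (N : ℝ) (τ : ℂ) := by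
  rw [UpperHalfPlane.coe_vadd]
  simp only [Function.Periodic.qParam]
  rw [← Complex.exp_add]
  congr 1
  push_cast
  ring

theorem h14_qParam_one_zpow_eq_one {N : ℕ} [NeZero N] {k : ℤ}
    (h : 𝕢 (N : ℝ) (1 : ℂ) ^ k = 1) : (N : ℤ) ∣ k := by
  have hN : (N : ℂ) ≠ 0 := by exact_mod_cast NeZero.ne N
  simp only [Function.Periodic.qParam] at h
  rw [← Complex.exp_int_mul, Complex.exp_eq_one_iff] at h
  obtain ⟨n, hn⟩ := h
  refine ⟨n, ?_⟩
  have h2 : (k : ℂ) = (N : ℂ) * (n : ℂ) := by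
    have hpi : (2 * (Real.pi : ℂ) * Complex.I) ≠ 0 := Complex.two_pi_I_ne_zero
    have h5 : ((N : ℝ) : ℂ) = (N : ℂ) := by push_cast; rfl
    rw [h5] at hn
    field_simp at hn
    exact hn
  exact_mod_cast h2

/-- A function with a `q_N`-expansion which is `1`-periodic has its expansion supported on
the multiples of `N`. -/
theorem h14_coeff_eq_zero_of_periodic {N : ℕ} [NeZero N] {c : LaurentSeries ℂ} {G : ℍ → ℂ}
    (hc : h77_IsQExp (N : ℝ) c G) (hper : ∀ τ : ℍ, G ((1 : ℝ) +ᵥ τ) = G τ)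
    {k : ℤ} (hk : ¬ (N : ℤ) ∣ k) : c.coeff k = 0 := by
  set ζ : ℂ := 𝕢 (N : ℝ) (1 : ℂ) with hζ
  have hbdd : BddBelow (Function.support fun m : ℤ => c.coeff m * ζ ^ m) := by
    refine HahnSeries.forallLTEqZero_supp_BddBelow _ c.order fun m hm => ?_
    rw [HahnSeries.coeff_eq_zero_of_lt_order hm, zero_mul]
  set c' : LaurentSeries ℂ := HahnSeries.ofSuppBddBelow (fun m : ℤ => c.coeff m * ζ ^ m) hbdd
    with hc'
  have hc'coeff : ∀ m : ℤ, c'.coeff m = c.coeff m * ζ ^ m := fun m => by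
    rw [hc', HahnSeries.coeff_ofSuppBddBelow]
  have hc'exp : h77_IsQExp (N : ℝ) c' G := by
    intro τ
    have h1 := hc ((1 : ℝ) +ᵥ τ)
    rw [hper τ] at h1
    have : (fun m : ℤ => c.coeff m * 𝕢 (N : ℝ) (((1 : ℝ) +ᵥ τ : ℍ) : ℂ) ^ m) =
        fun m : ℤ => c'.coeff m * 𝕢 (N : ℝ) (τ : ℂ) ^ m := by
      funext m
      rw [hc'coeff, h14_qParam_vadd, mul_zpow, mul_assoc]
    rwa [this] at h1
  have hN : (0 : ℝ) < N := by exact_mod_cast Nat.pos_of_ne_zero (NeZero.ne N)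
  have heq : c' = c := hc'exp.unique hN hc
  have h2 : c.coeff k * ζ ^ k = c.coeff k := by rw [← hc'coeff, heq]
  by_contra h0
  apply hk
  apply h14_qParam_one_zpow_eq_one (N := N)
  have h3 : c.coeff k * (ζ ^ k - 1) = 0 := by rw [mul_sub, h2, mul_one, sub_self]
  rcases mul_eq_zero.mp h3 with h | h
  · exact absurd h h0
  · exact sub_eq_zero.mp h

/-- **Lemma C**: descent of a `q_N`-expansion with coefficients in `K` of a `1`-periodic function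
to a `q`-expansion with coefficients in `K`. -/
theorem h14_exists_qExpand_of_periodic {K : Type*} [Field K] (ι : K →+* ℂ) (N : ℕ) [NeZero N]
    (C : LaurentSeries K) (G : ℍ → ℂ)
    (hC : h77_IsQExp (N : ℝ) (ModularCurve.coeffMap ι C) G)
    (hper : ∀ τ : ℍ, G ((1 : ℝ) +ᵥ τ) = G τ) :
    ∃ c : LaurentSeries K, C = ModularCurve.qExpand K N c ∧
      h77_IsQExp 1 (ModularCurve.coeffMap ι c) G := by
  have hNpos : (0 : ℤ) < N := by exact_mod_cast Nat.pos_of_ne_zero (NeZero.ne N)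
  have hzero : ∀ k : ℤ, ¬ (N : ℤ) ∣ k → C.coeff k = 0 := by
    intro k hk
    have := h14_coeff_eq_zero_of_periodic hC hper hk
    rw [ModularCurve.coeffMap_coeff] at this
    exact (map_eq_zero ι).mp this
  have hbdd : BddBelow (Function.support fun m : ℤ => C.coeff ((N : ℤ) * m)) := by
    refine HahnSeries.forallLTEqZero_supp_BddBelow _ (min C.order 0) fun m hm => ?_
    apply HahnSeries.coeff_eq_zero_of_lt_order
    have hm0 : m < 0 := lt_of_lt_of_le hm (min_le_right _ _)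
    have hm1 : m < C.order := lt_of_lt_of_le hm (min_le_left _ _)
    have : (N : ℤ) * m ≤ m := by nlinarith
    exact lt_of_le_of_lt this hm1
  refine ⟨HahnSeries.ofSuppBddBelow (fun m : ℤ => C.coeff ((N : ℤ) * m)) hbdd, ?_, ?_⟩
  · ext k
    by_cases hk : (N : ℤ) ∣ k
    · obtain ⟨m, rfl⟩ := hk
      rw [ModularCurve.qExpand_coeff_mul, HahnSeries.coeff_ofSuppBddBelow]
    · rw [ModularCurve.qExpand_coeff_of_not_dvd N _ hk, hzero k hk]
  · have hCeq : C = ModularCurve.qExpand K N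
        (HahnSeries.ofSuppBddBelow (fun m : ℤ => C.coeff ((N : ℤ) * m)) hbdd) := by
      ext k
      by_cases hk : (N : ℤ) ∣ k
      · obtain ⟨m, rfl⟩ := hk
        rw [ModularCurve.qExpand_coeff_mul, HahnSeries.coeff_ofSuppBddBelow]
      · rw [ModularCurve.qExpand_coeff_of_not_dvd N _ hk, hzero k hk]
    intro τ
    have h1 := hC τ
    rw [hCeq, ModularCurve.coeffMap_qExpand, h77_hasSum_qExpand_iff] at h1
    have h2 := h77_qParam_pow N 1 (τ : ℂ)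
    rw [mul_one] at h2
    rwa [h2] at h1

/-! ## PROD-INV at the level of functions -/

/-- **PROD-INV, function level.**  If `φ` is `Γ₀(N)`-invariant and all its `SL₂(ℤ)`-conjugates
have `q_N`-expansions with coefficients in `K` (via `ι : K →+* ℂ`), then the product of the
conjugates over `SL₂(ℤ)/Γ₀(N)` is a polynomial in `j` with coefficients in `K`; moreover its
`q`-expansion is that polynomial in the formal `jq`. -/
theorem h14_prod_inv_fun {K : Type*} [Field K] [Algebra ℚ K] (ι : K →+* ℂ) (N : ℕ) [NeZero N]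
    [Fintype (SL(2, ℤ) ⧸ Gamma0 N)] {φ : ℍ → ℂ}
    (hφ : ∀ γ ∈ Gamma0 N, ∀ τ : ℍ, φ (γ • τ) = φ τ)
    (hexp : ∀ g : SL(2, ℤ), ∃ c : LaurentSeries K,
      h77_IsQExp (N : ℝ) (ModularCurve.coeffMap ι c) (fun τ => φ (g • τ))) :
    ∃ P : Polynomial K,
      (∀ τ : ℍ, ∏ x : SL(2, ℤ) ⧸ Gamma0 N, φ ((Quotient.out x)⁻¹ • τ)
        = (P.map ι).eval (h77_j τ)) ∧
      h77_IsQExp 1 (ModularCurve.coeffMap ι
          (Polynomial.aeval (ModularCurve.coeffEmb K ModularCurve.jq) P))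
        (fun τ => ∏ x : SL(2, ℤ) ⧸ Gamma0 N, φ ((Quotient.out x)⁻¹ • τ)) := by
  choose c hc using fun x : SL(2, ℤ) ⧸ Gamma0 N => hexp (Quotient.out x)⁻¹
  set G : ℍ → ℂ := fun τ => ∏ x : SL(2, ℤ) ⧸ Gamma0 N, φ ((Quotient.out x)⁻¹ • τ) with hG
  have hC : h77_IsQExp (N : ℝ) (ModularCurve.coeffMap ι (∏ x, c x)) G := by
    rw [map_prod]
    exact h14_isQExp_prod Finset.univ fun x _ => hc x
  have hinv : ∀ (γ : SL(2, ℤ)) (τ : ℍ), G (γ • τ) = G τ := fun γ τ =>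
    h14_conjProd_smul hφ γ τ
  have hper : ∀ τ : ℍ, G ((1 : ℝ) +ᵥ τ) = G τ := by
    intro τ
    rw [← UpperHalfPlane.modular_T_smul]
    exact hinv _ τ
  obtain ⟨c₁, -, hc₁⟩ := h14_exists_qExpand_of_periodic ι N _ G hC hper
  obtain ⟨P, hP, hPe⟩ := h59_isQExp_invariant_K ι c₁ G hc₁ hinv
  refine ⟨P, hPe, ?_⟩
  rw [← hP]
  exact hc₁

/-- Two `q_N`-expansions of the conjugate product agree (uniqueness wrapper for the consumers:
`∏ x, σ x a = σ x₀ (P(j))` for expansion homs `σ`). -/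
theorem h14_prod_expansion_eq {N : ℕ} [NeZero N] [Fintype (SL(2, ℤ) ⧸ Gamma0 N)]
    {φ : ℍ → ℂ} {c : SL(2, ℤ) ⧸ Gamma0 N → LaurentSeries ℂ} {c₀ : LaurentSeries ℂ}
    {G₀ : ℍ → ℂ}
    (hc : ∀ x, h77_IsQExp (N : ℝ) (c x) (fun τ => φ ((Quotient.out x)⁻¹ • τ)))
    (hc₀ : h77_IsQExp (N : ℝ) c₀ G₀)
    (hG : ∀ τ : ℍ, ∏ x : SL(2, ℤ) ⧸ Gamma0 N, φ ((Quotient.out x)⁻¹ • τ) = G₀ τ) :
    ∏ x, c x = c₀ := by
  have h1 : h77_IsQExp (N : ℝ) (∏ x, c x) G₀ :=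
    (h14_isQExp_prod Finset.univ fun x _ => hc x).congr hG
  have hN : (0 : ℝ) < N := by exact_mod_cast Nat.pos_of_ne_zero (NeZero.ne N)
  exact h1.unique hN hc₀

/-! ## The subalgebra of good series and PROD-INV on `A_N` -/

section Good

variable {K : Type*} [Field K] [Algebra ℚ K] (ι : K →+* ℂ) (N : ℕ)

/-- Convergent Laurent series over `K` whose function on `ℍ` is `Γ₀(N)`-invariant and all of
whose `SL₂(ℤ)`-conjugates have `q_N`-expansions with coefficients in `K`. -/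
def h14_goodAlg : Subalgebra K (LaurentSeries K) where
  carrier := {f | ∃ hf : f ∈ h77_convAlg ι,
    (∀ γ ∈ Gamma0 N, ∀ τ : ℍ, h77_toFun ι ⟨f, hf⟩ (γ • τ) = h77_toFun ι ⟨f, hf⟩ τ) ∧
    ∀ g : SL(2, ℤ), ∃ c : LaurentSeries K,
      h77_IsQExp (N : ℝ) (ModularCurve.coeffMap ι c) (fun τ => h77_toFun ι ⟨f, hf⟩ (g • τ))}
  mul_mem' := by
    rintro f f' ⟨hf, h1, h2⟩ ⟨hf', h1', h2'⟩
    have e : h77_toFun ι ⟨f * f', mul_mem hf hf'⟩ =
        h77_toFun ι ⟨f, hf⟩ * h77_toFun ι ⟨f', hf'⟩ := by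
      rw [← map_mul]; rfl
    refine ⟨mul_mem hf hf', ?_, ?_⟩
    · intro γ hγ τ
      rw [e, Pi.mul_apply, Pi.mul_apply, h1 γ hγ τ, h1' γ hγ τ]
    · intro g
      obtain ⟨c, hc⟩ := h2 g
      obtain ⟨c', hc'⟩ := h2' g
      refine ⟨c * c', ?_⟩
      rw [map_mul, e]
      exact hc.mul hc'
  add_mem' := by
    rintro f f' ⟨hf, h1, h2⟩ ⟨hf', h1', h2'⟩
    have e : h77_toFun ι ⟨f + f', add_mem hf hf'⟩ =
        h77_toFun ι ⟨f, hf⟩ + h77_toFun ι ⟨f', hf'⟩ := by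
      rw [← map_add]; rfl
    refine ⟨add_mem hf hf', ?_, ?_⟩
    · intro γ hγ τ
      rw [e, Pi.add_apply, Pi.add_apply, h1 γ hγ τ, h1' γ hγ τ]
    · intro g
      obtain ⟨c, hc⟩ := h2 g
      obtain ⟨c', hc'⟩ := h2' g
      refine ⟨c + c', ?_⟩
      rw [map_add, e]
      exact hc.add hc'
  algebraMap_mem' := by
    intro a
    have e : h77_toFun ι ⟨algebraMap K (LaurentSeries K) a, (h77_convAlg ι).algebraMap_mem a⟩ =
        fun _ => ι a := h77_toFun_algebraMap ι a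
    refine ⟨(h77_convAlg ι).algebraMap_mem a, ?_, ?_⟩
    · intro γ _ τ
      rw [e]
    · intro g
      refine ⟨algebraMap K (LaurentSeries K) a, ?_⟩
      rw [e, ModularCurve.algebraMap_laurentSeries_eq_single, ModularCurve.coeffMap_single]
      have := h77_isQExp_single (N : ℝ) 0 (ι a)
      simpa using this

theorem h14_mem_goodAlg {f : LaurentSeries K} : f ∈ h14_goodAlg ι N ↔
    ∃ hf : f ∈ h77_convAlg ι,
    (∀ γ ∈ Gamma0 N, ∀ τ : ℍ, h77_toFun ι ⟨f, hf⟩ (γ • τ) = h77_toFun ι ⟨f, hf⟩ τ) ∧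
    ∀ g : SL(2, ℤ), ∃ c : LaurentSeries K,
      h77_IsQExp (N : ℝ) (ModularCurve.coeffMap ι c) (fun τ => h77_toFun ι ⟨f, hf⟩ (g • τ)) :=
  Iff.rfl

theorem h14_goodAlg_le_convAlg : h14_goodAlg ι N ≤ h77_convAlg ι := fun _ hf => hf.1

end Good

section Gens

variable {K : Type*} [Field K] [Algebra ℚ K] [IsAlgClosed K] (ι : K →+* ℂ) (N : ℕ) [NeZero N]

omit [Algebra ℚ K] [NeZero N] in
theorem h14_exists_root (n : ℕ) (hn : 0 < n) :
    ∃ ζ : K, ι ζ = Complex.exp (2 * Real.pi * Complex.I / n) := by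
  obtain ⟨ζ, hζ⟩ := h78_exp_mem_range ι n hn.ne' 1
  refine ⟨ζ, ?_⟩
  rw [hζ]
  push_cast
  rw [mul_one]

/-- The generators `j(q^d)`, `d ∣ N`, are good. -/
theorem h14_gen_mem_goodAlg {d : ℕ} [NeZero d] (hd : d ∣ N) :
    ModularCurve.coeffEmb K (ModularCurve.qExpand ℚ d ModularCurve.jq) ∈ h14_goodAlg ι N := by
  have hfun := h77_toFun_jqd ι d
  have hdpos : 0 < d := Nat.pos_of_ne_zero (NeZero.ne d)
  have hNpos : 0 < N := Nat.pos_of_ne_zero (NeZero.ne N)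
  refine ⟨h77_jqd_mem ι d, ?_, ?_⟩
  · intro γ hγ τ
    rw [hfun]
    have hN0 : (N : ℤ) ∣ γ 1 0 := by
      have := Gamma0_mem.mp hγ
      exact (ZMod.intCast_zmod_eq_zero_iff_dvd _ _).mp this
    have hdvd : (d : ℤ) ∣ γ 1 0 := (Int.natCast_dvd_natCast.mpr hd).trans hN0
    exact (h64_conj_eq_iff h64_jf_smul h64_jf_leadOne hdpos γ).mpr hdvd τ
  · intro g
    rw [hfun]
    have hf : ∀ τ : ℍ, HasSum (fun k : ℤ =>
        (ModularCurve.coeffMap ι (ModularCurve.coeffEmb K ModularCurve.jq)).coeff k *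
          Function.Periodic.qParam (1 : ℝ) τ ^ k) (h77_j τ) := by
      rw [h77_coeffMap_coeffEmb]
      exact h77_isQExp_jq
    obtain ⟨c, e, -, -, -, hc⟩ := h64_exists_qexp_conj ι (h14_exists_root ι)
      (ModularCurve.coeffEmb K ModularCurve.jq) (f := h77_j) hf h64_jf_smul hdpos hNpos hd g
    exact ⟨c, hc⟩

/-- `A_N = K[j(q^d) : d ∣ N]` consists of good series. -/
theorem h14_AN_le_goodAlg : h78_AN K N ≤ h14_goodAlg ι N := by
  refine Algebra.adjoin_le ?_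
  rintro _ ⟨d, hd, hdN, rfl⟩
  exact h14_gen_mem_goodAlg ι N hdN

theorem h14_AN_le_convAlg : h78_AN K N ≤ h77_convAlg ι :=
  (h14_AN_le_goodAlg ι N).trans (h14_goodAlg_le_convAlg ι N)

/-- The function on `ℍ` attached to an element of `A_N`. -/
noncomputable def h14_ev (a : h78_AN K N) : ℍ → ℂ :=
  h77_toFun ι ⟨(a : LaurentSeries K), h14_AN_le_convAlg ι N a.2⟩

theorem h14_ev_spec (a : h78_AN K N) :
    h77_IsQExp 1 (ModularCurve.coeffMap ι (a : LaurentSeries K)) (h14_ev ι N a) :=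
  h77_toFun_spec ι ⟨(a : LaurentSeries K), h14_AN_le_convAlg ι N a.2⟩

theorem h14_ev_mdiff (a : h78_AN K N) : MDiff (h14_ev ι N a) :=
  h77_toFun_mdiff ι ⟨(a : LaurentSeries K), h14_AN_le_convAlg ι N a.2⟩

theorem h14_ev_mul (a b : h78_AN K N) (τ : ℍ) :
    h14_ev ι N (a * b) τ = h14_ev ι N a τ * h14_ev ι N b τ := by
  have : h14_ev ι N (a * b) = h14_ev ι N a * h14_ev ι N b := by
    unfold h14_ev
    rw [← map_mul]; rfl
  rw [this, Pi.mul_apply]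

theorem h14_ev_add (a b : h78_AN K N) (τ : ℍ) :
    h14_ev ι N (a + b) τ = h14_ev ι N a τ + h14_ev ι N b τ := by
  have : h14_ev ι N (a + b) = h14_ev ι N a + h14_ev ι N b := by
    unfold h14_ev
    rw [← map_add]; rfl
  rw [this, Pi.add_apply]

theorem h14_ev_algebraMap (c : K) (τ : ℍ) :
    h14_ev ι N (algebraMap K (h78_AN K N) c) τ = ι c := by
  have := h77_toFun_algebraMap ι c
  exact congrFun this τ

/-- `ev a` is `Γ₀(N)`-invariant for `a ∈ A_N`. -/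
theorem h14_ev_smul (a : h78_AN K N) {γ : SL(2, ℤ)} (hγ : γ ∈ Gamma0 N) (τ : ℍ) :
    h14_ev ι N a (γ • τ) = h14_ev ι N a τ := by
  obtain ⟨_, h1, _⟩ := h14_AN_le_goodAlg ι N a.2
  exact h1 γ hγ τ

/-- Every `SL₂(ℤ)`-conjugate of `ev a`, `a ∈ A_N`, has a `q_N`-expansion with coefficients in
`K`. -/
theorem h14_ev_conj_exp (a : h78_AN K N) (g : SL(2, ℤ)) :
    ∃ c : LaurentSeries K,
      h77_IsQExp (N : ℝ) (ModularCurve.coeffMap ι c) (fun τ => h14_ev ι N a (g • τ)) := by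
  obtain ⟨_, _, h2⟩ := h14_AN_le_goodAlg ι N a.2
  exact h2 g

/-- **PROD-INV** for `a ∈ A_N`: the product over `x ∈ SL₂(ℤ)/Γ₀(N)` of the conjugates
`τ ↦ ev a (g_x⁻¹ • τ)` is `P(j)` for a polynomial `P` with coefficients in `K`, and its
`q`-expansion is `P(jq)`. -/
theorem h14_prod_inv [Fintype (SL(2, ℤ) ⧸ Gamma0 N)] (a : h78_AN K N) :
    ∃ P : Polynomial K,
      (∀ τ : ℍ, ∏ x : SL(2, ℤ) ⧸ Gamma0 N, h14_ev ι N a ((Quotient.out x)⁻¹ • τ)
        = (P.map ι).eval (h77_j τ)) ∧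
      h77_IsQExp 1 (ModularCurve.coeffMap ι
          (Polynomial.aeval (ModularCurve.coeffEmb K ModularCurve.jq) P))
        (fun τ => ∏ x : SL(2, ℤ) ⧸ Gamma0 N, h14_ev ι N a ((Quotient.out x)⁻¹ • τ)) :=
  h14_prod_inv_fun ι N (fun _ hγ τ => h14_ev_smul ι N a hγ τ) (h14_ev_conj_exp ι N a)

end Gens

end Fermat.Agent.S24
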