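import Mathlib
import Fermat.Agent.S22.QCoeffD

set_option autoImplicit false

namespace Fermat.Agent.S24

open UpperHalfPlane ModularForm Complex Derivative EisensteinSeries
open scoped MatrixGroups ModularForm Manifold Topology

/-- The analytic `j`-function on the upper half plane. -/
noncomputable def h39_jfun (τ : ℍ) : ℂ := E₄ τ ^ 3 / discriminant τ

theorem h39_E4_mdiff : MDiff (E₄ : ℍ → ℂ) := ModularFormClass.holo E₄

theorem h39_E6_mdiff : MDiff (E₆ : ℍ → ℂ) := ModularFormClass.holo E₆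

theorem h39_disc_mdiff : MDiff (discriminant : ℍ → ℂ) := CuspForm.discriminant.holo'

theorem h39_jfun_mdiff : MDiff h39_jfun :=
  (h39_E4_mdiff.pow 3).div h39_disc_mdiff discriminant_ne_zero

theorem h39_E4_smul (γ : SL(2, ℤ)) (τ : ℍ) :
    E₄ (γ • τ) = (((γ 1 0 : ℤ) : ℂ) * τ + ((γ 1 1 : ℤ) : ℂ)) ^ 4 * E₄ τ := by
  have hγ : (γ : GL (Fin 2) ℝ) ∈ 𝒮ℒ := ⟨γ, rfl⟩
  have := SlashInvariantForm.slash_action_eqn' E₄ hγ τ
  simpa using this

theorem h39_E6_smul (γ : SL(2, ℤ)) (τ : ℍ) :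
    E₆ (γ • τ) = (((γ 1 0 : ℤ) : ℂ) * τ + ((γ 1 1 : ℤ) : ℂ)) ^ 6 * E₆ τ := by
  have hγ : (γ : GL (Fin 2) ℝ) ∈ 𝒮ℒ := ⟨γ, rfl⟩
  have := SlashInvariantForm.slash_action_eqn' E₆ hγ τ
  simpa using this

theorem h39_disc_smul (γ : SL(2, ℤ)) (τ : ℍ) :
    discriminant (γ • τ) = (((γ 1 0 : ℤ) : ℂ) * τ + ((γ 1 1 : ℤ) : ℂ)) ^ 12 * discriminant τ := by
  have hγ : (γ : GL (Fin 2) ℝ) ∈ 𝒮ℒ := ⟨γ, rfl⟩
  have := SlashInvariantForm.slash_action_eqn' CuspForm.discriminant hγ τ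
  simpa using this

theorem h39_denom_ne_zero (γ : SL(2, ℤ)) (τ : ℍ) :
    (((γ 1 0 : ℤ) : ℂ) * τ + ((γ 1 1 : ℤ) : ℂ)) ≠ 0 := by
  have := UpperHalfPlane.denom_ne_zero (γ : GL (Fin 2) ℝ) τ
  simpa [UpperHalfPlane.denom] using this

/-- The `j`-function is invariant under the modular group. -/
theorem h39_jfun_smul (γ : SL(2, ℤ)) (τ : ℍ) : h39_jfun (γ • τ) = h39_jfun τ := by
  have hd := h39_denom_ne_zero γ τ
  have hΔ := discriminant_ne_zero τ
  unfold h39_jfun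
  rw [h39_E4_smul, h39_disc_smul]
  field_simp

theorem h39_jfun_sub (τ : ℍ) : h39_jfun τ - 1728 = E₆ τ ^ 2 / discriminant τ := by
  have hΔ := discriminant_ne_zero τ
  have h := discriminant_eq_E₄_cube_sub_E₆_sq τ
  unfold h39_jfun
  field_simp
  linear_combination (-1728 : ℂ) * h

/-- A level-one cusp form from a holomorphic invariant function vanishing at infinity. -/
noncomputable def h39_mkCusp (k : ℤ) (B : ℍ → ℂ) (hB : ∀ γ : SL(2, ℤ), B ∣[k] γ = B)
    (hdiff : MDiff B) (hzero : IsZeroAtImInfty B) : CuspForm 𝒮ℒ k where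
  toFun := B
  slash_action_eq' := fun _ ⟨γ, hγ⟩ => hγ ▸ hB γ
  holo' := hdiff
  zero_at_cusps' {c} hc := by
    rw [Subgroup.IsArithmetic.isCusp_iff_isCusp_SL2Z] at hc
    rw [OnePoint.isZeroAt_iff_forall_SL2Z hc]
    intro γ _
    rw [hB γ]
    exact hzero

/-- A level-one modular form from a holomorphic invariant function bounded at infinity. -/
noncomputable def h39_mkMod (k : ℤ) (B : ℍ → ℂ) (hB : ∀ γ : SL(2, ℤ), B ∣[k] γ = B)
    (hdiff : MDiff B) (hbdd : IsBoundedAtImInfty B) : ModularForm 𝒮ℒ k where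
  toFun := B
  slash_action_eq' := fun _ ⟨γ, hγ⟩ => hγ ▸ hB γ
  holo' := hdiff
  bdd_at_cusps' {c} hc := by
    rw [Subgroup.IsArithmetic.isCusp_iff_isCusp_SL2Z] at hc
    rw [OnePoint.isBoundedAt_iff_forall_SL2Z hc]
    intro γ _
    rw [hB γ]
    exact hbdd

theorem h39_slash_D {k : ℤ} {F : ℍ → ℂ} (hF : MDiff F) (γ : SL(2, ℤ)) (hFγ : F ∣[k] γ = F)
    (z : ℍ) :
    (D F ∣[k + 2] γ) z = D F z +
      (k : ℂ) * (2 * Real.pi * Complex.I)⁻¹ * ((γ 1 0 : ℂ) / denom γ z) * F z := by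
  have h := congrFun (normalizedDerivOfComplex_SL_slash (k := k) hF (γ := γ)) z
  rw [hFγ] at h
  simp only [Pi.sub_apply] at h
  rw [h]
  simp

/-- The Rankin-Cohen bracket of `E₄` and `E₆`. -/
noncomputable def h39_bracket (τ : ℍ) : ℂ := 4 * E₄ τ * D E₆ τ - 6 * E₆ τ * D E₄ τ

theorem h39_E4_slash (γ : SL(2, ℤ)) : (E₄ : ℍ → ℂ) ∣[(4 : ℤ)] γ = E₄ :=
  SlashInvariantFormClass.slash_action_eq E₄ _ ⟨γ, rfl⟩

theorem h39_E6_slash (γ : SL(2, ℤ)) : (E₆ : ℍ → ℂ) ∣[(6 : ℤ)] γ = E₆ :=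
  SlashInvariantFormClass.slash_action_eq E₆ _ ⟨γ, rfl⟩

theorem h39_bracket_slash (γ : SL(2, ℤ)) : h39_bracket ∣[(12 : ℤ)] γ = h39_bracket := by
  funext z
  have h4 := h39_slash_D h39_E4_mdiff γ (h39_E4_slash γ) z
  have h6 := h39_slash_D h39_E6_mdiff γ (h39_E6_slash γ) z
  have e4 := congrFun (h39_E4_slash γ) z
  have e6 := congrFun (h39_E6_slash γ) z
  rw [SL_slash_apply] at h4 h6 e4 e6 ⊢
  have hd : denom γ z ≠ 0 := denom_ne_zero _ z
  simp only [h39_bracket]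
  have p12 : denom γ z ^ (-(12 : ℤ)) = denom γ z ^ (-(4 : ℤ)) * denom γ z ^ (-((6 : ℤ) + 2)) := by
    rw [← zpow_add₀ hd]; norm_num
  have p12' : denom γ z ^ (-(12 : ℤ)) = denom γ z ^ (-(6 : ℤ)) * denom γ z ^ (-((4 : ℤ) + 2)) := by
    rw [← zpow_add₀ hd]; norm_num
  calc (4 * E₄ (γ • z) * D E₆ (γ • z) - 6 * E₆ (γ • z) * D E₄ (γ • z)) * denom γ z ^ (-(12 : ℤ))
      = 4 * (E₄ (γ • z) * denom γ z ^ (-(4 : ℤ))) * (D E₆ (γ • z) * denom γ z ^ (-((6 : ℤ) + 2)))
        - 6 * (E₆ (γ • z) * denom γ z ^ (-(6 : ℤ))) *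
          (D E₄ (γ • z) * denom γ z ^ (-((4 : ℤ) + 2))) := by
        have : (4 * E₄ (γ • z) * D E₆ (γ • z) - 6 * E₆ (γ • z) * D E₄ (γ • z)) *
            denom γ z ^ (-(12 : ℤ)) = 4 * E₄ (γ • z) * D E₆ (γ • z) * denom γ z ^ (-(12 : ℤ))
            - 6 * E₆ (γ • z) * D E₄ (γ • z) * denom γ z ^ (-(12 : ℤ)) := by ring
        rw [this]
        nth_rewrite 1 [p12]
        rw [p12']
        ring
    _ = 4 * E₄ z * D E₆ z - 6 * E₆ z * D E₄ z := by
        rw [h4, h6, e4, e6]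
        push_cast
        ring

theorem h39_E4_periodic : Function.Periodic ((E₄ : ℍ → ℂ) ∘ ofComplex) (1 : ℝ) :=
  SlashInvariantFormClass.periodic_comp_ofComplex E₄ one_mem_strictPeriods_SL

theorem h39_E6_periodic : Function.Periodic ((E₆ : ℍ → ℂ) ∘ ofComplex) (1 : ℝ) :=
  SlashInvariantFormClass.periodic_comp_ofComplex E₆ one_mem_strictPeriods_SL

theorem h39_E4_bdd : IsBoundedAtImInfty (E₄ : ℍ → ℂ) := ModularFormClass.bdd_at_infty E₄

theorem h39_E6_bdd : IsBoundedAtImInfty (E₆ : ℍ → ℂ) := ModularFormClass.bdd_at_infty E₆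

theorem h39_DE4 : Fermat.Agent.S22.IsCuspPer 1 (D (E₄ : ℍ → ℂ)) :=
  Fermat.Agent.S22.isCuspPer_D one_pos h39_E4_mdiff h39_E4_periodic h39_E4_bdd

theorem h39_DE6 : Fermat.Agent.S22.IsCuspPer 1 (D (E₆ : ℍ → ℂ)) :=
  Fermat.Agent.S22.isCuspPer_D one_pos h39_E6_mdiff h39_E6_periodic h39_E6_bdd

theorem h39_bracket_mdiff : MDiff h39_bracket := by
  have h1 : MDiff (fun τ : ℍ => 4 * E₄ τ * D E₆ τ) :=
    ((mdifferentiable_const (c := (4 : ℂ))).mul h39_E4_mdiff).mul h39_DE6.mdiff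
  have h2 : MDiff (fun τ : ℍ => 6 * E₆ τ * D E₄ τ) :=
    ((mdifferentiable_const (c := (6 : ℂ))).mul h39_E6_mdiff).mul h39_DE4.mdiff
  exact h1.sub h2

theorem h39_bracket_zero : IsZeroAtImInfty h39_bracket := by
  have hE4 : (E₄ : ℍ → ℂ) =O[atImInfty] (1 : ℍ → ℝ) := h39_E4_bdd
  have hE6 : (E₆ : ℍ → ℂ) =O[atImInfty] (1 : ℍ → ℝ) := h39_E6_bdd
  have hD4 : (D (E₄ : ℍ → ℂ)) =o[atImInfty] (1 : ℍ → ℝ) :=
    (Asymptotics.isLittleO_one_iff ℝ).mpr h39_DE4.zero
  have hD6 : (D (E₆ : ℍ → ℂ)) =o[atImInfty] (1 : ℍ → ℝ) :=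
    (Asymptotics.isLittleO_one_iff ℝ).mpr h39_DE6.zero
  have h1 : Filter.Tendsto (fun τ : ℍ => 4 * E₄ τ * D E₆ τ) atImInfty (𝓝 0) := by
    have := ((hE4.const_mul_left (4 : ℂ)).mul_isLittleO hD6)
    simpa using this
  have h2 : Filter.Tendsto (fun τ : ℍ => 6 * E₆ τ * D E₄ τ) atImInfty (𝓝 0) := by
    have := ((hE6.const_mul_left (6 : ℂ)).mul_isLittleO hD4)
    simpa using this
  have h3 := h1.sub h2
  rw [sub_zero] at h3
  exact h3

/-- The Rankin-Cohen bracket as a cusp form of weight `12`. -/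
noncomputable def h39_bracketForm : CuspForm 𝒮ℒ 12 :=
  h39_mkCusp 12 h39_bracket h39_bracket_slash h39_bracket_mdiff h39_bracket_zero

theorem h39_qExpansion_D_coeff {G : ℍ → ℂ} (hG : MDiff G)
    (hper : Function.Periodic (G ∘ ofComplex) (1 : ℝ)) (hbdd : IsBoundedAtImInfty G) (m : ℕ) :
    (qExpansion 1 (D G)).coeff m = m * (qExpansion 1 G).coeff m :=
  Fermat.Agent.S22.qCoeff_D hG (by simpa using hper) hbdd m

theorem h39_bracket_coeff_one : (qExpansion 1 h39_bracket).coeff 1 = -3456 := by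
  have a4 : AnalyticAt ℂ (cuspFunction 1 (E₄ : ℍ → ℂ)) 0 :=
    ModularFormClass.analyticAt_cuspFunction_zero E₄ one_pos one_mem_strictPeriods_SL
  have a6 : AnalyticAt ℂ (cuspFunction 1 (E₆ : ℍ → ℂ)) 0 :=
    ModularFormClass.analyticAt_cuspFunction_zero E₆ one_pos one_mem_strictPeriods_SL
  have aD4 : AnalyticAt ℂ (cuspFunction 1 (D (E₄ : ℍ → ℂ))) 0 :=
    analyticAt_cuspFunction_zero one_pos h39_DE4.periodic h39_DE4.mdiff h39_DE4.bounded
  have aD6 : AnalyticAt ℂ (cuspFunction 1 (D (E₆ : ℍ → ℂ))) 0 :=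
    analyticAt_cuspFunction_zero one_pos h39_DE6.periodic h39_DE6.mdiff h39_DE6.bounded
  have a46 : AnalyticAt ℂ (cuspFunction 1 ((E₄ : ℍ → ℂ) * D (E₆ : ℍ → ℂ))) 0 := by
    rw [cuspFunction_mul a4.continuousAt aD6.continuousAt]; exact a4.mul aD6
  have a64 : AnalyticAt ℂ (cuspFunction 1 ((E₆ : ℍ → ℂ) * D (E₄ : ℍ → ℂ))) 0 := by
    rw [cuspFunction_mul a6.continuousAt aD4.continuousAt]; exact a6.mul aD4
  have a46' : AnalyticAt ℂ (cuspFunction 1 ((4 : ℂ) • ((E₄ : ℍ → ℂ) * D (E₆ : ℍ → ℂ)))) 0 := by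
    rw [cuspFunction_smul a46.continuousAt]; exact a46.const_smul
  have a64' : AnalyticAt ℂ (cuspFunction 1 ((6 : ℂ) • ((E₆ : ℍ → ℂ) * D (E₄ : ℍ → ℂ)))) 0 := by
    rw [cuspFunction_smul a64.continuousAt]; exact a64.const_smul
  have hB : h39_bracket = (4 : ℂ) • ((E₄ : ℍ → ℂ) * D (E₆ : ℍ → ℂ)) -
      (6 : ℂ) • ((E₆ : ℍ → ℂ) * D (E₄ : ℍ → ℂ)) := by
    funext τ
    simp only [h39_bracket, Pi.sub_apply, Pi.smul_apply, Pi.mul_apply, smul_eq_mul]
    ring
  have c40 : (qExpansion 1 (E₄ : ℍ → ℂ)).coeff 0 = 1 := E_qExpansion_coeff_zero _ ⟨2, rfl⟩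
  have c60 : (qExpansion 1 (E₆ : ℍ → ℂ)).coeff 0 = 1 := E_qExpansion_coeff_zero _ ⟨3, rfl⟩
  have d4 := h39_qExpansion_D_coeff h39_E4_mdiff h39_E4_periodic h39_E4_bdd
  have d6 := h39_qExpansion_D_coeff h39_E6_mdiff h39_E6_periodic h39_E6_bdd
  rw [hB, qExpansion_sub a46' a64', qExpansion_smul a46, qExpansion_smul a64,
    qExpansion_mul a4 aD6, qExpansion_mul a6 aD4]
  simp only [map_sub, PowerSeries.coeff_smul, PowerSeries.coeff_mul,
    Finset.Nat.antidiagonal_succ, Finset.Nat.antidiagonal_zero, smul_eq_mul]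
  simp [d4, d6, c40, c60, E₄_qExpansion_coeff_one, E₆_qExpansion_coeff_one]
  norm_num

theorem h39_bracket_eq (τ : ℍ) : h39_bracket τ = -3456 * discriminant τ := by
  obtain ⟨c, hc⟩ := CuspForm.exists_smul_discriminant_of_weight_eq_twelve h39_bracketForm
  have hfun : (c • CuspForm.discriminant : ℍ → ℂ) = h39_bracket := by
    have := congrArg (DFunLike.coe : CuspForm 𝒮ℒ 12 → ℍ → ℂ) hc
    exact this
  have hq := ModularForm.qExpansion_smul one_pos one_mem_strictPeriods_SL c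
    CuspForm.discriminant
  rw [hfun] at hq
  have h1 := congrArg (fun p : PowerSeries ℂ => p.coeff 1) hq
  simp only [PowerSeries.coeff_smul, smul_eq_mul] at h1
  rw [h39_bracket_coeff_one] at h1
  have h2 : (qExpansion 1 (CuspForm.discriminant : ℍ → ℂ)).coeff 1 = 1 :=
    discriminant_qExpansion_coeff_one
  rw [h2, mul_one] at h1
  have := congrFun hfun τ
  rw [← this, ← h1]
  rfl

/-- The derivative of `j`: `Δ · D j = - E₄² E₆`. -/
theorem h39_D_jfun (τ : ℍ) :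
    discriminant τ * D h39_jfun τ = -(E₄ τ ^ 2 * E₆ τ) := by
  have hΔ := discriminant_ne_zero τ
  have e1 : h39_jfun * discriminant = (E₄ : ℍ → ℂ) ^ 3 := by
    funext z
    simp only [Pi.mul_apply, Pi.pow_apply, h39_jfun]
    field_simp [discriminant_ne_zero z]
  have e2 : (1728 : ℂ) • (discriminant : ℍ → ℂ) = (E₄ : ℍ → ℂ) ^ 3 - (E₆ : ℍ → ℂ) ^ 2 := by
    funext z
    simp only [Pi.smul_apply, Pi.sub_apply, Pi.pow_apply, smul_eq_mul]
    rw [discriminant_eq_E₄_cube_sub_E₆_sq z]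
    ring
  have d1 := congrArg (fun F : ℍ → ℂ => D F τ) e1
  have d2 := congrArg (fun F : ℍ → ℂ => D F τ) e2
  beta_reduce at d1 d2
  rw [normalizedDerivOfComplex_mul _ _ h39_jfun_mdiff h39_disc_mdiff,
    normalizedDerivOfComplex_pow _ _ h39_E4_mdiff] at d1
  rw [normalizedDerivOfComplex_smul _ _ h39_disc_mdiff,
    normalizedDerivOfComplex_sub _ _ (h39_E4_mdiff.pow 3) (h39_E6_mdiff.pow 2),
    normalizedDerivOfComplex_pow _ _ h39_E4_mdiff,
    normalizedDerivOfComplex_pow _ _ h39_E6_mdiff] at d2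
  simp only [Pi.add_apply, Pi.mul_apply, Pi.pow_apply, Pi.sub_apply, Pi.smul_apply,
    smul_eq_mul, Nat.cast_ofNat, Pi.ofNat_apply] at d1 d2
  have h3 := h39_bracket_eq τ
  simp only [h39_bracket] at h3
  have h4 : h39_jfun τ * discriminant τ = E₄ τ ^ 3 := by
    simp only [h39_jfun]; field_simp
  have h5 : 1728 * discriminant τ = E₄ τ ^ 3 - E₆ τ ^ 2 := by
    rw [discriminant_eq_E₄_cube_sub_E₆_sq τ]; ring
  have h1728 : (1728 : ℂ) * discriminant τ ≠ 0 := mul_ne_zero (by norm_num) hΔ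
  apply mul_left_cancel₀ h1728
  linear_combination (1728 * discriminant τ) * d1 - (1728 * D discriminant τ) * h4
    - (E₄ τ ^ 3) * d2 + (3 * E₄ τ ^ 2 * D E₄ τ) * h5 + (E₄ τ ^ 2 * E₆ τ / 2) * h3

/-- Analyticity of `F ∘ ofComplex` at points of the upper half plane. -/
theorem h39_analyticAt {F : ℍ → ℂ} (hF : MDiff F) (τ : ℍ) :
    AnalyticAt ℂ (F ∘ ofComplex) (τ : ℂ) :=
  (UpperHalfPlane.mdifferentiable_iff.mp hF).analyticAt
    (isOpen_upperHalfPlaneSet.mem_nhds τ.im_pos)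

theorem h39_deriv_eq (F : ℍ → ℂ) (τ : ℍ) :
    deriv (F ∘ ofComplex) (τ : ℂ) = 2 * Real.pi * Complex.I * D F τ := by
  have hpi : (2 * Real.pi * Complex.I : ℂ) ≠ 0 := Complex.two_pi_I_ne_zero
  simp only [normalizedDerivOfComplex]
  field_simp

theorem h39_deriv_jfun_eventuallyEq (τ : ℍ) :
    deriv (h39_jfun ∘ ofComplex) =ᶠ[𝓝 (τ : ℂ)]
      (fun _ : ℂ => -(2 * Real.pi * Complex.I)) * ((E₄ : ℍ → ℂ) ∘ ofComplex) ^ 2 *
        ((E₆ : ℍ → ℂ) ∘ ofComplex) * ((discriminant : ℍ → ℂ) ∘ ofComplex)⁻¹ := by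
  filter_upwards [isOpen_upperHalfPlaneSet.mem_nhds τ.im_pos] with z hz
  have h1 := h39_deriv_eq h39_jfun ⟨z, hz⟩
  have h2 := h39_D_jfun ⟨z, hz⟩
  have hΔ := discriminant_ne_zero ⟨z, hz⟩
  rw [h1]
  simp only [Pi.mul_apply, Pi.pow_apply, Pi.inv_apply, Function.comp_apply,
    ofComplex_apply_of_im_pos hz]
  field_simp
  linear_combination h2

theorem h39_E4_order_ne_top (τ : ℍ) :
    analyticOrderAt ((E₄ : ℍ → ℂ) ∘ ofComplex) (τ : ℂ) ≠ ⊤ := by
  intro h
  rw [analyticOrderAt_eq_top] at h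
  have h0 : E₄ τ = 0 := by
    have := h.self_of_nhds
    simpa using this
  have hd : deriv ((E₄ : ℍ → ℂ) ∘ ofComplex) (τ : ℂ) = 0 := by
    have : ((E₄ : ℍ → ℂ) ∘ ofComplex) =ᶠ[𝓝 (τ : ℂ)] fun _ => 0 := h
    rw [this.deriv_eq]
    simp
  have hD : D (E₄ : ℍ → ℂ) τ = 0 := by
    simp only [normalizedDerivOfComplex, hd, mul_zero]
  have hb := h39_bracket_eq τ
  simp only [h39_bracket, h0, hD, mul_zero, zero_mul, sub_zero] at hb
  have hΔ := discriminant_ne_zero τ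
  exact hΔ (by linear_combination (1 / 3456 : ℂ) * hb)

theorem h39_E6_order_ne_top (τ : ℍ) :
    analyticOrderAt ((E₆ : ℍ → ℂ) ∘ ofComplex) (τ : ℂ) ≠ ⊤ := by
  intro h
  rw [analyticOrderAt_eq_top] at h
  have h0 : E₆ τ = 0 := by
    have := h.self_of_nhds
    simpa using this
  have hd : deriv ((E₆ : ℍ → ℂ) ∘ ofComplex) (τ : ℂ) = 0 := by
    have : ((E₆ : ℍ → ℂ) ∘ ofComplex) =ᶠ[𝓝 (τ : ℂ)] fun _ => 0 := h
    rw [this.deriv_eq]
    simp
  have hD : D (E₆ : ℍ → ℂ) τ = 0 := by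
    simp only [normalizedDerivOfComplex, hd, mul_zero]
  have hb := h39_bracket_eq τ
  simp only [h39_bracket, h0, hD, mul_zero, zero_mul, sub_zero] at hb
  have hΔ := discriminant_ne_zero τ
  exact hΔ (by linear_combination (1 / 3456 : ℂ) * hb)

theorem h39_disc_inv_order (τ : ℍ) :
    AnalyticAt ℂ (((discriminant : ℍ → ℂ) ∘ ofComplex)⁻¹) (τ : ℂ) ∧
      analyticOrderAt (((discriminant : ℍ → ℂ) ∘ ofComplex)⁻¹) (τ : ℂ) = 0 := by
  have aΔ := h39_analyticAt h39_disc_mdiff τ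
  have hΔ : ((discriminant : ℍ → ℂ) ∘ ofComplex) (τ : ℂ) ≠ 0 := by
    simp [discriminant_ne_zero]
  have aΔi : AnalyticAt ℂ (((discriminant : ℍ → ℂ) ∘ ofComplex)⁻¹) (τ : ℂ) := aΔ.inv hΔ
  refine ⟨aΔi, aΔi.analyticOrderAt_eq_zero.mpr ?_⟩
  simp [discriminant_ne_zero]

theorem h39_order_deriv (τ : ℍ) :
    analyticOrderAt (deriv (h39_jfun ∘ ofComplex)) (τ : ℂ) =
      2 • analyticOrderAt ((E₄ : ℍ → ℂ) ∘ ofComplex) (τ : ℂ) +
        analyticOrderAt ((E₆ : ℍ → ℂ) ∘ ofComplex) (τ : ℂ) := by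
  rw [analyticOrderAt_congr (h39_deriv_jfun_eventuallyEq τ)]
  have a4 := h39_analyticAt h39_E4_mdiff τ
  have a6 := h39_analyticAt h39_E6_mdiff τ
  obtain ⟨aΔi, h2⟩ := h39_disc_inv_order τ
  have ac : AnalyticAt ℂ (fun _ : ℂ => -(2 * Real.pi * Complex.I)) (τ : ℂ) := analyticAt_const
  have h1 : analyticOrderAt (fun _ : ℂ => -(2 * Real.pi * Complex.I)) (τ : ℂ) = 0 :=
    ac.analyticOrderAt_eq_zero.mpr (neg_ne_zero.mpr Complex.two_pi_I_ne_zero)
  rw [analyticOrderAt_mul ((ac.mul (a4.pow 2)).mul a6) aΔi,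
    analyticOrderAt_mul (ac.mul (a4.pow 2)) a6,
    analyticOrderAt_mul ac (a4.pow 2), analyticOrderAt_pow a4, h1, h2]
  simp

/-- The order of vanishing of `j - j(τ)` at `τ` is `3`, `2` or `1` according to
`j(τ) = 0`, `j(τ) = 1728` or neither. -/
theorem h39_order (τ : ℍ) :
    analyticOrderAt (fun z : ℂ => h39_jfun (ofComplex z) - h39_jfun τ) (τ : ℂ) =
      if h39_jfun τ = 0 then 3 else if h39_jfun τ = 1728 then 2 else 1 := by
  have aJ := h39_analyticAt h39_jfun_mdiff τ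
  have a4 := h39_analyticAt h39_E4_mdiff τ
  have a6 := h39_analyticAt h39_E6_mdiff τ
  obtain ⟨aΔi, h2⟩ := h39_disc_inv_order τ
  have hΔ := discriminant_ne_zero τ
  have h5 : 1728 * discriminant τ = E₄ τ ^ 3 - E₆ τ ^ 2 := by
    rw [discriminant_eq_E₄_cube_sub_E₆_sq τ]; ring
  have key := aJ.analyticOrderAt_deriv_add_one
  simp only [Function.comp_apply, ofComplex_apply] at key
  rw [h39_order_deriv] at key
  have ha := h39_E4_order_ne_top τ
  have hb := h39_E6_order_ne_top τ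
  have ha0 : E₄ τ ≠ 0 → analyticOrderAt ((E₄ : ℍ → ℂ) ∘ ofComplex) (τ : ℂ) = 0 := fun h =>
    a4.analyticOrderAt_eq_zero.mpr (by simpa using h)
  have hb0 : E₆ τ ≠ 0 → analyticOrderAt ((E₆ : ℍ → ℂ) ∘ ofComplex) (τ : ℂ) = 0 := fun h =>
    a6.analyticOrderAt_eq_zero.mpr (by simpa using h)
  by_cases h0 : h39_jfun τ = 0
  · have hE4 : E₄ τ = 0 := by
      have : E₄ τ ^ 3 = 0 := by
        have := h0
        simp only [h39_jfun, div_eq_zero_iff, hΔ, or_false] at this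
        exact this
      exact pow_eq_zero_iff (by norm_num) |>.mp this
    have hE6 : E₆ τ ≠ 0 := by
      intro h
      rw [hE4, h] at h5
      exact hΔ (by linear_combination (1 / 1728 : ℂ) * h5)
    have h3 : analyticOrderAt (fun z : ℂ => h39_jfun (ofComplex z) - h39_jfun τ) (τ : ℂ) =
        3 • analyticOrderAt ((E₄ : ℍ → ℂ) ∘ ofComplex) (τ : ℂ) := by
      have : (fun z : ℂ => h39_jfun (ofComplex z) - h39_jfun τ) =
          ((E₄ : ℍ → ℂ) ∘ ofComplex) ^ 3 * ((discriminant : ℍ → ℂ) ∘ ofComplex)⁻¹ := by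
        funext z
        rw [h0, sub_zero]
        simp [h39_jfun, div_eq_mul_inv]
      rw [this, analyticOrderAt_mul (a4.pow 3) aΔi, analyticOrderAt_pow a4, h2, add_zero]
    rw [h3, hb0 hE6] at key
    rw [h3]
    lift analyticOrderAt ((E₄ : ℍ → ℂ) ∘ ofComplex) (τ : ℂ) to ℕ using ha with a
    have h1 : 2 * a + 0 + 1 = 3 * a := by
      have : ((2 * a + 0 + 1 : ℕ) : ℕ∞) = ((3 * a : ℕ) : ℕ∞) := by
        push_cast
        simpa [nsmul_eq_mul] using key
      exact_mod_cast this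
    have h1' : a = 1 := by omega
    subst h1'
    simp [h0]
  · by_cases h1728 : h39_jfun τ = 1728
    · have hE6 : E₆ τ = 0 := by
        have hs := h39_jfun_sub τ
        rw [h1728, sub_self] at hs
        have : E₆ τ ^ 2 = 0 := by
          have := hs.symm
          simp only [div_eq_zero_iff, hΔ, or_false] at this
          exact this
        exact pow_eq_zero_iff (by norm_num) |>.mp this
      have hE4 : E₄ τ ≠ 0 := by
        intro h
        rw [hE6, h] at h5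
        exact hΔ (by linear_combination (1 / 1728 : ℂ) * h5)
      have h3 : analyticOrderAt (fun z : ℂ => h39_jfun (ofComplex z) - h39_jfun τ) (τ : ℂ) =
          2 • analyticOrderAt ((E₆ : ℍ → ℂ) ∘ ofComplex) (τ : ℂ) := by
        have : (fun z : ℂ => h39_jfun (ofComplex z) - h39_jfun τ) =
            ((E₆ : ℍ → ℂ) ∘ ofComplex) ^ 2 * ((discriminant : ℍ → ℂ) ∘ ofComplex)⁻¹ := by
          funext z
          rw [h1728, h39_jfun_sub]
          simp [div_eq_mul_inv]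
        rw [this, analyticOrderAt_mul (a6.pow 2) aΔi, analyticOrderAt_pow a6, h2, add_zero]
      rw [h3, ha0 hE4] at key
      rw [h3]
      lift analyticOrderAt ((E₆ : ℍ → ℂ) ∘ ofComplex) (τ : ℂ) to ℕ using hb with b
      have h1 : 2 * 0 + b + 1 = 2 * b := by
        have : ((2 * 0 + b + 1 : ℕ) : ℕ∞) = ((2 * b : ℕ) : ℕ∞) := by
          push_cast
          simpa [nsmul_eq_mul] using key
        exact_mod_cast this
      have h1' : b = 1 := by omega
      subst h1'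
      simp [h1728]
    · have hE4 : E₄ τ ≠ 0 := by
        intro h
        apply h0
        simp [h39_jfun, h]
      have hE6 : E₆ τ ≠ 0 := by
        intro h
        apply h1728
        have hs := h39_jfun_sub τ
        rw [h] at hs
        simp at hs
        linear_combination hs
      rw [ha0 hE4, hb0 hE6] at key
      rw [← key]
      simp [h0, h1728]

theorem h39_S_smul_I : ModularGroup.S • UpperHalfPlane.I = UpperHalfPlane.I :=
  ModularGroup.stabilizer_I.mpr (by simp)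

theorem h39_ST_smul_rho : (ModularGroup.S * ModularGroup.T) • ρ = ρ :=
  ModularGroup.stabilizer_ρ.mpr (by simp)

theorem h39_E6_I : E₆ UpperHalfPlane.I = 0 := by
  have h := h39_E6_smul ModularGroup.S UpperHalfPlane.I
  rw [h39_S_smul_I] at h
  have h10 : (ModularGroup.S 1 0 : ℤ) = 1 := by simp [ModularGroup.S]
  have h11 : (ModularGroup.S 1 1 : ℤ) = 0 := by simp [ModularGroup.S]
  rw [h10, h11] at h
  have hI : ((UpperHalfPlane.I : ℍ) : ℂ) = Complex.I := rfl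
  simp only [Int.cast_one, one_mul, Int.cast_zero, add_zero, hI] at h
  have hI6 : Complex.I ^ 6 = -1 := by
    have : Complex.I ^ 6 = (Complex.I ^ 2) ^ 3 := by ring
    rw [this, Complex.I_sq]; norm_num
  rw [hI6] at h
  linear_combination (1 / 2 : ℂ) * h

theorem h39_E4_rho : E₄ ρ = 0 := by
  have h := h39_E4_smul (ModularGroup.S * ModularGroup.T) ρ
  rw [h39_ST_smul_rho] at h
  have h10 : ((ModularGroup.S * ModularGroup.T) 1 0 : ℤ) = 1 := by
    rw [Matrix.SpecialLinearGroup.coe_mul, ModularGroup.coe_S, ModularGroup.coe_T]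
    simp [Matrix.mul_apply, Fin.sum_univ_two]
  have h11 : ((ModularGroup.S * ModularGroup.T) 1 1 : ℤ) = 1 := by
    rw [Matrix.SpecialLinearGroup.coe_mul, ModularGroup.coe_S, ModularGroup.coe_T]
    simp [Matrix.mul_apply, Fin.sum_univ_two]
  rw [h10, h11] at h
  simp only [Int.cast_one, one_mul] at h
  have hsq := ρ_sq
  have h4 : ((ρ : ℂ) + 1) ^ 4 = -(ρ : ℂ) - 1 := by
    have h2 : ((ρ : ℂ) + 1) ^ 2 = ρ := by linear_combination hsq
    have : ((ρ : ℂ) + 1) ^ 4 = (((ρ : ℂ) + 1) ^ 2) ^ 2 := by ring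
    rw [this, h2, hsq]
  rw [h4] at h
  have hne : (ρ : ℂ) + 2 ≠ 0 := by
    intro h0
    have him := congrArg Complex.im h0
    have hpos := ρ.im_pos
    simp only [Complex.add_im, Complex.zero_im] at him
    have h2im : (2 : ℂ).im = 0 := by norm_num
    rw [h2im, add_zero] at him
    have : (ρ : ℂ).im = ρ.im := rfl
    linarith
  have : ((ρ : ℂ) + 2) * E₄ ρ = 0 := by linear_combination h
  rcases mul_eq_zero.mp this with h' | h'
  · exact absurd h' hne
  · exact h'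

theorem h39_jfun_I : h39_jfun UpperHalfPlane.I = 1728 := by
  have h := h39_jfun_sub UpperHalfPlane.I
  rw [h39_E6_I] at h
  simp at h
  linear_combination h

theorem h39_jfun_rho : h39_jfun ρ = 0 := by
  simp [h39_jfun, h39_E4_rho]

theorem h39_tendsto_modularForm {k : ℤ} (f : ModularForm 𝒮ℒ k) :
    Filter.Tendsto f atImInfty (𝓝 ((qExpansion 1 f).coeff 0)) := by
  have hanal : AnalyticAt ℂ (cuspFunction 1 (f : ℍ → ℂ)) 0 :=
    ModularFormClass.analyticAt_cuspFunction_zero f one_pos one_mem_strictPeriods_SL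
  have h1 := hanal.continuousAt.tendsto.comp (qParam_tendsto_atImInfty one_pos)
  have h0 : (qExpansion 1 (f : ℍ → ℂ)).coeff 0 = cuspFunction 1 (f : ℍ → ℂ) 0 := by
    simp [qExpansion_coeff]
  rw [h0]
  refine h1.congr fun τ => ?_
  exact SlashInvariantFormClass.eq_cuspFunction f τ one_mem_strictPeriods_SL one_ne_zero

theorem h39_tendsto_E4 : Filter.Tendsto (E₄ : ℍ → ℂ) atImInfty (𝓝 1) := by
  have h := h39_tendsto_modularForm E₄
  have c40 : (qExpansion 1 (E₄ : ℍ → ℂ)).coeff 0 = 1 := E_qExpansion_coeff_zero _ ⟨2, rfl⟩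
  rwa [c40] at h

theorem h39_tendsto_E6 : Filter.Tendsto (E₆ : ℍ → ℂ) atImInfty (𝓝 1) := by
  have h := h39_tendsto_modularForm E₆
  have c60 : (qExpansion 1 (E₆ : ℍ → ℂ)).coeff 0 = 1 := E_qExpansion_coeff_zero _ ⟨3, rfl⟩
  rwa [c60] at h

/-- The `j`-function takes every complex value. -/
theorem h39_jfun_surjective : Function.Surjective h39_jfun := by
  intro c
  by_contra hc'
  have hc : ∀ τ : ℍ, h39_jfun τ ≠ c := fun τ h => hc' ⟨τ, h⟩
  have hden : ∀ τ : ℍ, E₄ τ ^ 3 - c * discriminant τ ≠ 0 := by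
    intro τ h
    apply hc τ
    have hΔ := discriminant_ne_zero τ
    simp only [h39_jfun]
    field_simp
    linear_combination h
  set g : ℍ → ℂ := fun τ => discriminant τ / (E₄ τ ^ 3 - c * discriminant τ) with hg
  have hgj : ∀ τ, g τ = 1 / (h39_jfun τ - c) := by
    intro τ
    have hΔ := discriminant_ne_zero τ
    have h1 := hden τ
    have h2 : h39_jfun τ - c ≠ 0 := sub_ne_zero.mpr (hc τ)
    simp only [hg, h39_jfun] at h2 ⊢
    field_simp
  have hslash : ∀ γ : SL(2, ℤ), g ∣[(0 : ℤ)] γ = g := by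
    intro γ
    funext τ
    rw [SL_slash_apply, hgj, hgj, h39_jfun_smul]
    simp
  have hdiff : MDiff g := by
    refine h39_disc_mdiff.div ?_ hden
    exact (h39_E4_mdiff.pow 3).sub ((mdifferentiable_const (c := c)).mul h39_disc_mdiff)
  have hzero : IsZeroAtImInfty g := by
    have hΔ : Filter.Tendsto (discriminant : ℍ → ℂ) atImInfty (𝓝 0) :=
      discriminant_isZeroAtImInfty
    have h1 : Filter.Tendsto (fun τ : ℍ => E₄ τ ^ 3 - c * discriminant τ) atImInfty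
        (𝓝 (1 ^ 3 - c * 0)) := (h39_tendsto_E4.pow 3).sub (hΔ.const_mul c)
    have h2 := hΔ.div h1 (by norm_num)
    have h3 : (0 : ℂ) / (1 ^ 3 - c * 0) = 0 := by norm_num
    rw [h3] at h2
    exact h2
  have hrank := CuspForm.rank_eq_zero_of_weight_lt_twelve (k := 0) (by norm_num)
  have hz : h39_mkCusp 0 g hslash hdiff hzero = 0 := rank_zero_iff_forall_zero.mp hrank _
  have hz' := congrArg (fun f : CuspForm 𝒮ℒ 0 => f UpperHalfPlane.I) hz
  have : g UpperHalfPlane.I = 0 := hz'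
  have h3 := discriminant_ne_zero UpperHalfPlane.I
  have h4 := hden UpperHalfPlane.I
  simp only [hg, div_eq_zero_iff] at this
  rcases this with h | h
  · exact h3 h
  · exact h4 h

/-- If a meromorphic germ at a fixed point `x` of `φ` is `φ`-invariant, then the multiplier
`φ'(x)` raised to the order of the germ is `1`. -/
theorem h39_multiplier_zpow_eq_one {g φ : ℂ → ℂ} {x : ℂ} (hφ : DifferentiableAt ℂ φ x)
    (hx : φ x = x) (hd : deriv φ x ≠ 0) (hg : MeromorphicAt g x)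
    (hinv : ∀ᶠ z in 𝓝[≠] x, g (φ z) = g z) {n : ℤ} (hn : meromorphicOrderAt g x = n) :
    deriv φ x ^ n = 1 := by
  obtain ⟨h, hh_an, hh_ne, hh_eq⟩ := (meromorphicOrderAt_eq_int_iff hg).mp hn
  have hψc : ContinuousAt (dslope φ x) x := continuousAt_dslope_same.mpr hφ
  have hψx : dslope φ x x = deriv φ x := dslope_same φ x
  have hψne : ∀ᶠ z in 𝓝 x, dslope φ x z ≠ 0 := hψc.eventually_ne (by rw [hψx]; exact hd)
  have hφeq : ∀ z, φ z - x = (z - x) * dslope φ x z := by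
    intro z
    have := sub_smul_dslope φ x z
    rw [hx] at this
    rw [← this, smul_eq_mul]
  have hφne : ∀ᶠ z in 𝓝[≠] x, φ z ≠ x := by
    rw [eventually_nhdsWithin_iff]
    filter_upwards [hψne] with z hz hzx
    have h1 : z - x ≠ 0 := sub_ne_zero.mpr hzx
    have h2 := hφeq z
    intro h3
    rw [h3, sub_self] at h2
    exact (mul_ne_zero h1 hz) h2.symm
  have hφt : Filter.Tendsto φ (𝓝[≠] x) (𝓝[≠] x) := by
    refine tendsto_nhdsWithin_of_tendsto_nhds_of_eventually_within φ ?_ hφne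
    have := hφ.continuousAt.tendsto
    rw [hx] at this
    exact this.mono_left nhdsWithin_le_nhds
  have hcomp : ∀ᶠ z in 𝓝[≠] x, g (φ z) = (φ z - x) ^ n • h (φ z) := hφt.eventually hh_eq
  have hψne' : ∀ᶠ z in 𝓝[≠] x, dslope φ x z ≠ 0 := hψne.filter_mono nhdsWithin_le_nhds
  have hmain : ∀ᶠ z in 𝓝[≠] x, dslope φ x z ^ n * h (φ z) = h z := by
    filter_upwards [hh_eq, hcomp, hinv, hψne', self_mem_nhdsWithin] with z h1 h2 h3 h4 h5
    have hzx : z - x ≠ 0 := sub_ne_zero.mpr h5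
    rw [h2, h1, hφeq z, mul_zpow, smul_eq_mul, smul_eq_mul, mul_assoc] at h3
    exact mul_left_cancel₀ (zpow_ne_zero n hzx) h3
  have hlim1 : Filter.Tendsto (fun z => dslope φ x z ^ n * h (φ z)) (𝓝[≠] x)
      (𝓝 (deriv φ x ^ n * h x)) := by
    have t1 : Filter.Tendsto (dslope φ x) (𝓝[≠] x) (𝓝 (deriv φ x)) := by
      have := hψc.tendsto
      rw [hψx] at this
      exact this.mono_left nhdsWithin_le_nhds
    have t2 : Filter.Tendsto (fun z => h (φ z)) (𝓝[≠] x) (𝓝 (h x)) := by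
      have hc : Filter.Tendsto φ (𝓝[≠] x) (𝓝 x) := hφt.mono_right nhdsWithin_le_nhds
      exact hh_an.continuousAt.tendsto.comp hc
    exact (t1.zpow₀ n (Or.inl hd)).mul t2
  have hlim2 : Filter.Tendsto (fun z => dslope φ x z ^ n * h (φ z)) (𝓝[≠] x) (𝓝 (h x)) := by
    have t3 : Filter.Tendsto h (𝓝[≠] x) (𝓝 (h x)) :=
      hh_an.continuousAt.tendsto.mono_left nhdsWithin_le_nhds
    refine t3.congr' ?_
    filter_upwards [hmain] with z hz
    exact hz.symm
  have huniq := tendsto_nhds_unique hlim1 hlim2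
  have : (deriv φ x ^ n - 1) * h x = 0 := by linear_combination huniq
  rcases mul_eq_zero.mp this with h' | h'
  · exact sub_eq_zero.mp h'
  · exact absurd h' hh_ne

/-- A germ at `i`, meromorphic and invariant under `S`, has even order. -/
theorem h39_even_order_I {g : ℍ → ℂ}
    (hg : MeromorphicAt (g ∘ ofComplex) ((UpperHalfPlane.I : ℍ) : ℂ))
    (hinv : ∀ τ : ℍ, g (ModularGroup.S • τ) = g τ) {n : ℤ}
    (hn : meromorphicOrderAt (g ∘ ofComplex) ((UpperHalfPlane.I : ℍ) : ℂ) = n) : Even n := by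
  have hI : ((UpperHalfPlane.I : ℍ) : ℂ) = Complex.I := rfl
  rw [hI] at hg hn
  set φ : ℂ → ℂ := fun z => (-z)⁻¹ with hφdef
  have hne : -Complex.I ≠ 0 := neg_ne_zero.mpr Complex.I_ne_zero
  have hderiv : HasDerivAt φ (-(-1 : ℂ) / (-Complex.I) ^ 2) Complex.I :=
    (hasDerivAt_neg Complex.I).inv hne
  have hx : φ Complex.I = Complex.I := by
    simp only [hφdef]
    rw [inv_neg, Complex.inv_I, neg_neg]
  have hd : deriv φ Complex.I = -1 := by
    rw [hderiv.deriv]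
    have : (-Complex.I) ^ 2 = -1 := by rw [neg_sq, Complex.I_sq]
    rw [this]; norm_num
  have hinv' : ∀ᶠ z in 𝓝[≠] Complex.I, (g ∘ ofComplex) (φ z) = (g ∘ ofComplex) z := by
    have hopen : {z : ℂ | 0 < z.im} ∈ 𝓝 Complex.I :=
      isOpen_upperHalfPlaneSet.mem_nhds (by simp)
    filter_upwards [nhdsWithin_le_nhds hopen] with z hz
    have h1 := modular_S_smul ⟨z, hz⟩
    have h2 := hinv ⟨z, hz⟩
    have him : 0 < ((-z)⁻¹).im := (⟨z, hz⟩ : ℍ).im_inv_neg_coe_pos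
    simp only [Function.comp_apply, hφdef, ofComplex_apply_of_im_pos hz,
      ofComplex_apply_of_im_pos him]
    rw [← h2, h1]
  have key := h39_multiplier_zpow_eq_one hderiv.differentiableAt hx
    (by rw [hd]; norm_num) hg hinv' hn
  rw [hd] at key
  rcases Int.even_or_odd n with he | ho
  · exact he
  · rw [ho.neg_one_zpow] at key
    norm_num at key

/-- A germ at `ρ`, meromorphic and invariant under `S * T`, has order divisible by `3`. -/
theorem h39_three_dvd_order_rho {g : ℍ → ℂ}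
    (hg : MeromorphicAt (g ∘ ofComplex) ((ρ : ℍ) : ℂ))
    (hinv : ∀ τ : ℍ, g ((ModularGroup.S * ModularGroup.T) • τ) = g τ) {n : ℤ}
    (hn : meromorphicOrderAt (g ∘ ofComplex) ((ρ : ℍ) : ℂ) = n) : (3 : ℤ) ∣ n := by
  set r : ℂ := ((ρ : ℍ) : ℂ) with hr
  have hsq : r ^ 2 = -r - 1 := ρ_sq
  have hr0 : r ≠ 0 := ρ.ne_zero
  set φ : ℂ → ℂ := fun z => (-(1 + z))⁻¹ with hφdef
  have h1r : (1 + r) ^ 2 = r := by linear_combination hsq
  have hne : -(1 + r) ≠ 0 := by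
    intro h
    have : (1 + r) ^ 2 = 0 := by
      have h' : 1 + r = 0 := by linear_combination -h
      rw [h']; ring
    rw [h1r] at this
    exact hr0 this
  have hderiv : HasDerivAt φ (-(-1 : ℂ) / (-(1 + r)) ^ 2) r :=
    (((hasDerivAt_id r).const_add 1).neg).inv hne
  have hx : φ r = r := by
    simp only [hφdef]
    have hmul : (-(1 + r)) * r = 1 := by linear_combination -hsq
    exact (eq_inv_of_mul_eq_one_right hmul).symm
  have hd : deriv φ r = r⁻¹ := by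
    rw [hderiv.deriv, neg_sq, h1r]; simp
  have hinv' : ∀ᶠ z in 𝓝[≠] r, (g ∘ ofComplex) (φ z) = (g ∘ ofComplex) z := by
    have hopen : {z : ℂ | 0 < z.im} ∈ 𝓝 r := isOpen_upperHalfPlaneSet.mem_nhds ρ.im_pos
    filter_upwards [nhdsWithin_le_nhds hopen] with z hz
    have h2 := hinv ⟨z, hz⟩
    have h3 : ((ModularGroup.S * ModularGroup.T) • (⟨z, hz⟩ : ℍ) : ℍ) =
        ModularGroup.S • (ModularGroup.T • (⟨z, hz⟩ : ℍ)) := mul_smul _ _ _
    have h4 : (((ModularGroup.S * ModularGroup.T) • (⟨z, hz⟩ : ℍ) : ℍ) : ℂ) = (-(1 + z))⁻¹ := by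
      rw [h3, modular_S_smul, modular_T_smul]
      simp [UpperHalfPlane.coe_vadd]
    have him : 0 < ((-(1 + z))⁻¹).im := by
      rw [← h4]; exact UpperHalfPlane.im_pos _
    have h5 : ofComplex ((-(1 + z))⁻¹) = (ModularGroup.S * ModularGroup.T) • (⟨z, hz⟩ : ℍ) := by
      rw [ofComplex_apply_of_im_pos him]
      exact UpperHalfPlane.ext h4.symm
    simp only [Function.comp_apply, hφdef, ofComplex_apply_of_im_pos hz]
    rw [h5, h2]
  have key := h39_multiplier_zpow_eq_one hderiv.differentiableAt hx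
    (by rw [hd]; exact inv_ne_zero hr0) hg hinv' hn
  rw [hd, inv_zpow, inv_eq_one] at key
  have hr3 : r ^ 3 = 1 := by linear_combination (r - 1) * hsq
  have hr1 : r ≠ 1 := by
    intro h
    rw [h] at hsq
    norm_num at hsq
  have hr2 : r ^ 2 ≠ 1 := by
    intro h
    rw [hsq] at h
    have h' : r = -2 := by linear_combination -h
    rw [h'] at hsq
    norm_num at hsq
  have hdecomp : n = 3 * (n / 3) + n % 3 := (Int.mul_ediv_add_emod n 3).symm
  have hmod0 : 0 ≤ n % 3 := Int.emod_nonneg n (by norm_num)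
  have hmod3 : n % 3 < 3 := Int.emod_lt_of_pos n (by norm_num)
  have hpow : r ^ n = r ^ (n % 3) := by
    conv_lhs => rw [hdecomp]
    rw [zpow_add₀ hr0, zpow_mul, show (3 : ℤ) = ((3 : ℕ) : ℤ) by norm_num, zpow_natCast, hr3]
    simp
  rw [hpow] at key
  have : n % 3 = 0 := by
    interval_cases h : n % 3
    · rfl
    · rw [zpow_one] at key; exact absurd key hr1
    · rw [show (2 : ℤ) = ((2 : ℕ) : ℤ) by norm_num, zpow_natCast] at key; exact absurd key hr2
  exact Int.dvd_of_emod_eq_zero this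

/-- `h39_order` as a natural number. -/
theorem h39_order_nat (τ : ℍ) :
    analyticOrderAt (fun z : ℂ => h39_jfun (ofComplex z) - h39_jfun τ) (τ : ℂ) =
      ((if h39_jfun τ = 0 then 3 else if h39_jfun τ = 1728 then 2 else 1 : ℕ) : ℕ∞) := by
  rw [h39_order]
  split_ifs <;> rfl

/-- `h39_order` in terms of `meromorphicOrderAt`. -/
theorem h39_meromorphicOrder (τ : ℍ) :
    meromorphicOrderAt (fun z : ℂ => h39_jfun (ofComplex z) - h39_jfun τ) (τ : ℂ) =
      (((if h39_jfun τ = 0 then 3 else if h39_jfun τ = 1728 then 2 else 1 : ℕ) : ℤ) :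
        WithTop ℤ) := by
  have aJ : AnalyticAt ℂ (fun z : ℂ => h39_jfun (ofComplex z) - h39_jfun τ) (τ : ℂ) :=
    (h39_analyticAt h39_jfun_mdiff τ).sub analyticAt_const
  rw [aJ.meromorphicOrderAt_eq, h39_order_nat]
  rfl

end Fermat.Agent.S24
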