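/-
S24 / local expansions at points of the upper half plane (helper54).
Taylor expansion of holomorphic functions on ℍ as a ring hom into `PowerSeries ℂ`,
order = analytic order, behaviour under the modular group, elliptic divisibility.
-/
import Mathlib

set_option autoImplicit false

open UpperHalfPlane Filter Topology
open scoped Manifold MatrixGroups

namespace Fermat.Agent.S24

/-! ### Taylor series of a function `ℂ → ℂ` at a point -/

/-- Taylor series at `z₀` of `g : ℂ → ℂ` (coordinate `z - z₀`). -/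
noncomputable def h54_tay (z₀ : ℂ) (g : ℂ → ℂ) : PowerSeries ℂ :=
  PowerSeries.mk fun m => ((m.factorial : ℂ))⁻¹ * iteratedDeriv m g z₀

theorem h54_tay_coeff (z₀ : ℂ) (g : ℂ → ℂ) (m : ℕ) :
    (h54_tay z₀ g).coeff m = ((m.factorial : ℂ))⁻¹ * iteratedDeriv m g z₀ := by
  simp [h54_tay]

theorem h54_tay_congr {z₀ : ℂ} {g₁ g₂ : ℂ → ℂ} (h : g₁ =ᶠ[𝓝 z₀] g₂) :
    h54_tay z₀ g₁ = h54_tay z₀ g₂ := by
  ext m
  rw [h54_tay_coeff, h54_tay_coeff, (h.iteratedDeriv m).eq_of_nhds]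

theorem h54_tay_constantCoeff (z₀ : ℂ) (g : ℂ → ℂ) :
    PowerSeries.constantCoeff (h54_tay z₀ g) = g z₀ := by
  rw [← PowerSeries.coeff_zero_eq_constantCoeff_apply, h54_tay_coeff]
  simp

theorem h54_tay_add {z₀ : ℂ} {g₁ g₂ : ℂ → ℂ} (h₁ : AnalyticAt ℂ g₁ z₀) (h₂ : AnalyticAt ℂ g₂ z₀) :
    h54_tay z₀ (g₁ + g₂) = h54_tay z₀ g₁ + h54_tay z₀ g₂ := by
  ext m
  simp only [h54_tay_coeff, map_add]
  rw [iteratedDeriv_add h₁.contDiffAt h₂.contDiffAt, mul_add]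

theorem h54_tay_mul {z₀ : ℂ} {g₁ g₂ : ℂ → ℂ} (h₁ : AnalyticAt ℂ g₁ z₀) (h₂ : AnalyticAt ℂ g₂ z₀) :
    h54_tay z₀ (g₁ * g₂) = h54_tay z₀ g₁ * h54_tay z₀ g₂ := by
  ext m
  simp only [h54_tay_coeff, iteratedDeriv_mul h₁.contDiffAt h₂.contDiffAt, Finset.mul_sum,
    PowerSeries.coeff_mul, Finset.Nat.sum_antidiagonal_eq_sum_range_succ_mk, Nat.succ_eq_add_one]
  refine Finset.sum_congr rfl fun i hi ↦ ?_
  rw [Nat.cast_choose _ (by grind)]
  field_simp [Nat.factorial_ne_zero]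

theorem h54_tay_const (z₀ c : ℂ) : h54_tay z₀ (fun _ => c) = PowerSeries.C c := by
  ext m
  rw [h54_tay_coeff, PowerSeries.coeff_C]
  rcases m with _ | m
  · simp
  · simp [iteratedDeriv_const]

theorem h54_tay_zero (z₀ : ℂ) : h54_tay z₀ 0 = 0 := by
  show h54_tay z₀ (fun _ => (0 : ℂ)) = 0
  rw [h54_tay_const]; simp

theorem h54_tay_one (z₀ : ℂ) : h54_tay z₀ 1 = 1 := by
  show h54_tay z₀ (fun _ => (1 : ℂ)) = 1
  rw [h54_tay_const]; simp

theorem h54_tay_neg {z₀ : ℂ} {g : ℂ → ℂ} (h : AnalyticAt ℂ g z₀) :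
    h54_tay z₀ (-g) = -h54_tay z₀ g := by
  have h1 : h54_tay z₀ ((fun _ => (-1 : ℂ)) * g) = h54_tay z₀ (fun _ => (-1 : ℂ)) * h54_tay z₀ g :=
    h54_tay_mul analyticAt_const h
  rw [h54_tay_const] at h1
  have h2 : ((fun _ => (-1 : ℂ)) * g) = -g := by
    ext z; simp
  rw [h2] at h1
  rw [h1]; simp

theorem h54_tay_sub {z₀ : ℂ} {g₁ g₂ : ℂ → ℂ} (h₁ : AnalyticAt ℂ g₁ z₀) (h₂ : AnalyticAt ℂ g₂ z₀) :
    h54_tay z₀ (g₁ - g₂) = h54_tay z₀ g₁ - h54_tay z₀ g₂ := by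
  rw [sub_eq_add_neg, h54_tay_add h₁ h₂.neg, h54_tay_neg h₂, sub_eq_add_neg]

theorem h54_tay_order {z₀ : ℂ} {g : ℂ → ℂ} (h : AnalyticAt ℂ g z₀) :
    (h54_tay z₀ g).order = analyticOrderAt g z₀ := by
  rcases eq_or_ne (analyticOrderAt g z₀) ⊤ with htop | hne
  · rw [htop, PowerSeries.order_eq_top]
    have h0 : g =ᶠ[𝓝 z₀] 0 := analyticOrderAt_eq_top.mp htop
    rw [h54_tay_congr h0, h54_tay_zero]
  · obtain ⟨n, hn⟩ := ENat.ne_top_iff_exists.mp hne
    rw [← hn]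
    have h2 := (analyticOrderAt_eq_nat_iff_iteratedDeriv_eq_zero h).mp hn.symm
    rw [PowerSeries.order_eq_nat]
    refine ⟨?_, fun i hi => ?_⟩
    · rw [h54_tay_coeff]
      exact mul_ne_zero (inv_ne_zero (Nat.cast_ne_zero.mpr (Nat.factorial_ne_zero n))) h2.2
    · rw [h54_tay_coeff, h2.1 i hi, mul_zero]

theorem h54_tay_eq_zero_iff {z₀ : ℂ} {g : ℂ → ℂ} (h : AnalyticAt ℂ g z₀) :
    h54_tay z₀ g = 0 ↔ g =ᶠ[𝓝 z₀] 0 := by
  rw [← PowerSeries.order_eq_top, h54_tay_order h, analyticOrderAt_eq_top]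
  rfl

/-! ### Möbius maps near a point -/

/-- A Möbius map `z ↦ (a z + b) / (c z + d)` with `a d - b c = 1` is analytic at points where the
denominator does not vanish, with derivative `(c z + d)⁻²`. -/
theorem h54_moebius_hasDerivAt {a b c d : ℂ} (hdet : a * d - b * c = 1) {z : ℂ}
    (hz : c * z + d ≠ 0) :
    HasDerivAt (fun w : ℂ => (a * w + b) / (c * w + d)) (1 / (c * z + d) ^ 2) z := by
  have h1 : HasDerivAt (fun w : ℂ => a * w + b) a z := by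
    simpa using ((hasDerivAt_id z).const_mul a).add_const b
  have h2 : HasDerivAt (fun w : ℂ => c * w + d) c z := by
    simpa using ((hasDerivAt_id z).const_mul c).add_const d
  have h3 := h1.div h2 hz
  have h4 : (a * (c * z + d) - (a * z + b) * c) / (c * z + d) ^ 2 = 1 / (c * z + d) ^ 2 := by
    congr 1; linear_combination hdet
  rw [← h4]; exact h3

theorem h54_moebius_analyticAt {a b c d : ℂ} {z : ℂ} (hz : c * z + d ≠ 0) :
    AnalyticAt ℂ (fun w : ℂ => (a * w + b) / (c * w + d)) z := by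
  have h1 : AnalyticAt ℂ (fun w : ℂ => a * w + b) z := by fun_prop
  have h2 : AnalyticAt ℂ (fun w : ℂ => c * w + d) z := by fun_prop
  exact h1.div h2 hz

/-! ### Taylor expansions of functions on ℍ -/

theorem h54_analyticAt {f : ℍ → ℂ} (hf : MDiff f) (τ : ℍ) :
    AnalyticAt ℂ (f ∘ ofComplex) (τ : ℂ) :=
  (UpperHalfPlane.mdifferentiable_iff.mp hf).analyticAt
    (isOpen_upperHalfPlaneSet.mem_nhds τ.im_pos)

/-- Taylor expansion at `τ` of a function on `ℍ` (coordinate `z - τ`). -/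
noncomputable def h54_taylor (τ : ℍ) (f : ℍ → ℂ) : PowerSeries ℂ :=
  h54_tay (τ : ℂ) (f ∘ ofComplex)

theorem h54_taylor_add {f g : ℍ → ℂ} (hf : MDiff f) (hg : MDiff g) (τ : ℍ) :
    h54_taylor τ (f + g) = h54_taylor τ f + h54_taylor τ g :=
  h54_tay_add (h54_analyticAt hf τ) (h54_analyticAt hg τ)

theorem h54_taylor_mul {f g : ℍ → ℂ} (hf : MDiff f) (hg : MDiff g) (τ : ℍ) :
    h54_taylor τ (f * g) = h54_taylor τ f * h54_taylor τ g :=
  h54_tay_mul (h54_analyticAt hf τ) (h54_analyticAt hg τ)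

theorem h54_taylor_sub {f g : ℍ → ℂ} (hf : MDiff f) (hg : MDiff g) (τ : ℍ) :
    h54_taylor τ (f - g) = h54_taylor τ f - h54_taylor τ g :=
  h54_tay_sub (h54_analyticAt hf τ) (h54_analyticAt hg τ)

theorem h54_taylor_neg {f : ℍ → ℂ} (hf : MDiff f) (τ : ℍ) :
    h54_taylor τ (-f) = -h54_taylor τ f :=
  h54_tay_neg (h54_analyticAt hf τ)

theorem h54_taylor_const (τ : ℍ) (c : ℂ) : h54_taylor τ (fun _ => c) = PowerSeries.C c :=
  h54_tay_const (τ : ℂ) c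

theorem h54_taylor_zero (τ : ℍ) : h54_taylor τ 0 = 0 := h54_tay_zero (τ : ℂ)

theorem h54_taylor_one (τ : ℍ) : h54_taylor τ 1 = 1 := h54_tay_one (τ : ℂ)

theorem h54_taylor_constantCoeff (τ : ℍ) (f : ℍ → ℂ) :
    PowerSeries.constantCoeff (h54_taylor τ f) = f τ := by
  rw [h54_taylor, h54_tay_constantCoeff, Function.comp_apply, ofComplex_apply]

theorem h54_taylor_order {f : ℍ → ℂ} (hf : MDiff f) (τ : ℍ) :
    (h54_taylor τ f).order = analyticOrderAt (f ∘ ofComplex) (τ : ℂ) :=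
  h54_tay_order (h54_analyticAt hf τ)

/-- Identity theorem: the Taylor expansion at any point determines a holomorphic function
on `ℍ`. -/
theorem h54_taylor_eq_zero_iff {f : ℍ → ℂ} (hf : MDiff f) (τ : ℍ) :
    h54_taylor τ f = 0 ↔ f = 0 := by
  constructor
  · intro h
    rw [h54_taylor, h54_tay_eq_zero_iff (h54_analyticAt hf τ)] at h
    have hU : IsPreconnected {z : ℂ | 0 < z.im} := (convex_halfSpace_im_gt 0).isPreconnected
    have han : AnalyticOnNhd ℂ (f ∘ ofComplex) {z : ℂ | 0 < z.im} :=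
      (UpperHalfPlane.mdifferentiable_iff.mp hf).analyticOnNhd isOpen_upperHalfPlaneSet
    have key := han.eqOn_zero_of_preconnected_of_eventuallyEq_zero hU
      (show (τ : ℂ) ∈ {z : ℂ | 0 < z.im} from τ.im_pos) h
    funext z
    have := key (show (z : ℂ) ∈ {z : ℂ | 0 < z.im} from z.im_pos)
    simpa [ofComplex_apply] using this
  · rintro rfl
    exact h54_taylor_zero τ

theorem h54_taylor_injective {f g : ℍ → ℂ} (hf : MDiff f) (hg : MDiff g) (τ : ℍ)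
    (h : h54_taylor τ f = h54_taylor τ g) : f = g := by
  have h1 : h54_taylor τ (f - g) = 0 := by rw [h54_taylor_sub hf hg, h, sub_self]
  exact sub_eq_zero.mp ((h54_taylor_eq_zero_iff (hf.sub hg) τ).mp h1)

theorem h54_taylor_order_ne_top {f : ℍ → ℂ} (hf : MDiff f) (hf0 : f ≠ 0) (τ : ℍ) :
    (h54_taylor τ f).order ≠ ⊤ := by
  rw [ne_eq, PowerSeries.order_eq_top, h54_taylor_eq_zero_iff hf]
  exact hf0

/-! ### The modular group -/

/-- Near `τ`, the function `z ↦ f (γ • z)` is `f ∘ ofComplex` composed with the Möbius map. -/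
theorem h54_comp_smul_eventuallyEq (f : ℍ → ℂ) (γ : SL(2, ℤ)) (τ : ℍ) :
    ((fun z : ℍ => f (γ • z)) ∘ ofComplex) =ᶠ[𝓝 (τ : ℂ)]
      (f ∘ ofComplex) ∘ (fun w : ℂ => (((γ 0 0 : ℤ) : ℂ) * w + ((γ 0 1 : ℤ) : ℂ)) /
        (((γ 1 0 : ℤ) : ℂ) * w + ((γ 1 1 : ℤ) : ℂ))) := by
  filter_upwards [isOpen_upperHalfPlaneSet.mem_nhds τ.im_pos] with z hz
  have h1 : ofComplex z = ⟨z, hz⟩ := ofComplex_apply_of_im_pos hz
  simp only [Function.comp_apply, h1]
  have h2 : ((γ • (⟨z, hz⟩ : ℍ) : ℍ) : ℂ) = (((γ 0 0 : ℤ) : ℂ) * z + ((γ 0 1 : ℤ) : ℂ)) /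
      (((γ 1 0 : ℤ) : ℂ) * z + ((γ 1 1 : ℤ) : ℂ)) := by
    rw [coe_specialLinearGroup_apply]
    simp
  rw [← h2, ofComplex_apply]

theorem h54_denom_ne_zero (γ : SL(2, ℤ)) (τ : ℍ) :
    ((γ 1 0 : ℤ) : ℂ) * (τ : ℂ) + ((γ 1 1 : ℤ) : ℂ) ≠ 0 := by
  have := UpperHalfPlane.denom_ne_zero (γ : GL (Fin 2) ℝ) τ
  simpa [UpperHalfPlane.denom] using this

theorem h54_det_cast (γ : SL(2, ℤ)) :
    ((γ 0 0 : ℤ) : ℂ) * ((γ 1 1 : ℤ) : ℂ) - ((γ 0 1 : ℤ) : ℂ) * ((γ 1 0 : ℤ) : ℂ) = 1 := by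
  have h := γ.det_coe
  rw [Matrix.det_fin_two] at h
  exact_mod_cast h

theorem h54_coe_smul (γ : SL(2, ℤ)) (τ : ℍ) :
    ((γ • τ : ℍ) : ℂ) = (((γ 0 0 : ℤ) : ℂ) * τ + ((γ 0 1 : ℤ) : ℂ)) /
      (((γ 1 0 : ℤ) : ℂ) * τ + ((γ 1 1 : ℤ) : ℂ)) := by
  rw [coe_specialLinearGroup_apply]
  simp

/-- MOVING THE POINT: the order of `f ∘ γ` at `τ` is the order of `f` at `γ • τ`. -/
theorem h54_taylor_order_smul {f : ℍ → ℂ} (hf : MDiff f) (γ : SL(2, ℤ)) (τ : ℍ) :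
    (h54_taylor τ (fun z => f (γ • z))).order = (h54_taylor (γ • τ) f).order := by
  have hden := h54_denom_ne_zero γ τ
  have hφ := h54_moebius_analyticAt (a := ((γ 0 0 : ℤ) : ℂ)) (b := ((γ 0 1 : ℤ) : ℂ)) hden
  have hφ' := (h54_moebius_hasDerivAt (h54_det_cast γ) hden).deriv
  have hφ0 : deriv (fun w : ℂ => (((γ 0 0 : ℤ) : ℂ) * w + ((γ 0 1 : ℤ) : ℂ)) /
      (((γ 1 0 : ℤ) : ℂ) * w + ((γ 1 1 : ℤ) : ℂ))) (τ : ℂ) ≠ 0 := by
    rw [hφ']
    exact one_div_ne_zero (pow_ne_zero 2 hden)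
  have e := h54_comp_smul_eventuallyEq f γ τ
  have hval : (((γ 0 0 : ℤ) : ℂ) * (τ : ℂ) + ((γ 0 1 : ℤ) : ℂ)) /
      (((γ 1 0 : ℤ) : ℂ) * (τ : ℂ) + ((γ 1 1 : ℤ) : ℂ)) = ((γ • τ : ℍ) : ℂ) :=
    (h54_coe_smul γ τ).symm
  have han : AnalyticAt ℂ ((fun z : ℍ => f (γ • z)) ∘ ofComplex) (τ : ℂ) := by
    rw [analyticAt_congr e]
    refine AnalyticAt.comp ?_ hφ
    simp only [hval]
    exact h54_analyticAt hf (γ • τ)
  rw [h54_taylor, h54_tay_order han, h54_taylor_order hf, analyticOrderAt_congr e,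
    analyticOrderAt_comp_of_deriv_ne_zero hφ hφ0]
  simp only [hval]

/-- ELLIPTIC POINTS: if `γ` fixes `τ` and `f` is `γ`-invariant, holomorphic and nonzero, then
`(c τ + d) ^ (2 n) = 1` for `n` the order of `f` at `τ`. -/
theorem h54_elliptic_pow {f : ℍ → ℂ} (hf : MDiff f) (hf0 : f ≠ 0) (γ : SL(2, ℤ)) (τ : ℍ)
    (hγ : γ • τ = τ) (hinv : ∀ z : ℍ, f (γ • z) = f z) :
    (((γ 1 0 : ℤ) : ℂ) * (τ : ℂ) + ((γ 1 1 : ℤ) : ℂ)) ^ (2 * (h54_taylor τ f).order.toNat) = 1 := by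
  set n := (h54_taylor τ f).order.toNat with hn
  set a : ℂ := ((γ 0 0 : ℤ) : ℂ) with ha
  set b : ℂ := ((γ 0 1 : ℤ) : ℂ) with hb
  set c : ℂ := ((γ 1 0 : ℤ) : ℂ) with hc
  set d : ℂ := ((γ 1 1 : ℤ) : ℂ) with hd
  have hden : c * (τ : ℂ) + d ≠ 0 := h54_denom_ne_zero γ τ
  have hdet : a * d - b * c = 1 := h54_det_cast γ
  have han := h54_analyticAt hf τ
  have hord : analyticOrderAt (f ∘ ofComplex) (τ : ℂ) = (n : ℕ∞) := by
    rw [← h54_taylor_order hf, hn, ENat.natCast_toNat (h54_taylor_order_ne_top hf hf0 τ)]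
  obtain ⟨g, hg, hg0, hfg⟩ := han.analyticOrderAt_eq_natCast.mp hord
  -- the Möbius map
  set φ : ℂ → ℂ := fun w => (a * w + b) / (c * w + d) with hφdef
  have hφan : AnalyticAt ℂ φ (τ : ℂ) := h54_moebius_analyticAt hden
  have hφτ : φ (τ : ℂ) = (τ : ℂ) := by
    have := h54_coe_smul γ τ
    rw [hγ] at this
    exact this.symm
  have hfix : a * (τ : ℂ) + b = (τ : ℂ) * (c * (τ : ℂ) + d) := by
    have h1 : (a * (τ : ℂ) + b) / (c * (τ : ℂ) + d) = (τ : ℂ) := hφτ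
    rw [div_eq_iff hden] at h1
    exact h1
  -- invariance near τ
  have e : (f ∘ ofComplex) ∘ φ =ᶠ[𝓝 (τ : ℂ)] (f ∘ ofComplex) := by
    have e1 := h54_comp_smul_eventuallyEq f γ τ
    have e2 : ((fun z : ℍ => f (γ • z)) ∘ ofComplex) = f ∘ ofComplex := by
      funext z
      simp only [Function.comp_apply]
      exact hinv _
    rw [e2] at e1
    exact e1.symm
  -- local factorisations
  have hφtend : Tendsto φ (𝓝 (τ : ℂ)) (𝓝 (τ : ℂ)) := by
    have := hφan.continuousAt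
    rwa [ContinuousAt, hφτ] at this
  have hfg' : ∀ᶠ z in 𝓝 (τ : ℂ), (f ∘ ofComplex) (φ z) = (φ z - τ) ^ n • g (φ z) :=
    hφtend.eventually hfg
  have hcont : ∀ᶠ z in 𝓝 (τ : ℂ), c * z + d ≠ 0 :=
    (by fun_prop : Continuous fun z : ℂ => c * z + d).continuousAt.eventually_ne hden
  have key : ∀ᶠ z in 𝓝[≠] (τ : ℂ), g z = (1 / ((c * z + d) * (c * (τ : ℂ) + d))) ^ n * g (φ z) := by
    have hall := (hfg.and (hfg'.and (e.and hcont)))
    filter_upwards [nhdsWithin_le_nhds hall, self_mem_nhdsWithin] with z hz hzne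
    obtain ⟨h1, h2, h3, h4⟩ := hz
    have hzne' : z - (τ : ℂ) ≠ 0 := sub_ne_zero.mpr hzne
    have h5 : φ z - (τ : ℂ) = (z - τ) * (1 / ((c * z + d) * (c * (τ : ℂ) + d))) := by
      simp only [hφdef]
      rw [mul_one_div, eq_div_iff (mul_ne_zero h4 hden), ← mul_assoc, sub_mul,
        div_mul_cancel₀ _ h4]
      linear_combination (z - (τ : ℂ)) * hdet + (c * z + d) * hfix
    have h6 : (z - (τ : ℂ)) ^ n • g z = (φ z - τ) ^ n • g (φ z) := by
      rw [← h1, ← h2]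
      exact (h3).symm
    rw [h5, mul_pow, smul_eq_mul, smul_eq_mul, mul_assoc] at h6
    exact mul_left_cancel₀ (pow_ne_zero n hzne') h6
  -- pass to the limit
  have hlim1 : Tendsto g (𝓝[≠] (τ : ℂ)) (𝓝 (g τ)) :=
    hg.continuousAt.tendsto.mono_left nhdsWithin_le_nhds
  have hcontR : ContinuousAt (fun z : ℂ => (1 / ((c * z + d) * (c * (τ : ℂ) + d))) ^ n * g (φ z))
      (τ : ℂ) := by
    have hgφ : ContinuousAt (fun z => g (φ z)) (τ : ℂ) := by
      have : ContinuousAt g (φ (τ : ℂ)) := by rw [hφτ]; exact hg.continuousAt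
      exact ContinuousAt.comp (f := φ) (g := g) this hφan.continuousAt
    have hinvc : ContinuousAt (fun z : ℂ => 1 / ((c * z + d) * (c * (τ : ℂ) + d))) (τ : ℂ) := by
      refine ContinuousAt.div continuousAt_const ?_ (mul_ne_zero hden hden)
      fun_prop
    exact (hinvc.pow n).mul hgφ
  have hlim2 : Tendsto (fun z : ℂ => (1 / ((c * z + d) * (c * (τ : ℂ) + d))) ^ n * g (φ z))
      (𝓝[≠] (τ : ℂ)) (𝓝 ((1 / ((c * (τ : ℂ) + d) * (c * (τ : ℂ) + d))) ^ n * g (φ τ))) :=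
    hcontR.tendsto.mono_left nhdsWithin_le_nhds
  have hlim3 : Tendsto g (𝓝[≠] (τ : ℂ))
      (𝓝 ((1 / ((c * (τ : ℂ) + d) * (c * (τ : ℂ) + d))) ^ n * g (φ τ))) :=
    hlim2.congr' (key.mono fun z hz => hz.symm)
  have heq := tendsto_nhds_unique hlim1 hlim3
  rw [hφτ] at heq
  have h7 : (1 / ((c * (τ : ℂ) + d) * (c * (τ : ℂ) + d))) ^ n = 1 := by
    have : (1 : ℂ) * g τ = (1 / ((c * (τ : ℂ) + d) * (c * (τ : ℂ) + d))) ^ n * g τ := by
      rw [one_mul]; exact heq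
    exact (mul_right_cancel₀ hg0 this).symm
  rw [one_div, inv_pow, inv_eq_one, ← pow_two, ← pow_mul] at h7
  exact h7

/-! ### The elliptic points `i` and `ρ` -/

theorem h54_S_smul_I : ModularGroup.S • UpperHalfPlane.I = UpperHalfPlane.I := by
  apply UpperHalfPlane.ext
  rw [h54_coe_smul]
  simp [ModularGroup.coe_S, UpperHalfPlane.coe_I]

/-- A nonzero holomorphic `S`-invariant function has even order at `i`. -/
theorem h54_two_dvd_order_I {f : ℍ → ℂ} (hf : MDiff f) (hf0 : f ≠ 0)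
    (hinv : ∀ z : ℍ, f (ModularGroup.S • z) = f z) :
    2 ∣ (h54_taylor UpperHalfPlane.I f).order.toNat := by
  have h := h54_elliptic_pow hf hf0 ModularGroup.S UpperHalfPlane.I h54_S_smul_I hinv
  have h2 : Complex.I ^ (2 * (h54_taylor UpperHalfPlane.I f).order.toNat) = 1 := by
    simpa [ModularGroup.coe_S, UpperHalfPlane.coe_I] using h
  rw [pow_mul, Complex.I_sq] at h2
  exact even_iff_two_dvd.mp ((neg_one_pow_eq_one_iff_even (by norm_num)).mp h2)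

/-- The point `ρ = (-1 + √3 i) / 2` of `ℍ`. -/
noncomputable def h54_rho : ℍ :=
  UpperHalfPlane.mk (⟨-1 / 2, Real.sqrt 3 / 2⟩ : ℂ) (by simp)

theorem h54_rho_coe : (h54_rho : ℂ) = ⟨-1 / 2, Real.sqrt 3 / 2⟩ := rfl

theorem h54_rho_sq : (h54_rho : ℂ) ^ 2 + (h54_rho : ℂ) + 1 = 0 := by
  have h3 : Real.sqrt 3 * Real.sqrt 3 = 3 := Real.mul_self_sqrt (by norm_num)
  rw [h54_rho_coe]
  apply Complex.ext
  · simp [pow_two]
    nlinarith [h3]
  · simp [pow_two]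
    ring

theorem h54_rho_ne_one : (h54_rho : ℂ) ≠ 1 := by
  intro h
  have h1 := congrArg Complex.im h
  rw [h54_rho_coe] at h1
  simp at h1

theorem h54_rho_cube : (h54_rho : ℂ) ^ 3 = 1 := by
  linear_combination ((h54_rho : ℂ) - 1) * h54_rho_sq

theorem h54_ST_coe : ((ModularGroup.S * ModularGroup.T : SL(2, ℤ)) : Matrix (Fin 2) (Fin 2) ℤ)
    = !![0, -1; 1, 1] := by
  rw [Matrix.SpecialLinearGroup.coe_mul, ModularGroup.coe_S, ModularGroup.coe_T]
  simp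

theorem h54_ST_smul_rho : (ModularGroup.S * ModularGroup.T) • h54_rho = h54_rho := by
  apply UpperHalfPlane.ext
  rw [h54_coe_smul]
  have hd := h54_denom_ne_zero (ModularGroup.S * ModularGroup.T) h54_rho
  rw [div_eq_iff hd]
  simp only [h54_ST_coe]
  simp
  linear_combination -h54_rho_sq

/-- A nonzero holomorphic `S * T`-invariant function has order divisible by `3` at `ρ`. -/
theorem h54_three_dvd_order_rho {f : ℍ → ℂ} (hf : MDiff f) (hf0 : f ≠ 0)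
    (hinv : ∀ z : ℍ, f ((ModularGroup.S * ModularGroup.T) • z) = f z) :
    3 ∣ (h54_taylor h54_rho f).order.toNat := by
  have h := h54_elliptic_pow hf hf0 (ModularGroup.S * ModularGroup.T) h54_rho h54_ST_smul_rho hinv
  have h2 : ((h54_rho : ℂ) + 1) ^ (2 * (h54_taylor h54_rho f).order.toNat) = 1 := by
    simp only [h54_ST_coe] at h
    simpa using h
  have h3 : ((h54_rho : ℂ) + 1) ^ 2 = (h54_rho : ℂ) := by
    linear_combination h54_rho_sq
  rw [pow_mul, h3] at h2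
  have : Fact (Nat.Prime 3) := ⟨by norm_num⟩
  have h4 : orderOf (h54_rho : ℂ) = 3 := orderOf_eq_prime h54_rho_cube h54_rho_ne_one
  rw [← h4]
  exact orderOf_dvd_of_pow_eq_one h2

/-! ### Bundled versions -/

/-- The ring of holomorphic functions on `ℍ`. -/
def h54_Hol : Subring (ℍ → ℂ) where
  carrier := {f | MDiff f}
  mul_mem' hf hg := hf.mul hg
  one_mem' := mdifferentiable_const
  add_mem' hf hg := hf.add hg
  zero_mem' := mdifferentiable_const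
  neg_mem' hf := hf.neg

theorem h54_mem_Hol {f : ℍ → ℂ} : f ∈ h54_Hol ↔ MDiff f := Iff.rfl

/-- Taylor expansion at `τ` as a ring homomorphism. -/
noncomputable def h54_taylorHom (τ : ℍ) : h54_Hol →+* PowerSeries ℂ where
  toFun f := h54_taylor τ (f : ℍ → ℂ)
  map_one' := h54_taylor_one τ
  map_mul' f g := h54_taylor_mul f.2 g.2 τ
  map_zero' := h54_taylor_zero τ
  map_add' f g := h54_taylor_add f.2 g.2 τ

theorem h54_taylorHom_apply (τ : ℍ) (f : h54_Hol) :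
    h54_taylorHom τ f = h54_taylor τ (f : ℍ → ℂ) := rfl

theorem h54_taylorHom_injective (τ : ℍ) : Function.Injective (h54_taylorHom τ) := by
  intro f g h
  exact Subtype.ext (h54_taylor_injective f.2 g.2 τ h)

theorem h54_mdiff_comp_smul {f : ℍ → ℂ} (hf : MDiff f) (γ : SL(2, ℤ)) :
    MDiff (fun z : ℍ => f (γ • z)) := by
  have h1 : MDiff (fun τ : ℍ => (γ : GL (Fin 2) ℝ) • τ) :=
    UpperHalfPlane.mdifferentiable_smul (by simp)
  exact hf.comp h1

/-- Precomposition with an element of the modular group, as a ring hom of `h54_Hol`. -/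
noncomputable def h54_compHom (γ : SL(2, ℤ)) : h54_Hol →+* h54_Hol where
  toFun f := ⟨fun z => (f : ℍ → ℂ) (γ • z), h54_mdiff_comp_smul f.2 γ⟩
  map_one' := rfl
  map_mul' _ _ := rfl
  map_zero' := rfl
  map_add' _ _ := rfl

theorem h54_compHom_apply (γ : SL(2, ℤ)) (f : h54_Hol) (z : ℍ) :
    (h54_compHom γ f : ℍ → ℂ) z = (f : ℍ → ℂ) (γ • z) := rfl

end Fermat.Agent.S24
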