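/-
S24 / generic lift of an injective ring hom `A →+* LaurentSeries ℂ` to the fraction field,
and the order function it induces (helper54).
-/
import Mathlib

set_option autoImplicit false

namespace Fermat.Agent.S24

/-! ### Power series inside Laurent series -/

/-- Power series as Laurent series (ring hom). -/
noncomputable def h54_ofPS : PowerSeries ℂ →+* LaurentSeries ℂ := HahnSeries.ofPowerSeries ℤ ℂ

theorem h54_ofPS_injective : Function.Injective h54_ofPS := HahnSeries.ofPowerSeries_injective

theorem h54_ofPS_coeff_nat (p : PowerSeries ℂ) (n : ℕ) :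
    (h54_ofPS p).coeff (n : ℤ) = PowerSeries.coeff n p :=
  HahnSeries.ofPowerSeries_apply_coeff p n

theorem h54_ofPS_coeff_neg (p : PowerSeries ℂ) {k : ℤ} (hk : k < 0) :
    (h54_ofPS p).coeff k = 0 := by
  rw [h54_ofPS, HahnSeries.ofPowerSeries_apply]
  refine HahnSeries.embDomain_of_notMem_range ?_
  rintro ⟨m, rfl⟩
  exact absurd hk (not_lt.mpr (Int.natCast_nonneg m))

theorem h54_ofPS_C (c : ℂ) : h54_ofPS (PowerSeries.C c) = HahnSeries.C c :=
  HahnSeries.ofPowerSeries_C c

/-- The order of a nonzero power series, viewed as a Laurent series. -/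
theorem h54_order_ofPS {p : PowerSeries ℂ} (hp : p ≠ 0) :
    (h54_ofPS p).order = (p.order.toNat : ℤ) := by
  have hne : h54_ofPS p ≠ 0 := fun h => hp (h54_ofPS_injective (by rw [h, map_zero]))
  apply le_antisymm
  · apply HahnSeries.order_le_of_coeff_ne_zero
    rw [h54_ofPS_coeff_nat]
    exact PowerSeries.coeff_order hp
  · by_contra hlt
    push Not at hlt
    have h1 : (h54_ofPS p).coeff (h54_ofPS p).order ≠ 0 :=
      fun h => hne (HahnSeries.coeff_order_eq_zero.mp h)
    rcases lt_or_ge (h54_ofPS p).order 0 with hneg | hnn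
    · exact h1 (h54_ofPS_coeff_neg p hneg)
    · obtain ⟨m, hm⟩ := Int.eq_ofNat_of_zero_le hnn
      rw [hm] at h1 hlt
      rw [h54_ofPS_coeff_nat] at h1
      exact h1 (PowerSeries.coeff_of_lt_order_toNat m (by exact_mod_cast hlt))

theorem h54_order_ofPS_nonneg (p : PowerSeries ℂ) : 0 ≤ (h54_ofPS p).order := by
  rcases eq_or_ne p 0 with rfl | hp
  · simp
  · rw [h54_order_ofPS hp]; exact Int.natCast_nonneg _

/-! ### Lift to the fraction field -/

section Lift

variable {A F : Type*} [CommRing A] [Field F] [Algebra A F] [IsFractionRing A F]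

/-- The field hom `F →+* LaurentSeries ℂ` extending an injective ring hom on `A`. -/
noncomputable def h54_lift (T : A →+* LaurentSeries ℂ) (hT : Function.Injective T) :
    F →+* LaurentSeries ℂ :=
  IsFractionRing.lift hT

variable (T : A →+* LaurentSeries ℂ) (hT : Function.Injective T)

theorem h54_lift_algebraMap (a : A) : h54_lift (F := F) T hT (algebraMap A F a) = T a :=
  IsFractionRing.lift_algebraMap hT a

theorem h54_lift_injective : Function.Injective (h54_lift (F := F) T hT) :=
  (h54_lift (F := F) T hT).injective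

theorem h54_lift_ne_zero {f : F} (hf : f ≠ 0) : h54_lift (F := F) T hT f ≠ 0 :=
  (map_ne_zero (h54_lift (F := F) T hT)).mpr hf

theorem h54_lift_unique (φ : F →+* LaurentSeries ℂ) (h : ∀ a, φ (algebraMap A F a) = T a) :
    φ = h54_lift (F := F) T hT :=
  (IsFractionRing.lift_unique hT h).symm

theorem h54_lift_order_mul {f g : F} (hf : f ≠ 0) (hg : g ≠ 0) :
    (h54_lift (F := F) T hT (f * g)).order
      = (h54_lift (F := F) T hT f).order + (h54_lift (F := F) T hT g).order := by
  rw [map_mul]
  exact HahnSeries.order_mul (h54_lift_ne_zero T hT hf) (h54_lift_ne_zero T hT hg)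

theorem h54_lift_order_add {f g : F} (hfg : f + g ≠ 0) :
    min (h54_lift (F := F) T hT f).order (h54_lift (F := F) T hT g).order
      ≤ (h54_lift (F := F) T hT (f + g)).order := by
  rw [map_add]
  apply HahnSeries.min_order_le_order_add
  rw [← map_add]
  exact h54_lift_ne_zero T hT hfg

theorem h54_lift_order_inv (f : F) :
    (h54_lift (F := F) T hT f⁻¹).order = -(h54_lift (F := F) T hT f).order := by
  rcases eq_or_ne f 0 with rfl | hf
  · simp
  · have h := h54_lift_order_mul T hT hf (inv_ne_zero hf)
    rw [mul_inv_cancel₀ hf, map_one, HahnSeries.order_one] at h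
    linarith

theorem h54_lift_order_div {f g : F} (hf : f ≠ 0) (hg : g ≠ 0) :
    (h54_lift (F := F) T hT (f / g)).order
      = (h54_lift (F := F) T hT f).order - (h54_lift (F := F) T hT g).order := by
  rw [div_eq_mul_inv, h54_lift_order_mul T hT hf (inv_ne_zero hg), h54_lift_order_inv]
  ring

/-- Every nonzero element of `F` is a quotient of nonzero elements of `A`. -/
theorem h54_exists_div {f : F} (hf : f ≠ 0) :
    ∃ a b : A, a ≠ 0 ∧ b ≠ 0 ∧ f = algebraMap A F a / algebraMap A F b := by
  obtain ⟨a, b, hb, rfl⟩ := IsFractionRing.div_surjective (A := A) f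
  have hb0 : b ≠ 0 := by
    rintro rfl
    simp at hf
  refine ⟨a, b, ?_, hb0, rfl⟩
  rintro rfl
  simp at hf

theorem h54_algebraMap_ne_zero {a : A} (ha : a ≠ 0) : algebraMap A F a ≠ 0 := by
  intro h
  exact ha (IsFractionRing.injective A F (by rw [h, map_zero]))

/-- The order of the lift of a quotient. -/
theorem h54_lift_order_div_algebraMap {a b : A} (ha : a ≠ 0) (hb : b ≠ 0) :
    (h54_lift (F := F) T hT (algebraMap A F a / algebraMap A F b)).order
      = (T a).order - (T b).order := by
  rw [h54_lift_order_div T hT (h54_algebraMap_ne_zero ha) (h54_algebraMap_ne_zero hb),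
    h54_lift_algebraMap, h54_lift_algebraMap]

/-- (M) Divisibility of all orders on `A` passes to `F`. -/
theorem h54_lift_order_dvd (m : ℤ) (h : ∀ a : A, a ≠ 0 → m ∣ (T a).order) {f : F} (hf : f ≠ 0) :
    m ∣ (h54_lift (F := F) T hT f).order := by
  obtain ⟨a, b, ha, hb, rfl⟩ := h54_exists_div (A := A) hf
  rw [h54_lift_order_div_algebraMap T hT ha hb]
  exact dvd_sub (h a ha) (h b hb)

/-- (G) Two lifts whose orders agree on `A` have the same order function on `F`. -/
theorem h54_lift_order_congr (T' : A →+* LaurentSeries ℂ) (hT' : Function.Injective T')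
    (h : ∀ a : A, (T a).order = (T' a).order) (f : F) :
    (h54_lift (F := F) T hT f).order = (h54_lift (F := F) T' hT' f).order := by
  rcases eq_or_ne f 0 with rfl | hf
  · simp
  obtain ⟨a, b, ha, hb, rfl⟩ := h54_exists_div (A := A) hf
  rw [h54_lift_order_div_algebraMap T hT ha hb, h54_lift_order_div_algebraMap T' hT' ha hb,
    h a, h b]

theorem h54_lift_congr (T' : A →+* LaurentSeries ℂ) (hT' : Function.Injective T')
    (h : ∀ a : A, T a = T' a) :
    h54_lift (F := F) T hT = h54_lift (F := F) T' hT' := by
  have : T = T' := RingHom.ext h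
  subst this
  rfl

end Lift

end Fermat.Agent.S24
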