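/-
S24 / the family of local expansions at a point `τ₀ ∈ ℍ` of the conjugates of a function field
`F = Frac A` given with an evaluation hom `ev : A →+* (ℍ → ℂ)` (helper54).  Generic in `A`, `F`.
-/
import Fermat.Agent.S24.h54_Local
import Fermat.Agent.S24.h54_OrdFun

set_option autoImplicit false

open UpperHalfPlane
open scoped Manifold MatrixGroups

namespace Fermat.Agent.S24

theorem h54_order_ofPS_eq_of_order_eq {p q : PowerSeries ℂ} (h : p.order = q.order) :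
    (h54_ofPS p).order = (h54_ofPS q).order := by
  rcases eq_or_ne p 0 with rfl | hp
  · have hq : q = 0 := by
      rw [← PowerSeries.order_eq_top, ← h, PowerSeries.order_eq_top]
    rw [hq]
  · have hq : q ≠ 0 := by
      rintro rfl
      exact hp (by rw [← PowerSeries.order_eq_top, h, PowerSeries.order_eq_top])
    rw [h54_order_ofPS hp, h54_order_ofPS hq, h]

theorem h54_compHom_injective (γ : SL(2, ℤ)) : Function.Injective (h54_compHom γ) := by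
  intro f f' h
  apply Subtype.ext
  funext z
  have h1 := congrArg (fun F : h54_Hol => (F : ℍ → ℂ) (γ⁻¹ • z)) h
  simpa [h54_compHom_apply, smul_smul] using h1

/-- The hypotheses on an evaluation hom `ev : A →+* (ℍ → ℂ)` of level `N`. -/
structure h54_EvData {K A : Type*} [Field K] [CommRing A] [Algebra K A] (N : ℕ) (ι : K →+* ℂ)
    (ev : A →+* (ℍ → ℂ)) : Prop where
  mdiff : ∀ a, MDiff (ev a)
  inj : Function.Injective ev
  const : ∀ c : K, ev (algebraMap K A c) = fun _ => ι c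
  invariant : ∀ γ ∈ CongruenceSubgroup.Gamma0 N, ∀ (a : A) (τ : ℍ), ev a (γ • τ) = ev a τ

section PointGen

variable {K A F : Type*} [Field K] [CommRing A] [Field F] [Algebra K A]
  [Algebra A F] [IsFractionRing A F]
variable {N : ℕ} {ι : K →+* ℂ} {ev : A →+* (ℍ → ℂ)}

/-- The `g⁻¹`-conjugate `τ ↦ ev a (g⁻¹ • τ)` as a ring hom into holomorphic functions. -/
noncomputable def h54_conjA (D : h54_EvData N ι ev) (g : SL(2, ℤ)) : A →+* h54_Hol :=
  (h54_compHom g⁻¹).comp (ev.codRestrict h54_Hol D.mdiff)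

theorem h54_conjA_apply (D : h54_EvData N ι ev) (g : SL(2, ℤ)) (a : A) (z : ℍ) :
    (h54_conjA D g a : ℍ → ℂ) z = ev a (g⁻¹ • z) := rfl

theorem h54_conjA_coe (D : h54_EvData N ι ev) (g : SL(2, ℤ)) (a : A) :
    (h54_conjA D g a : ℍ → ℂ) = fun z => ev a (g⁻¹ • z) := rfl

theorem h54_conjA_mdiff (D : h54_EvData N ι ev) (g : SL(2, ℤ)) (a : A) :
    MDiff (fun z : ℍ => ev a (g⁻¹ • z)) := (h54_conjA D g a).2

theorem h54_conjA_injective (D : h54_EvData N ι ev) (g : SL(2, ℤ)) :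
    Function.Injective (h54_conjA D g) := by
  intro a b h
  have h1 := h54_compHom_injective g⁻¹ h
  have h2 := congrArg (fun F : h54_Hol => (F : ℍ → ℂ)) h1
  exact D.inj h2

/-- Local expansion at `τ₀` of the `g⁻¹`-conjugates, on `A`. -/
noncomputable def h54_ptA (D : h54_EvData N ι ev) (g : SL(2, ℤ)) (τ₀ : ℍ) :
    A →+* LaurentSeries ℂ :=
  h54_ofPS.comp ((h54_taylorHom τ₀).comp (h54_conjA D g))

theorem h54_ptA_apply (D : h54_EvData N ι ev) (g : SL(2, ℤ)) (τ₀ : ℍ) (a : A) :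
    h54_ptA D g τ₀ a = h54_ofPS (h54_taylor τ₀ (fun z => ev a (g⁻¹ • z))) := rfl

theorem h54_ptA_injective (D : h54_EvData N ι ev) (g : SL(2, ℤ)) (τ₀ : ℍ) :
    Function.Injective (h54_ptA D g τ₀) :=
  h54_ofPS_injective.comp ((h54_taylorHom_injective τ₀).comp (h54_conjA_injective D g))

/-- The field hom `σ_g : F →+* LaurentSeries ℂ`: local expansion at `τ₀` of the
`g⁻¹`-conjugate. -/
noncomputable def h54_pt (D : h54_EvData N ι ev) (g : SL(2, ℤ)) (τ₀ : ℍ) :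
    F →+* LaurentSeries ℂ :=
  h54_lift (h54_ptA D g τ₀) (h54_ptA_injective D g τ₀)

theorem h54_pt_algebraMap (D : h54_EvData N ι ev) (g : SL(2, ℤ)) (τ₀ : ℍ) (a : A) :
    h54_pt (F := F) D g τ₀ (algebraMap A F a)
      = h54_ofPS (h54_taylor τ₀ (fun z => ev a (g⁻¹ • z))) :=
  h54_lift_algebraMap _ _ a

/-- Trivial on constants. -/
theorem h54_pt_const [Algebra K F] [IsScalarTower K A F] (D : h54_EvData N ι ev) (g : SL(2, ℤ)) (τ₀ : ℍ) (c : K) :
    h54_pt (F := F) D g τ₀ (algebraMap K F c) = HahnSeries.C (ι c) := by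
  rw [IsScalarTower.algebraMap_apply K A F, h54_pt_algebraMap, D.const]
  show h54_ofPS (h54_taylor τ₀ (fun _ => ι c)) = _
  rw [h54_taylor_const, h54_ofPS_C]

/-- For an `SL(2,ℤ)`-invariant element the expansion does not depend on `g`. -/
theorem h54_pt_invariant (D : h54_EvData N ι ev) (g : SL(2, ℤ)) (τ₀ : ℍ) (a : A)
    (hinv : ∀ (γ : SL(2, ℤ)) (τ : ℍ), ev a (γ • τ) = ev a τ) :
    h54_pt (F := F) D g τ₀ (algebraMap A F a) = h54_ofPS (h54_taylor τ₀ (ev a)) := by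
  rw [h54_pt_algebraMap]
  congr 2
  funext z
  exact hinv _ _

/-- The expansion only depends on the left coset `g Γ₀(N)`. -/
theorem h54_pt_mul_right (D : h54_EvData N ι ev) (g γ : SL(2, ℤ))
    (hγ : γ ∈ CongruenceSubgroup.Gamma0 N) (τ₀ : ℍ) :
    h54_pt (F := F) D (g * γ) τ₀ = h54_pt D g τ₀ := by
  apply h54_lift_congr
  intro a
  rw [h54_ptA_apply, h54_ptA_apply]
  congr 2
  funext z
  rw [mul_inv_rev, mul_smul]
  exact D.invariant γ⁻¹ (inv_mem hγ) a _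

theorem h54_pt_eq_of_coset (D : h54_EvData N ι ev) {g g' : SL(2, ℤ)}
    (h : (g : SL(2, ℤ) ⧸ CongruenceSubgroup.Gamma0 N) = g') (τ₀ : ℍ) :
    h54_pt (F := F) D g τ₀ = h54_pt D g' τ₀ := by
  have h1 : g⁻¹ * g' ∈ CongruenceSubgroup.Gamma0 N := QuotientGroup.eq.mp h
  have h2 := h54_pt_mul_right (F := F) D g (g⁻¹ * g') h1 τ₀
  rw [mul_inv_cancel_left] at h2
  exact h2.symm

/-- (V), multiplicativity. -/
theorem h54_pt_order_mul (D : h54_EvData N ι ev) (g : SL(2, ℤ)) (τ₀ : ℍ) {f₁ f₂ : F}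
    (h₁ : f₁ ≠ 0) (h₂ : f₂ ≠ 0) :
    (h54_pt D g τ₀ (f₁ * f₂)).order = (h54_pt D g τ₀ f₁).order + (h54_pt D g τ₀ f₂).order :=
  h54_lift_order_mul _ _ h₁ h₂

/-- (V), ultrametric inequality. -/
theorem h54_pt_order_add (D : h54_EvData N ι ev) (g : SL(2, ℤ)) (τ₀ : ℍ) {f₁ f₂ : F}
    (h : f₁ + f₂ ≠ 0) :
    min (h54_pt D g τ₀ f₁).order (h54_pt D g τ₀ f₂).order ≤ (h54_pt D g τ₀ (f₁ + f₂)).order :=
  h54_lift_order_add _ _ h

theorem h54_pt_order_const [Algebra K F] [IsScalarTower K A F] (D : h54_EvData N ι ev) (g : SL(2, ℤ)) (τ₀ : ℍ) (c : K) :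
    (h54_pt (F := F) D g τ₀ (algebraMap K F c)).order = 0 := by
  rw [h54_pt_const, HahnSeries.order_C]

/-- The order on elements of `A`: the analytic order of the conjugate at `τ₀`. -/
theorem h54_pt_order_algebraMap (D : h54_EvData N ι ev) (g : SL(2, ℤ)) (τ₀ : ℍ) {a : A}
    (ha : a ≠ 0) :
    (h54_pt (F := F) D g τ₀ (algebraMap A F a)).order
      = ((analyticOrderAt ((fun z : ℍ => ev a (g⁻¹ • z)) ∘ ofComplex) (τ₀ : ℂ)).toNat : ℤ) := by
  rw [h54_pt_algebraMap]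
  have hne : h54_taylor τ₀ (fun z => ev a (g⁻¹ • z)) ≠ 0 := by
    intro h
    have h1 : h54_ptA D g τ₀ a = 0 := by rw [h54_ptA_apply, h, map_zero]
    exact ha (h54_ptA_injective D g τ₀ (by rw [h1, map_zero]))
  rw [h54_order_ofPS hne, h54_taylor_order (h54_conjA_mdiff D g a)]

/-- (E) The order on an invariant element of `A`: the analytic order of `ev a` at `τ₀`. -/
theorem h54_pt_order_invariant (D : h54_EvData N ι ev) (g : SL(2, ℤ)) (τ₀ : ℍ) {a : A}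
    (ha : a ≠ 0) (hinv : ∀ (γ : SL(2, ℤ)) (τ : ℍ), ev a (γ • τ) = ev a τ) :
    (h54_pt (F := F) D g τ₀ (algebraMap A F a)).order
      = ((analyticOrderAt (ev a ∘ ofComplex) (τ₀ : ℂ)).toNat : ℤ) := by
  rw [h54_pt_order_algebraMap D g τ₀ ha]
  congr 3
  funext z
  exact hinv _ _

/-- (G) Moving the point: the order of `σ_{γ g}` at `τ₀` is the order of `σ_g` at `γ⁻¹ • τ₀`. -/
theorem h54_pt_order_smul (D : h54_EvData N ι ev) (γ g : SL(2, ℤ)) (τ₀ : ℍ) (f : F) :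
    (h54_pt D (γ * g) τ₀ f).order = (h54_pt D g (γ⁻¹ • τ₀) f).order := by
  apply h54_lift_order_congr
  intro a
  rw [h54_ptA_apply, h54_ptA_apply]
  apply h54_order_ofPS_eq_of_order_eq
  have h1 : (fun z : ℍ => ev a ((γ * g)⁻¹ • z)) = fun z => (fun w : ℍ => ev a (g⁻¹ • w)) (γ⁻¹ • z) := by
    funext z
    rw [mul_inv_rev, mul_smul]
  rw [h1, h54_taylor_order_smul (h54_conjA_mdiff D g a) γ⁻¹ τ₀]

/-- (G) for an element fixing the point. -/
theorem h54_pt_order_smul_of_fixed (D : h54_EvData N ι ev) (γ g : SL(2, ℤ)) (τ₀ : ℍ)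
    (hγ : γ • τ₀ = τ₀) (f : F) :
    (h54_pt D (γ * g) τ₀ f).order = (h54_pt D g τ₀ f).order := by
  rw [h54_pt_order_smul]
  have : γ⁻¹ • τ₀ = τ₀ := by
    conv_lhs => rw [← hγ]
    rw [inv_smul_smul]
  rw [this]

/-- (M) Divisibility at a coset fixed by `γ`, given the local divisibility statement for
`γ`-invariant holomorphic functions at `τ₀`. -/
theorem h54_pt_order_dvd (D : h54_EvData N ι ev) (γ g : SL(2, ℤ)) (τ₀ : ℍ) (m : ℕ)
    (hm : ∀ h : ℍ → ℂ, MDiff h → h ≠ 0 → (∀ z, h (γ • z) = h z) →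
      m ∣ (h54_taylor τ₀ h).order.toNat)
    (hfix : γ • (g : SL(2, ℤ) ⧸ CongruenceSubgroup.Gamma0 N) = g) {f : F} (hf : f ≠ 0) :
    (m : ℤ) ∣ (h54_pt D g τ₀ f).order := by
  apply h54_lift_order_dvd _ _ _ _ hf
  intro a ha
  rw [h54_ptA_apply]
  have hne : h54_taylor τ₀ (fun z => ev a (g⁻¹ • z)) ≠ 0 := by
    intro h
    have h1 : h54_ptA D g τ₀ a = 0 := by rw [h54_ptA_apply, h, map_zero]
    exact ha (h54_ptA_injective D g τ₀ (by rw [h1, map_zero]))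
  rw [h54_order_ofPS hne]
  have hmem : g⁻¹ * γ⁻¹ * g ∈ CongruenceSubgroup.Gamma0 N := by
    have h1 : ((γ * g : SL(2, ℤ)) : SL(2, ℤ) ⧸ CongruenceSubgroup.Gamma0 N) = g := hfix
    have h2 := QuotientGroup.eq.mp h1
    rwa [mul_inv_rev] at h2
  have hmem' : g⁻¹ * γ * g ∈ CongruenceSubgroup.Gamma0 N := by
    have := inv_mem hmem
    simpa [mul_assoc] using this
  have hfun0 : (fun z : ℍ => ev a (g⁻¹ • z)) ≠ 0 := by
    intro h0
    exact hne (by rw [h0]; exact h54_taylor_zero τ₀)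
  have hinv : ∀ z : ℍ, (fun w : ℍ => ev a (g⁻¹ • w)) (γ • z) = (fun w : ℍ => ev a (g⁻¹ • w)) z := by
    intro z
    show ev a (g⁻¹ • γ • z) = ev a (g⁻¹ • z)
    have h3 : g⁻¹ • γ • z = (g⁻¹ * γ * g) • (g⁻¹ • z) := by
      simp only [← mul_smul]
      congr 1
      group
    rw [h3]
    exact D.invariant _ hmem' a _
  exact Int.natCast_dvd_natCast.mpr (hm _ (h54_conjA_mdiff D g a) hfun0 hinv)

/-- (M) at `i`: cosets fixed by `S` have even orders. -/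
theorem h54_pt_two_dvd (D : h54_EvData N ι ev) (g : SL(2, ℤ))
    (hfix : ModularGroup.S • (g : SL(2, ℤ) ⧸ CongruenceSubgroup.Gamma0 N) = g) {f : F}
    (hf : f ≠ 0) :
    (2 : ℤ) ∣ (h54_pt D g UpperHalfPlane.I f).order := by
  have := h54_pt_order_dvd D ModularGroup.S g UpperHalfPlane.I 2
    (fun h hh hh0 hinv => h54_two_dvd_order_I hh hh0 hinv) hfix hf
  exact_mod_cast this

/-- (M) at `ρ`: cosets fixed by `S * T` have orders divisible by `3`. -/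
theorem h54_pt_three_dvd (D : h54_EvData N ι ev) (g : SL(2, ℤ))
    (hfix : (ModularGroup.S * ModularGroup.T) • (g : SL(2, ℤ) ⧸ CongruenceSubgroup.Gamma0 N) = g)
    {f : F} (hf : f ≠ 0) :
    (3 : ℤ) ∣ (h54_pt D g h54_rho f).order := by
  have := h54_pt_order_dvd D (ModularGroup.S * ModularGroup.T) g h54_rho 3
    (fun h hh hh0 hinv => h54_three_dvd_order_rho hh hh0 hinv) hfix hf
  exact_mod_cast this

/-- DISTINCTNESS: if the conjugates separate cosets, so do the expansions. -/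
theorem h54_pt_coset_eq_of_eq (D : h54_EvData N ι ev)
    (hsep : ∀ g g' : SL(2, ℤ), (∀ (a : A) (τ : ℍ), ev a (g⁻¹ • τ) = ev a (g'⁻¹ • τ)) →
      (g : SL(2, ℤ) ⧸ CongruenceSubgroup.Gamma0 N) = g')
    {g g' : SL(2, ℤ)} (τ₀ : ℍ) (h : h54_pt (F := F) D g τ₀ = h54_pt D g' τ₀) :
    (g : SL(2, ℤ) ⧸ CongruenceSubgroup.Gamma0 N) = g' := by
  apply hsep
  intro a τ
  have h1 := congrArg (fun φ : F →+* LaurentSeries ℂ => φ (algebraMap A F a)) h
  simp only [h54_pt_algebraMap] at h1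
  have h2 := h54_ofPS_injective h1
  have h3 := h54_taylor_injective (h54_conjA_mdiff D g a) (h54_conjA_mdiff D g' a) τ₀ h2
  exact congrFun h3 τ

/-- All the `σ_g` agree on the subfield generated over `K` by an invariant element. -/
theorem h54_pt_eqOn_adjoin [Algebra K F] [IsScalarTower K A F] (D : h54_EvData N ι ev) (t : A)
    (ht : ∀ (γ : SL(2, ℤ)) (τ : ℍ), ev t (γ • τ) = ev t τ) (g g' : SL(2, ℤ)) (τ₀ : ℍ)
    {e : F} (he : e ∈ IntermediateField.adjoin K {algebraMap A F t}) :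
    h54_pt D g τ₀ e = h54_pt D g' τ₀ e := by
  induction he using IntermediateField.adjoin_induction with
  | mem x hx =>
      rw [Set.mem_singleton_iff] at hx
      subst hx
      rw [h54_pt_invariant D g τ₀ t ht, h54_pt_invariant D g' τ₀ t ht]
  | algebraMap c => rw [h54_pt_const, h54_pt_const]
  | add x y _ _ hx hy => rw [map_add, map_add, hx, hy]
  | inv x _ hx => rw [map_inv₀, map_inv₀, hx]
  | mul x y _ _ hx hy => rw [map_mul, map_mul, hx, hy]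

/-! ### The family indexed by cosets -/

/-- The family `σ : X → (F →+* LaurentSeries ℂ)` at `τ₀`, `X = SL(2,ℤ) ⧸ Γ₀(N)`. -/
noncomputable def h54_ptX (D : h54_EvData N ι ev) (τ₀ : ℍ)
    (x : SL(2, ℤ) ⧸ CongruenceSubgroup.Gamma0 N) : F →+* LaurentSeries ℂ :=
  h54_pt D (Quotient.out x) τ₀

theorem h54_ptX_mk (D : h54_EvData N ι ev) (τ₀ : ℍ) (g : SL(2, ℤ)) :
    h54_ptX (F := F) D τ₀ (g : SL(2, ℤ) ⧸ CongruenceSubgroup.Gamma0 N) = h54_pt D g τ₀ :=
  h54_pt_eq_of_coset D (Quotient.out_eq (g : SL(2, ℤ) ⧸ CongruenceSubgroup.Gamma0 N)) τ₀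

theorem h54_ptX_const [Algebra K F] [IsScalarTower K A F] (D : h54_EvData N ι ev) (τ₀ : ℍ)
    (x : SL(2, ℤ) ⧸ CongruenceSubgroup.Gamma0 N) (c : K) :
    h54_ptX (F := F) D τ₀ x (algebraMap K F c) = HahnSeries.C (ι c) :=
  h54_pt_const D _ τ₀ c

theorem h54_ptX_order_const [Algebra K F] [IsScalarTower K A F] (D : h54_EvData N ι ev) (τ₀ : ℍ)
    (x : SL(2, ℤ) ⧸ CongruenceSubgroup.Gamma0 N) (c : K) :
    (h54_ptX (F := F) D τ₀ x (algebraMap K F c)).order = 0 :=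
  h54_pt_order_const D _ τ₀ c

theorem h54_ptX_order_mul (D : h54_EvData N ι ev) (τ₀ : ℍ)
    (x : SL(2, ℤ) ⧸ CongruenceSubgroup.Gamma0 N) {f₁ f₂ : F} (h₁ : f₁ ≠ 0) (h₂ : f₂ ≠ 0) :
    (h54_ptX D τ₀ x (f₁ * f₂)).order = (h54_ptX D τ₀ x f₁).order + (h54_ptX D τ₀ x f₂).order :=
  h54_pt_order_mul D _ τ₀ h₁ h₂

theorem h54_ptX_order_add (D : h54_EvData N ι ev) (τ₀ : ℍ)
    (x : SL(2, ℤ) ⧸ CongruenceSubgroup.Gamma0 N) {f₁ f₂ : F} (h : f₁ + f₂ ≠ 0) :
    min (h54_ptX D τ₀ x f₁).order (h54_ptX D τ₀ x f₂).order ≤ (h54_ptX D τ₀ x (f₁ + f₂)).order :=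
  h54_pt_order_add D _ τ₀ h

theorem h54_ptX_invariant (D : h54_EvData N ι ev) (τ₀ : ℍ)
    (x : SL(2, ℤ) ⧸ CongruenceSubgroup.Gamma0 N) (a : A)
    (hinv : ∀ (γ : SL(2, ℤ)) (τ : ℍ), ev a (γ • τ) = ev a τ) :
    h54_ptX (F := F) D τ₀ x (algebraMap A F a) = h54_ofPS (h54_taylor τ₀ (ev a)) :=
  h54_pt_invariant D _ τ₀ a hinv

theorem h54_ptX_order_invariant (D : h54_EvData N ι ev) (τ₀ : ℍ)
    (x : SL(2, ℤ) ⧸ CongruenceSubgroup.Gamma0 N) {a : A} (ha : a ≠ 0)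
    (hinv : ∀ (γ : SL(2, ℤ)) (τ : ℍ), ev a (γ • τ) = ev a τ) :
    (h54_ptX (F := F) D τ₀ x (algebraMap A F a)).order
      = ((analyticOrderAt (ev a ∘ ofComplex) (τ₀ : ℂ)).toNat : ℤ) :=
  h54_pt_order_invariant D _ τ₀ ha hinv

theorem h54_ptX_eqOn_adjoin [Algebra K F] [IsScalarTower K A F] (D : h54_EvData N ι ev) (t : A)
    (ht : ∀ (γ : SL(2, ℤ)) (τ : ℍ), ev t (γ • τ) = ev t τ) (τ₀ : ℍ)
    (x y : SL(2, ℤ) ⧸ CongruenceSubgroup.Gamma0 N)
    {e : F} (he : e ∈ IntermediateField.adjoin K {algebraMap A F t}) :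
    h54_ptX D τ₀ x e = h54_ptX D τ₀ y e :=
  h54_pt_eqOn_adjoin D t ht _ _ τ₀ he

/-- (G) on cosets. -/
theorem h54_ptX_order_smul_of_fixed (D : h54_EvData N ι ev) (γ : SL(2, ℤ)) (τ₀ : ℍ)
    (hγ : γ • τ₀ = τ₀) (x : SL(2, ℤ) ⧸ CongruenceSubgroup.Gamma0 N) (f : F) :
    (h54_ptX D τ₀ (γ • x) f).order = (h54_ptX D τ₀ x f).order := by
  induction x using QuotientGroup.induction_on with
  | H g =>
    have h1 : γ • (g : SL(2, ℤ) ⧸ CongruenceSubgroup.Gamma0 N)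
        = ((γ * g : SL(2, ℤ)) : SL(2, ℤ) ⧸ CongruenceSubgroup.Gamma0 N) := rfl
    rw [h1, h54_ptX_mk, h54_ptX_mk, h54_pt_order_smul_of_fixed D γ g τ₀ hγ]

/-- (G) on cosets, for powers. -/
theorem h54_ptX_order_zpow_smul_of_fixed (D : h54_EvData N ι ev) (γ : SL(2, ℤ)) (τ₀ : ℍ)
    (hγ : γ • τ₀ = τ₀) (n : ℤ) (x : SL(2, ℤ) ⧸ CongruenceSubgroup.Gamma0 N) (f : F) :
    (h54_ptX D τ₀ (γ ^ n • x) f).order = (h54_ptX D τ₀ x f).order := by
  apply h54_ptX_order_smul_of_fixed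
  have hmem : γ ∈ MulAction.stabilizer (SL(2, ℤ)) τ₀ := hγ
  exact (MulAction.stabilizer (SL(2, ℤ)) τ₀).zpow_mem hmem n

theorem h54_ptX_two_dvd (D : h54_EvData N ι ev)
    (x : SL(2, ℤ) ⧸ CongruenceSubgroup.Gamma0 N) (hfix : ModularGroup.S • x = x) {f : F}
    (hf : f ≠ 0) :
    (2 : ℤ) ∣ (h54_ptX D UpperHalfPlane.I x f).order := by
  induction x using QuotientGroup.induction_on with
  | H g =>
    rw [h54_ptX_mk]
    exact h54_pt_two_dvd D g hfix hf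

theorem h54_ptX_three_dvd (D : h54_EvData N ι ev)
    (x : SL(2, ℤ) ⧸ CongruenceSubgroup.Gamma0 N)
    (hfix : (ModularGroup.S * ModularGroup.T) • x = x) {f : F} (hf : f ≠ 0) :
    (3 : ℤ) ∣ (h54_ptX D h54_rho x f).order := by
  induction x using QuotientGroup.induction_on with
  | H g =>
    rw [h54_ptX_mk]
    exact h54_pt_three_dvd D g hfix hf

/-- DISTINCTNESS on cosets. -/
theorem h54_ptX_injective (D : h54_EvData N ι ev)
    (hsep : ∀ g g' : SL(2, ℤ), (∀ (a : A) (τ : ℍ), ev a (g⁻¹ • τ) = ev a (g'⁻¹ • τ)) →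
      (g : SL(2, ℤ) ⧸ CongruenceSubgroup.Gamma0 N) = g') (τ₀ : ℍ) :
    Function.Injective (h54_ptX (F := F) D τ₀) := by
  intro x y h
  induction x using QuotientGroup.induction_on with
  | H g =>
    induction y using QuotientGroup.induction_on with
    | H g' =>
      rw [h54_ptX_mk, h54_ptX_mk] at h
      exact h54_pt_coset_eq_of_eq D hsep τ₀ h

end PointGen

end Fermat.Agent.S24
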