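/-
S24 / the concrete family of local expansions at points of ℍ for the function field of X₀(N)
(helper54): instance of `h54_EvData` for helper77's evaluation on helper78's `A_N`,
separation of cosets (helper64), orders of `j - c` (helper39).
-/
import Fermat.Agent.S24.h54_PointGen
import Fermat.Agent.S24.h77_QBridge
import Fermat.Agent.S24.h78_Field
import Fermat.Agent.S24.h64_Conj
import Fermat.Agent.S24.h39_JFun

set_option autoImplicit false

open UpperHalfPlane ModularCurve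
open scoped Manifold MatrixGroups

namespace Fermat.Agent.S24

theorem h54_rho_eq : h54_rho = UpperHalfPlane.ρ := rfl

theorem h54_j_smul (γ : SL(2, ℤ)) (τ : ℍ) : h77_j (γ • τ) = h77_j τ := h64_jf_smul γ τ

theorem h54_j_leadOne : h64_LeadOne h77_j := h64_jf_leadOne

theorem h54_j_eq_h39 : h77_j = h39_jfun := rfl

section Concrete

variable {K : Type*} [Field K] [Algebra ℚ K] (ι : K →+* ℂ) (N : ℕ)

theorem h54_AN_le_convAlg : h78_AN K N ≤ h77_convAlg ι := by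
  refine Algebra.adjoin_le ?_
  rintro _ ⟨d, hd, -, rfl⟩
  have := hd
  exact h77_jqd_mem ι d

/-- The evaluation hom `A_N →+* (ℍ → ℂ)` (helper77's `h77_toFun` restricted to `A_N`). -/
noncomputable def h54_ev : h78_AN K N →+* (ℍ → ℂ) :=
  (h77_toFun ι).comp (Subalgebra.inclusion (h54_AN_le_convAlg ι N)).toRingHom

theorem h54_ev_apply (a : h78_AN K N) :
    h54_ev ι N a = h77_toFun ι (Subalgebra.inclusion (h54_AN_le_convAlg ι N) a) := rfl

theorem h54_ev_mk (x : LaurentSeries K) (hx : x ∈ h78_AN K N) :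
    h54_ev ι N ⟨x, hx⟩ = h77_toFun ι ⟨x, h54_AN_le_convAlg ι N hx⟩ := rfl

theorem h54_ev_spec (x : LaurentSeries K) (hx : x ∈ h78_AN K N) :
    h77_IsQExp 1 (ModularCurve.coeffMap ι x) (h54_ev ι N ⟨x, hx⟩) := by
  rw [h54_ev_mk]
  exact h77_toFun_spec ι ⟨x, h54_AN_le_convAlg ι N hx⟩

theorem h54_ev_mdiff (a : h78_AN K N) : MDiff (h54_ev ι N a) := h77_toFun_mdiff ι _

theorem h54_ev_injective : Function.Injective (h54_ev ι N) := by
  intro a b h
  exact Subalgebra.inclusion_injective _ (h77_toFun_injective ι h)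

theorem h54_ev_const (c : K) : h54_ev ι N (algebraMap K (h78_AN K N) c) = fun _ => ι c :=
  h77_toFun_algebraMap ι c

/-- The value of `ev` on the generator `j (q^d)`. -/
theorem h54_ev_gen (d : ℕ) [NeZero d] (hx : coeffEmb K (qExpand ℚ d jq) ∈ h78_AN K N) :
    h54_ev ι N ⟨coeffEmb K (qExpand ℚ d jq), hx⟩
      = fun τ : ℍ => h77_j (ofComplex ((d : ℂ) * τ)) :=
  h77_toFun_jqd ι d

/-- The value of `ev` on `j`. -/
theorem h54_ev_j : h54_ev ι N ⟨coeffEmb K jq, h78_jq_mem_AN K N⟩ = h77_j := by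
  rw [h54_ev_mk]
  refine h77_toFun_eq ι ?_
  show h77_IsQExp 1 (ModularCurve.coeffMap ι (coeffEmb K jq)) h77_j
  rw [h77_coeffMap_coeffEmb]
  exact h77_isQExp_jq

theorem h54_ev_invariant_aux (γ : SL(2, ℤ)) (hγ : γ ∈ CongruenceSubgroup.Gamma0 N)
    (x : LaurentSeries K) (hx : x ∈ h78_AN K N) :
    ∀ (hx' : x ∈ h77_convAlg ι) (τ : ℍ),
      h77_toFun ι ⟨x, hx'⟩ (γ • τ) = h77_toFun ι ⟨x, hx'⟩ τ := by
  induction hx using Algebra.adjoin_induction with
  | mem x hx =>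
    intro hx' τ
    obtain ⟨d, hd, hdN, rfl⟩ := hx
    have := hd
    rw [h77_toFun_jqd ι d]
    have hd0 : 0 < d := Nat.pos_of_ne_zero (NeZero.ne d)
    have hdvd : (d : ℤ) ∣ γ 1 0 := by
      have h1 : ((γ 1 0 : ℤ) : ZMod N) = 0 := CongruenceSubgroup.Gamma0_mem.mp hγ
      have h2 : (N : ℤ) ∣ γ 1 0 := (ZMod.intCast_zmod_eq_zero_iff_dvd _ _).mp h1
      exact (Int.natCast_dvd_natCast.mpr hdN).trans h2
    exact (h64_conj_eq_iff h54_j_smul h54_j_leadOne hd0 γ).mpr hdvd τ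
  | algebraMap c =>
    intro hx' τ
    have h1 : (⟨algebraMap K (LaurentSeries K) c, hx'⟩ : h77_convAlg ι)
        = algebraMap K (h77_convAlg ι) c := rfl
    rw [h1, h77_toFun_algebraMap]
  | add x y hx hy ihx ihy =>
    intro hx' τ
    have hx1 := h54_AN_le_convAlg ι N hx
    have hy1 := h54_AN_le_convAlg ι N hy
    have h1 : (⟨x + y, hx'⟩ : h77_convAlg ι) = ⟨x, hx1⟩ + ⟨y, hy1⟩ := rfl
    rw [h1, map_add, Pi.add_apply, Pi.add_apply, ihx hx1, ihy hy1]
  | mul x y hx hy ihx ihy =>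
    intro hx' τ
    have hx1 := h54_AN_le_convAlg ι N hx
    have hy1 := h54_AN_le_convAlg ι N hy
    have h1 : (⟨x * y, hx'⟩ : h77_convAlg ι) = ⟨x, hx1⟩ * ⟨y, hy1⟩ := rfl
    rw [h1, map_mul, Pi.mul_apply, Pi.mul_apply, ihx hx1, ihy hy1]

theorem h54_ev_invariant (γ : SL(2, ℤ)) (hγ : γ ∈ CongruenceSubgroup.Gamma0 N)
    (a : h78_AN K N) (τ : ℍ) : h54_ev ι N a (γ • τ) = h54_ev ι N a τ := by
  obtain ⟨x, hx⟩ := a
  rw [h54_ev_mk]
  exact h54_ev_invariant_aux ι N γ hγ x hx _ τ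

/-- The data record for the point family. -/
theorem h54_evData : h54_EvData N ι (h54_ev ι N) where
  mdiff := h54_ev_mdiff ι N
  inj := h54_ev_injective ι N
  const := h54_ev_const ι N
  invariant := h54_ev_invariant ι N

/-- The conjugates separate the cosets of `Γ₀(N)`. -/
theorem h54_ev_sep [NeZero N] (g g' : SL(2, ℤ))
    (h : ∀ (a : h78_AN K N) (τ : ℍ), h54_ev ι N a (g⁻¹ • τ) = h54_ev ι N a (g'⁻¹ • τ)) :
    (g : SL(2, ℤ) ⧸ CongruenceSubgroup.Gamma0 N) = g' := by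
  have hN : 0 < N := Nat.pos_of_ne_zero (NeZero.ne N)
  have hmem : coeffEmb K (qExpand ℚ N jq) ∈ h78_AN K N :=
    h78_gens_subset_AN K N (h78_mem_gens K dvd_rfl)
  have h1 := h ⟨coeffEmb K (qExpand ℚ N jq), hmem⟩
  rw [h54_ev_gen] at h1
  have h2 := (h64_conj_eq_conj_iff_mem h54_j_smul h54_j_leadOne hN g⁻¹ g'⁻¹).mp h1
  rw [inv_inv] at h2
  exact QuotientGroup.eq.mpr h2

end Concrete

/-! ### The family for the function field -/

section Family

variable {K : Type*} [Field K] [Algebra ℚ K] (ι : K →+* ℂ) (N : ℕ)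

/-- The family `σ τ₀ : X → (F →+* LaurentSeries ℂ)` of local expansions at `τ₀ ∈ ℍ` of the
conjugates, `F = laurentBaseChange K (modularFunctionFieldFull N)`. -/
noncomputable def h54_sigma (τ₀ : ℍ) (x : SL(2, ℤ) ⧸ CongruenceSubgroup.Gamma0 N) :
    laurentBaseChange K (modularFunctionFieldFull N) →+* LaurentSeries ℂ :=
  h54_ptX (h54_evData ι N) τ₀ x

/-- `w τ₀ x f`: the order at `τ₀` of the `x`-conjugate of `f`. -/
noncomputable def h54_w (τ₀ : ℍ) (x : SL(2, ℤ) ⧸ CongruenceSubgroup.Gamma0 N)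
    (f : laurentBaseChange K (modularFunctionFieldFull N)) : ℤ :=
  (h54_sigma ι N τ₀ x f).order

theorem h54_sigma_const (τ₀ : ℍ) (x : SL(2, ℤ) ⧸ CongruenceSubgroup.Gamma0 N) (c : K) :
    h54_sigma ι N τ₀ x (algebraMap K _ c) = HahnSeries.C (ι c) :=
  h54_ptX_const (h54_evData ι N) τ₀ x c

theorem h54_sigma_injective [NeZero N] (τ₀ : ℍ) : Function.Injective (h54_sigma ι N τ₀) :=
  h54_ptX_injective (h54_evData ι N) (h54_ev_sep ι N) τ₀

theorem h54_j_eq_algebraMap [NeZero N] :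
    h78_j K N = algebraMap (h78_AN K N) (laurentBaseChange K (modularFunctionFieldFull N))
      ⟨coeffEmb K jq, h78_jq_mem_AN K N⟩ := rfl

/-- All `σ τ₀ x` agree on `K(j)`. -/
theorem h54_sigma_eqOn_adjoin [NeZero N] (τ₀ : ℍ) (x y : SL(2, ℤ) ⧸ CongruenceSubgroup.Gamma0 N)
    {e : laurentBaseChange K (modularFunctionFieldFull N)}
    (he : e ∈ IntermediateField.adjoin K {h78_j K N}) :
    h54_sigma ι N τ₀ x e = h54_sigma ι N τ₀ y e := by
  refine h54_ptX_eqOn_adjoin (h54_evData ι N) ⟨coeffEmb K jq, h78_jq_mem_AN K N⟩ ?_ τ₀ x y he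
  intro γ τ
  rw [h54_ev_j]
  exact h54_j_smul γ τ

/-- The expansion of `j` itself: the Taylor series of the analytic `j` at `τ₀`. -/
theorem h54_sigma_j [NeZero N] (τ₀ : ℍ) (x : SL(2, ℤ) ⧸ CongruenceSubgroup.Gamma0 N) :
    h54_sigma ι N τ₀ x (h78_j K N) = h54_ofPS (h54_taylor τ₀ h77_j) := by
  rw [h54_j_eq_algebraMap, h54_sigma, h54_ptX_invariant (h54_evData ι N) τ₀ x _ ?_, h54_ev_j]
  intro γ τ
  rw [h54_ev_j]
  exact h54_j_smul γ τ

/-- (V) -/
theorem h54_w_mul (τ₀ : ℍ) (x : SL(2, ℤ) ⧸ CongruenceSubgroup.Gamma0 N)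
    {f₁ f₂ : laurentBaseChange K (modularFunctionFieldFull N)} (h₁ : f₁ ≠ 0) (h₂ : f₂ ≠ 0) :
    h54_w ι N τ₀ x (f₁ * f₂) = h54_w ι N τ₀ x f₁ + h54_w ι N τ₀ x f₂ :=
  h54_ptX_order_mul (h54_evData ι N) τ₀ x h₁ h₂

/-- (V) -/
theorem h54_w_add (τ₀ : ℍ) (x : SL(2, ℤ) ⧸ CongruenceSubgroup.Gamma0 N)
    {f₁ f₂ : laurentBaseChange K (modularFunctionFieldFull N)} (h : f₁ + f₂ ≠ 0) :
    min (h54_w ι N τ₀ x f₁) (h54_w ι N τ₀ x f₂) ≤ h54_w ι N τ₀ x (f₁ + f₂) :=
  h54_ptX_order_add (h54_evData ι N) τ₀ x h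

theorem h54_w_const (τ₀ : ℍ) (x : SL(2, ℤ) ⧸ CongruenceSubgroup.Gamma0 N) (c : K) :
    h54_w ι N τ₀ x (algebraMap K _ c) = 0 :=
  h54_ptX_order_const (h54_evData ι N) τ₀ x c

/-- (E) in general form: the order of `j - c` is the analytic order of `j - ι c` at `τ₀`. -/
theorem h54_w_j_sub [NeZero N] (τ₀ : ℍ) (x : SL(2, ℤ) ⧸ CongruenceSubgroup.Gamma0 N) (c : K) :
    h54_w ι N τ₀ x (h78_j K N - algebraMap K _ c)
      = ((analyticOrderAt (fun z : ℂ => h77_j (ofComplex z) - ι c) (τ₀ : ℂ)).toNat : ℤ) := by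
  set a : h78_AN K N := ⟨coeffEmb K jq, h78_jq_mem_AN K N⟩ - algebraMap K (h78_AN K N) c with ha
  have hev : h54_ev ι N a = fun τ => h77_j τ - ι c := by
    rw [ha, map_sub, h54_ev_j, h54_ev_const]
    rfl
  have hinv : ∀ (γ : SL(2, ℤ)) (τ : ℍ), h54_ev ι N a (γ • τ) = h54_ev ι N a τ := by
    intro γ τ
    rw [hev]
    show h77_j (γ • τ) - ι c = h77_j τ - ι c
    rw [h54_j_smul]
  have ha0 : a ≠ 0 := by
    intro h0
    have h1 : h54_ev ι N a = 0 := by rw [h0, map_zero]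
    rw [hev] at h1
    -- `j` would be constant, contradicting `j(i) = 1728`, `j(ρ) = 0`
    have h2 := congrFun h1 UpperHalfPlane.I
    have h3 := congrFun h1 ρ
    simp only [Pi.zero_apply] at h2 h3
    have h4 : h77_j UpperHalfPlane.I = 1728 := h39_jfun_I
    have h5 : h77_j ρ = 0 := h39_jfun_rho
    rw [h4] at h2
    rw [h5] at h3
    have : (1728 : ℂ) = 0 := by linear_combination h2 - h3
    norm_num at this
  have hmap : h78_j K N - algebraMap K (laurentBaseChange K (modularFunctionFieldFull N)) c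
      = algebraMap (h78_AN K N) (laurentBaseChange K (modularFunctionFieldFull N)) a := by
    rw [ha, map_sub, ← h54_j_eq_algebraMap, ← IsScalarTower.algebraMap_apply]
  rw [h54_w, h54_sigma, hmap, h54_ptX_order_invariant (h54_evData ι N) τ₀ x ha0 hinv, hev]
  rfl

/-- (E): at a point `τ₀` with `j(τ₀) = ι c` the order of `j - c` is `3`, `2`, `1` according to
`ι c = 0`, `ι c = 1728`, or neither. -/
theorem h54_w_j_sub_of_eq [NeZero N] (τ₀ : ℍ) (x : SL(2, ℤ) ⧸ CongruenceSubgroup.Gamma0 N) (c : K)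
    (hc : h77_j τ₀ = ι c) :
    h54_w ι N τ₀ x (h78_j K N - algebraMap K _ c)
      = if ι c = 0 then 3 else if ι c = 1728 then 2 else 1 := by
  rw [h54_w_j_sub, ← hc]
  have h := h39_order_nat τ₀
  have h' : analyticOrderAt (fun z : ℂ => h77_j (ofComplex z) - h77_j τ₀) (τ₀ : ℂ) =
      ((if h77_j τ₀ = 0 then 3 else if h77_j τ₀ = 1728 then 2 else 1 : ℕ) : ℕ∞) := h
  rw [h', ENat.toNat_natCast]
  split_ifs <;> rfl

/-- Existence of a point above a given value of `j`. -/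
theorem h54_exists_point (z : ℂ) : ∃ τ₀ : ℍ, h77_j τ₀ = z := h39_jfun_surjective z

/-- (G) for `S` at `i`. -/
theorem h54_w_S_zpow_smul (n : ℤ) (x : SL(2, ℤ) ⧸ CongruenceSubgroup.Gamma0 N)
    (f : laurentBaseChange K (modularFunctionFieldFull N)) :
    h54_w ι N UpperHalfPlane.I (ModularGroup.S ^ n • x) f = h54_w ι N UpperHalfPlane.I x f :=
  h54_ptX_order_zpow_smul_of_fixed (h54_evData ι N) ModularGroup.S UpperHalfPlane.I
    h54_S_smul_I n x f

/-- (G) for `S * T` at `ρ`. -/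
theorem h54_w_ST_zpow_smul (n : ℤ) (x : SL(2, ℤ) ⧸ CongruenceSubgroup.Gamma0 N)
    (f : laurentBaseChange K (modularFunctionFieldFull N)) :
    h54_w ι N ρ ((ModularGroup.S * ModularGroup.T) ^ n • x) f = h54_w ι N ρ x f :=
  h54_ptX_order_zpow_smul_of_fixed (h54_evData ι N) (ModularGroup.S * ModularGroup.T) h54_rho
    h54_ST_smul_rho n x f

/-- (M) at `i`. -/
theorem h54_w_two_dvd (x : SL(2, ℤ) ⧸ CongruenceSubgroup.Gamma0 N)
    (hfix : ModularGroup.S • x = x)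
    {f : laurentBaseChange K (modularFunctionFieldFull N)} (hf : f ≠ 0) :
    (2 : ℤ) ∣ h54_w ι N UpperHalfPlane.I x f :=
  h54_ptX_two_dvd (h54_evData ι N) x hfix hf

/-- (M) at `ρ`. -/
theorem h54_w_three_dvd (x : SL(2, ℤ) ⧸ CongruenceSubgroup.Gamma0 N)
    (hfix : (ModularGroup.S * ModularGroup.T) • x = x)
    {f : laurentBaseChange K (modularFunctionFieldFull N)} (hf : f ≠ 0) :
    (3 : ℤ) ∣ h54_w ι N ρ x f :=
  h54_ptX_three_dvd (h54_evData ι N) x hfix hf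

end Family

end Fermat.Agent.S24
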