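import Mathlib
import Fermat.Prelude.Def_AlgebraicCurve_DivisorClassGroup

set_option autoImplicit false

open IsDedekindDomain WithZero AlgebraicCurve

namespace Fermat.Agent.S24

section PlaceBasics

variable {K F : Type*} [Field K] [Field F] [Algebra K F]

/-- The normalised valuation of a place in terms of `ord`. -/
theorem h24_adicValuation_eq_exp (v : Place K F) {f : F} (hf : f ≠ 0) :
    v.adicValuation f = exp (-(v.ord f)) := by
  rw [Place.ord, neg_neg, exp_log (v.adicValuation_ne_zero hf)]

/-- Elements of nonnegative order lie in the valuation ring. -/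
theorem h24_mem_of_ord_nonneg (v : Place K F) {f : F} (hf : 0 ≤ v.ord f) :
    f ∈ v.toValuationSubring := by
  rcases eq_or_ne f 0 with rfl | hf0
  · exact zero_mem _
  obtain ⟨π, hπ⟩ := IsDiscreteValuationRing.exists_irreducible v.toValuationSubring
  obtain ⟨u, hu⟩ := v.exists_unit_mul_zpow hf0 hπ
  rw [hu]
  refine mul_mem (u : v.toValuationSubring).2 ?_
  obtain ⟨n, hn⟩ := Int.eq_ofNat_of_zero_le hf
  rw [hn, zpow_natCast]
  exact pow_mem π.2 n

/-- Nonzero elements of the valuation ring have nonnegative order. -/
theorem h24_ord_nonneg_of_mem (v : Place K F) {f : F} (hf : f ∈ v.toValuationSubring) :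
    0 ≤ v.ord f := by
  rcases eq_or_ne f 0 with rfl | hf0
  · simp
  have h1 : v.adicValuation f ≤ 1 := by
    have := v.adicValuation_coe ⟨f, hf⟩
    rw [show ((⟨f, hf⟩ : v.toValuationSubring) : F) = f from rfl] at this
    rw [this]
    exact HeightOneSpectrum.intValuation_le_one _ _
  rw [h24_adicValuation_eq_exp v hf0, ← exp_zero, exp_le_exp] at h1
  linarith

/-- A nonzero element of the valuation ring is a unit there iff its order vanishes. -/
theorem h24_ord_eq_zero_iff_isUnit (v : Place K F) {f : F} (hf : f ∈ v.toValuationSubring)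
    (hf0 : f ≠ 0) : v.ord f = 0 ↔ IsUnit (⟨f, hf⟩ : v.toValuationSubring) := by
  rw [← v.adicValuation_coe_eq_one_iff ⟨f, hf⟩]
  rw [show ((⟨f, hf⟩ : v.toValuationSubring) : F) = f from rfl, h24_adicValuation_eq_exp v hf0,
    exp_eq_one, neg_eq_zero]

/-- Elements of the base field have order zero. -/
theorem h24_ord_algebraMap (v : Place K F) (a : K) : v.ord (algebraMap K F a) = 0 := by
  rcases eq_or_ne a 0 with rfl | ha
  · simp
  have hu : IsUnit (algebraMap K v.toValuationSubring a) :=
    (IsUnit.mk0 a ha).map (algebraMap K v.toValuationSubring)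
  have h0 : algebraMap K F a ≠ 0 := by simpa using ha
  exact (h24_ord_eq_zero_iff_isUnit v (v.algebraMap_mem' a) h0).mpr hu

/-- Elements of positive order are nonunits of the valuation ring. -/
theorem h24_not_isUnit_of_ord_pos (v : Place K F) {f : F} (hf : 0 < v.ord f) :
    ∃ hmem : f ∈ v.toValuationSubring, ¬ IsUnit (⟨f, hmem⟩ : v.toValuationSubring) := by
  have hmem : f ∈ v.toValuationSubring := h24_mem_of_ord_nonneg v hf.le
  have hf0 : f ≠ 0 := by
    rintro rfl
    simp at hf
  refine ⟨hmem, fun hu => ?_⟩
  have := (h24_ord_eq_zero_iff_isUnit v hmem hf0).mpr hu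
  omega

/-- The fibres of a function over distinct points of the base field are disjoint. -/
theorem h24_fibre_disjoint (v : Place K F) (t : F) (a b : K)
    (ha : 0 < v.ord (t - algebraMap K F a)) (hb : 0 < v.ord (t - algebraMap K F b)) : a = b := by
  by_contra hab
  obtain ⟨hma, hua⟩ := h24_not_isUnit_of_ord_pos v ha
  obtain ⟨hmb, hub⟩ := h24_not_isUnit_of_ord_pos v hb
  have h1 : (⟨t - algebraMap K F a, hma⟩ : v.toValuationSubring) ∈
      IsLocalRing.maximalIdeal v.toValuationSubring := (IsLocalRing.mem_maximalIdeal _).mpr hua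
  have h2 : (⟨t - algebraMap K F b, hmb⟩ : v.toValuationSubring) ∈
      IsLocalRing.maximalIdeal v.toValuationSubring := (IsLocalRing.mem_maximalIdeal _).mpr hub
  have h3 := Ideal.sub_mem _ h1 h2
  have h4 : (⟨t - algebraMap K F a, hma⟩ : v.toValuationSubring) - ⟨t - algebraMap K F b, hmb⟩ =
      algebraMap K v.toValuationSubring (b - a) := by
    ext
    simp
  rw [h4] at h3
  have hu : IsUnit (algebraMap K v.toValuationSubring (b - a)) :=
    (IsUnit.mk0 (b - a) (sub_ne_zero.mpr (Ne.symm hab))).map (algebraMap K v.toValuationSubring)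
  exact (IsLocalRing.mem_maximalIdeal _).mp h3 hu

/-- A place in the fibre over a point of the base field is not a pole. -/
theorem h24_fibre_not_pole (v : Place K F) (t : F) (a : K)
    (ha : 0 < v.ord (t - algebraMap K F a)) : 0 ≤ v.ord t := by
  have hmem : t - algebraMap K F a ∈ v.toValuationSubring := h24_mem_of_ord_nonneg v ha.le
  have ht_mem : t ∈ v.toValuationSubring := by
    have := add_mem hmem (v.algebraMap_mem' a)
    simpa using this
  exact h24_ord_nonneg_of_mem v ht_mem

end PlaceBasics

section Dedekind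

variable {K F : Type*} [Field K] [Field F] [Algebra K F]
variable {R : Type*} [CommRing R] [IsDedekindDomain R] [Algebra R F] [IsFractionRing R F]
  [Algebra K R] [IsScalarTower K R F]

/-- Units of the valuation ring of a valuation have value one. -/
theorem h24_val_unit {Γ : Type*} [LinearOrderedCommGroupWithZero Γ] (val : Valuation F Γ)
    (u : (val.valuationSubring)ˣ) : val ((u : val.valuationSubring) : F) = 1 := by
  have h1 : val ((u : val.valuationSubring) : F) ≤ 1 :=
    (Valuation.mem_valuationSubring_iff val _).mp (u : val.valuationSubring).2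
  have h2 : val (((u⁻¹ : (val.valuationSubring)ˣ) : val.valuationSubring) : F) ≤ 1 :=
    (Valuation.mem_valuationSubring_iff val _).mp ((u⁻¹ : (val.valuationSubring)ˣ) :
      val.valuationSubring).2
  have h3 : ((u : val.valuationSubring) : F) *
      (((u⁻¹ : (val.valuationSubring)ˣ) : val.valuationSubring) : F) = 1 := by
    have := congrArg (Subtype.val) (Units.mul_inv u)
    exact this
  have h4 := congrArg val h3
  rw [map_mul, map_one] at h4
  refine le_antisymm h1 ?_
  by_contra hlt
  rw [not_le] at hlt
  have : val ((u : val.valuationSubring) : F) *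
      val (((u⁻¹ : (val.valuationSubring)ˣ) : val.valuationSubring) : F) < 1 :=
    mul_lt_one_of_lt_of_le hlt h2
  exact absurd h4 (ne_of_lt this)

/-- The `w`-adic valuation of an irreducible element of the valuation ring of `w`. -/
theorem h24_val_irreducible (w : HeightOneSpectrum R)
    (π : (w.valuation F).valuationSubring) (hπ : Irreducible π) :
    w.valuation F (π : F) = exp (-1 : ℤ) := by
  obtain ⟨ϖ, hϖ⟩ := w.valuation_exists_uniformizer F
  have hπ0 : (π : F) ≠ 0 := by
    simpa [ne_eq, ZeroMemClass.coe_eq_zero] using hπ.ne_zero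
  have hϖ0 : ϖ ≠ 0 := by
    intro h
    rw [h, map_zero] at hϖ
    exact exp_ne_zero hϖ.symm
  have hπle : w.valuation F (π : F) ≤ 1 := (Valuation.mem_valuationSubring_iff _ _).mp π.2
  have hπne : w.valuation F (π : F) ≠ 1 := by
    intro h1
    have hinv : (π : F)⁻¹ ∈ (w.valuation F).valuationSubring := by
      rw [Valuation.mem_valuationSubring_iff, map_inv₀, h1, inv_one]
    apply hπ.not_isUnit
    refine IsUnit.of_mul_eq_one (⟨(π : F)⁻¹, hinv⟩ : (w.valuation F).valuationSubring) ?_
    ext
    simp [hπ0]
  have hπlt : w.valuation F (π : F) < 1 := lt_of_le_of_ne hπle hπne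
  have hv0 : w.valuation F (π : F) ≠ 0 := (Valuation.ne_zero_iff _).mpr hπ0
  have hle : w.valuation F (π : F) ≤ exp (-1 : ℤ) := by
    rw [← exp_log hv0, exp_le_exp]
    rw [← exp_log hv0, ← exp_zero, exp_lt_exp] at hπlt
    omega
  have hϖmem : ϖ ∈ (w.valuation F).valuationSubring := by
    rw [Valuation.mem_valuationSubring_iff, hϖ, ← exp_zero, exp_le_exp]
    norm_num
  have hcmem : (π : F) / ϖ ∈ (w.valuation F).valuationSubring := by
    rw [Valuation.mem_valuationSubring_iff, map_div₀, hϖ]
    rw [div_le_one₀ (exp_pos)]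
    exact hle
  have hprod : π = (⟨ϖ, hϖmem⟩ : (w.valuation F).valuationSubring) * ⟨(π : F) / ϖ, hcmem⟩ := by
    ext
    simp only [MulMemClass.coe_mul]
    field_simp
  have hϖnu : ¬ IsUnit (⟨ϖ, hϖmem⟩ : (w.valuation F).valuationSubring) := by
    intro hu
    have := h24_val_unit (w.valuation F) hu.unit
    rw [IsUnit.unit_spec] at this
    change w.valuation F ϖ = 1 at this
    rw [hϖ, exp_eq_one] at this
    omega
  have hcu : IsUnit (⟨(π : F) / ϖ, hcmem⟩ : (w.valuation F).valuationSubring) :=
    (hπ.isUnit_or_isUnit hprod).resolve_left hϖnu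
  have := h24_val_unit (w.valuation F) hcu.unit
  rw [IsUnit.unit_spec] at this
  change w.valuation F ((π : F) / ϖ) = 1 at this
  rw [map_div₀, hϖ, div_eq_one_iff_eq (exp_ne_zero)] at this
  exact this

/-- (F0) The order at the place attached to a prime of a Dedekind domain is the adic
valuation. -/
theorem h24_ofHeightOneSpectrum_val (w : HeightOneSpectrum R) {f : F} (hf : f ≠ 0) :
    w.valuation F f = exp (-((Place.ofHeightOneSpectrum (K := K) (F := F) w).ord f)) := by
  set v := Place.ofHeightOneSpectrum (K := K) (F := F) w with hv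
  obtain ⟨π, hπ⟩ := IsDiscreteValuationRing.exists_irreducible v.toValuationSubring
  obtain ⟨u, hu⟩ := v.exists_unit_mul_zpow hf hπ
  have h1 : w.valuation F ((u : v.toValuationSubring) : F) = 1 :=
    h24_val_unit (w.valuation F) u
  have h2 : w.valuation F (π : F) = exp (-1 : ℤ) := h24_val_irreducible w π hπ
  conv_lhs => rw [hu]
  rw [map_mul, map_zpow₀, h1, h2, one_mul, ← exp_zsmul]
  congr 1
  simp

theorem h24_ofHeightOneSpectrum_ord (w : HeightOneSpectrum R) (f : F) :
    (Place.ofHeightOneSpectrum (K := K) (F := F) w).ord f = -(log (w.valuation F f)) := by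
  rcases eq_or_ne f 0 with rfl | hf
  · simp
  rw [h24_ofHeightOneSpectrum_val (K := K) w hf, log_exp, neg_neg]

/-- Distinct primes give distinct places. -/
theorem h24_ofHeightOneSpectrum_injective :
    Function.Injective (Place.ofHeightOneSpectrum (K := K) (F := F) (R := R)) := by
  intro w w' h
  have h1 : (w.valuation F).valuationSubring = (w'.valuation F).valuationSubring :=
    congrArg Place.toValuationSubring h
  exact HeightOneSpectrum.eq_of_valuation_isEquiv_valuation
    ((Valuation.isEquiv_iff_valuationSubring _ _).mpr h1)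

/-- A place whose valuation ring contains the Dedekind domain `R` comes from a prime of `R`. -/
theorem h24_exists_heightOneSpectrum (v : Place K F)
    (hv : ∀ r : R, algebraMap R F r ∈ v.toValuationSubring) :
    ∃ w : HeightOneSpectrum R, v = Place.ofHeightOneSpectrum (K := K) (F := F) w := by
  classical
  let φ : R →+* v.toValuationSubring := (algebraMap R F).codRestrict v.toValuationSubring.toSubring hv
  let P : Ideal R := (IsLocalRing.maximalIdeal v.toValuationSubring).comap φ
  have hPprime : P.IsPrime := Ideal.comap_isPrime φ _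
  have hinj : Function.Injective (algebraMap R F) := IsFractionRing.injective R F
  have hPne : P ≠ ⊥ := by
    intro hbot
    apply v.ne_top'
    refine SetLike.ext fun x => ⟨fun _ => ValuationSubring.mem_top x, fun _ => ?_⟩
    obtain ⟨r, s, hs, rfl⟩ := IsFractionRing.div_surjective (A := R) x
    have hs0 : s ≠ 0 := nonZeroDivisors.ne_zero hs
    have hsP : s ∉ P := by
      rw [hbot]
      simpa using hs0
    have hsu : IsUnit (φ s) := by
      by_contra hnu
      exact hsP (Ideal.mem_comap.mpr ((IsLocalRing.mem_maximalIdeal _).mpr hnu))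
    have hsinv : (algebraMap R F s)⁻¹ ∈ v.toValuationSubring := by
      have h1 : ((hsu.unit⁻¹ : (v.toValuationSubring)ˣ) : v.toValuationSubring).1 =
          (algebraMap R F s)⁻¹ := by
        have h2 := congrArg Subtype.val (Units.mul_inv hsu.unit)
        rw [IsUnit.unit_spec] at h2
        have h3 : (algebraMap R F s) *
            ((hsu.unit⁻¹ : (v.toValuationSubring)ˣ) : v.toValuationSubring).1 = 1 := h2
        exact eq_inv_of_mul_eq_one_right h3
      rw [← h1]
      exact Subtype.property _
    rw [div_eq_mul_inv]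
    exact mul_mem (hv r) hsinv
  let w : HeightOneSpectrum R := ⟨P, hPprime, hPne⟩
  refine ⟨w, ?_⟩
  have hle : (w.valuation F).valuationSubring ≤ v.toValuationSubring := by
    intro x hx
    rw [Valuation.mem_valuationSubring_iff] at hx
    obtain ⟨n, d, hnd⟩ := w.exists_primeCompl_mul_eq_of_integer x hx
    have hdP : (d : R) ∉ P := d.2
    have hdu : IsUnit (φ d) := by
      by_contra hnu
      exact hdP (Ideal.mem_comap.mpr ((IsLocalRing.mem_maximalIdeal _).mpr hnu))
    have hd0 : algebraMap R F (d : R) ≠ 0 := by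
      intro h0
      apply hdP
      have : (d : R) = 0 := hinj (by rw [h0, map_zero])
      rw [this]
      exact P.zero_mem
    have hdinv : (algebraMap R F d)⁻¹ ∈ v.toValuationSubring := by
      have h1 : ((hdu.unit⁻¹ : (v.toValuationSubring)ˣ) : v.toValuationSubring).1 =
          (algebraMap R F d)⁻¹ := by
        have h2 := congrArg Subtype.val (Units.mul_inv hdu.unit)
        rw [IsUnit.unit_spec] at h2
        have h3 : (algebraMap R F d) *
            ((hdu.unit⁻¹ : (v.toValuationSubring)ˣ) : v.toValuationSubring).1 = 1 := h2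
        exact eq_inv_of_mul_eq_one_right h3
      rw [← h1]
      exact Subtype.property _
    have hx' : x = algebraMap R F n * (algebraMap R F d)⁻¹ := by
      rw [← hnd]
      field_simp
    rw [hx']
    exact mul_mem (hv n) hdinv
  -- a discrete valuation ring is a maximal proper subring of its fraction field
  have hge : v.toValuationSubring ≤ (w.valuation F).valuationSubring := by
    intro x hx
    by_contra hxw
    rw [Valuation.mem_valuationSubring_iff, not_le] at hxw
    apply v.ne_top'
    refine SetLike.ext fun y => ⟨fun _ => ValuationSubring.mem_top y, fun _ => ?_⟩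
    rcases eq_or_ne y 0 with rfl | hy0
    · exact zero_mem _
    have hx0 : x ≠ 0 := by
      rintro rfl
      simp at hxw
    have hvx : w.valuation F x ≠ 0 := (Valuation.ne_zero_iff _).mpr hx0
    have hvy : w.valuation F y ≠ 0 := (Valuation.ne_zero_iff _).mpr hy0
    have hm : 0 < log (w.valuation F x) := by
      rw [← exp_log hvx, ← exp_zero, exp_lt_exp] at hxw
      exact hxw
    -- choose k with val (y * x⁻¹ ^ k) ≤ 1
    obtain ⟨k, hk⟩ : ∃ k : ℕ, log (w.valuation F y) ≤ k * log (w.valuation F x) := by
      refine ⟨(log (w.valuation F y)).toNat, ?_⟩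
      have h1 : log (w.valuation F y) ≤ ((log (w.valuation F y)).toNat : ℤ) := Int.self_le_toNat _
      have h2 : ((log (w.valuation F y)).toNat : ℤ) ≤
          ((log (w.valuation F y)).toNat : ℤ) * log (w.valuation F x) := by
        nlinarith [Int.natCast_nonneg (log (w.valuation F y)).toNat]
      exact le_trans h1 h2
    have hmem : y * (x ^ k)⁻¹ ∈ (w.valuation F).valuationSubring := by
      rw [Valuation.mem_valuationSubring_iff, map_mul, map_inv₀, map_pow]
      rw [← exp_log hvx, ← exp_log hvy, ← exp_nsmul, ← exp_neg, ← exp_add, ← exp_zero, exp_le_exp]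
      simp only [nsmul_eq_mul]
      linarith
    have : y = y * (x ^ k)⁻¹ * x ^ k := by
      field_simp
    rw [this]
    exact mul_mem (hle hmem) (pow_mem hx k)
  exact Place.ext (le_antisymm hge hle)

end Dedekind

section Abs
variable {K F : Type*} [Field K] [Field F] [Algebra K F]

/-- The inertia degree over a rational point is one. -/
theorem h24_inertiaDeg_eq_one [IsAlgClosed K]
    {A B : Type*} [CommRing A] [CommRing B] [Algebra A B] [Module.Finite A B]
    [Algebra K A] [Algebra K B] [IsScalarTower K A B]
    (p : Ideal A) [p.IsMaximal] (q : Ideal B) [q.IsPrime] [q.LiesOver p]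
    (hres : Function.Surjective (algebraMap K (A ⧸ p))) :
    q.inertiaDeg A = 1 := by
  have : Module.Finite K (A ⧸ p) := Module.Finite.of_surjective (Algebra.linearMap K (A ⧸ p)) hres
  have : Module.Finite K (B ⧸ q) := Module.Finite.trans (A ⧸ p) (B ⧸ q)
  have : Algebra.IsIntegral K (B ⧸ q) := Algebra.IsIntegral.of_finite K (B ⧸ q)
  have hbij : Function.Bijective (algebraMap K (B ⧸ q)) :=
    IsAlgClosed.algebraMap_bijective_of_isIntegral
  have : q.IsMaximal :=
    Ideal.Quotient.maximal_of_isField q
      (MulEquiv.isField (Field.toIsField K) (RingEquiv.ofBijective _ hbij).symm.toMulEquiv)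
  rw [Ideal.inertiaDeg_eq_of_isMaximal p q]
  have hsurj : Function.Surjective (algebraMap (A ⧸ p) (B ⧸ q)) := by
    intro y
    obtain ⟨c, hc⟩ := hbij.2 y
    refine ⟨Ideal.Quotient.mk p (algebraMap K A c), ?_⟩
    rw [Ideal.Quotient.algebraMap_mk_of_liesOver, ← hc, ← IsScalarTower.algebraMap_apply K A B]
    rfl
  let _ : Field (A ⧸ p) := Ideal.Quotient.field p
  exact (Subalgebra.bot_eq_top_iff_finrank_eq_one).mp (Algebra.surjective_algebraMap_iff.mp hsurj).symm

/-- Abstract fibre count: the places over a rational point `x₀ = 0` of a Dedekind domain `A`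
in a finite Dedekind extension `B` of `A`, counted with the order of `x₀`. -/
theorem h24_fibre_abstract [IsAlgClosed K]
    {A B : Type*} [CommRing A] [IsDedekindDomain A] [CommRing B] [IsDedekindDomain B]
    [Algebra A B] [Module.IsTorsionFree A B] [Module.Finite A B]
    [Algebra K A] [Algebra K B] [IsScalarTower K A B]
    [Algebra B F] [IsFractionRing B F] [IsScalarTower K B F]
    (x₀ : A) (hx₀ : x₀ ≠ 0) (hmax : (Ideal.span {x₀} : Ideal A).IsMaximal)
    (hres : Function.Surjective (algebraMap K (A ⧸ (Ideal.span {x₀} : Ideal A)))) :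
    ∃ s : Finset (Place K F),
      (∀ v : Place K F, v ∈ s ↔ ((∀ b : B, algebraMap B F b ∈ v.toValuationSubring) ∧
        0 < v.ord (algebraMap B F (algebraMap A B x₀)))) ∧
      ∑ v ∈ s, v.ord (algebraMap B F (algebraMap A B x₀)) = (Module.finrank A B : ℤ) := by
  classical
  set p : Ideal A := Ideal.span {x₀} with hp
  have hp0 : p ≠ ⊥ := by
    rw [hp, Ne, Ideal.span_singleton_eq_bot]
    exact hx₀
  have hinjAB : Function.Injective (algebraMap A B) := FaithfulSMul.algebraMap_injective A B
  set x : B := algebraMap A B x₀ with hx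
  have hx0 : x ≠ 0 := (map_ne_zero_iff _ hinjAB).mpr hx₀
  have hmap : p.map (algebraMap A B) = Ideal.span {x} := by
    rw [hp, Ideal.map_span, Set.image_singleton]
  have hmap0 : p.map (algebraMap A B) ≠ ⊥ := by
    rw [hmap, Ne, Ideal.span_singleton_eq_bot]
    exact hx0
  have hxF : algebraMap B F x ≠ 0 :=
    (map_ne_zero_iff _ (IsFractionRing.injective B F)).mpr hx0
  have hfin : {w : HeightOneSpectrum B | x ∈ w.asIdeal}.Finite := by
    have h1 := Ideal.finite_factors (R := B) (I := Ideal.span {x})
      (by rw [Ne, Ideal.zero_eq_bot, Ideal.span_singleton_eq_bot]; exact hx0)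
    refine h1.subset fun w hw => ?_
    exact Ideal.dvd_span_singleton.mpr hw
  refine ⟨hfin.toFinset.image (Place.ofHeightOneSpectrum (K := K) (F := F)), ?_, ?_⟩
  · intro v
    rw [Finset.mem_image]
    constructor
    · rintro ⟨w, hw, rfl⟩
      rw [Set.Finite.mem_toFinset] at hw
      refine ⟨fun b => ?_, ?_⟩
      · exact (Valuation.mem_valuationSubring_iff _ _).mpr (w.valuation_le_one b)
      · rw [h24_ofHeightOneSpectrum_ord]
        have h1 : w.valuation F (algebraMap B F x) < 1 := (w.valuation_lt_one_iff_mem x).mpr hw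
        have h0 : w.valuation F (algebraMap B F x) ≠ 0 := (Valuation.ne_zero_iff _).mpr hxF
        rw [neg_pos, ← log_one, log_lt_log h0 one_ne_zero]
        exact h1
    · rintro ⟨hB, hpos⟩
      obtain ⟨w, rfl⟩ := h24_exists_heightOneSpectrum v hB
      refine ⟨w, ?_, rfl⟩
      rw [Set.Finite.mem_toFinset]
      have h0 : w.valuation F (algebraMap B F x) ≠ 0 := (Valuation.ne_zero_iff _).mpr hxF
      rw [h24_ofHeightOneSpectrum_ord, neg_pos, ← log_one, log_lt_log h0 one_ne_zero] at hpos
      exact (w.valuation_lt_one_iff_mem x).mp hpos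
  · rw [Finset.sum_image (fun _ _ _ _ h => h24_ofHeightOneSpectrum_injective h)]
    have hord : ∀ w ∈ hfin.toFinset,
        (Place.ofHeightOneSpectrum (K := K) (F := F) w).ord (algebraMap B F x) =
          ((multiplicity w.asIdeal (Ideal.span {x}) : ℕ) : ℤ) := by
      intro w _
      rw [h24_ofHeightOneSpectrum_ord, HeightOneSpectrum.valuation_of_algebraMap,
        w.intValuation_eq_exp_neg_multiplicity hx0, log_exp, neg_neg]
    rw [Finset.sum_congr rfl hord, ← Nat.cast_sum]
    congr 1
    rw [← Ideal.sum_ramification_inertia_eq_finrank p B]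
    symm
    refine Finset.sum_bij
      (fun q _ => (⟨q.1, q.2.1, Ideal.ne_bot_of_mem_primesOver hp0 q.2⟩ : HeightOneSpectrum B))
      ?_ ?_ ?_ ?_
    · intro q _
      rw [Set.Finite.mem_toFinset]
      have hq2 : q.1.LiesOver p := q.2.2
      have : q.1 ∣ p.map (algebraMap A B) :=
        (Ideal.liesOver_iff_dvd_map q.2.1.ne_top).mp hq2
      rw [hmap] at this
      exact Ideal.dvd_span_singleton.mp this
    · intro q _ q' _ h
      have := congrArg HeightOneSpectrum.asIdeal h
      exact Subtype.ext this
    · intro w hw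
      rw [Set.Finite.mem_toFinset] at hw
      have hdvd : w.asIdeal ∣ p.map (algebraMap A B) := by
        rw [hmap]
        exact Ideal.dvd_span_singleton.mpr hw
      have hlo : w.asIdeal.LiesOver p := (Ideal.liesOver_iff_dvd_map w.isPrime.ne_top).mpr hdvd
      exact ⟨⟨w.asIdeal, w.isPrime, hlo⟩, Finset.mem_univ _, rfl⟩
    · intro q _
      have hq1 : q.1.IsPrime := q.2.1
      have hq2 : q.1.LiesOver p := q.2.2
      rw [h24_inertiaDeg_eq_one (K := K) p q.1 hres, mul_one,
        Ideal.IsDedekindDomain.ramificationIdx_eq_multiplicity p q.1 hmap0, hmap]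

end Abs

section Concrete

open IntermediateField
open scoped IntermediateField.algebraAdjoinAdjoin

variable {K F : Type*} [Field K] [Field F] [Algebra K F]

/-- The valuation ring of a place as a `K`-subalgebra. -/
def h24_placeSubalgebra (v : Place K F) : Subalgebra K F :=
  { v.toValuationSubring.toSubring with
    algebraMap_mem' := v.algebraMap_mem' }

theorem h24_mem_placeSubalgebra (v : Place K F) (x : F) :
    x ∈ h24_placeSubalgebra v ↔ x ∈ v.toValuationSubring := Iff.rfl

/-- A valuation ring contains every element integral over a subalgebra it contains. -/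
theorem h24_integral_mem (v : Place K F) (A : Subalgebra K F)
    (hA : ∀ x ∈ A, x ∈ v.toValuationSubring) (b : F) (hb : IsIntegral A b) :
    b ∈ v.toValuationSubring := by
  obtain ⟨P, hP, hPb⟩ := hb
  let φ : A →+* v.toValuationSubring :=
    (A.val : A →+* F).codRestrict v.toValuationSubring.toSubring (fun x => hA x x.2)
  have hint : IsIntegral v.toValuationSubring b := by
    refine ⟨P.map φ, hP.map φ, ?_⟩
    rw [Polynomial.eval₂_map]
    exact hPb
  obtain ⟨y, hy⟩ := (IsIntegrallyClosed.isIntegral_iff (R := v.toValuationSubring) (K := F)).mp hint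
  rw [← hy]
  exact y.2

variable [IsAlgClosed K] [CharZero K]
  (t : F) (ht : Transcendental K t) [FiniteDimensional K⟮t⟯ F]

include ht in
theorem h24_fibre_main (a : K) :
    ∃ s : Finset (Place K F),
      (∀ v : Place K F, v ∈ s ↔ 0 < v.ord (t - algebraMap K F a)) ∧
      ∑ v ∈ s, v.ord (t - algebraMap K F a) = (Module.finrank K⟮t⟯ F : ℤ) := by
  classical
  let A : Subalgebra K F := Algebra.adjoin K {t}
  let e : Polynomial K ≃ₐ[K] A := Polynomial.algEquivOfTranscendental K t ht
  haveI : IsPrincipalIdealRing A :=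
    IsPrincipalIdealRing.of_surjective (e : Polynomial K →+* A) e.surjective
  haveI : CharZero K⟮t⟯ := charZero_of_injective_algebraMap (algebraMap K K⟮t⟯).injective
  let B : Subalgebra A F := integralClosure A F
  haveI : IsDedekindDomain B := IsIntegralClosure.isDedekindDomain A K⟮t⟯ F B
  haveI : IsFractionRing B F := IsIntegralClosure.isFractionRing_of_finite_extension A K⟮t⟯ F B
  haveI : Module.Finite A B := IsIntegralClosure.finite A K⟮t⟯ F B
  let x₀ : A := ⟨t, Algebra.self_mem_adjoin_singleton K t⟩ - algebraMap K A a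
  have heC : ∀ c : K, e (Polynomial.C c) = algebraMap K A c := fun c => e.commutes c
  have hex : e (Polynomial.X - Polynomial.C a) = x₀ := by
    rw [map_sub, heC]
    exact congrArg (· - algebraMap K A a) (Polynomial.algEquivOfTranscendental_apply_X K t ht)
  have hx₀ : x₀ ≠ 0 := by
    rw [← hex]
    exact (map_ne_zero_iff e e.injective).mpr (Polynomial.X_sub_C_ne_zero a)
  have hres : Function.Surjective (algebraMap K (A ⧸ (Ideal.span {x₀} : Ideal A))) := by
    intro y
    obtain ⟨y, rfl⟩ := Ideal.Quotient.mk_surjective y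
    obtain ⟨P, rfl⟩ := e.surjective y
    refine ⟨P.eval a, ?_⟩
    change Ideal.Quotient.mk _ (algebraMap K A (P.eval a)) = Ideal.Quotient.mk _ (e P)
    rw [Ideal.Quotient.eq, Ideal.mem_span_singleton']
    obtain ⟨Q, hQ⟩ := Polynomial.X_sub_C_dvd_sub_C_eval (a := a) (p := P)
    refine ⟨-e Q, ?_⟩
    have h2 : e (P - Polynomial.C (P.eval a)) = e (Polynomial.X - Polynomial.C a) * e Q := by
      rw [hQ, map_mul]
    rw [hex, map_sub] at h2
    rw [heC] at h2
    rw [neg_mul, mul_comm, ← h2]
    ring
  have hmax : (Ideal.span {x₀} : Ideal A).IsMaximal := by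
    have hnt : (Ideal.span {x₀} : Ideal A) ≠ ⊤ := by
      rw [Ne, Ideal.eq_top_iff_one, Ideal.mem_span_singleton']
      rintro ⟨y, hy⟩
      obtain ⟨Q, rfl⟩ := e.surjective y
      rw [← hex, ← map_mul] at hy
      have h1 : Q * (Polynomial.X - Polynomial.C a) = 1 := e.injective (by rw [hy, map_one])
      have := congrArg (Polynomial.eval a) h1
      simp at this
    haveI : Nontrivial (A ⧸ (Ideal.span {x₀} : Ideal A)) := Ideal.Quotient.nontrivial_iff.mpr hnt
    exact Ideal.Quotient.maximal_of_isField _ (MulEquiv.isField (Field.toIsField K)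
      (RingEquiv.ofBijective (algebraMap K (A ⧸ (Ideal.span {x₀} : Ideal A)))
        ⟨(algebraMap K _).injective, hres⟩).symm.toMulEquiv)
  obtain ⟨s, hs, hsum⟩ := h24_fibre_abstract (K := K) (F := F) (A := A) (B := B) x₀ hx₀ hmax hres
  refine ⟨s, ?_, ?_⟩
  · intro v
    rw [hs]
    constructor
    · rintro ⟨_, h⟩
      exact h
    · intro h
      refine ⟨?_, h⟩
      have hmem : t - algebraMap K F a ∈ v.toValuationSubring := h24_mem_of_ord_nonneg v h.le
      have ht_mem : t ∈ v.toValuationSubring := by
        have := add_mem hmem (v.algebraMap_mem' a)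
        simpa using this
      have hA : ∀ x ∈ A, x ∈ v.toValuationSubring := by
        have hle : A ≤ h24_placeSubalgebra v :=
          Algebra.adjoin_le (by
            intro y hy
            rw [Set.mem_singleton_iff] at hy
            rw [hy]
            exact ht_mem)
        exact fun x hx => hle hx
      intro b
      exact h24_integral_mem v A hA _ b.2
  · have hfr : Module.finrank K⟮t⟯ F = Module.finrank A B :=
      IsFractionRing.finrank_eq A K⟮t⟯ B F
    rw [hfr]
    exact hsum

include ht in
/-- (F1) The fibre of `t` over a point `a` of the base field is finite. -/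
theorem h24_fibre_finite (a : K) :
    {v : Place K F | 0 < v.ord (t - algebraMap K F a)}.Finite := by
  obtain ⟨s, hs, -⟩ := h24_fibre_main t ht a
  exact s.finite_toSet.subset fun v hv => (hs v).mpr hv

include ht in
/-- (F1) The fundamental identity for the fibre of `t` over `a`. -/
theorem h24_fibre_sum (a : K) (s : Finset (Place K F))
    (hs : ∀ v : Place K F, v ∈ s ↔ 0 < v.ord (t - algebraMap K F a)) :
    ∑ v ∈ s, v.ord (t - algebraMap K F a) = (Module.finrank K⟮t⟯ F : ℤ) := by
  obtain ⟨s', hs', hsum⟩ := h24_fibre_main t ht a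
  have : s = s' := by
    ext v
    rw [hs, hs']
  rw [this]
  exact hsum

omit [IsAlgClosed K] [CharZero K] in
theorem h24_adjoin_inv_eq (t : F) : K⟮t⁻¹⟯ = K⟮t⟯ := by
  apply le_antisymm
  · rw [IntermediateField.adjoin_simple_le_iff]
    exact inv_mem (IntermediateField.mem_adjoin_simple_self K t)
  · rw [IntermediateField.adjoin_simple_le_iff]
    have := inv_mem (IntermediateField.mem_adjoin_simple_self K t⁻¹)
    rwa [inv_inv] at this

include ht in
/-- (F2) The fibre of `t` over infinity, with the fundamental identity. -/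
theorem h24_fibre_infty_main :
    ∃ s : Finset (Place K F),
      (∀ v : Place K F, v ∈ s ↔ v.ord t < 0) ∧
      ∑ v ∈ s, (-(v.ord t)) = (Module.finrank K⟮t⟯ F : ℤ) := by
  have ht' : Transcendental K t⁻¹ := fun h => ht (by simpa using h.inv)
  have hK : K⟮t⁻¹⟯ = K⟮t⟯ := h24_adjoin_inv_eq t
  haveI : FiniteDimensional K⟮t⁻¹⟯ F := by
    rw [hK]
    infer_instance
  obtain ⟨s, hs, hsum⟩ := h24_fibre_main t⁻¹ ht' (0 : K)
  refine ⟨s, ?_, ?_⟩
  · intro v
    rw [hs, map_zero, sub_zero, Place.ord_inv]
    omega
  · have h1 : ∀ v ∈ s, -(v.ord t) = v.ord (t⁻¹ - algebraMap K F 0) := by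
      intro v _
      rw [map_zero, sub_zero, Place.ord_inv]
    rw [Finset.sum_congr rfl h1, hsum, hK]

include ht in
theorem h24_fibre_infty_finite : {v : Place K F | v.ord t < 0}.Finite := by
  obtain ⟨s, hs, -⟩ := h24_fibre_infty_main t ht
  exact s.finite_toSet.subset fun v hv => (hs v).mpr hv

include ht in
theorem h24_fibre_infty_sum (s : Finset (Place K F))
    (hs : ∀ v : Place K F, v ∈ s ↔ v.ord t < 0) :
    ∑ v ∈ s, (-(v.ord t)) = (Module.finrank K⟮t⟯ F : ℤ) := by
  obtain ⟨s', hs', hsum⟩ := h24_fibre_infty_main t ht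
  have : s = s' := by
    ext v
    rw [hs, hs']
  rw [this]
  exact hsum

omit [CharZero K] in
/-- Over an algebraically closed field, elements outside the base field are transcendental. -/
theorem h24_transcendental_of_not_mem (f : F) (hf : f ∉ Set.range (algebraMap K F)) :
    Transcendental K f := by
  intro halg
  apply hf
  have hint : IsIntegral K f := halg.isIntegral
  haveI : Algebra.IsAlgebraic K K⟮f⟯ := IntermediateField.isAlgebraic_adjoin_simple hint
  have hbot := IntermediateField.eq_bot_of_isAlgClosed_of_isAlgebraic K⟮f⟯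
  have hmem : f ∈ K⟮f⟯ := IntermediateField.mem_adjoin_simple_self K f
  rw [hbot] at hmem
  exact IntermediateField.mem_bot.mp hmem

/-- (F3) Principal divisors exist and the orders of a nonzero function sum to zero. -/
theorem h24_exists_principal
    (hD0 : ∀ x : F, Transcendental K x → FiniteDimensional K⟮x⟯ F) (f : F) (hf : f ≠ 0) :
    ∃ D : Divisor K F, (∀ v : Place K F, D v = v.ord f) ∧ D.sum (fun _ n => n) = 0 := by
  classical
  by_cases hmem : f ∈ Set.range (algebraMap K F)
  · obtain ⟨c, rfl⟩ := hmem
    refine ⟨0, fun v => ?_, by simp⟩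
    rw [h24_ord_algebraMap]
    rfl
  · have hft : Transcendental K f := h24_transcendental_of_not_mem f hmem
    haveI : FiniteDimensional K⟮f⟯ F := hD0 f hft
    obtain ⟨s0, hs0, hsum0⟩ := h24_fibre_main f hft (0 : K)
    obtain ⟨s1, hs1, hsum1⟩ := h24_fibre_infty_main f hft
    simp only [map_zero, sub_zero] at hs0 hsum0
    have hdisj : Disjoint s0 s1 := by
      rw [Finset.disjoint_left]
      intro v h0 h1
      rw [hs0] at h0
      rw [hs1] at h1
      omega
    let D : Divisor K F := Finsupp.onFinset (s0 ∪ s1) (fun v => v.ord f) (by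
      intro v hv
      rw [Finset.mem_union, hs0, hs1]
      omega)
    refine ⟨D, fun v => rfl, ?_⟩
    have hsupp : D.support ⊆ s0 ∪ s1 := Finsupp.support_onFinset_subset
    rw [Finsupp.sum, Finset.sum_subset hsupp (fun v _ hv => by
      rw [Finsupp.notMem_support_iff] at hv
      exact hv)]
    rw [Finset.sum_union hdisj]
    have h1 : ∑ v ∈ s1, D v = -(Module.finrank K⟮f⟯ F : ℤ) := by
      rw [← hsum1, Finset.sum_neg_distrib, neg_neg]
      rfl
    have h0 : ∑ v ∈ s0, D v = (Module.finrank K⟮f⟯ F : ℤ) := by
      rw [← hsum0]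
      rfl
    rw [h0, h1, add_neg_cancel]

omit [IsAlgClosed K] [CharZero K] in
/-- If all places have degree one, the degree of a divisor is the sum of its coefficients. -/
theorem h24_degree_eq_sum (hdeg : ∀ v : Place K F, v.deg = 1) (D : Divisor K F) :
    Divisor.degree D = D.sum (fun _ n => n) := by
  induction D using Finsupp.induction with
  | zero => simp
  | single_add v n D hv hn ih =>
      rw [map_add, ih, Divisor.degree_single, hdeg v, Finsupp.sum_add_index' (by simp)
        (by intros; rfl), Finsupp.sum_single_index (by rfl)]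
      simp

/-- (F3) The prelude class `HasPrincipalDivisors`. -/
theorem h24_hasPrincipalDivisors
    (hD0 : ∀ x : F, Transcendental K x → FiniteDimensional K⟮x⟯ F)
    (hdeg : ∀ v : Place K F, v.deg = 1) : HasPrincipalDivisors K F := by
  refine ⟨fun f hf => ?_⟩
  obtain ⟨D, hD, hsum⟩ := h24_exists_principal hD0 f hf
  exact ⟨D, hD, by rw [h24_degree_eq_sum hdeg, hsum]⟩

end Concrete

end Fermat.Agent.S24
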