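import Mathlib
import Fermat.Prelude.Def_AlgebraicCurve_DivisorClassGroup

set_option autoImplicit false
set_option linter.unusedSectionVars false

namespace Fermat.Agent.S24

open AlgebraicCurve

/-- An integer-valued valuation on `F`, trivial on `K` (its value at `0` is irrelevant). -/
structure h56_IsOrd (K : Type*) {F : Type*} [Field K] [Field F] [Algebra K F] (w : F → ℤ) :
    Prop where
  map_mul : ∀ f g : F, f ≠ 0 → g ≠ 0 → w (f * g) = w f + w g
  map_add : ∀ f g : F, f ≠ 0 → g ≠ 0 → f + g ≠ 0 → min (w f) (w g) ≤ w (f + g)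
  map_algebraMap : ∀ c : K, c ≠ 0 → w (algebraMap K F c) = 0

section ord

variable {K F : Type*} [Field K] [Field F] [Algebra K F] {w : F → ℤ}

lemma h56_IsOrd.map_one (hw : h56_IsOrd K w) : w 1 = 0 := by
  have h := hw.map_mul 1 1 one_ne_zero one_ne_zero
  rw [mul_one] at h
  omega

lemma h56_IsOrd.map_inv (hw : h56_IsOrd K w) {f : F} (hf : f ≠ 0) : w f⁻¹ = -w f := by
  have h := hw.map_mul f f⁻¹ hf (inv_ne_zero hf)
  rw [mul_inv_cancel₀ hf, hw.map_one] at h
  omega

lemma h56_IsOrd.map_neg_one (hw : h56_IsOrd K w) : w (-1) = 0 := by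
  have h := hw.map_mul (-1) (-1) (neg_ne_zero.mpr one_ne_zero) (neg_ne_zero.mpr one_ne_zero)
  rw [neg_one_mul, neg_neg, hw.map_one] at h
  omega

lemma h56_IsOrd.map_neg (hw : h56_IsOrd K w) {f : F} (hf : f ≠ 0) : w (-f) = w f := by
  have h := hw.map_mul (-1) f (neg_ne_zero.mpr one_ne_zero) hf
  rw [neg_one_mul, hw.map_neg_one, zero_add] at h
  exact h

lemma h56_IsOrd.map_pow (hw : h56_IsOrd K w) {f : F} (hf : f ≠ 0) (n : ℕ) :
    w (f ^ n) = n * w f := by
  induction n with
  | zero => simp [hw.map_one]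
  | succ n ih =>
    rw [pow_succ, hw.map_mul _ _ (pow_ne_zero n hf) hf, ih]
    push_cast
    ring

lemma h56_IsOrd.map_zpow (hw : h56_IsOrd K w) {f : F} (hf : f ≠ 0) (n : ℤ) :
    w (f ^ n) = n * w f := by
  obtain ⟨k, rfl | rfl⟩ := n.eq_nat_or_neg
  · rw [zpow_natCast, hw.map_pow hf]
  · rw [zpow_neg, zpow_natCast, hw.map_inv (pow_ne_zero k hf), hw.map_pow hf]
    ring

/-- The valuation subring `{f | f = 0 ∨ 0 ≤ w f}`. -/
def h56_valSubring (w : F → ℤ) (hw : h56_IsOrd K w) : ValuationSubring F where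
  carrier := {f | f = 0 ∨ 0 ≤ w f}
  zero_mem' := Or.inl rfl
  one_mem' := Or.inr (by rw [hw.map_one])
  add_mem' := by
    rintro f g (rfl | hf) (rfl | hg)
    · simp
    · rw [zero_add]; exact Or.inr hg
    · rw [add_zero]; exact Or.inr hf
    · by_cases hf0 : f = 0
      · subst hf0; rw [zero_add]; exact Or.inr hg
      by_cases hg0 : g = 0
      · subst hg0; rw [add_zero]; exact Or.inr hf
      by_cases hfg : f + g = 0
      · exact Or.inl hfg
      · exact Or.inr (le_trans (le_min hf hg) (hw.map_add f g hf0 hg0 hfg))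
  mul_mem' := by
    rintro f g (rfl | hf) (rfl | hg)
    · simp
    · simp
    · simp
    · by_cases hf0 : f = 0
      · subst hf0; simp
      by_cases hg0 : g = 0
      · subst hg0; simp
      exact Or.inr (by rw [hw.map_mul f g hf0 hg0]; omega)
  neg_mem' := by
    rintro f (rfl | hf)
    · simp
    · by_cases hf0 : f = 0
      · subst hf0; simp
      exact Or.inr (by rw [hw.map_neg hf0]; exact hf)
  mem_or_inv_mem' := by
    intro f
    by_cases hf0 : f = 0
    · exact Or.inl (Or.inl hf0)
    rcases le_total 0 (w f) with h | h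
    · exact Or.inl (Or.inr h)
    · exact Or.inr (Or.inr (by rw [hw.map_inv hf0]; omega))

lemma h56_mem_valSubring (hw : h56_IsOrd K w) {f : F} :
    f ∈ h56_valSubring w hw ↔ f = 0 ∨ 0 ≤ w f := Iff.rfl

lemma h56_valSubring_ne_top (hw : h56_IsOrd K w) (hnt : ∃ f : F, f ≠ 0 ∧ w f ≠ 0) :
    h56_valSubring w hw ≠ ⊤ := by
  obtain ⟨f, hf0, hf⟩ := hnt
  intro htop
  have h1 : f ∈ h56_valSubring w hw := htop ▸ ValuationSubring.mem_top f
  have h2 : f⁻¹ ∈ h56_valSubring w hw := htop ▸ ValuationSubring.mem_top f⁻¹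
  rcases h1 with h1 | h1
  · exact hf0 h1
  rcases h2 with h2 | h2
  · exact inv_ne_zero hf0 h2
  rw [hw.map_inv hf0] at h2
  omega

lemma h56_valSubring_isPrincipalIdealRing (hw : h56_IsOrd K w) :
    IsPrincipalIdealRing (h56_valSubring w hw) := by
  classical
  refine ⟨fun I => ?_⟩
  by_cases hI : I = ⊥
  · subst hI; exact ⟨⟨0, by simp⟩⟩
  have hex : ∃ n : ℕ, ∃ x ∈ I, x ≠ 0 ∧ (w (x : F)).toNat = n := by
    obtain ⟨x, hx, hx0⟩ := Submodule.exists_mem_ne_zero_of_ne_bot hI
    exact ⟨_, x, hx, hx0, rfl⟩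
  obtain ⟨x₀, hx₀, hx₀0, hn⟩ := Nat.find_spec hex
  have hx₀F : (x₀ : F) ≠ 0 := fun h => hx₀0 (Subtype.ext h)
  refine ⟨⟨x₀, le_antisymm ?_ ?_⟩⟩
  · intro y hy
    rw [Submodule.mem_span_singleton]
    by_cases hy0 : y = 0
    · exact ⟨0, by simp [hy0]⟩
    have hyF : (y : F) ≠ 0 := fun h => hy0 (Subtype.ext h)
    have hmin : Nat.find hex ≤ (w (y : F)).toNat := Nat.find_min' hex ⟨y, hy, hy0, rfl⟩
    have hwy : 0 ≤ w (y : F) := by
      rcases y.2 with h | h
      · exact absurd h hyF
      · exact h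
    have hwx : 0 ≤ w (x₀ : F) := by
      rcases x₀.2 with h | h
      · exact absurd h hx₀F
      · exact h
    have hle : w (x₀ : F) ≤ w (y : F) := by
      rw [← hn] at hmin
      omega
    have hq : (y : F) * (x₀ : F)⁻¹ ∈ h56_valSubring w hw := by
      refine Or.inr ?_
      rw [hw.map_mul _ _ hyF (inv_ne_zero hx₀F), hw.map_inv hx₀F]
      omega
    refine ⟨⟨_, hq⟩, Subtype.ext ?_⟩
    show (y : F) * (x₀ : F)⁻¹ * (x₀ : F) = y
    rw [inv_mul_cancel_right₀ hx₀F]
  · rw [Submodule.span_le]
    intro y hy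
    rw [Set.mem_singleton_iff] at hy
    subst hy
    exact hx₀

/-- The place attached to a nontrivial integer-valued valuation trivial on `K`. -/
def h56_placeOfOrd (w : F → ℤ) (hw : h56_IsOrd K w) (hnt : ∃ f : F, f ≠ 0 ∧ w f ≠ 0) :
    Place K F where
  toValuationSubring := h56_valSubring w hw
  algebraMap_mem' := fun c => by
    by_cases hc : c = 0
    · subst hc; exact Or.inl (map_zero _)
    · exact Or.inr (by rw [hw.map_algebraMap c hc])
  ne_top' := h56_valSubring_ne_top hw hnt
  isPrincipalIdealRing' := h56_valSubring_isPrincipalIdealRing hw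

lemma h56_mem_placeOfOrd (hw : h56_IsOrd K w) (hnt : ∃ f : F, f ≠ 0 ∧ w f ≠ 0) {f : F} :
    f ∈ (h56_placeOfOrd w hw hnt).toValuationSubring ↔ f = 0 ∨ 0 ≤ w f := Iff.rfl

lemma h56_unit_ord_zero (hw : h56_IsOrd K w) (hnt : ∃ f : F, f ≠ 0 ∧ w f ≠ 0)
    (u : (h56_placeOfOrd w hw hnt).toValuationSubringˣ) :
    w ((u : (h56_placeOfOrd w hw hnt).toValuationSubring) : F) = 0 := by
  have hu0 : ((u : (h56_placeOfOrd w hw hnt).toValuationSubring) : F) ≠ 0 := by
    simp [ne_eq, ZeroMemClass.coe_eq_zero]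
  have hui0 : (((u⁻¹ : (h56_placeOfOrd w hw hnt).toValuationSubringˣ) :
      (h56_placeOfOrd w hw hnt).toValuationSubring) : F) ≠ 0 := by
    simp [ne_eq, ZeroMemClass.coe_eq_zero]
  have h1 : 0 ≤ w ((u : (h56_placeOfOrd w hw hnt).toValuationSubring) : F) := by
    rcases (u : (h56_placeOfOrd w hw hnt).toValuationSubring).2 with h | h
    · exact absurd h hu0
    · exact h
  have h2 : 0 ≤ w (((u⁻¹ : (h56_placeOfOrd w hw hnt).toValuationSubringˣ) :
      (h56_placeOfOrd w hw hnt).toValuationSubring) : F) := by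
    rcases ((u⁻¹ : (h56_placeOfOrd w hw hnt).toValuationSubringˣ) :
      (h56_placeOfOrd w hw hnt).toValuationSubring).2 with h | h
    · exact absurd h hui0
    · exact h
  have h3 : ((u : (h56_placeOfOrd w hw hnt).toValuationSubring) : F) *
      (((u⁻¹ : (h56_placeOfOrd w hw hnt).toValuationSubringˣ) :
      (h56_placeOfOrd w hw hnt).toValuationSubring) : F) = 1 := by
    exact congrArg (Subtype.val) (Units.mul_inv u)
  have h4 := hw.map_mul _ _ hu0 hui0
  rw [h3, hw.map_one] at h4
  omega

/-- The valuation `w` is a positive multiple `m` of the normalised order of its place,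
and `m` is a value of `w`. -/
theorem h56_placeOfOrd_ord (hw : h56_IsOrd K w) (hnt : ∃ f : F, f ≠ 0 ∧ w f ≠ 0) :
    ∃ m : ℤ, 0 < m ∧ (∃ π : F, π ≠ 0 ∧ w π = m) ∧
      ∀ f : F, f ≠ 0 → w f = m * (h56_placeOfOrd w hw hnt).ord f := by
  obtain ⟨π, hπ⟩ := IsDiscreteValuationRing.exists_irreducible
    (h56_placeOfOrd w hw hnt).toValuationSubring
  have hπF : (π : F) ≠ 0 := by
    simpa [ne_eq, ZeroMemClass.coe_eq_zero] using hπ.ne_zero
  have hπ0 : 0 ≤ w (π : F) := by
    rcases π.2 with h | h
    · exact absurd h hπF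
    · exact h
  have hπpos : 0 < w (π : F) := by
    rcases hπ0.lt_or_eq with h | h
    · exact h
    · exfalso
      apply hπ.not_isUnit
      have hinv : (π : F)⁻¹ ∈ (h56_placeOfOrd w hw hnt).toValuationSubring :=
        Or.inr (by rw [hw.map_inv hπF]; omega)
      refine IsUnit.of_mul_eq_one ⟨_, hinv⟩ (Subtype.ext ?_)
      show (π : F) * (π : F)⁻¹ = 1
      exact mul_inv_cancel₀ hπF
  refine ⟨w (π : F), hπpos, ⟨π, hπF, rfl⟩, fun f hf => ?_⟩
  obtain ⟨u, hu⟩ := (h56_placeOfOrd w hw hnt).exists_unit_mul_zpow hf hπ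
  have hu0 : ((u : (h56_placeOfOrd w hw hnt).toValuationSubring) : F) ≠ 0 := by
    simp [ne_eq, ZeroMemClass.coe_eq_zero]
  conv_lhs => rw [hu]
  rw [hw.map_mul _ _ hu0 (zpow_ne_zero _ hπF), h56_unit_ord_zero hw hnt u, zero_add,
    hw.map_zpow hπF]
  ring

end ord

section center

open IsDedekindDomain

variable {K F : Type*} [Field K] [Field F] [Algebra K F]
variable (R : Type*) [CommRing R] [IsDedekindDomain R] [Algebra R F] [IsFractionRing R F]

/-- The centre on `R` of a place whose valuation ring contains `R`. -/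
def h56_center (v : Place K F) (hv : ∀ r : R, algebraMap R F r ∈ v.toValuationSubring) :
    Ideal R :=
  (IsLocalRing.maximalIdeal v.toValuationSubring).comap
    ((algebraMap R F).codRestrict v.toValuationSubring hv)

variable {R}

lemma h56_mem_center {v : Place K F} {hv : ∀ r : R, algebraMap R F r ∈ v.toValuationSubring}
    {r : R} : r ∈ h56_center R v hv ↔ algebraMap R F r ∈ v.toValuationSubring.nonunits := by
  rw [h56_center, Ideal.mem_comap, ← ValuationSubring.coe_mem_nonunits_iff]
  rfl

instance h56_center_isPrime (v : Place K F)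
    (hv : ∀ r : R, algebraMap R F r ∈ v.toValuationSubring) : (h56_center R v hv).IsPrime := by
  unfold h56_center
  infer_instance

lemma h56_center_ne_bot (v : Place K F)
    (hv : ∀ r : R, algebraMap R F r ∈ v.toValuationSubring) : h56_center R v hv ≠ ⊥ := by
  intro hbot
  have hne : ∃ f : F, f ∉ v.toValuationSubring := by
    by_contra h
    push Not at h
    exact v.ne_top' (SetLike.ext fun x => ⟨fun _ => ValuationSubring.mem_top x, fun _ => h x⟩)
  obtain ⟨f, hf⟩ := hne
  have hf0 : f ≠ 0 := fun h => hf (h ▸ v.toValuationSubring.zero_mem)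
  obtain ⟨r₁, r₂, hr₂, hfr⟩ := IsFractionRing.div_surjective (A := R) f
  have hr₂0 : algebraMap R F r₂ ≠ 0 := by
    intro h
    rw [h, div_zero] at hfr
    exact hf0 hfr.symm
  have hr₁0 : algebraMap R F r₁ ≠ 0 := by
    intro h
    rw [h, zero_div] at hfr
    exact hf0 hfr.symm
  -- `r₂ = r₁ * f⁻¹` lies in the maximal ideal
  have hmem : r₂ ∈ h56_center R v hv := by
    rw [h56_mem_center, ValuationSubring.mem_nonunits_iff_or]
    refine Or.inr fun hinv => hf ?_
    have : f = algebraMap R F r₁ * (algebraMap R F r₂)⁻¹ := by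
      rw [← hfr, div_eq_mul_inv]
    rw [this]
    exact v.toValuationSubring.mul_mem _ _ (hv r₁) hinv
  rw [hbot, Ideal.mem_bot] at hmem
  rw [hmem, map_zero] at hr₂0
  exact hr₂0 rfl

/-- The height one prime given by the centre. -/
def h56_centerSpec (v : Place K F) (hv : ∀ r : R, algebraMap R F r ∈ v.toValuationSubring) :
    HeightOneSpectrum R :=
  ⟨h56_center R v hv, h56_center_isPrime v hv, h56_center_ne_bot v hv⟩

lemma h56_valuationSubring_eq (v : Place K F)
    (hv : ∀ r : R, algebraMap R F r ∈ v.toValuationSubring) :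
    ((h56_centerSpec v hv).valuation F).valuationSubring = v.toValuationSubring := by
  rw [← HeightOneSpectrum.valuationSubringAtPrime_eq_valuationSubring]
  refine ValuationSubring.eq_of_le_of_ne_top _ ?_ v.ne_top'
  rw [HeightOneSpectrum.valuationSubringAtPrime_eq_valuationSubring]
  intro x hx
  rw [Valuation.mem_valuationSubring_iff] at hx
  obtain ⟨n, d, hnd⟩ :=
    (h56_centerSpec v hv).exists_primeCompl_mul_eq_of_integer x hx
  have hd : (d : R) ∉ h56_center R v hv := d.2
  rw [h56_mem_center, ValuationSubring.mem_nonunits_iff_or, not_or, not_not] at hd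
  have hx' : x = algebraMap R F n * (algebraMap R F (d : R))⁻¹ := by
    rw [← hnd, mul_inv_cancel_right₀ hd.1]
  rw [hx']
  exact v.toValuationSubring.mul_mem _ _ (hv n) hd.2

lemma h56_place_eq_of_center_eq {v v' : Place K F}
    (hv : ∀ r : R, algebraMap R F r ∈ v.toValuationSubring)
    (hv' : ∀ r : R, algebraMap R F r ∈ v'.toValuationSubring)
    (h : h56_center R v hv = h56_center R v' hv') : v = v' := by
  apply Place.ext
  rw [← h56_valuationSubring_eq v hv, ← h56_valuationSubring_eq v' hv']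
  have : h56_centerSpec v hv = h56_centerSpec v' hv' := HeightOneSpectrum.ext h
  rw [this]

/-- Prime avoidance for places: a nonzero element of `R` in the maximal ideal of `v` which is
a unit at finitely many other places. -/
lemma h56_exists_mem_nonunits {ι : Type*} (s : Finset ι) (v : Place K F)
    (hv : ∀ r : R, algebraMap R F r ∈ v.toValuationSubring) (p : ι → Place K F)
    (hp : ∀ i, ∀ r : R, algebraMap R F r ∈ (p i).toValuationSubring)
    (hne : ∀ i ∈ s, p i ≠ v) :
    ∃ r : R, r ≠ 0 ∧ algebraMap R F r ∈ v.toValuationSubring.nonunits ∧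
      ∀ i ∈ s, algebraMap R F r ∉ (p i).toValuationSubring.nonunits := by
  classical
  rcases s.eq_empty_or_nonempty with rfl | ⟨i₀, hi₀⟩
  · obtain ⟨r, hr, hr0⟩ := Submodule.exists_mem_ne_zero_of_ne_bot (h56_center_ne_bot v hv)
    exact ⟨r, hr0, h56_mem_center.mp hr, by simp⟩
  by_contra hcon
  push Not at hcon
  have hsub : ((h56_center R v hv : Ideal R) : Set R) ⊆
      ⋃ i ∈ (↑s : Set ι), ((h56_center R (p i) (hp i) : Ideal R) : Set R) := by
    intro r hr
    by_cases hr0 : r = 0
    · subst hr0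
      exact Set.mem_biUnion hi₀ (Ideal.zero_mem _)
    obtain ⟨i, hi, hri⟩ := hcon r hr0 (h56_mem_center.mp hr)
    exact Set.mem_biUnion hi (h56_mem_center.mpr hri)
  obtain ⟨i, hi, hle⟩ := (Ideal.subset_union_prime (f := fun i => h56_center R (p i) (hp i))
    i₀ i₀ (fun i _ _ _ => h56_center_isPrime (p i) (hp i))).mp hsub
  have hmax : (h56_center R v hv).IsMaximal :=
    (h56_center_isPrime v hv).isMaximal (h56_center_ne_bot v hv)
  have heq : h56_center R v hv = h56_center R (p i) (hp i) :=
    hmax.eq_of_le (h56_center_isPrime (p i) (hp i)).ne_top hle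
  exact hne i hi (h56_place_eq_of_center_eq hv (hp i) heq).symm

end center

section main

open IntermediateField
open IntermediateField.algebraAdjoinAdjoin

variable {K F : Type*} [Field K] [Field F] [Algebra K F]

section aux

lemma h56_adjoin_le_valSubring (A : ValuationSubring F)
    (hA : ∀ c : K, algebraMap K F c ∈ A) {t : F} (ht : t ∈ A) :
    ∀ y ∈ Algebra.adjoin K {t}, y ∈ A := by
  intro y hy
  induction hy using Algebra.adjoin_induction with
  | mem x hx =>
    rw [Set.mem_singleton_iff] at hx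
    subst hx
    exact ht
  | algebraMap c => exact hA c
  | add x y _ _ hx hy => exact A.add_mem _ _ hx hy
  | mul x y _ _ hx hy => exact A.mul_mem _ _ hx hy

/-- Valuation rings are integrally closed: an element integral over `K[t]` lies in every
valuation ring containing `K` and `t`. -/
lemma h56_mem_valSubring_of_isIntegral (A : ValuationSubring F)
    (hA : ∀ c : K, algebraMap K F c ∈ A) {t : F} (ht : t ∈ A) {h : F}
    (hh : IsIntegral (Algebra.adjoin K {t}) h) : h ∈ A := by
  obtain ⟨p, hp, hpx⟩ := hh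
  let φ : Algebra.adjoin K {t} →+* A :=
    (algebraMap (Algebra.adjoin K {t}) F).codRestrict A
      (fun y => h56_adjoin_le_valSubring A hA ht y y.2)
  have hint : IsIntegral A h := by
    refine ⟨p.map φ, hp.map φ, ?_⟩
    rw [Polynomial.eval₂_map]
    exact hpx
  obtain ⟨y, hy⟩ := IsIntegrallyClosed.isIntegral_iff.mp hint
  rw [← hy]
  exact y.2

lemma h56_adjoin_le (v : Place K F) {t : F} (ht : t ∈ v.toValuationSubring) :
    ∀ y ∈ Algebra.adjoin K {t}, y ∈ v.toValuationSubring :=
  h56_adjoin_le_valSubring v.toValuationSubring v.algebraMap_mem' ht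

lemma h56_mem_of_isIntegral (v : Place K F) {t : F} (ht : t ∈ v.toValuationSubring) {h : F}
    (hh : IsIntegral (Algebra.adjoin K {t}) h) : h ∈ v.toValuationSubring :=
  h56_mem_valSubring_of_isIntegral v.toValuationSubring v.algebraMap_mem' ht hh

/-- An order function which is nonnegative at `t` is nonnegative on everything integral
over `K[t]`. -/
lemma h56_IsOrd.nonneg_of_isIntegral {w : F → ℤ} (hw : h56_IsOrd K w) {t : F}
    (ht : t = 0 ∨ 0 ≤ w t) {h : F} (hh : IsIntegral (Algebra.adjoin K {t}) h) :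
    h = 0 ∨ 0 ≤ w h := by
  refine h56_mem_valSubring_of_isIntegral (h56_valSubring w hw) (fun c => ?_) ht hh
  by_cases hc : c = 0
  · subst hc; exact Or.inl (map_zero _)
  · exact Or.inr (by rw [hw.map_algebraMap c hc])

/-- The orbit of `x` under the powers of `g` has `minimalPeriod` elements. -/
lemma h56_card_orbit_zpowers {G X : Type*} [Group G] [MulAction G X] (g : G) (x : X) :
    Nat.card (MulAction.orbit (Subgroup.zpowers g) x) =
      Function.minimalPeriod (fun y : X => g • y) x := by
  rw [Nat.card_congr (MulAction.orbitZPowersEquiv g x), Nat.card_zmod]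

lemma h56_mem_nonunits_of_ord_pos (v : Place K F) {f : F} (hf : 0 < v.ord f) :
    f ∈ v.toValuationSubring.nonunits := by
  have hf0 : f ≠ 0 := by
    rintro rfl
    simp at hf
  obtain ⟨π, hπ⟩ := IsDiscreteValuationRing.exists_irreducible v.toValuationSubring
  obtain ⟨u, hu⟩ := v.exists_unit_mul_zpow hf0 hπ
  obtain ⟨j, hj⟩ : ∃ j : ℕ, v.ord f = (j + 1 : ℕ) := ⟨(v.ord f - 1).toNat, by push_cast; omega⟩
  rw [hj, zpow_natCast] at hu
  have hmem : (u : v.toValuationSubring) * π ^ (j + 1) ∈
      IsLocalRing.maximalIdeal v.toValuationSubring :=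
    Ideal.mul_mem_left _ _ (Ideal.pow_mem_of_mem _ (by
      rw [IsLocalRing.mem_maximalIdeal, mem_nonunits_iff]; exact hπ.not_isUnit) _ (Nat.succ_pos j))
  rw [← ValuationSubring.coe_mem_nonunits_iff] at hmem
  rw [hu]
  exact hmem

lemma h56_algebraMap_notMem_nonunits (v : Place K F) {c : K} (hc : c ≠ 0) :
    algebraMap K F c ∉ v.toValuationSubring.nonunits := by
  rw [ValuationSubring.mem_nonunits_iff_or, not_or, not_not]
  refine ⟨by simpa using hc, ?_⟩
  rw [← map_inv₀]
  exact v.algebraMap_mem' _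

lemma h56_mul_mem_nonunits (A : ValuationSubring F) {x y : F} (hx : x ∈ A.nonunits)
    (hy : y ∈ A) : x * y ∈ A.nonunits := by
  rw [ValuationSubring.mem_nonunits_iff] at hx ⊢
  rw [map_mul]
  exact mul_lt_one_of_lt_of_le hx ((A.valuation_le_one_iff y).mpr hy)

instance h56_adjoin_pid (t : F) : IsPrincipalIdealRing (Algebra.adjoin K {t}) := by
  have h : Algebra.adjoin K {t} = (Polynomial.aeval (R := K) t).range :=
    Algebra.adjoin_singleton_eq_range_aeval K t
  rw [h]
  exact IsPrincipalIdealRing.of_surjective (Polynomial.aeval (R := K) t).rangeRestrict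
    (AlgHom.rangeRestrict_surjective _)

end aux

section norm

variable [CharZero K]

/-- NORM TRICK (abstract form). Every place over `t = a` is one of the given places `p x`,
provided every `h` integral over `K[t]` divides (in the integral closure) some `P(t)` with
`P(a) = 0` only if `h` lies in the maximal ideal of some `p x`. -/
theorem h56_exists_eq_of_norm (t : F) [FiniteDimensional K⟮t⟯ F] (a : K)
    {X : Type*} [Fintype X] (p : X → Place K F)
    (hp : ∀ x, t ∈ (p x).toValuationSubring)
    (hN : ∀ h : F, h ≠ 0 → IsIntegral (Algebra.adjoin K {t}) h →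
      ∃ (P : Polynomial K) (b : F), IsIntegral (Algebra.adjoin K {t}) b ∧
        Polynomial.aeval t P = h * b ∧
        (P.eval a = 0 → ∃ x, h ∈ (p x).toValuationSubring.nonunits))
    (v : Place K F) (hv : t - algebraMap K F a ∈ v.toValuationSubring.nonunits) :
    ∃ x, p x = v := by
  classical
  have hDed : IsDedekindDomain (integralClosure (Algebra.adjoin K {t}) F) :=
    integralClosure.isDedekindDomain (Algebra.adjoin K {t}) K⟮t⟯ F
  have hFrac : IsFractionRing (integralClosure (Algebra.adjoin K {t}) F) F :=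
    integralClosure.isFractionRing_of_finite_extension K⟮t⟯ F
  have htv : t ∈ v.toValuationSubring := by
    have h1 : t - algebraMap K F a ∈ v.toValuationSubring :=
      v.toValuationSubring.nonunits_subset hv
    have h2 := v.toValuationSubring.add_mem _ _ h1 (v.algebraMap_mem' a)
    rwa [sub_add_cancel] at h2
  have hRv : ∀ r : integralClosure (Algebra.adjoin K {t}) F,
      algebraMap (integralClosure (Algebra.adjoin K {t}) F) F r ∈ v.toValuationSubring :=
    fun r => h56_mem_of_isIntegral v htv r.2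
  have hRp : ∀ x, ∀ r : integralClosure (Algebra.adjoin K {t}) F,
      algebraMap (integralClosure (Algebra.adjoin K {t}) F) F r ∈ (p x).toValuationSubring :=
    fun x r => h56_mem_of_isIntegral (p x) (hp x) r.2
  by_contra hcon
  push Not at hcon
  obtain ⟨r, hr0, hrv, hrp⟩ := h56_exists_mem_nonunits (Finset.univ : Finset X) v hRv p hRp
    (fun x _ => hcon x)
  have hr0' : (r : F) ≠ 0 := fun h => hr0 (Subtype.ext h)
  obtain ⟨P, b, hb, hPb, himp⟩ := hN (r : F) hr0' r.2
  have hbv : b ∈ v.toValuationSubring := h56_mem_of_isIntegral v htv hb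
  have hPt : Polynomial.aeval t P ∈ v.toValuationSubring.nonunits := by
    rw [hPb]
    exact h56_mul_mem_nonunits _ hrv hbv
  obtain ⟨Q, hQ⟩ := Polynomial.X_sub_C_dvd_sub_C_eval (a := a) (p := P)
  have hQt : Polynomial.aeval t Q ∈ v.toValuationSubring :=
    h56_adjoin_le v htv _ (by
      rw [Algebra.adjoin_singleton_eq_range_aeval]
      exact ⟨Q, rfl⟩)
  have hPa : algebraMap K F (P.eval a) ∈ v.toValuationSubring.nonunits := by
    have h1 := congrArg (Polynomial.aeval t) hQ
    simp only [map_sub, map_mul, Polynomial.aeval_X, Polynomial.aeval_C] at h1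
    have h2 : algebraMap K F (P.eval a) =
        Polynomial.aeval t P - (t - algebraMap K F a) * Polynomial.aeval t Q := by
      rw [← h1]; ring
    rw [h2]
    exact v.toValuationSubring.nonunits.sub_mem hPt (h56_mul_mem_nonunits _ hv hQt)
  have hPa0 : P.eval a = 0 := by
    by_contra hne
    exact h56_algebraMap_notMem_nonunits v hne hPa
  obtain ⟨x, hx⟩ := himp hPa0
  exact hrp x (Finset.mem_univ x) hx

end norm

section count

variable [CharZero K]

/-- COUNTING TRICK (abstract form, setoid version): the fibre over `t = a` is in bijection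
with the classes of `r`, given "analytic" order functions `w x` on `F` with the norm
property. -/
theorem h56_card_fibre_setoid (t : F) [FiniteDimensional K⟮t⟯ F] (a : K)
    {X : Type*} [Fintype X] (r : Setoid X)
    (w : X → F → ℤ) (hw : ∀ x, h56_IsOrd K (w x))
    (E : ℤ) (hE : 0 < E) (hwE : ∀ x, w x (t - algebraMap K F a) = E)
    (hr : ∀ x y, r x y → w x = w y)
    (hM : ∀ x (f : F), f ≠ 0 → E ∣ w x f * (Nat.card {y // r y x} : ℤ))
    (hN : ∀ h : F, h ≠ 0 → IsIntegral (Algebra.adjoin K {t}) h →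
      ∃ (P : Polynomial K) (b : F), IsIntegral (Algebra.adjoin K {t}) b ∧
        Polynomial.aeval t P = h * b ∧ (P.eval a = 0 → ∃ x, 0 < w x h))
    (n : ℕ) (hC : Fintype.card X ≤ n)
    (hfin : {v : Place K F | 0 < v.ord (t - algebraMap K F a)}.Finite)
    (hsum : ∑ᶠ v ∈ {v : Place K F | 0 < v.ord (t - algebraMap K F a)},
      v.ord (t - algebraMap K F a) = n) :
    Nat.card {v : Place K F // 0 < v.ord (t - algebraMap K F a)} = Nat.card (Quotient r) ∧
      Fintype.card X = n := by
  classical
  by_cases ht0 : t - algebraMap K F a = 0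
  · have hS : {v : Place K F | 0 < v.ord (t - algebraMap K F a)} = ∅ := by
      ext v; simp [ht0]
    rw [hS, finsum_mem_empty] at hsum
    have hn : n = 0 := by exact_mod_cast hsum.symm
    have hX : Fintype.card X = 0 := by omega
    have : IsEmpty X := Fintype.card_eq_zero_iff.mp hX
    refine ⟨?_, by omega⟩
    have h1 : IsEmpty {v : Place K F // 0 < v.ord (t - algebraMap K F a)} :=
      ⟨fun v => by simpa [ht0] using v.2⟩
    have h2 : IsEmpty (Quotient r) :=
      ⟨fun q => Quotient.inductionOn q fun x => isEmptyElim x⟩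
    rw [Nat.card_of_isEmpty, Nat.card_of_isEmpty]
  have hnt : ∀ x, ∃ f : F, f ≠ 0 ∧ w x f ≠ 0 :=
    fun x => ⟨_, ht0, by rw [hwE x]; exact hE.ne'⟩
  set p : X → Place K F := fun x => h56_placeOfOrd (w x) (hw x) (hnt x) with hpdef
  have hpt : ∀ x, t ∈ (p x).toValuationSubring := by
    intro x
    have h1 : t - algebraMap K F a ∈ (p x).toValuationSubring :=
      Or.inr (by rw [hwE x]; exact hE.le)
    have h2 := (p x).toValuationSubring.add_mem _ _ h1 ((p x).algebraMap_mem' a)
    rwa [sub_add_cancel] at h2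
  have hclasspos : ∀ x, 0 < Nat.card {y // r y x} := by
    intro x
    have : Nonempty {y // r y x} := ⟨⟨x, r.refl x⟩⟩
    exact Nat.card_pos
  have hord : ∀ x, 0 < (p x).ord (t - algebraMap K F a) ∧
      (p x).ord (t - algebraMap K F a) ≤ (Nat.card {y // r y x} : ℤ) := by
    intro x
    obtain ⟨m, hm, ⟨π, hπ0, hπ⟩, hmf⟩ := h56_placeOfOrd_ord (hw x) (hnt x)
    have h1 : E = m * (p x).ord (t - algebraMap K F a) := by
      rw [← hwE x]
      exact hmf _ ht0
    have hpos : 0 < (p x).ord (t - algebraMap K F a) := by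
      by_contra hneg
      push Not at hneg
      have : m * (p x).ord (t - algebraMap K F a) ≤ 0 :=
        mul_nonpos_of_nonneg_of_nonpos hm.le hneg
      omega
    refine ⟨hpos, ?_⟩
    have h2 := hM x π hπ0
    rw [hπ, h1] at h2
    have h3 : (p x).ord (t - algebraMap K F a) ∣ (Nat.card {y // r y x} : ℤ) :=
      (mul_dvd_mul_iff_left hm.ne').mp h2
    exact Int.le_of_dvd (by exact_mod_cast hclasspos x) h3
  have hpr : ∀ x y, r x y → p x = p y := by
    intro x y hxy
    apply Place.ext
    ext f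
    show (f = 0 ∨ 0 ≤ w x f) ↔ (f = 0 ∨ 0 ≤ w y f)
    rw [hr x y hxy]
  let pbar : Quotient r → Place K F := Quotient.lift p hpr
  have hsurj : ∀ v : Place K F, 0 < v.ord (t - algebraMap K F a) → ∃ x, p x = v := by
    intro v hv
    refine h56_exists_eq_of_norm t a p hpt ?_ v (h56_mem_nonunits_of_ord_pos v hv)
    intro h hh0 hh
    obtain ⟨P, b, hb, hPb, himp⟩ := hN h hh0 hh
    refine ⟨P, b, hb, hPb, fun hP0 => ?_⟩
    obtain ⟨x, hx⟩ := himp hP0
    refine ⟨x, ?_⟩
    rw [ValuationSubring.mem_nonunits_iff_or]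
    refine Or.inr ?_
    rintro (hinv | hinv)
    · exact inv_ne_zero hh0 hinv
    · rw [(hw x).map_inv hh0] at hinv
      omega
  set S : Set (Place K F) := {v : Place K F | 0 < v.ord (t - algebraMap K F a)} with hSdef
  let _ : Fintype ↥S := hfin.fintype
  let _ : Fintype (Quotient r) := Fintype.ofFinite _
  have hsum' : ∑ v : ↥S, (v : Place K F).ord (t - algebraMap K F a) = n := by
    rw [← hsum, finsum_mem_eq_finite_toFinset_sum _ hfin]
    exact Finset.sum_set_coe (f := fun v : Place K F => v.ord (t - algebraMap K F a)) S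
  have hsurj' : ∀ v : ↥S, ∃ x, p x = v := fun v => hsurj v v.2
  choose xs hxs using hsurj'
  let φ : ↥S → Quotient r := fun v => Quotient.mk r (xs v)
  have hφ : ∀ v : ↥S, pbar (φ v) = v := fun v => hxs v
  have hφinj : Function.Injective φ :=
    fun v v' h => Subtype.ext (by rw [← hφ v, ← hφ v', h])
  let size : Quotient r → ℕ := fun q =>
    (Finset.univ.filter (fun x : X => Quotient.mk r x = q)).card
  have hsize_sum : ∑ q : Quotient r, size q = Fintype.card X := by
    rw [← Finset.card_univ]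
    exact (Finset.card_eq_sum_card_fiberwise (fun x _ => Finset.mem_univ _)).symm
  have hsize : ∀ x : X, size (Quotient.mk r x) = Nat.card {y // r y x} := by
    intro x
    show (Finset.univ.filter (fun y : X => Quotient.mk r y = Quotient.mk r x)).card = _
    rw [← Fintype.card_subtype, ← Nat.card_eq_fintype_card]
    exact Nat.card_congr (Equiv.subtypeEquivRight fun y => Quotient.eq)
  have hsizepos : ∀ q, 0 < size q := by
    intro q
    induction q using Quotient.inductionOn with
    | _ x => rw [hsize]; exact hclasspos x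
  have hle : ∀ v : ↥S, (v : Place K F).ord (t - algebraMap K F a) ≤ (size (φ v) : ℤ) := by
    intro v
    have h1 := (hord (xs v)).2
    rw [hxs v] at h1
    show _ ≤ ((size (Quotient.mk r (xs v)) : ℕ) : ℤ)
    rw [hsize]
    exact h1
  have h1 : (n : ℤ) ≤ ((∑ v : ↥S, size (φ v) : ℕ) : ℤ) := by
    rw [← hsum']
    push_cast
    exact Finset.sum_le_sum (fun v _ => hle v)
  have h2 : ∑ v : ↥S, size (φ v) = ∑ q ∈ Finset.univ.image φ, size q :=
    (Finset.sum_image (fun v _ v' _ h => hφinj h)).symm
  have h4 : ∑ q ∈ Finset.univ.image φ, size q ≤ ∑ q : Quotient r, size q :=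
    Finset.sum_le_sum_of_subset (Finset.subset_univ _)
  have hsurjφ : Function.Surjective φ := by
    by_contra hns
    obtain ⟨q₀, hq₀⟩ : ∃ q₀, ∀ v, φ v ≠ q₀ := by
      simpa [Function.Surjective] using hns
    have h3 : ∑ q ∈ Finset.univ.image φ, size q < ∑ q : Quotient r, size q :=
      Finset.sum_lt_sum_of_subset (Finset.subset_univ _) (Finset.mem_univ q₀)
        (by simpa using hq₀) (hsizepos q₀) (fun _ _ _ => Nat.zero_le _)
    rw [h2] at h1
    rw [hsize_sum] at h3
    have : (n : ℤ) < Fintype.card X := lt_of_le_of_lt h1 (by exact_mod_cast h3)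
    omega
  refine ⟨?_, ?_⟩
  · show Nat.card ↥S = _
    exact Nat.card_congr (Equiv.ofBijective φ ⟨hφinj, hsurjφ⟩)
  · rw [h2] at h1
    rw [hsize_sum] at h4
    have : (n : ℤ) ≤ Fintype.card X := le_trans h1 (by exact_mod_cast h4)
    omega

/-- An order function invariant under `g` is constant on the orbits of the powers of `g`. -/
lemma h56_eq_of_orbitRel {G X Y : Type*} [Group G] [MulAction G X] (g : G) (w : X → Y)
    (hG : ∀ x, w (g • x) = w x) (x y : X)
    (h : MulAction.orbitRel (Subgroup.zpowers g) X x y) : w x = w y := by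
  have hginv : ∀ x, w (g⁻¹ • x) = w x := by
    intro x
    have := hG (g⁻¹ • x)
    rw [smul_inv_smul] at this
    exact this.symm
  have hz : ∀ (j : ℤ) (x : X), w (g ^ j • x) = w x := by
    intro j
    induction j using Int.induction_on with
    | zero => intro x; simp
    | succ i ih =>
      intro x
      rw [zpow_add_one, mul_smul, ih, hG]
    | pred i ih =>
      intro x
      rw [zpow_sub_one, mul_smul, ih, hginv]
  obtain ⟨⟨k, hk⟩, rfl⟩ := MulAction.orbitRel_apply.mp h
  obtain ⟨j, rfl⟩ := Subgroup.mem_zpowers_iff.mp hk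
  exact hz j y

/-- The class of `x` for the orbit relation of the powers of `g` has `minimalPeriod`
elements. -/
lemma h56_card_orbitRel_class {G X : Type*} [Group G] [MulAction G X] (g : G) (x : X) :
    Nat.card {y // MulAction.orbitRel (Subgroup.zpowers g) X y x} =
      Function.minimalPeriod (fun y : X => g • y) x := by
  rw [← h56_card_orbit_zpowers g x]
  exact Nat.card_congr (Equiv.subtypeEquivRight fun y => MulAction.orbitRel_apply)

/-- COUNTING TRICK (abstract form, group version): the fibre over `t = a` is in bijection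
with the orbits of `g` on `X`. -/
theorem h56_card_fibre (t : F) [FiniteDimensional K⟮t⟯ F] (a : K)
    {G X : Type*} [Group G] [MulAction G X] [Fintype X] (g : G)
    (w : X → F → ℤ) (hw : ∀ x, h56_IsOrd K (w x))
    (E : ℤ) (hE : 0 < E) (hwE : ∀ x, w x (t - algebraMap K F a) = E)
    (hG : ∀ x, w (g • x) = w x)
    (hM : ∀ x (f : F), f ≠ 0 →
      E ∣ w x f * (Function.minimalPeriod (fun y : X => g • y) x : ℤ))
    (hN : ∀ h : F, h ≠ 0 → IsIntegral (Algebra.adjoin K {t}) h →
      ∃ (P : Polynomial K) (b : F), IsIntegral (Algebra.adjoin K {t}) b ∧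
        Polynomial.aeval t P = h * b ∧ (P.eval a = 0 → ∃ x, 0 < w x h))
    (n : ℕ) (hC : Fintype.card X ≤ n)
    (hfin : {v : Place K F | 0 < v.ord (t - algebraMap K F a)}.Finite)
    (hsum : ∑ᶠ v ∈ {v : Place K F | 0 < v.ord (t - algebraMap K F a)},
      v.ord (t - algebraMap K F a) = n) :
    Nat.card {v : Place K F // 0 < v.ord (t - algebraMap K F a)} =
      Nat.card (MulAction.orbitRel.Quotient (Subgroup.zpowers g) X) ∧ Fintype.card X = n :=
  h56_card_fibre_setoid t a (MulAction.orbitRel (Subgroup.zpowers g) X) w hw E hE hwE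
    (h56_eq_of_orbitRel g w hG)
    (fun x f hf => by rw [h56_card_orbitRel_class]; exact hM x f hf) hN n hC hfin hsum

end count

section infinity

variable [CharZero K]

lemma h56_adjoin_inv_eq (t : F) : K⟮t⁻¹⟯ = K⟮t⟯ := by
  apply le_antisymm
  · rw [adjoin_simple_le_iff]
    exact inv_mem (mem_adjoin_simple_self K t)
  · rw [adjoin_simple_le_iff]
    have := inv_mem (mem_adjoin_simple_self K t⁻¹)
    rwa [inv_inv] at this

/-- The counting theorem for the fibre over `t = ∞` (setoid version; the main theorem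
applied to `t⁻¹`). -/
theorem h56_card_fibre_infty_setoid (t : F) [hfd : FiniteDimensional K⟮t⟯ F]
    {X : Type*} [Fintype X] (r : Setoid X)
    (w : X → F → ℤ) (hw : ∀ x, h56_IsOrd K (w x))
    (E : ℤ) (hE : 0 < E) (hwE : ∀ x, w x t⁻¹ = E)
    (hr : ∀ x y, r x y → w x = w y)
    (hM : ∀ x (f : F), f ≠ 0 → E ∣ w x f * (Nat.card {y // r y x} : ℤ))
    (hN : ∀ h : F, h ≠ 0 → IsIntegral (Algebra.adjoin K {t⁻¹}) h →
      ∃ (P : Polynomial K) (b : F), IsIntegral (Algebra.adjoin K {t⁻¹}) b ∧
        Polynomial.aeval t⁻¹ P = h * b ∧ (P.eval 0 = 0 → ∃ x, 0 < w x h))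
    (n : ℕ) (hC : Fintype.card X ≤ n)
    (hfin : {v : Place K F | v.ord t < 0}.Finite)
    (hsum : ∑ᶠ v ∈ {v : Place K F | v.ord t < 0}, -v.ord t = n) :
    Nat.card {v : Place K F // v.ord t < 0} = Nat.card (Quotient r) ∧
      Fintype.card X = n := by
  have hfd' : FiniteDimensional K⟮t⁻¹⟯ F := (h56_adjoin_inv_eq (K := K) t).symm ▸ hfd
  have hset : {v : Place K F | 0 < v.ord (t⁻¹ - algebraMap K F 0)} =
      {v : Place K F | v.ord t < 0} := by
    ext v
    simp only [map_zero, sub_zero, Place.ord_inv, Set.mem_ofPred_eq, neg_pos]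
  have hfun : ∀ v : Place K F, v.ord (t⁻¹ - algebraMap K F 0) = -v.ord t := by
    intro v
    rw [map_zero, sub_zero, Place.ord_inv]
  have key := h56_card_fibre_setoid (K := K) t⁻¹ 0 r w hw E hE
    (by intro x; rw [map_zero, sub_zero]; exact hwE x) hr hM hN n hC
    (by rw [hset]; exact hfin)
    (by rw [hset]; simp only [hfun]; exact hsum)
  refine ⟨?_, key.2⟩
  rw [← key.1]
  exact Nat.card_congr (Equiv.subtypeEquivRight fun v => by
    rw [hfun v, neg_pos])

/-- The counting theorem for the fibre over `t = ∞` (group version). -/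
theorem h56_card_fibre_infty (t : F) [hfd : FiniteDimensional K⟮t⟯ F]
    {G X : Type*} [Group G] [MulAction G X] [Fintype X] (g : G)
    (w : X → F → ℤ) (hw : ∀ x, h56_IsOrd K (w x))
    (E : ℤ) (hE : 0 < E) (hwE : ∀ x, w x t⁻¹ = E)
    (hG : ∀ x, w (g • x) = w x)
    (hM : ∀ x (f : F), f ≠ 0 →
      E ∣ w x f * (Function.minimalPeriod (fun y : X => g • y) x : ℤ))
    (hN : ∀ h : F, h ≠ 0 → IsIntegral (Algebra.adjoin K {t⁻¹}) h →
      ∃ (P : Polynomial K) (b : F), IsIntegral (Algebra.adjoin K {t⁻¹}) b ∧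
        Polynomial.aeval t⁻¹ P = h * b ∧ (P.eval 0 = 0 → ∃ x, 0 < w x h))
    (n : ℕ) (hC : Fintype.card X ≤ n)
    (hfin : {v : Place K F | v.ord t < 0}.Finite)
    (hsum : ∑ᶠ v ∈ {v : Place K F | v.ord t < 0}, -v.ord t = n) :
    Nat.card {v : Place K F // v.ord t < 0} =
      Nat.card (MulAction.orbitRel.Quotient (Subgroup.zpowers g) X) ∧ Fintype.card X = n :=
  h56_card_fibre_infty_setoid t (MulAction.orbitRel (Subgroup.zpowers g) X) w hw E hE hwE
    (h56_eq_of_orbitRel g w hG)
    (fun x f hf => by rw [h56_card_orbitRel_class]; exact hM x f hf) hN n hC hfin hsum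

end infinity

end main

end Fermat.Agent.S24
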