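import Mathlib
import Fermat.Agent.S24.h56_Count
import Fermat.Agent.S24.h24_Fibre

set_option autoImplicit false
set_option linter.unusedSectionVars false

namespace Fermat.Agent.S24

open AlgebraicCurve IntermediateField
open IntermediateField.algebraAdjoinAdjoin

variable {K F : Type*} [Field K] [Field F] [Algebra K F] [CharZero K]

/-- The field norm of an element integral over `K[t]` is a polynomial in `t` which the
element divides in the integral closure. -/
lemma h56_exists_norm_poly (t : F) [FiniteDimensional K⟮t⟯ F] {h : F}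
    (hh : IsIntegral (Algebra.adjoin K {t}) h) :
    ∃ (P : Polynomial K) (b : F), IsIntegral (Algebra.adjoin K {t}) b ∧
      Polynomial.aeval t P = h * b ∧
      algebraMap K⟮t⟯ F (Algebra.norm K⟮t⟯ h) = Polynomial.aeval t P := by
  have hfin : Module.Finite (Algebra.adjoin K {t}) (integralClosure (Algebra.adjoin K {t}) F) :=
    IsIntegralClosure.finite (Algebra.adjoin K {t}) K⟮t⟯ F _
  have hic : IsIntegrallyClosed (integralClosure (Algebra.adjoin K {t}) F) :=
    integralClosure.isIntegrallyClosedOfFiniteExtension K⟮t⟯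
  let x : integralClosure (Algebra.adjoin K {t}) F := ⟨h, hh⟩
  obtain ⟨b, hb⟩ := Algebra.dvd_algebraMap_intNorm_self (Algebra.adjoin K {t})
    (integralClosure (Algebra.adjoin K {t}) F) x
  have hmem : ((Algebra.intNorm (Algebra.adjoin K {t})
      (integralClosure (Algebra.adjoin K {t}) F) x : Algebra.adjoin K {t}) : F) ∈
      (Polynomial.aeval (R := K) t).range := by
    rw [← Algebra.adjoin_singleton_eq_range_aeval]
    exact SetLike.coe_mem _
  obtain ⟨P, hP⟩ := hmem
  refine ⟨P, (b : F), b.2, ?_, ?_⟩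
  · have h1 := congrArg (fun y : integralClosure (Algebra.adjoin K {t}) F => (y : F)) hb
    beta_reduce at h1
    rw [show Polynomial.aeval t P = _ from hP]
    exact h1
  · have h2 := Algebra.algebraMap_intNorm (A := Algebra.adjoin K {t}) (K := K⟮t⟯) (L := F)
      (B := integralClosure (Algebra.adjoin K {t}) F) x
    have h3 := congrArg (algebraMap K⟮t⟯ F) h2
    rw [show Polynomial.aeval t P = _ from hP]
    exact h3.symm

/-- The norm property `(N)` of `h56_card_fibre` follows from the field norm identity. -/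
theorem h56_norm_property (t : F) [FiniteDimensional K⟮t⟯ F] (a : K)
    {X : Type*} [Fintype X] [Nonempty X]
    (w : X → F → ℤ) (hw : ∀ x, h56_IsOrd K (w x))
    (E : ℤ) (hE : 0 < E) (hwE : ∀ x, w x (t - algebraMap K F a) = E)
    (hnorm : ∀ h : F, h ≠ 0 → ∀ x₀,
      w x₀ (algebraMap K⟮t⟯ F (Algebra.norm K⟮t⟯ h)) = ∑ x, w x h)
    (h : F) (hh0 : h ≠ 0) (hh : IsIntegral (Algebra.adjoin K {t}) h) :
    ∃ (P : Polynomial K) (b : F), IsIntegral (Algebra.adjoin K {t}) b ∧
      Polynomial.aeval t P = h * b ∧ (P.eval a = 0 → ∃ x, 0 < w x h) := by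
  obtain ⟨P, b, hb, hPb, hnP⟩ := h56_exists_norm_poly t hh
  refine ⟨P, b, hb, hPb, fun hPa => ?_⟩
  have x₀ : X := Classical.arbitrary X
  have hN0 : Polynomial.aeval t P ≠ 0 := by
    rw [← hnP]
    intro h0
    have h1 : Algebra.norm K⟮t⟯ h = 0 := by
      apply (algebraMap K⟮t⟯ F).injective
      rw [h0, map_zero]
    exact hh0 (Algebra.norm_eq_zero_iff.mp h1)
  obtain ⟨Q, hQ⟩ := Polynomial.dvd_iff_isRoot.mpr hPa
  have hPt : Polynomial.aeval t P = (t - algebraMap K F a) * Polynomial.aeval t Q := by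
    rw [hQ, map_mul, map_sub, Polynomial.aeval_X, Polynomial.aeval_C]
  have hta0 : t - algebraMap K F a ≠ 0 := fun h0 => hN0 (by rw [hPt, h0, zero_mul])
  have hQ0 : Polynomial.aeval t Q ≠ 0 := fun h0 => hN0 (by rw [hPt, h0, mul_zero])
  have ht : t = 0 ∨ 0 ≤ w x₀ t := by
    by_cases ht0 : t = 0
    · exact Or.inl ht0
    refine Or.inr ?_
    by_cases ha : a = 0
    · have := hwE x₀
      rw [ha, map_zero, sub_zero] at this
      rw [this]; exact hE.le
    · have ha' : algebraMap K F a ≠ 0 := by simpa using ha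
      have h1 := (hw x₀).map_add (t - algebraMap K F a) (algebraMap K F a) hta0 ha'
        (by rw [sub_add_cancel]; exact ht0)
      rw [sub_add_cancel, hwE x₀, (hw x₀).map_algebraMap a ha] at h1
      exact le_trans (le_min hE.le le_rfl) h1
  have hQint : IsIntegral (Algebra.adjoin K {t}) (Polynomial.aeval t Q) := by
    have hmem : Polynomial.aeval t Q ∈ Algebra.adjoin K {t} := by
      rw [Algebra.adjoin_singleton_eq_range_aeval]
      exact ⟨Q, rfl⟩
    exact isIntegral_algebraMap (x := (⟨_, hmem⟩ : Algebra.adjoin K {t}))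
  have hQnn : 0 ≤ w x₀ (Polynomial.aeval t Q) := by
    rcases (hw x₀).nonneg_of_isIntegral ht hQint with h0 | h0
    · exact absurd h0 hQ0
    · exact h0
  have hpos : 0 < ∑ x, w x h := by
    rw [← hnorm h hh0 x₀, hnP, hPt, (hw x₀).map_mul _ _ hta0 hQ0, hwE x₀]
    omega
  by_contra hcon
  push Not at hcon
  have : ∑ x, w x h ≤ 0 := Finset.sum_nonpos (fun x _ => hcon x)
  omega

lemma h56_norm_congr (L₁ L₂ : IntermediateField K F) (h : L₁ = L₂) (f : F) :
    algebraMap L₁ F (Algebra.norm L₁ f) = algebraMap L₂ F (Algebra.norm L₂ f) := by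
  subst h
  rfl

section final

variable [IsAlgClosed K]

/-- FIBRE COUNT over `t = a` from order functions and the field norm identity (setoid
version). -/
theorem h56_card_fibre_of_norm_setoid (t : F) (ht : Transcendental K t)
    [FiniteDimensional K⟮t⟯ F] (a : K) {X : Type*} [Fintype X] (r : Setoid X)
    (w : X → F → ℤ) (hw : ∀ x, h56_IsOrd K (w x))
    (E : ℤ) (hE : 0 < E) (hwE : ∀ x, w x (t - algebraMap K F a) = E)
    (hr : ∀ x y, r x y → w x = w y)
    (hM : ∀ x (f : F), f ≠ 0 → E ∣ w x f * (Nat.card {y // r y x} : ℤ))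
    (hnorm : ∀ h : F, h ≠ 0 → ∀ x₀,
      w x₀ (algebraMap K⟮t⟯ F (Algebra.norm K⟮t⟯ h)) = ∑ x, w x h)
    (hcard : Fintype.card X = Module.finrank K⟮t⟯ F) :
    Nat.card {v : Place K F // 0 < v.ord (t - algebraMap K F a)} = Nat.card (Quotient r) := by
  have hpos : 0 < Module.finrank K⟮t⟯ F := Module.finrank_pos
  have hne : Nonempty X := Fintype.card_pos_iff.mp (by omega)
  refine (h56_card_fibre_setoid t a r w hw E hE hwE hr hM
    (h56_norm_property t a w hw E hE hwE hnorm) (Module.finrank K⟮t⟯ F) hcard.le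
    (h24_fibre_finite t ht a) ?_).1
  rw [finsum_mem_eq_finite_toFinset_sum _ (h24_fibre_finite t ht a)]
  exact h24_fibre_sum t ht a _ (fun v => by simp)

/-- FIBRE COUNT over `t = a` from order functions and the field norm identity (group
version: the classes are the orbits of the powers of `g`). -/
theorem h56_card_fibre_of_norm (t : F) (ht : Transcendental K t)
    [FiniteDimensional K⟮t⟯ F] (a : K) {G X : Type*} [Group G] [MulAction G X] [Fintype X]
    (g : G) (w : X → F → ℤ) (hw : ∀ x, h56_IsOrd K (w x))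
    (E : ℤ) (hE : 0 < E) (hwE : ∀ x, w x (t - algebraMap K F a) = E)
    (hG : ∀ x, w (g • x) = w x)
    (hM : ∀ x (f : F), f ≠ 0 →
      E ∣ w x f * (Function.minimalPeriod (fun y : X => g • y) x : ℤ))
    (hnorm : ∀ h : F, h ≠ 0 → ∀ x₀,
      w x₀ (algebraMap K⟮t⟯ F (Algebra.norm K⟮t⟯ h)) = ∑ x, w x h)
    (hcard : Fintype.card X = Module.finrank K⟮t⟯ F) :
    Nat.card {v : Place K F // 0 < v.ord (t - algebraMap K F a)} =
      Nat.card (MulAction.orbitRel.Quotient (Subgroup.zpowers g) X) :=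
  h56_card_fibre_of_norm_setoid t ht a (MulAction.orbitRel (Subgroup.zpowers g) X) w hw E hE hwE
    (h56_eq_of_orbitRel g w hG)
    (fun x f hf => by rw [h56_card_orbitRel_class]; exact hM x f hf) hnorm hcard

/-- FIBRE COUNT over `t = ∞` from order functions and the field norm identity (setoid
version). -/
theorem h56_card_fibre_infty_of_norm_setoid (t : F) (ht : Transcendental K t)
    [hfd : FiniteDimensional K⟮t⟯ F] {X : Type*} [Fintype X] (r : Setoid X)
    (w : X → F → ℤ) (hw : ∀ x, h56_IsOrd K (w x))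
    (E : ℤ) (hE : 0 < E) (hwE : ∀ x, w x t⁻¹ = E)
    (hr : ∀ x y, r x y → w x = w y)
    (hM : ∀ x (f : F), f ≠ 0 → E ∣ w x f * (Nat.card {y // r y x} : ℤ))
    (hnorm : ∀ h : F, h ≠ 0 → ∀ x₀,
      w x₀ (algebraMap K⟮t⟯ F (Algebra.norm K⟮t⟯ h)) = ∑ x, w x h)
    (hcard : Fintype.card X = Module.finrank K⟮t⟯ F) :
    Nat.card {v : Place K F // v.ord t < 0} = Nat.card (Quotient r) := by
  have hpos : 0 < Module.finrank K⟮t⟯ F := Module.finrank_pos
  have hne : Nonempty X := Fintype.card_pos_iff.mp (by omega)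
  have hK : K⟮t⁻¹⟯ = K⟮t⟯ := h56_adjoin_inv_eq t
  have hfd' : FiniteDimensional K⟮t⁻¹⟯ F := hK.symm ▸ hfd
  have hnorm' : ∀ h : F, h ≠ 0 → ∀ x₀,
      w x₀ (algebraMap K⟮t⁻¹⟯ F (Algebra.norm K⟮t⁻¹⟯ h)) = ∑ x, w x h := by
    intro h hh0 x₀
    rw [h56_norm_congr K⟮t⁻¹⟯ K⟮t⟯ hK h]
    exact hnorm h hh0 x₀
  refine (h56_card_fibre_infty_setoid t r w hw E hE hwE hr hM
    (fun h hh0 hh => h56_norm_property t⁻¹ 0 w hw E hE
      (by intro x; rw [map_zero, sub_zero]; exact hwE x) hnorm' h hh0 hh)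
    (Module.finrank K⟮t⟯ F) hcard.le (h24_fibre_infty_finite t ht) ?_).1
  rw [finsum_mem_eq_finite_toFinset_sum _ (h24_fibre_infty_finite t ht)]
  exact h24_fibre_infty_sum t ht _ (fun v => by simp)

/-- FIBRE COUNT over `t = ∞` from order functions and the field norm identity (group
version). -/
theorem h56_card_fibre_infty_of_norm (t : F) (ht : Transcendental K t)
    [FiniteDimensional K⟮t⟯ F] {G X : Type*} [Group G] [MulAction G X] [Fintype X]
    (g : G) (w : X → F → ℤ) (hw : ∀ x, h56_IsOrd K (w x))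
    (E : ℤ) (hE : 0 < E) (hwE : ∀ x, w x t⁻¹ = E)
    (hG : ∀ x, w (g • x) = w x)
    (hM : ∀ x (f : F), f ≠ 0 →
      E ∣ w x f * (Function.minimalPeriod (fun y : X => g • y) x : ℤ))
    (hnorm : ∀ h : F, h ≠ 0 → ∀ x₀,
      w x₀ (algebraMap K⟮t⟯ F (Algebra.norm K⟮t⟯ h)) = ∑ x, w x h)
    (hcard : Fintype.card X = Module.finrank K⟮t⟯ F) :
    Nat.card {v : Place K F // v.ord t < 0} =
      Nat.card (MulAction.orbitRel.Quotient (Subgroup.zpowers g) X) :=
  h56_card_fibre_infty_of_norm_setoid t ht (MulAction.orbitRel (Subgroup.zpowers g) X) w hw E hE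
    hwE (h56_eq_of_orbitRel g w hG)
    (fun x f hf => by rw [h56_card_orbitRel_class]; exact hM x f hf) hnorm hcard

end final

end Fermat.Agent.S24
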