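import Mathlib

set_option autoImplicit false
set_option linter.style.haveILetI false

/-!
# S24, block GAL (helper85): conjugates, invariants, degree and norm — pure algebra

Setting: a field `M` (think: meromorphic functions on the upper half plane) with a group `Γ`
acting by field automorphisms, a subring `A` of `M` (think: the ring generated by all conjugates
of the generators, consisting of holomorphic functions), stable under `Γ`, all of whose elements
have finite orbits and whose invariants are polynomials in `ι t`.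
-/

namespace Fermat.Agent.S24

open Polynomial IntermediateField

section Orbit

variable {M Γ : Type*} [Field M] [Group Γ] [MulSemiringAction Γ M]

/-- Finite orbits are preserved by the ring operations: closure lemma for a generating set. -/
theorem h85_orbit_finite_of_closure (T : Set M)
    (hT : ∀ a ∈ T, (Set.range fun γ : Γ => γ • a).Finite) :
    ∀ a ∈ Subring.closure T, (Set.range fun γ : Γ => γ • a).Finite := by
  intro a ha
  induction ha using Subring.closure_induction with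
  | mem x hx => exact hT x hx
  | zero => exact (Set.finite_singleton (0 : M)).subset (by rintro _ ⟨γ, rfl⟩; simp)
  | one => exact (Set.finite_singleton (1 : M)).subset (by rintro _ ⟨γ, rfl⟩; simp)
  | add x y _ _ hx hy =>
      refine (Set.Finite.image2 (fun u v : M => u + v) hx hy).subset ?_
      rintro _ ⟨γ, rfl⟩
      exact ⟨γ • x, ⟨γ, rfl⟩, γ • y, ⟨γ, rfl⟩, (smul_add γ x y).symm⟩
  | neg x _ hx =>
      refine (hx.image (fun u : M => -u)).subset ?_
      rintro _ ⟨γ, rfl⟩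
      exact ⟨γ • x, ⟨γ, rfl⟩, (smul_neg γ x).symm⟩
  | mul x y _ _ hx hy =>
      refine (Set.Finite.image2 (fun u v : M => u * v) hx hy).subset ?_
      rintro _ ⟨γ, rfl⟩
      exact ⟨γ • x, ⟨γ, rfl⟩, γ • y, ⟨γ, rfl⟩, (smul_mul' γ x y).symm⟩

/-- Stability under the action is preserved by the ring operations. -/
theorem h85_stable_of_closure (T : Set M) (hT : ∀ (γ : Γ), ∀ a ∈ T, γ • a ∈ T) :
    ∀ (γ : Γ), ∀ a ∈ Subring.closure T, γ • a ∈ Subring.closure T := by
  intro γ a ha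
  induction ha using Subring.closure_induction with
  | mem x hx => exact Subring.subset_closure (hT γ x hx)
  | zero => simp
  | one => simp
  | add x y _ _ hx hy => rw [smul_add]; exact add_mem hx hy
  | neg x _ hx => rw [smul_neg]; exact neg_mem hx
  | mul x y _ _ hx hy => rw [smul_mul']; exact mul_mem hx hy

/-- The product over a finite orbit is invariant. -/
theorem h85_smul_orbit_prod (b : M) (hb : (Set.range fun γ : Γ => γ • b).Finite) (γ : Γ) :
    γ • (∏ c ∈ hb.toFinset, c) = ∏ c ∈ hb.toFinset, c := by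
  rw [Finset.smul_prod']
  refine Finset.prod_bij (fun c _ => γ • c) ?_ ?_ ?_ ?_
  · intro c hc
    rw [Set.Finite.mem_toFinset] at hc ⊢
    obtain ⟨γ', rfl⟩ := hc
    exact ⟨γ * γ', (mul_smul γ γ' b)⟩
  · intro c _ c' _ h
    exact smul_left_cancel γ h
  · intro c hc
    rw [Set.Finite.mem_toFinset] at hc
    obtain ⟨γ', rfl⟩ := hc
    refine ⟨γ⁻¹ • γ' • b, ?_, by simp⟩
    rw [Set.Finite.mem_toFinset]
    exact ⟨γ⁻¹ * γ', (mul_smul γ⁻¹ γ' b)⟩
  · intro c _
    rfl

end Orbit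

section Embeddings

/-- Abstract counting of embeddings and the norm as a product over a full family of embeddings. -/
theorem h85_norm_of_embeddings {E F Ω X : Type*} [Field E] [Field F] [Algebra E F] [Field Ω]
    [FiniteDimensional E F] [Algebra.IsSeparable E F] [Fintype X]
    (σ : X → F →+* Ω) (hσ : Function.Injective σ)
    (hE : ∀ x y e, σ x (algebraMap E F e) = σ y (algebraMap E F e)) :
    Fintype.card X ≤ Module.finrank E F ∧
    (Fintype.card X = Module.finrank E F → ∀ (x₀ : X) (f : F),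
      σ x₀ (algebraMap E F (Algebra.norm E f)) = ∏ x, σ x f) := by
  rcases isEmpty_or_nonempty X with hX | ⟨⟨x₀⟩⟩
  · refine ⟨by simp, fun _ x₀ => (hX.false x₀).elim⟩
  let Ωc := AlgebraicClosure Ω
  let φ₀ : E →+* Ωc := (algebraMap Ω Ωc).comp ((σ x₀).comp (algebraMap E F))
  letI : Algebra E Ωc := φ₀.toAlgebra
  let τ : X → F →ₐ[E] Ωc := fun x =>
    { toRingHom := (algebraMap Ω Ωc).comp (σ x)
      commutes' := fun e => by
        show algebraMap Ω Ωc (σ x (algebraMap E F e)) = φ₀ e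
        rw [hE x x₀]
        rfl }
  have hτ : Function.Injective τ := by
    intro x y hxy
    apply hσ
    ext f
    have h1 : τ x f = τ y f := by rw [hxy]
    exact (algebraMap Ω Ωc).injective h1
  have hcard : Fintype.card (F →ₐ[E] Ωc) = Module.finrank E F := by
    rw [← Field.finSepDegree_eq_finrank_of_isSeparable E F,
      Field.finSepDegree_eq_of_isAlgClosed E F Ωc, Nat.card_eq_fintype_card]
  refine ⟨hcard ▸ Fintype.card_le_of_injective τ hτ, ?_⟩
  intro hXc x₁ f
  have hbij : Function.Bijective τ :=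
    (Fintype.bijective_iff_injective_and_card τ).mpr ⟨hτ, by rw [hXc, hcard]⟩
  have h1 := Algebra.norm_eq_prod_embeddings E Ωc f
  rw [← Equiv.prod_comp (Equiv.ofBijective τ hbij) (fun s : F →ₐ[E] Ωc => s f)] at h1
  have h2 : algebraMap E Ωc (Algebra.norm E f)
      = algebraMap Ω Ωc (σ x₁ (algebraMap E F (Algebra.norm E f))) := by
    show φ₀ _ = _
    show algebraMap Ω Ωc (σ x₀ (algebraMap E F (Algebra.norm E f))) = _
    rw [hE x₀ x₁]
  have h3 : ∏ x, (Equiv.ofBijective τ hbij x) f = algebraMap Ω Ωc (∏ x, σ x f) := by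
    rw [map_prod]
    rfl
  rw [h2, h3] at h1
  exact (algebraMap Ω Ωc).injective h1

end Embeddings

section Main

variable {K F M : Type*} [Field K] [Field F] [Algebra K F] [Field M]
variable (K) (Γ : Type*) [Group Γ] [MulSemiringAction Γ M]

/-- The hypotheses supplied by the analytic side. `A` is a `Γ`-stable subring of `M` whose
elements have finite orbits and whose invariants are polynomials in `ι t`, and every element
of `ι F` is a fraction of elements of `A`. -/
structure h85_Data (t : F) (ι : F →+* M) (A : Subring M) : Prop where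
  stable : ∀ (γ : Γ), ∀ a ∈ A, γ • a ∈ A
  orbit : ∀ a ∈ A, (Set.range fun γ : Γ => γ • a).Finite
  inv : ∀ a ∈ A, (∀ γ : Γ, γ • a = a) → ∃ P : K[X], a = ι (aeval t P)
  fix : ∀ (γ : Γ) (P : K[X]), γ • ι (aeval t P) = ι (aeval t P)
  frac : ∀ f : F, ∃ a ∈ A, ∃ b ∈ A, b ≠ 0 ∧ ι f * b = a

variable {K Γ}
variable {t : F} {ι : F →+* M} {A : Subring M}

theorem h85_aeval_mem (t : F) (P : K[X]) : aeval t P ∈ K⟮t⟯ :=
  algebra_adjoin_le_adjoin K {t} (aeval_mem_adjoin_singleton K t)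

/-- Invariant fractions of elements of `A` come from `K(t)`. -/
theorem h85_invariant_mem (hD : h85_Data K Γ t ι A) {y a b : M} (hy : ∀ γ : Γ, γ • y = y)
    (ha : a ∈ A) (hb : b ∈ A) (hb0 : b ≠ 0) (hyb : y * b = a) :
    ∃ e : K⟮t⟯, ι (e : F) = y := by
  classical
  have hfin := hD.orbit b hb
  set O := hfin.toFinset with hO
  have hbO : b ∈ O := by
    rw [hO, Set.Finite.mem_toFinset]
    exact ⟨1, one_smul Γ b⟩
  have hOA : ∀ c ∈ O, c ∈ A := by
    intro c hc
    rw [hO, Set.Finite.mem_toFinset] at hc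
    obtain ⟨γ, rfl⟩ := hc
    exact hD.stable γ b hb
  have hO0 : ∀ c ∈ O, c ≠ 0 := by
    intro c hc
    rw [hO, Set.Finite.mem_toFinset] at hc
    obtain ⟨γ, rfl⟩ := hc
    exact (smul_ne_zero_iff_ne γ).mpr hb0
  set b' := ∏ c ∈ O, c with hb'
  set b'' := ∏ c ∈ O.erase b, c with hb''
  have hmul : b * b'' = b' := Finset.mul_prod_erase O (fun c => c) hbO
  have hb'A : b' ∈ A := Subring.prod_mem A hOA
  have hb''A : b'' ∈ A := Subring.prod_mem A fun c hc => hOA c (Finset.mem_of_mem_erase hc)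
  have hb'0 : b' ≠ 0 := Finset.prod_ne_zero_iff.mpr hO0
  have hb'inv : ∀ γ : Γ, γ • b' = b' := fun γ => h85_smul_orbit_prod b hfin γ
  have hyb' : y * b' = a * b'' := by rw [← hmul, ← mul_assoc, hyb]
  have hinv2 : ∀ γ : Γ, γ • (a * b'') = a * b'' := by
    intro γ
    rw [← hyb', smul_mul', hy γ, hb'inv γ]
  obtain ⟨P, hP⟩ := hD.inv (a * b'') (mul_mem ha hb''A) hinv2
  obtain ⟨Q, hQ⟩ := hD.inv b' hb'A hb'inv
  have hQ0 : ι (aeval t Q) ≠ 0 := hQ ▸ hb'0
  refine ⟨⟨aeval t P / aeval t Q, div_mem (h85_aeval_mem t P) (h85_aeval_mem t Q)⟩, ?_⟩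
  show ι (aeval t P / aeval t Q) = y
  rw [map_div₀, ← hP, ← hQ, ← hyb', mul_div_assoc, div_self hb'0, mul_one]

/-- Elements of `K(t)` are fixed by the action. -/
theorem h85_fix_adjoin (hD : h85_Data K Γ t ι A) (γ : Γ) (e : K⟮t⟯) :
    γ • ι (e : F) = ι (e : F) := by
  obtain ⟨r, s, hrs⟩ := (mem_adjoin_simple_iff K (e : F)).mp e.2
  rw [hrs, map_div₀, smul_div₀', hD.fix γ r, hD.fix γ s]

/-- The subring of fractions of elements of `A`. -/
def h85_fracSubring (A : Subring M) : Subring M where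
  carrier := {y | ∃ a ∈ A, ∃ b ∈ A, b ≠ 0 ∧ y * b = a}
  mul_mem' := by
    rintro y y' ⟨a, ha, b, hb, hb0, h⟩ ⟨a', ha', b', hb', hb'0, h'⟩
    exact ⟨a * a', mul_mem ha ha', b * b', mul_mem hb hb', mul_ne_zero hb0 hb'0, by
      rw [← h, ← h']; ring⟩
  one_mem' := ⟨1, A.one_mem, 1, A.one_mem, one_ne_zero, by simp⟩
  add_mem' := by
    rintro y y' ⟨a, ha, b, hb, hb0, h⟩ ⟨a', ha', b', hb', hb'0, h'⟩
    exact ⟨a * b' + a' * b, add_mem (mul_mem ha hb') (mul_mem ha' hb), b * b', mul_mem hb hb',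
      mul_ne_zero hb0 hb'0, by rw [← h, ← h']; ring⟩
  zero_mem' := ⟨0, A.zero_mem, 1, A.one_mem, one_ne_zero, by simp⟩
  neg_mem' := by
    rintro y ⟨a, ha, b, hb, hb0, h⟩
    exact ⟨-a, neg_mem ha, b, hb, hb0, by rw [← h]; ring⟩

theorem h85_mem_fracSubring {A : Subring M} {y : M} :
    y ∈ h85_fracSubring A ↔ ∃ a ∈ A, ∃ b ∈ A, b ≠ 0 ∧ y * b = a := Iff.rfl

theorem h85_smul_mem_fracSubring (hD : h85_Data K Γ t ι A) (γ : Γ) {y : M}
    (hy : y ∈ h85_fracSubring A) : γ • y ∈ h85_fracSubring A := by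
  obtain ⟨a, ha, b, hb, hb0, h⟩ := hy
  exact ⟨γ • a, hD.stable γ a ha, γ • b, hD.stable γ b hb, (smul_ne_zero_iff_ne γ).mpr hb0, by
    rw [← smul_mul', h]⟩

theorem h85_map_mem_fracSubring (hD : h85_Data K Γ t ι A) (f : F) : ι f ∈ h85_fracSubring A :=
  hD.frac f

/-- Invariant elements of the fraction subring come from `K(t)`. -/
theorem h85_invariant_mem' (hD : h85_Data K Γ t ι A) {y : M} (hy : ∀ γ : Γ, γ • y = y)
    (hyA : y ∈ h85_fracSubring A) : ∃ e : K⟮t⟯, ι (e : F) = y := by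
  obtain ⟨a, ha, b, hb, hb0, h⟩ := hyA
  exact h85_invariant_mem hD hy ha hb hb0 h

section Conj

variable (H : Subgroup Γ)

/-- Coset representatives act compatibly on elements fixed by `H`. -/
theorem h85_out_smul (γ : Γ) (x : Γ ⧸ H) {y : M} (hy : ∀ h ∈ H, h • y = y) :
    (γ • x).out • y = γ • (x.out • y) := by
  have h1 : (QuotientGroup.mk ((γ • x).out) : Γ ⧸ H) = QuotientGroup.mk (γ * x.out) := by
    rw [QuotientGroup.out_eq']
    conv_lhs => rw [← QuotientGroup.out_eq' x]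
    rfl
  have h2 : ((γ • x).out)⁻¹ * (γ * x.out) ∈ H := QuotientGroup.eq.mp h1
  have h3 := hy _ h2
  calc (γ • x).out • y = (γ • x).out • ((((γ • x).out)⁻¹ * (γ * x.out)) • y) := by rw [h3]
    _ = ((γ • x).out * (((γ • x).out)⁻¹ * (γ * x.out))) • y := (mul_smul _ _ _).symm
    _ = (γ * x.out) • y := by rw [mul_inv_cancel_left]
    _ = γ • (x.out • y) := mul_smul _ _ _

theorem h85_one_out_mem : ((QuotientGroup.mk (1 : Γ) : Γ ⧸ H)).out ∈ H := by
  have h1 : (QuotientGroup.mk ((QuotientGroup.mk (1 : Γ) : Γ ⧸ H).out) : Γ ⧸ H)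
      = QuotientGroup.mk 1 := QuotientGroup.out_eq' _
  have h2 := QuotientGroup.eq.mp h1
  rw [mul_one] at h2
  exact inv_mem_iff.mp h2

variable [Fintype (Γ ⧸ H)]

/-- The polynomial whose roots are the conjugates `x.out • y`, `x : Γ ⧸ H`. -/
noncomputable def h85_conjPoly (y : M) : M[X] := ∏ x : Γ ⧸ H, (X - C (x.out • y))

theorem h85_conjPoly_monic (y : M) : (h85_conjPoly H y).Monic :=
  monic_prod_of_monic _ _ fun _ _ => monic_X_sub_C _

theorem h85_conjPoly_natDegree (y : M) : (h85_conjPoly H y).natDegree = Fintype.card (Γ ⧸ H) := by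
  rw [h85_conjPoly, natDegree_prod_of_monic _ _ fun _ _ => monic_X_sub_C _]
  simp

theorem h85_conjPoly_eval_self {y : M} (hy : ∀ h ∈ H, h • y = y) :
    (h85_conjPoly H y).eval y = 0 := by
  rw [h85_conjPoly, eval_prod]
  refine Finset.prod_eq_zero (Finset.mem_univ (QuotientGroup.mk (1 : Γ) : Γ ⧸ H)) ?_
  rw [eval_sub, eval_X, eval_C, hy _ (h85_one_out_mem H), sub_self]

theorem h85_conjPoly_map {y : M} (hy : ∀ h ∈ H, h • y = y) (γ : Γ) :
    (h85_conjPoly H y).map (MulSemiringAction.toRingHom Γ M γ) = h85_conjPoly H y := by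
  rw [h85_conjPoly, Polynomial.map_prod]
  simp only [Polynomial.map_sub, map_X, map_C, MulSemiringAction.toRingHom_apply]
  rw [← Equiv.prod_comp (MulAction.toPerm γ : Equiv.Perm (Γ ⧸ H))
    (fun x : Γ ⧸ H => (X - C (x.out • y) : M[X]))]
  refine Finset.prod_congr rfl fun x _ => ?_
  rw [MulAction.toPerm_apply, h85_out_smul H γ x hy]

theorem h85_conjPoly_coeff_smul {y : M} (hy : ∀ h ∈ H, h • y = y) (γ : Γ) (n : ℕ) :
    γ • (h85_conjPoly H y).coeff n = (h85_conjPoly H y).coeff n := by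
  conv_rhs => rw [← h85_conjPoly_map H hy γ]
  rw [coeff_map, MulSemiringAction.toRingHom_apply]

theorem h85_conjPoly_coeff_mem (S : Subring M) {y : M} (hy : ∀ γ : Γ, γ • y ∈ S) (n : ℕ) :
    (h85_conjPoly H y).coeff n ∈ S := by
  have h1 : h85_conjPoly H y
      = (∏ x : Γ ⧸ H, (X - C (⟨x.out • y, hy _⟩ : S) : S[X])).map S.subtype := by
    rw [h85_conjPoly, Polynomial.map_prod]
    simp
  rw [h1, coeff_map]
  exact Subtype.property _

/-- The conjugate polynomial of `ι f` descends to `K(t)`. -/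
theorem h85_conjPoly_lifts (hD : h85_Data K Γ t ι A)
    (hH : ∀ γ ∈ H, ∀ f : F, γ • ι f = ι f) (f : F) :
    ∃ p : K⟮t⟯[X], p.map (ι.comp (algebraMap K⟮t⟯ F)) = h85_conjPoly H (ι f) ∧ p.Monic ∧
      p.natDegree = Fintype.card (Γ ⧸ H) := by
  have hy : ∀ h ∈ H, h • ι f = ι f := fun h hh => hH h hh f
  have hl : h85_conjPoly H (ι f) ∈ lifts (ι.comp (algebraMap K⟮t⟯ F)) := by
    rw [lifts_iff_coeff_lifts]
    intro n
    obtain ⟨e, he⟩ := h85_invariant_mem' hD (fun γ => h85_conjPoly_coeff_smul H hy γ n)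
      (h85_conjPoly_coeff_mem H (h85_fracSubring A)
        (fun γ => h85_smul_mem_fracSubring hD γ (hD.frac f)) n)
    exact ⟨e, he⟩
  obtain ⟨p, hp, hdeg, hmon⟩ := lifts_and_natDegree_eq_and_monic hl (h85_conjPoly_monic H _)
  exact ⟨p, hp, hmon, hdeg.trans (h85_conjPoly_natDegree H _)⟩

/-- Every element of `F` is integral over `K(t)` of degree at most the index. -/
theorem h85_isIntegral (hD : h85_Data K Γ t ι A)
    (hH : ∀ γ ∈ H, ∀ f : F, γ • ι f = ι f) (f : F) :
    IsIntegral K⟮t⟯ f ∧ (minpoly K⟮t⟯ f).natDegree ≤ Fintype.card (Γ ⧸ H) := by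
  obtain ⟨p, hp, hmon, hdeg⟩ := h85_conjPoly_lifts H hD hH f
  have hy : ∀ h ∈ H, h • ι f = ι f := fun h hh => hH h hh f
  have hroot : aeval f p = 0 := by
    apply ι.injective
    rw [map_zero]
    have h1 : ι (aeval f p) = (p.map (ι.comp (algebraMap K⟮t⟯ F))).eval (ι f) := by
      rw [eval_map, aeval_def, hom_eval₂]
    rw [h1, hp, h85_conjPoly_eval_self H hy]
  refine ⟨⟨p, hmon, hroot⟩, ?_⟩
  rw [← hdeg]
  exact natDegree_le_of_dvd (minpoly.dvd _ _ hroot) hmon.ne_zero

theorem h85_finiteDimensional [CharZero K] (hD : h85_Data K Γ t ι A)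
    (hH : ∀ γ ∈ H, ∀ f : F, γ • ι f = ι f) : FiniteDimensional K⟮t⟯ F := by
  haveI : Algebra.IsAlgebraic K⟮t⟯ F := ⟨fun f => (h85_isIntegral H hD hH f).1.isAlgebraic⟩
  haveI : CharZero K⟮t⟯ := charZero_of_injective_algebraMap (algebraMap K K⟮t⟯).injective
  by_contra hnfd
  obtain ⟨L, hLfin, hL⟩ :=
    IntermediateField.exists_lt_finrank_of_infinite_dimensional hnfd (Fintype.card (Γ ⧸ H))
  haveI := hLfin
  obtain ⟨θ, hθ⟩ := Field.exists_primitive_element K⟮t⟯ L
  have h1 : Module.finrank K⟮t⟯ L = (minpoly K⟮t⟯ θ).natDegree := by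
    rw [← IntermediateField.adjoin.finrank (Algebra.IsIntegral.isIntegral θ), hθ,
      IntermediateField.finrank_top']
  have h2 : minpoly K⟮t⟯ (θ : F) = minpoly K⟮t⟯ θ :=
    minpoly.algebraMap_eq (algebraMap L F).injective θ
  have h3 := (h85_isIntegral H hD hH (θ : F)).2
  rw [h2, ← h1] at h3
  omega

theorem h85_finrank_le [CharZero K] (hD : h85_Data K Γ t ι A)
    (hH : ∀ γ ∈ H, ∀ f : F, γ • ι f = ι f) :
    Module.finrank K⟮t⟯ F ≤ Fintype.card (Γ ⧸ H) := by
  haveI := h85_finiteDimensional H hD hH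
  haveI : CharZero K⟮t⟯ := charZero_of_injective_algebraMap (algebraMap K K⟮t⟯).injective
  obtain ⟨θ, hθ⟩ := Field.exists_primitive_element K⟮t⟯ F
  have h1 : Module.finrank K⟮t⟯ F = (minpoly K⟮t⟯ θ).natDegree := by
    rw [← IntermediateField.adjoin.finrank (Algebra.IsIntegral.isIntegral θ), hθ,
      IntermediateField.finrank_top']
  rw [h1]
  exact (h85_isIntegral H hD hH θ).2

/-- The family of conjugate embeddings `f ↦ x.out • ι f`. -/
noncomputable def h85_conjHom (ι : F →+* M) (x : Γ ⧸ H) : F →+* M :=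
  (MulSemiringAction.toRingHom Γ M x.out).comp ι

omit [Fintype (Γ ⧸ H)] in
theorem h85_conjHom_apply (x : Γ ⧸ H) (f : F) : h85_conjHom H ι x f = x.out • ι f := rfl

omit [Fintype (Γ ⧸ H)] in
theorem h85_conjHom_injective (hH : ∀ γ : Γ, γ ∈ H ↔ ∀ f : F, γ • ι f = ι f) :
    Function.Injective (h85_conjHom H ι) := by
  intro x y hxy
  have h1 : ∀ f : F, x.out • ι f = y.out • ι f := fun f => by
    have := congrArg (fun s : F →+* M => s f) hxy
    exact this
  have h2 : (x.out)⁻¹ * y.out ∈ H := by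
    rw [hH]
    intro f
    rw [mul_smul, ← h1 f, inv_smul_smul]
  have h3 : (QuotientGroup.mk x.out : Γ ⧸ H) = QuotientGroup.mk y.out := QuotientGroup.eq.mpr h2
  rwa [QuotientGroup.out_eq', QuotientGroup.out_eq'] at h3

/-- **Degree = index.** -/
theorem h85_finrank [CharZero K] (hD : h85_Data K Γ t ι A)
    (hH : ∀ γ : Γ, γ ∈ H ↔ ∀ f : F, γ • ι f = ι f) :
    Module.finrank K⟮t⟯ F = Fintype.card (Γ ⧸ H) := by
  have hH' : ∀ γ ∈ H, ∀ f : F, γ • ι f = ι f := fun γ hγ => (hH γ).mp hγ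
  haveI := h85_finiteDimensional H hD hH'
  haveI : CharZero K⟮t⟯ := charZero_of_injective_algebraMap (algebraMap K K⟮t⟯).injective
  refine le_antisymm (h85_finrank_le H hD hH') ?_
  refine (h85_norm_of_embeddings (E := K⟮t⟯) (h85_conjHom H ι) (h85_conjHom_injective H hH) ?_).1
  intro x y e
  show x.out • ι (e : F) = y.out • ι (e : F)
  rw [h85_fix_adjoin hD, h85_fix_adjoin hD]

/-- **Norm = product of the conjugates.** -/
theorem h85_norm [CharZero K] (hD : h85_Data K Γ t ι A)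
    (hH : ∀ γ : Γ, γ ∈ H ↔ ∀ f : F, γ • ι f = ι f) (f : F) :
    ι (algebraMap K⟮t⟯ F (Algebra.norm K⟮t⟯ f)) = ∏ x : Γ ⧸ H, (x.out • ι f) := by
  have hH' : ∀ γ ∈ H, ∀ f : F, γ • ι f = ι f := fun γ hγ => (hH γ).mp hγ
  haveI := h85_finiteDimensional H hD hH'
  haveI : CharZero K⟮t⟯ := charZero_of_injective_algebraMap (algebraMap K K⟮t⟯).injective
  have hE : ∀ (x y : Γ ⧸ H) (e : K⟮t⟯), h85_conjHom H ι x (algebraMap K⟮t⟯ F e)
      = h85_conjHom H ι y (algebraMap K⟮t⟯ F e) := by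
    intro x y e
    show x.out • ι (e : F) = y.out • ι (e : F)
    rw [h85_fix_adjoin hD, h85_fix_adjoin hD]
  have h1 := (h85_norm_of_embeddings (E := K⟮t⟯) (h85_conjHom H ι)
    (h85_conjHom_injective H hH) hE).2 (h85_finrank H hD hH).symm (QuotientGroup.mk 1) f
  rw [h85_conjHom_apply] at h1
  have h2 := h85_fix_adjoin hD ((QuotientGroup.mk (1 : Γ) : Γ ⧸ H)).out (Algebra.norm K⟮t⟯ f)
  exact h2.symm.trans h1

end Conj

end Main

end Fermat.Agent.S24
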