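import Mathlib
import Fermat.Prelude.Def_ModularCurve_GenusNumerics

/-!
# Coset combinatorics for `SL(2, ℤ) ⧸ Γ₀(N)` : basic tools (helper29)

Everything is phrased through the first column `(g 0 0, g 1 0)` of a matrix `g`:
`g Γ₀(N) = g' Γ₀(N)` iff `N ∣ g 0 0 * g' 1 0 - g' 0 0 * g 1 0`.
-/

open Matrix Matrix.SpecialLinearGroup CongruenceSubgroup
open scoped MatrixGroups

namespace Fermat.Agent.S24

theorem h29_inv_mul_10 (g g' : SL(2, ℤ)) :
    (g⁻¹ * g') 1 0 = g 0 0 * g' 1 0 - g' 0 0 * g 1 0 := by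
  have h : ((g⁻¹ * g' : SL(2, ℤ)) : Matrix (Fin 2) (Fin 2) ℤ) =
      (g⁻¹ : SL(2, ℤ)).1 * g'.1 := rfl
  rw [h, SL2_inv_expl, Matrix.mul_apply, Fin.sum_univ_two]
  simp
  ring

/-- Two cosets of `Γ₀(N)` agree iff the first columns are proportional mod `N`. -/
theorem h29_coset_eq_iff (N : ℕ) (g g' : SL(2, ℤ)) :
    ((g : SL(2, ℤ) ⧸ Gamma0 N) = (g' : SL(2, ℤ) ⧸ Gamma0 N)) ↔
      (N : ℤ) ∣ g 0 0 * g' 1 0 - g' 0 0 * g 1 0 := by
  rw [QuotientGroup.eq, Gamma0_mem, h29_inv_mul_10, ZMod.intCast_zmod_eq_zero_iff_dvd]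

theorem h29_mul_00 (h g : SL(2, ℤ)) : (h * g) 0 0 = h 0 0 * g 0 0 + h 0 1 * g 1 0 := by
  have e : ((h * g : SL(2, ℤ)) : Matrix (Fin 2) (Fin 2) ℤ) = h.1 * g.1 := rfl
  rw [e, Matrix.mul_apply, Fin.sum_univ_two]

theorem h29_mul_10 (h g : SL(2, ℤ)) : (h * g) 1 0 = h 1 0 * g 0 0 + h 1 1 * g 1 0 := by
  have e : ((h * g : SL(2, ℤ)) : Matrix (Fin 2) (Fin 2) ℤ) = h.1 * g.1 := rfl
  rw [e, Matrix.mul_apply, Fin.sum_univ_two]

theorem h29_isCoprime_col (g : SL(2, ℤ)) : IsCoprime (g 0 0) (g 1 0) := by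
  have h := g.det_coe
  rw [Matrix.det_fin_two] at h
  exact ⟨g 1 1, -g 0 1, by linarith⟩

theorem h29_smul_mk (N : ℕ) (h g : SL(2, ℤ)) :
    h • (g : SL(2, ℤ) ⧸ Gamma0 N) = ((h * g : SL(2, ℤ)) : SL(2, ℤ) ⧸ Gamma0 N) := rfl

/-- `h` fixes the coset `g Γ₀(N)` iff an explicit quadratic form in the first column of `g`
vanishes mod `N`. -/
theorem h29_smul_coset_eq_iff (N : ℕ) (h g : SL(2, ℤ)) :
    h • (g : SL(2, ℤ) ⧸ Gamma0 N) = g ↔
      (N : ℤ) ∣ (h 0 0 * g 0 0 + h 0 1 * g 1 0) * g 1 0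
        - g 0 0 * (h 1 0 * g 0 0 + h 1 1 * g 1 0) := by
  rw [h29_smul_mk, h29_coset_eq_iff, h29_mul_00, h29_mul_10]

/-- The matrix `[t, -1; 1, 0]`, with first column `(t, 1)`. -/
def h29_M (t : ℤ) : SL(2, ℤ) := ⟨!![t, -1; 1, 0], by simp [Matrix.det_fin_two]⟩

@[simp] theorem h29_M_00 (t : ℤ) : h29_M t 0 0 = t := rfl
@[simp] theorem h29_M_10 (t : ℤ) : h29_M t 1 0 = 1 := rfl

/-- Burnside for the cyclic group generated by `g` of finite order `n`. -/
theorem h29_burnside {G X : Type*} [Group G] [MulAction G X] [Finite X] (g : G) (n : ℕ)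
    (hn : orderOf g = n) (hpos : 0 < n) :
    n * Nat.card (MulAction.orbitRel.Quotient (Subgroup.zpowers g) X) =
      ∑ i ∈ Finset.range n, Nat.card (MulAction.fixedBy X (g ^ i)) := by
  classical
  subst hn
  have hfin : IsOfFinOrder g := orderOf_pos_iff.mp hpos
  letI : Fintype (Subgroup.zpowers g) := Fintype.ofEquiv _ (finEquivZPowers hfin)
  letI : Fintype X := Fintype.ofFinite X
  letI : Fintype (Quotient (MulAction.orbitRel (Subgroup.zpowers g) X)) := Fintype.ofFinite _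
  have hB := MulAction.sum_card_fixedBy_eq_card_orbits_mul_card_group (Subgroup.zpowers g) X
  have hc : Fintype.card (Subgroup.zpowers g) = orderOf g := by
    rw [← Nat.card_eq_fintype_card, Nat.card_zpowers]
  rw [hc] at hB
  have e1 : Nat.card (MulAction.orbitRel.Quotient (Subgroup.zpowers g) X) =
      Fintype.card (Quotient (MulAction.orbitRel (Subgroup.zpowers g) X)) :=
    Nat.card_eq_fintype_card
  rw [e1, mul_comm, ← hB, Finset.sum_range, ← Equiv.sum_comp (finEquivZPowers hfin)]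
  refine Finset.sum_congr rfl fun i _ => ?_
  rw [Nat.card_eq_fintype_card]
  rfl

theorem h29_card_fixedBy_of_trivial {G X : Type*} [Group G] [MulAction G X] (g : G)
    (h : ∀ x : X, g • x = x) : Nat.card (MulAction.fixedBy X g) = Nat.card X := by
  have : MulAction.fixedBy X g = Set.univ := Set.eq_univ_of_forall fun x => h x
  rw [this]
  exact Nat.card_congr (Equiv.Set.univ X)

end Fermat.Agent.S24
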