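import Mathlib
import Fermat.Agent.S24.h29_Basic

/-!
# Cusp order functions: the abstract adapter (helper14)

`X := SL(2, ℤ) ⧸ Γ₀(N)` (left cosets, left multiplication action).  Given a family of field
embeddings `ψ g : F →+* LaurentSeries ℂ` (to be thought of as `f ↦` the `q_N`-expansion of
`ev(f) ∘ g⁻¹`), compatible with right multiplication by `Γ₀(N)` and transforming under left
multiplication by `T` through a twist of the coefficients by powers of a primitive `N`-th root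
of unity, we produce the order functions `w x f := (ψ x.out f).order` on the cosets and prove
the valuation axioms, invariance under `T`, and the divisibility of the orders by
`N / (size of the T-orbit of x)`.
-/

set_option autoImplicit false

open Matrix Matrix.SpecialLinearGroup CongruenceSubgroup
open scoped MatrixGroups

namespace Fermat.Agent.S24

/-- Two Laurent series with the same vanishing pattern of coefficients have the same order. -/
theorem h14_order_eq_of_coeff {x y : LaurentSeries ℂ}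
    (h : ∀ k : ℤ, x.coeff k = 0 ↔ y.coeff k = 0) : x.order = y.order := by
  by_cases hx : x = 0
  · have hy : y = 0 := by
      ext k
      have := (h k).mp (by simp [hx])
      simpa using this
    simp [hx, hy]
  · have hy : y ≠ 0 := by
      intro hy
      apply hx
      ext k
      have := (h k).mpr (by simp [hy])
      simpa using this
    apply le_antisymm
    · refine HahnSeries.order_le_of_coeff_ne_zero fun h0 => ?_
      exact hy (HahnSeries.coeff_order_eq_zero.mp ((h _).mp h0))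
    · refine HahnSeries.order_le_of_coeff_ne_zero fun h0 => ?_
      exact hx (HahnSeries.coeff_order_eq_zero.mp ((h _).mpr h0))

/-- `T ^ N` fixes every coset of `Γ₀(N)`. -/
theorem h14_T_pow_smul (N : ℕ) (x : SL(2, ℤ) ⧸ Gamma0 N) :
    (ModularGroup.T ^ N) • x = x := by
  induction x using QuotientGroup.induction_on with
  | H g =>
    rw [h29_smul_coset_eq_iff]
    have hT : ((ModularGroup.T ^ N : SL(2, ℤ)) : Matrix (Fin 2) (Fin 2) ℤ) = !![1, (N : ℤ); 0, 1] := by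
      have := ModularGroup.coe_T_zpow (N : ℤ)
      simpa using this
    have h00 : (ModularGroup.T ^ N : SL(2, ℤ)) 0 0 = 1 := by
      have := congrFun (congrFun hT 0) 0; simpa using this
    have h01 : (ModularGroup.T ^ N : SL(2, ℤ)) 0 1 = N := by
      have := congrFun (congrFun hT 0) 1; simpa using this
    have h10 : (ModularGroup.T ^ N : SL(2, ℤ)) 1 0 = 0 := by
      have := congrFun (congrFun hT 1) 0; simpa using this
    have h11 : (ModularGroup.T ^ N : SL(2, ℤ)) 1 1 = 1 := by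
      have := congrFun (congrFun hT 1) 1; simpa using this
    rw [h00, h01, h10, h11]
    exact ⟨g 1 0 * g 1 0, by ring⟩

/-- The size of the `T`-orbit of a coset (as a minimal period) divides `N`. -/
theorem h14_minimalPeriod_dvd (N : ℕ) (x : SL(2, ℤ) ⧸ Gamma0 N) :
    Function.minimalPeriod (fun y : SL(2, ℤ) ⧸ Gamma0 N => ModularGroup.T • y) x ∣ N := by
  apply Function.IsPeriodicPt.minimalPeriod_dvd
  show (fun y : SL(2, ℤ) ⧸ Gamma0 N => ModularGroup.T • y)^[N] x = x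
  rw [smul_iterate]
  exact h14_T_pow_smul N x

theorem h14_minimalPeriod_pos (N : ℕ) [NeZero N] (x : SL(2, ℤ) ⧸ Gamma0 N) :
    0 < Function.minimalPeriod (fun y : SL(2, ℤ) ⧸ Gamma0 N => ModularGroup.T • y) x :=
  Nat.pos_of_dvd_of_pos (h14_minimalPeriod_dvd N x) (Nat.pos_of_ne_zero (NeZero.ne N))

theorem h14_T_pow_minimalPeriod_smul (N : ℕ) (x : SL(2, ℤ) ⧸ Gamma0 N) :
    (ModularGroup.T ^ Function.minimalPeriod
      (fun y : SL(2, ℤ) ⧸ Gamma0 N => ModularGroup.T • y) x) • x = x := by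
  have h := Function.iterate_minimalPeriod
    (f := fun y : SL(2, ℤ) ⧸ Gamma0 N => ModularGroup.T • y) (x := x)
  rwa [smul_iterate] at h

section Abstract

variable {N : ℕ} {F : Type*} [Field F]
  (ψ : SL(2, ℤ) → (F →+* LaurentSeries ℂ)) (ζ : ℂ)

/-- The order function attached to a matrix. -/
noncomputable def h14_cuspOrd (g : SL(2, ℤ)) (f : F) : ℤ := (ψ g f).order

/-- The order function attached to a coset (through `Quotient.out`). -/
noncomputable def h14_cuspW (x : SL(2, ℤ) ⧸ Gamma0 N) (f : F) : ℤ :=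
  h14_cuspOrd ψ (Quotient.out x) f

variable {ψ}

theorem h14_cuspOrd_mul (g : SL(2, ℤ)) {f₁ f₂ : F} (h₁ : f₁ ≠ 0) (h₂ : f₂ ≠ 0) :
    h14_cuspOrd ψ g (f₁ * f₂) = h14_cuspOrd ψ g f₁ + h14_cuspOrd ψ g f₂ := by
  unfold h14_cuspOrd
  rw [map_mul]
  exact HahnSeries.order_mul ((map_ne_zero (ψ g)).mpr h₁) ((map_ne_zero (ψ g)).mpr h₂)

theorem h14_cuspOrd_add (g : SL(2, ℤ)) {f₁ f₂ : F} (h : f₁ + f₂ ≠ 0) :
    min (h14_cuspOrd ψ g f₁) (h14_cuspOrd ψ g f₂) ≤ h14_cuspOrd ψ g (f₁ + f₂) := by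
  unfold h14_cuspOrd
  rw [map_add]
  refine HahnSeries.min_order_le_order_add ?_
  rw [← map_add]
  exact (map_ne_zero (ψ g)).mpr h

theorem h14_cuspOrd_one (g : SL(2, ℤ)) : h14_cuspOrd ψ g (1 : F) = 0 := by
  unfold h14_cuspOrd
  rw [map_one]
  exact HahnSeries.order_one

theorem h14_cuspOrd_inv (g : SL(2, ℤ)) (f : F) :
    h14_cuspOrd ψ g f⁻¹ = - h14_cuspOrd ψ g f := by
  rcases eq_or_ne f 0 with rfl | hf
  · simp [h14_cuspOrd]
  · have h := h14_cuspOrd_mul (ψ := ψ) g hf (inv_ne_zero hf)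
    rw [mul_inv_cancel₀ hf, h14_cuspOrd_one] at h
    linarith

/-- (a) ⟹ the order function only depends on the coset. -/
theorem h14_cuspOrd_mul_right
    (ha : ∀ g h : SL(2, ℤ), h ∈ Gamma0 N → ψ (g * h) = ψ g)
    (g h : SL(2, ℤ)) (hh : h ∈ Gamma0 N) (f : F) :
    h14_cuspOrd ψ (g * h) f = h14_cuspOrd ψ g f := by
  unfold h14_cuspOrd
  rw [ha g h hh]

theorem h14_psi_eq_of_coset
    (ha : ∀ g h : SL(2, ℤ), h ∈ Gamma0 N → ψ (g * h) = ψ g)
    {g g' : SL(2, ℤ)} (h : (g : SL(2, ℤ) ⧸ Gamma0 N) = (g' : SL(2, ℤ) ⧸ Gamma0 N)) :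
    ψ g = ψ g' := by
  have hmem : g⁻¹ * g' ∈ Gamma0 N := QuotientGroup.eq.mp h
  have := ha g (g⁻¹ * g') hmem
  rw [mul_inv_cancel_left] at this
  exact this.symm

theorem h14_psi_out
    (ha : ∀ g h : SL(2, ℤ), h ∈ Gamma0 N → ψ (g * h) = ψ g) (g : SL(2, ℤ)) :
    ψ (Quotient.out (g : SL(2, ℤ) ⧸ Gamma0 N)) = ψ g :=
  h14_psi_eq_of_coset ha (QuotientGroup.out_eq' _)

theorem h14_cuspW_mk
    (ha : ∀ g h : SL(2, ℤ), h ∈ Gamma0 N → ψ (g * h) = ψ g) (g : SL(2, ℤ)) (f : F) :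
    h14_cuspW (N := N) ψ (g : SL(2, ℤ) ⧸ Gamma0 N) f = h14_cuspOrd ψ g f := by
  unfold h14_cuspW h14_cuspOrd
  rw [h14_psi_out ha g]

/-- (V) multiplicativity. -/
theorem h14_cuspW_mul (x : SL(2, ℤ) ⧸ Gamma0 N) {f₁ f₂ : F} (h₁ : f₁ ≠ 0) (h₂ : f₂ ≠ 0) :
    h14_cuspW ψ x (f₁ * f₂) = h14_cuspW ψ x f₁ + h14_cuspW ψ x f₂ :=
  h14_cuspOrd_mul _ h₁ h₂

/-- (V) ultrametric inequality. -/
theorem h14_cuspW_add (x : SL(2, ℤ) ⧸ Gamma0 N) {f₁ f₂ : F} (h : f₁ + f₂ ≠ 0) :
    min (h14_cuspW ψ x f₁) (h14_cuspW ψ x f₂) ≤ h14_cuspW ψ x (f₁ + f₂) :=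
  h14_cuspOrd_add _ h

theorem h14_cuspW_inv (x : SL(2, ℤ) ⧸ Gamma0 N) (f : F) :
    h14_cuspW ψ x f⁻¹ = - h14_cuspW ψ x f :=
  h14_cuspOrd_inv _ f

/-- (V) triviality on constants. -/
theorem h14_cuspW_const {K : Type*} [Field K] [Algebra K F] (ι : K →+* ℂ)
    (hd : ∀ (g : SL(2, ℤ)) (c : K), ψ g (algebraMap K F c) = HahnSeries.C (ι c))
    (x : SL(2, ℤ) ⧸ Gamma0 N) (c : K) :
    h14_cuspW ψ x (algebraMap K F c) = 0 := by
  unfold h14_cuspW h14_cuspOrd
  rw [hd]
  exact HahnSeries.order_C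

/-- (E): if `ψ g t` has order `-N` then `t⁻¹` has order `N` at every coset. -/
theorem h14_cuspW_inv_t {t : F} (hc : ∀ g : SL(2, ℤ), (ψ g t).order = -(N : ℤ))
    (x : SL(2, ℤ) ⧸ Gamma0 N) : h14_cuspW ψ x t⁻¹ = N := by
  rw [h14_cuspW_inv]
  unfold h14_cuspW h14_cuspOrd
  rw [hc]
  simp

/-- iterating (b). -/
theorem h14_psi_T_pow
    (hb : ∀ (g : SL(2, ℤ)) (f : F) (k : ℤ),
      (ψ (ModularGroup.T * g) f).coeff k = ζ ^ k * (ψ g f).coeff k)
    (n : ℕ) (g : SL(2, ℤ)) (f : F) (k : ℤ) :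
    (ψ (ModularGroup.T ^ n * g) f).coeff k = ζ ^ ((n : ℤ) * k) * (ψ g f).coeff k := by
  induction n with
  | zero => simp
  | succ n ih =>
    rw [pow_succ', mul_assoc, hb, ih, ← mul_assoc, ← zpow_add' ?_]
    · congr 2
      push_cast
      ring
    · by_cases hk : k = 0
      · right; right
        subst hk
        simp
      · right; left
        intro h0
        have : ((n : ℤ) + 1) * k = 0 := by linarith
        rcases mul_eq_zero.mp this with h | h
        · omega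
        · exact hk h

/-- (G): the order functions are invariant under `x ↦ T • x`. -/
theorem h14_cuspW_T_smul (hζ0 : ζ ≠ 0)
    (ha : ∀ g h : SL(2, ℤ), h ∈ Gamma0 N → ψ (g * h) = ψ g)
    (hb : ∀ (g : SL(2, ℤ)) (f : F) (k : ℤ),
      (ψ (ModularGroup.T * g) f).coeff k = ζ ^ k * (ψ g f).coeff k)
    (x : SL(2, ℤ) ⧸ Gamma0 N) (f : F) :
    h14_cuspW ψ (ModularGroup.T • x) f = h14_cuspW ψ x f := by
  induction x using QuotientGroup.induction_on with
  | H g =>
    have e : ModularGroup.T • (g : SL(2, ℤ) ⧸ Gamma0 N)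
        = ((ModularGroup.T * g : SL(2, ℤ)) : SL(2, ℤ) ⧸ Gamma0 N) := rfl
    rw [e, h14_cuspW_mk ha, h14_cuspW_mk ha]
    unfold h14_cuspOrd
    apply h14_order_eq_of_coeff
    intro k
    rw [hb]
    simp [zpow_ne_zero k hζ0]

/-- (M): the orders at the coset `x` are divisible by `N / k`, `k` the size of the `T`-orbit
of `x`. -/
theorem h14_cuspW_dvd [NeZero N] (hζ : ∀ k : ℤ, ζ ^ k = 1 → (N : ℤ) ∣ k)
    (ha : ∀ g h : SL(2, ℤ), h ∈ Gamma0 N → ψ (g * h) = ψ g)
    (hb : ∀ (g : SL(2, ℤ)) (f : F) (k : ℤ),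
      (ψ (ModularGroup.T * g) f).coeff k = ζ ^ k * (ψ g f).coeff k)
    (x : SL(2, ℤ) ⧸ Gamma0 N) {f : F} (hf : f ≠ 0) :
    ((N / Function.minimalPeriod
      (fun y : SL(2, ℤ) ⧸ Gamma0 N => ModularGroup.T • y) x : ℕ) : ℤ) ∣ h14_cuspW ψ x f := by
  set p := Function.minimalPeriod (fun y : SL(2, ℤ) ⧸ Gamma0 N => ModularGroup.T • y) x with hp
  have hpN : p ∣ N := h14_minimalPeriod_dvd N x
  have hp0 : 0 < p := h14_minimalPeriod_pos N x
  have hfix : (ModularGroup.T ^ p) • x = x := h14_T_pow_minimalPeriod_smul N x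
  induction x using QuotientGroup.induction_on with
  | H g =>
    rw [h14_cuspW_mk ha]
    have e : (ModularGroup.T ^ p) • (g : SL(2, ℤ) ⧸ Gamma0 N)
        = ((ModularGroup.T ^ p * g : SL(2, ℤ)) : SL(2, ℤ) ⧸ Gamma0 N) := rfl
    rw [e] at hfix
    have hψ : ψ (ModularGroup.T ^ p * g) = ψ g := h14_psi_eq_of_coset ha hfix
    have hne : ψ g f ≠ 0 := (map_ne_zero (ψ g)).mpr hf
    have hcoeff : (ψ g f).coeff (ψ g f).order ≠ 0 := fun h0 =>
      hne (HahnSeries.coeff_order_eq_zero.mp h0)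
    have h1 := h14_psi_T_pow (ψ := ψ) (ζ := ζ) hb p g f (ψ g f).order
    rw [hψ] at h1
    have h2 : ζ ^ ((p : ℤ) * (ψ g f).order) = 1 := by
      have : (ζ ^ ((p : ℤ) * (ψ g f).order) - 1) * (ψ g f).coeff (ψ g f).order = 0 := by
        rw [sub_mul, one_mul, ← h1, sub_self]
      rcases mul_eq_zero.mp this with h | h
      · exact sub_eq_zero.mp h
      · exact absurd h hcoeff
    have h3 := hζ _ h2
    obtain ⟨m, hm⟩ := hpN
    have hm' : N / p = m := by rw [hm]; exact Nat.mul_div_cancel_left m hp0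
    rw [hm']
    unfold h14_cuspOrd
    rw [hm] at h3
    push_cast at h3
    exact (mul_dvd_mul_iff_left (by exact_mod_cast hp0.ne')).mp h3

/-- `N = (N / k) * k`. -/
theorem h14_div_mul_minimalPeriod (N : ℕ) (x : SL(2, ℤ) ⧸ Gamma0 N) :
    N / Function.minimalPeriod (fun y : SL(2, ℤ) ⧸ Gamma0 N => ModularGroup.T • y) x
      * Function.minimalPeriod (fun y : SL(2, ℤ) ⧸ Gamma0 N => ModularGroup.T • y) x = N :=
  Nat.div_mul_cancel (h14_minimalPeriod_dvd N x)

end Abstract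

end Fermat.Agent.S24
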