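import Mathlib

/-!
# S24: the abstract counting trick (helper30)

Pure algebra.  `A ⊆ B` a finite torsion-free extension, `B` a Dedekind domain with fraction
field `F`, `𝔭` a maximal ideal of `A` all of whose primes above have inertia degree one.
Given a family `w x : F → ℤ` (`x : X`, `card X = rank_A B`) of valuation-like functions
which are nonnegative on `A`, positive on `𝔭`, satisfy the norm identity and are
constant along the classes of a setoid `r` whose class sizes match the divisibility of the
values, the primes of `B` above `𝔭` are in bijection with the classes of `r`.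
-/

set_option autoImplicit false

namespace Fermat.Agent.S24

/-- `w : F → ℤ` behaves like an additive `ℤ`-valued valuation on the nonzero elements of `F`
(the value at `0` is unconstrained junk). -/
structure h30_IsVal {F : Type*} [Field F] (w : F → ℤ) : Prop where
  map_mul : ∀ f g : F, f ≠ 0 → g ≠ 0 → w (f * g) = w f + w g
  map_add : ∀ f g : F, f ≠ 0 → g ≠ 0 → f + g ≠ 0 → min (w f) (w g) ≤ w (f + g)

namespace h30_IsVal

variable {F : Type*} [Field F] {w : F → ℤ} (hw : h30_IsVal w)
include hw

theorem map_one : w 1 = 0 := by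
  have h := hw.map_mul 1 1 one_ne_zero one_ne_zero
  rw [mul_one] at h
  omega

theorem map_neg_one : w (-1) = 0 := by
  have h := hw.map_mul (-1) (-1) (by simp) (by simp)
  rw [neg_mul_neg, mul_one, hw.map_one] at h
  omega

theorem map_neg (f : F) (hf : f ≠ 0) : w (-f) = w f := by
  have h := hw.map_mul (-1) f (by simp) hf
  rw [neg_one_mul, hw.map_neg_one, zero_add] at h
  exact h

theorem map_pow (f : F) (hf : f ≠ 0) (n : ℕ) : w (f ^ n) = n * w f := by
  induction n with
  | zero => simp [hw.map_one]
  | succ n ih =>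
    rw [pow_succ, hw.map_mul _ _ (pow_ne_zero n hf) hf, ih]
    push_cast
    ring

theorem map_inv (f : F) (hf : f ≠ 0) : w f⁻¹ = - w f := by
  have h := hw.map_mul f f⁻¹ hf (inv_ne_zero hf)
  rw [mul_inv_cancel₀ hf, hw.map_one] at h
  omega

theorem le_sum {ι : Type*} (s : Finset ι) (f : ι → F) (c : ℤ)
    (h : ∀ i ∈ s, f i ≠ 0 → c ≤ w (f i)) (hs : ∑ i ∈ s, f i ≠ 0) :
    c ≤ w (∑ i ∈ s, f i) := by
  classical
  induction s using Finset.induction_on with
  | empty => simp at hs
  | insert a s ha ih =>
    rw [Finset.sum_insert ha] at hs ⊢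
    by_cases h1 : f a = 0
    · rw [h1, zero_add] at hs ⊢
      exact ih (fun i hi => h i (Finset.mem_insert_of_mem hi)) hs
    · by_cases h2 : ∑ i ∈ s, f i = 0
      · rw [h2, add_zero]
        exact h a (Finset.mem_insert_self a s) h1
      · have h3 := hw.map_add _ _ h1 h2 hs
        have h4 := h a (Finset.mem_insert_self a s) h1
        have h5 := ih (fun i hi => h i (Finset.mem_insert_of_mem hi)) h2
        exact le_trans (le_min h4 h5) h3

/-- An element integral over a ring on which `w` is nonnegative has nonnegative value. -/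
theorem nonneg_of_isIntegral {A : Type*} [CommRing A] [Algebra A F]
    (hA : ∀ s : A, algebraMap A F s ≠ 0 → 0 ≤ w (algebraMap A F s))
    {b : F} (hb : IsIntegral A b) (hb0 : b ≠ 0) : 0 ≤ w b := by
  by_contra hneg
  rw [not_le] at hneg
  obtain ⟨p, hmonic, hp⟩ := hb
  have hsum := hmonic.as_sum
  set n := p.natDegree with hn
  have hp' : b ^ n + ∑ i ∈ Finset.range n, algebraMap A F (p.coeff i) * b ^ i = 0 := by
    have := hp
    rw [hsum] at this
    simpa [Polynomial.eval₂_add, Polynomial.eval₂_pow, Polynomial.eval₂_finsetSum,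
      Polynomial.eval₂_mul] using this
  have hS : ∑ i ∈ Finset.range n, algebraMap A F (p.coeff i) * b ^ i = -(b ^ n) := by
    linear_combination hp'
  have hS0 : ∑ i ∈ Finset.range n, algebraMap A F (p.coeff i) * b ^ i ≠ 0 := by
    rw [hS]
    exact neg_ne_zero.mpr (pow_ne_zero n hb0)
  have key := hw.le_sum (Finset.range n) (fun i => algebraMap A F (p.coeff i) * b ^ i)
    (((n : ℤ) - 1) * w b) ?_ hS0
  · rw [hS, hw.map_neg _ (pow_ne_zero n hb0), hw.map_pow b hb0] at key
    nlinarith
  · intro i hi hne
    have hi' : i < n := Finset.mem_range.mp hi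
    have hc : algebraMap A F (p.coeff i) ≠ 0 := left_ne_zero_of_mul hne
    rw [hw.map_mul _ _ hc (pow_ne_zero i hb0), hw.map_pow b hb0]
    have h0 := hA _ hc
    have hi'' : (i : ℤ) ≤ (n : ℤ) - 1 := by omega
    nlinarith

end h30_IsVal

section Count

variable {B F : Type*} [CommRing B] [IsDomain B] [Field F] [Algebra B F] [IsFractionRing B F]

/-- The centre on `B` of a valuation-like function that is nonnegative on `B`. -/
def h30_centre (w : F → ℤ) (hw : h30_IsVal w)
    (hB : ∀ b : B, b ≠ 0 → 0 ≤ w (algebraMap B F b)) : Ideal B where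
  carrier := {b | b = 0 ∨ 0 < w (algebraMap B F b)}
  zero_mem' := Or.inl rfl
  add_mem' := by
    intro a b ha hb
    have hinjF : Function.Injective (algebraMap B F) := IsFractionRing.injective B F
    by_cases hab : a + b = 0
    · exact Or.inl hab
    right
    by_cases ha0 : a = 0
    · subst ha0
      rcases hb with rfl | hb
      · simp at hab
      · simpa using hb
    by_cases hb0 : b = 0
    · subst hb0
      rcases ha with rfl | ha
      · simp at hab
      · simpa using ha
    have ha' : 0 < w (algebraMap B F a) := ha.resolve_left ha0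
    have hb' : 0 < w (algebraMap B F b) := hb.resolve_left hb0
    have h := hw.map_add (algebraMap B F a) (algebraMap B F b)
      ((map_ne_zero_iff _ hinjF).mpr ha0) ((map_ne_zero_iff _ hinjF).mpr hb0)
      (by rw [← map_add]; exact (map_ne_zero_iff _ hinjF).mpr hab)
    rw [map_add]
    exact lt_of_lt_of_le (lt_min ha' hb') h
  smul_mem' := by
    intro c b hb
    have hinjF : Function.Injective (algebraMap B F) := IsFractionRing.injective B F
    by_cases hc0 : c = 0
    · left; simp [hc0]
    by_cases hb0 : b = 0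
    · left; simp [hb0]
    right
    have hb' : 0 < w (algebraMap B F b) := hb.resolve_left hb0
    rw [smul_eq_mul, map_mul, hw.map_mul _ _ ((map_ne_zero_iff _ hinjF).mpr hc0)
      ((map_ne_zero_iff _ hinjF).mpr hb0)]
    have := hB c hc0
    omega

omit [IsDomain B] in
theorem h30_mem_centre {w : F → ℤ} {hw : h30_IsVal w}
    {hB : ∀ b : B, b ≠ 0 → 0 ≤ w (algebraMap B F b)} {b : B} :
    b ∈ h30_centre w hw hB ↔ b = 0 ∨ 0 < w (algebraMap B F b) := Iff.rfl

theorem h30_centre_isPrime (w : F → ℤ) (hw : h30_IsVal w)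
    (hB : ∀ b : B, b ≠ 0 → 0 ≤ w (algebraMap B F b)) : (h30_centre w hw hB).IsPrime := by
  have hinjF : Function.Injective (algebraMap B F) := IsFractionRing.injective B F
  refine ⟨?_, ?_⟩
  · intro h
    have h1 : (1 : B) ∈ h30_centre w hw hB := by rw [h]; trivial
    rcases h30_mem_centre.mp h1 with h0 | h0
    · exact one_ne_zero h0
    · rw [map_one, hw.map_one] at h0
      exact lt_irrefl _ h0
  · intro a b hab
    by_cases ha0 : a = 0
    · left; exact h30_mem_centre.mpr (Or.inl ha0)
    by_cases hb0 : b = 0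
    · right; exact h30_mem_centre.mpr (Or.inl hb0)
    have h := (h30_mem_centre.mp hab).resolve_left (mul_ne_zero ha0 hb0)
    rw [map_mul, hw.map_mul _ _ ((map_ne_zero_iff _ hinjF).mpr ha0)
      ((map_ne_zero_iff _ hinjF).mpr hb0)] at h
    have h1 := hB a ha0
    have h2 := hB b hb0
    by_cases h3 : 0 < w (algebraMap B F a)
    · left; exact h30_mem_centre.mpr (Or.inr h3)
    · right; exact h30_mem_centre.mpr (Or.inr (by omega))

omit [IsDomain B] in
/-- Elements of the `n`-th power of the centre have value at least `n * d` if `d` divides all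
values. -/
theorem h30_le_of_mem_centre_pow (w : F → ℤ) (hw : h30_IsVal w)
    (hB : ∀ b : B, b ≠ 0 → 0 ≤ w (algebraMap B F b)) (d : ℕ)
    (hdvd : ∀ f : F, f ≠ 0 → (d : ℤ) ∣ w f) (n : ℕ) :
    ∀ b ∈ (h30_centre w hw hB) ^ n, b ≠ 0 → (n : ℤ) * d ≤ w (algebraMap B F b) := by
  have hinjF : Function.Injective (algebraMap B F) := IsFractionRing.injective B F
  induction n with
  | zero =>
    intro b _ hb
    simpa using hB b hb
  | succ n ih =>
    intro b hb
    rw [pow_succ'] at hb
    refine Submodule.mul_induction_on hb ?_ ?_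
    · intro a ha c hc hac
      have ha0 : a ≠ 0 := left_ne_zero_of_mul hac
      have hc0 : c ≠ 0 := right_ne_zero_of_mul hac
      have h1 : 0 < w (algebraMap B F a) := (h30_mem_centre.mp ha).resolve_left ha0
      have h2 : (d : ℤ) ≤ w (algebraMap B F a) :=
        Int.le_of_dvd h1 (hdvd _ ((map_ne_zero_iff _ hinjF).mpr ha0))
      have h3 := ih c hc hc0
      rw [map_mul, hw.map_mul _ _ ((map_ne_zero_iff _ hinjF).mpr ha0)
        ((map_ne_zero_iff _ hinjF).mpr hc0)]
      push_cast
      linarith
    · intro a c ha hc hac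
      by_cases ha0 : a = 0
      · subst ha0; rw [zero_add] at hac ⊢; exact hc hac
      by_cases hc0 : c = 0
      · subst hc0; rw [add_zero] at hac ⊢; exact ha hac
      have h := hw.map_add (algebraMap B F a) (algebraMap B F c)
        ((map_ne_zero_iff _ hinjF).mpr ha0) ((map_ne_zero_iff _ hinjF).mpr hc0)
        (by rw [← map_add]; exact (map_ne_zero_iff _ hinjF).mpr hac)
      rw [map_add]
      exact le_trans (le_min (ha ha0) (hc hc0)) h

end Count

section Main

open Ideal

attribute [local instance] FractionRing.liftAlgebra FractionRing.isScalarTower_liftAlgebra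

/-- **Counting trick.** The primes of `B` above `𝔭` are in bijection with the classes of `r`. -/
theorem h30_card_primesOver
    {A B F : Type*} [CommRing A] [IsDedekindDomain A]
    [CommRing B] [IsDedekindDomain B] [Algebra A B] [Module.Finite A B] [Module.IsTorsionFree A B]
    [Field F] [Algebra A F] [Algebra B F] [IsScalarTower A B F] [IsFractionRing B F]
    (𝔭 : Ideal A) [𝔭.IsMaximal]
    (hf : ∀ Q ∈ 𝔭.primesOver B, Q.inertiaDeg A = 1)
    {X : Type*} [Fintype X] [Nonempty X] (hX : Fintype.card X = Module.finrank A B)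
    (w : X → F → ℤ) (hw : ∀ x, h30_IsVal (w x))
    (hA : ∀ x (s : A), s ≠ 0 → 0 ≤ w x (algebraMap A F s))
    (h𝔭 : ∀ x (s : A), s ∈ 𝔭 → s ≠ 0 → 0 < w x (algebraMap A F s))
    (e₀ : ℕ) (ϖ : A) (hϖ : ϖ ∈ 𝔭) (hϖ0 : ϖ ≠ 0) (hwϖ : ∀ x, w x (algebraMap A F ϖ) = e₀)
    (hnorm : ∀ b : B, b ≠ 0 → ∀ x₀,
      w x₀ (algebraMap A F (Algebra.intNorm A B b)) = ∑ x, w x (algebraMap B F b))
    (d : X → ℕ) (hdvd : ∀ x (f : F), f ≠ 0 → (d x : ℤ) ∣ w x f)
    (r : Setoid X) (hr : ∀ x y, r x y → w x = w y)
    (hd : ∀ x, d x * Nat.card {y // r y x} = e₀) :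
    Nat.card (𝔭.primesOver B) = Nat.card (Quotient r) := by
  classical
  have h𝔭0 : 𝔭 ≠ ⊥ := fun h => hϖ0 (by simpa [h] using hϖ)
  have hinj : Function.Injective (algebraMap A B) := FaithfulSMul.algebraMap_injective A B
  have hinjF : Function.Injective (algebraMap B F) := IsFractionRing.injective B F
  have htower : ∀ s : A, algebraMap A F s = algebraMap B F (algebraMap A B s) :=
    fun s => IsScalarTower.algebraMap_apply A B F s
  have hne : ∀ b : B, b ≠ 0 → algebraMap B F b ≠ 0 :=
    fun b hb => (map_ne_zero_iff _ hinjF).mpr hb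
  -- `w` is nonnegative on `B`
  have hB : ∀ x (b : B), b ≠ 0 → 0 ≤ w x (algebraMap B F b) := by
    intro x b hb
    have hint : IsIntegral A (algebraMap B F b) :=
      (Algebra.IsIntegral.isIntegral (R := A) b).map (IsScalarTower.toAlgHom A B F)
    exact (hw x).nonneg_of_isIntegral
      (fun s hs => hA x s (fun h => hs (by simp [h]))) hint (hne b hb)
  have he₀ : 0 < e₀ := by
    obtain ⟨x⟩ := ‹Nonempty X›
    have h := h𝔭 x ϖ hϖ hϖ0
    rw [hwϖ x] at h
    exact_mod_cast h
  have hd0 : ∀ x, 0 < d x := by
    intro x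
    rcases Nat.eq_zero_or_pos (d x) with h | h
    · have := hd x
      rw [h, zero_mul] at this
      omega
    · exact h
  set P : X → Ideal B := fun x => h30_centre (w x) (hw x) (hB x) with hPdef
  have hPprime : ∀ x, (P x).IsPrime := fun x => h30_centre_isPrime (w x) (hw x) (hB x)
  have hPover : ∀ x, (P x).LiesOver 𝔭 := by
    intro x
    refine ⟨?_⟩
    have hle : 𝔭 ≤ (P x).under A := by
      intro s hs
      rw [Ideal.mem_under]
      by_cases hs0 : s = 0
      · exact h30_mem_centre.mpr (Or.inl (by simp [hs0]))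
      · refine h30_mem_centre.mpr (Or.inr ?_)
        rw [← htower]
        exact h𝔭 x s hs hs0
    have hne_top : (P x).under A ≠ ⊤ := by
      intro h
      have h1 : (1 : A) ∈ (P x).under A := by rw [h]; trivial
      rw [Ideal.mem_under, map_one] at h1
      exact (hPprime x).ne_top ((Ideal.eq_top_iff_one _).mpr h1)
    exact (‹𝔭.IsMaximal›.eq_of_le hne_top hle)
  have hPmem : ∀ x, P x ∈ 𝔭.primesOver B := fun x => ⟨hPprime x, hPover x⟩
  have hPcongr : ∀ x y, w x = w y → P x = P y := by
    intro x y hxy
    ext b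
    simp only [hPdef]
    rw [h30_mem_centre, h30_mem_centre, hxy]
  -- Step 1: every prime over `𝔭` is a centre
  have hsurj : ∀ Q ∈ 𝔭.primesOver B, ∃ x, Q = P x := by
    intro Q hQ
    by_contra hcon
    push Not at hcon
    have hQprime : Q.IsPrime := hQ.1
    have hQover : Q.LiesOver 𝔭 := hQ.2
    have hQ0 : Q ≠ ⊥ := by
      intro h
      have h1 : algebraMap A B ϖ ∈ Q := by
        rw [← Ideal.mem_under (A := A), ← hQover.over]; exact hϖ
      rw [h, Ideal.mem_bot] at h1
      exact hϖ0 (hinj (by rw [h1, map_zero]))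
    have hQmax : Q.IsMaximal := hQprime.isMaximal hQ0
    have hnot : ¬ ((Q : Set B) ⊆ ⋃ i ∈ ((Finset.univ : Finset X) : Set X), (P i : Set B)) := by
      intro hsub
      obtain ⟨x₁⟩ := ‹Nonempty X›
      rw [Ideal.subset_union_prime x₁ x₁ (fun i _ _ _ => hPprime i)] at hsub
      obtain ⟨i, _, hi⟩ := hsub
      exact hcon i (hQmax.eq_of_le (hPprime i).ne_top hi)
    rw [Set.not_subset] at hnot
    obtain ⟨h, hhQ, hh⟩ := hnot
    have hh' : ∀ x, h ∉ P x := by
      intro x hx
      apply hh
      simp only [Finset.coe_univ, Set.mem_univ, Set.iUnion_true, Set.mem_iUnion, SetLike.mem_coe]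
      exact ⟨x, hx⟩
    have hh0 : h ≠ 0 := fun h0 => hh' (Classical.arbitrary X) (by rw [h0]; exact zero_mem _)
    have hwh : ∀ x, w x (algebraMap B F h) = 0 := by
      intro x
      have h1 := hB x h hh0
      have h2 : ¬ 0 < w x (algebraMap B F h) := fun h3 => hh' x (h30_mem_centre.mpr (Or.inr h3))
      omega
    obtain ⟨x₀⟩ := ‹Nonempty X›
    have hN := hnorm h hh0 x₀
    rw [Finset.sum_eq_zero (fun x _ => hwh x)] at hN
    have hNmem : Algebra.intNorm A B h ∈ 𝔭 := by
      rw [hQover.over, Ideal.mem_under]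
      exact Ideal.mem_of_dvd Q (Algebra.dvd_algebraMap_intNorm_self A B h) hhQ
    have hN0 : Algebra.intNorm A B h ≠ 0 := by
      have : FiniteDimensional (FractionRing A) (FractionRing B) :=
        .of_isLocalization A B (nonZeroDivisors A)
      exact Algebra.intNorm_ne_zero.mpr hh0
    have := h𝔭 x₀ _ hNmem hN0
    omega
  -- the ramification bound
  have hram : ∀ x, 𝔭.ramificationIdx' (P x) * d x ≤ e₀ := by
    intro x
    have h1 : algebraMap A B ϖ ∈ (P x) ^ (𝔭.ramificationIdx' (P x)) :=
      Ideal.le_pow_ramificationIdx' (Ideal.mem_map_of_mem _ hϖ)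
    have h2 := h30_le_of_mem_centre_pow (w x) (hw x) (hB x) (d x) (hdvd x) _ _ h1
      (fun h => hϖ0 (hinj (by rw [h, map_zero])))
    rw [← htower, hwϖ x] at h2
    exact_mod_cast h2
  -- the fundamental identity
  have hfund : ∑ Q : 𝔭.primesOver B, Q.1.ramificationIdx A = Fintype.card X := by
    rw [hX, ← Ideal.sum_ramification_inertia_eq_finrank 𝔭 B]
    refine Finset.sum_congr rfl (fun Q _ => ?_)
    rw [hf Q.1 Q.2, mul_one]
  -- counting
  let g : X → 𝔭.primesOver B := fun x => ⟨P x, hPmem x⟩
  have hcard : Fintype.card X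
      = ∑ Q : 𝔭.primesOver B, (Finset.univ.filter (fun x => g x = Q)).card := by
    rw [← Finset.card_univ]
    exact Finset.card_eq_sum_card_fiberwise (fun x _ => Finset.mem_univ (g x))
  have hclass : ∀ x, Nat.card {y // r y x} = (Finset.univ.filter (fun y => r y x)).card := by
    intro x
    rw [Nat.card_eq_fintype_card, Fintype.card_subtype]
  have hsub : ∀ x, Finset.univ.filter (fun y => r y x) ⊆ Finset.univ.filter (fun y => g y = g x) := by
    intro x y hy
    rw [Finset.mem_filter] at hy ⊢
    exact ⟨Finset.mem_univ _, Subtype.ext (hPcongr y x (hr y x hy.2))⟩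
  have hle_class : ∀ x, (g x).1.ramificationIdx A ≤ (Finset.univ.filter (fun y => r y x)).card := by
    intro x
    have := hPprime x
    have := hPover x
    have h1 : 𝔭.ramificationIdx' (P x) = (P x).ramificationIdx A :=
      Ideal.ramificationIdx'_eq_ramificationIdx 𝔭 (P x) h𝔭0
    have h2 := hram x
    have h3 := hd x
    rw [hclass x] at h3
    show (P x).ramificationIdx A ≤ _
    rw [← h1]
    rw [← h3, mul_comm] at h2
    exact Nat.le_of_mul_le_mul_left h2 (hd0 x)
  have hle : ∀ Q ∈ (Finset.univ : Finset (𝔭.primesOver B)),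
      Q.1.ramificationIdx A ≤ (Finset.univ.filter (fun x => g x = Q)).card := by
    intro Q _
    obtain ⟨x, hx⟩ := hsurj Q.1 Q.2
    have hgx : g x = Q := Subtype.ext hx.symm
    rw [← hgx]
    exact le_trans (hle_class x) (Finset.card_le_card (hsub x))
  have heq := (Finset.sum_eq_sum_iff_of_le hle).mp (hfund.trans hcard)
  have hkey : ∀ x y, P x = P y → r y x := by
    intro x y hxy
    have h1 : (Finset.univ.filter (fun z => g z = g x)).card
        ≤ (Finset.univ.filter (fun z => r z x)).card := by
      rw [← heq (g x) (Finset.mem_univ _)]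
      exact hle_class x
    have h2 := Finset.eq_of_subset_of_card_le (hsub x) h1
    have h3 : y ∈ Finset.univ.filter (fun z => g z = g x) := by
      rw [Finset.mem_filter]
      exact ⟨Finset.mem_univ _, Subtype.ext hxy.symm⟩
    rw [← h2, Finset.mem_filter] at h3
    exact h3.2
  -- the bijection
  let φ : Quotient r → 𝔭.primesOver B :=
    Quotient.lift g (fun a b hab => Subtype.ext (hPcongr a b (hr a b hab)))
  have hφ : Function.Bijective φ := by
    constructor
    · intro a b
      induction a using Quotient.inductionOn with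
      | h a =>
        induction b using Quotient.inductionOn with
        | h b =>
          intro hab
          have : P a = P b := congrArg Subtype.val hab
          exact Quotient.sound (r.symm (hkey a b this))
    · intro Q
      obtain ⟨x, hx⟩ := hsurj Q.1 Q.2
      exact ⟨Quotient.mk r x, Subtype.ext hx.symm⟩
  exact (Nat.card_eq_of_bijective φ hφ).symm

end Main

end Fermat.Agent.S24
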