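import Mathlib
import Fermat.Prelude.Def_ModularCurve_ArithmeticGalois
import Fermat.Prelude.Thm_ModularCurve_coeffMap_qExpand

set_option autoImplicit false

namespace Fermat.Agent.S24

open ModularCurve

/-- Base change of a field generated by a set is generated by the image of that set. -/
theorem h59_laurentBaseChange_adjoin (L : Type*) [Field L] [Algebra ℚ L]
    (S : Set (LaurentSeries ℚ)) :
    laurentBaseChange L (IntermediateField.adjoin ℚ S) =
      IntermediateField.adjoin L (⇑(coeffEmb L) '' S) := by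
  apply le_antisymm
  · rw [laurentBaseChange, IntermediateField.adjoin_le_iff]
    rintro _ ⟨x, hx, rfl⟩
    induction hx using IntermediateField.adjoin_induction with
    | mem x hx => exact IntermediateField.subset_adjoin L _ ⟨x, hx, rfl⟩
    | algebraMap r =>
      have : coeffEmb L (algebraMap ℚ (LaurentSeries ℚ) r) =
          algebraMap L (LaurentSeries L) (algebraMap ℚ L r) := by
        rw [algebraMap_laurentSeries_eq_single, algebraMap_laurentSeries_eq_single, coeffEmb,
          coeffMap_single]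
      rw [this]
      exact IntermediateField.algebraMap_mem _ _
    | add x y _ _ hx hy => rw [map_add]; exact add_mem hx hy
    | inv x _ hx => rw [map_inv₀]; exact inv_mem hx
    | mul x y _ _ hx hy => rw [map_mul]; exact mul_mem hx hy
  · exact IntermediateField.adjoin.mono L _ _
      (Set.image_mono (IntermediateField.subset_adjoin ℚ S))

/-- The generators `j(q^d)`, `d ∣ N`, with coefficients in `L`. -/
def h59_gens (L : Type*) [Field L] [Algebra ℚ L] (N : ℕ) : Set (LaurentSeries L) :=
  {x | ∃ (d : ℕ) (_ : NeZero d), d ∣ N ∧ x = qExpand L d (coeffEmb L jq)}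

theorem h59_gens_eq_image (L : Type*) [Field L] [Algebra ℚ L] (N : ℕ) :
    h59_gens L N = ⇑(coeffEmb L) '' divisorExpansions N := by
  ext x
  constructor
  · rintro ⟨d, hd, hdN, rfl⟩
    exact ⟨qExpand ℚ d jq, ⟨d, hd, hdN, rfl⟩, coeffMap_qExpand _ d jq⟩
  · rintro ⟨y, ⟨d, hd, hdN, rfl⟩, rfl⟩
    exact ⟨d, hd, hdN, coeffMap_qExpand _ d jq⟩

theorem h59_mem_gens (L : Type*) [Field L] [Algebra ℚ L] {N d : ℕ} [NeZero d] (hd : d ∣ N) :
    qExpand L d (coeffEmb L jq) ∈ h59_gens L N :=
  ⟨d, inferInstance, hd, rfl⟩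

/-- The function field of the statement is generated over the algebraic closure of `ℚ` by the
series `j(q^d)`, `d ∣ N`. -/
theorem h59_modularFunctionFieldBar_eq (N : ℕ) :
    modularFunctionFieldBar N =
      IntermediateField.adjoin (AlgebraicClosure ℚ) (h59_gens (AlgebraicClosure ℚ) N) := by
  rw [h59_gens_eq_image]
  exact h59_laurentBaseChange_adjoin _ _

theorem h59_gen_mem_bar {N d : ℕ} [NeZero d] (hd : d ∣ N) :
    qExpand (AlgebraicClosure ℚ) d (coeffEmb (AlgebraicClosure ℚ) jq) ∈
      modularFunctionFieldBar N := by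
  rw [h59_modularFunctionFieldBar_eq]
  exact IntermediateField.subset_adjoin _ _ (h59_mem_gens _ hd)


theorem h59_jq_mem_bar (N : ℕ) :
    coeffEmb (AlgebraicClosure ℚ) jq ∈ modularFunctionFieldBar N := by
  have h := h59_gen_mem_bar (N := N) (d := 1) (one_dvd N)
  rwa [qExpand_one_apply] at h

/-- Every element of the function field is a quotient of two elements of the `K`-algebra
generated by the `j(q^d)`, `d ∣ N`. -/
theorem h59_mem_bar_iff_div (N : ℕ) (x : LaurentSeries (AlgebraicClosure ℚ)) :
    x ∈ modularFunctionFieldBar N ↔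
      ∃ r ∈ Algebra.adjoin (AlgebraicClosure ℚ) (h59_gens (AlgebraicClosure ℚ) N),
        ∃ s ∈ Algebra.adjoin (AlgebraicClosure ℚ) (h59_gens (AlgebraicClosure ℚ) N),
          x = r / s := by
  rw [h59_modularFunctionFieldBar_eq]
  exact IntermediateField.mem_adjoin_iff_div

theorem h59_algebra_adjoin_le (N : ℕ) :
    Algebra.adjoin (AlgebraicClosure ℚ) (h59_gens (AlgebraicClosure ℚ) N) ≤
      (modularFunctionFieldBar N).toSubalgebra := by
  rw [h59_modularFunctionFieldBar_eq]
  exact IntermediateField.algebra_adjoin_le_adjoin _ _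

/-- The `K`-subalgebra of the function field generated by the `j(q^d)`, `d ∣ N`. -/
noncomputable def h59_ringA (N : ℕ) :
    Subalgebra (AlgebraicClosure ℚ) ↥(modularFunctionFieldBar N) :=
  (Algebra.adjoin (AlgebraicClosure ℚ) (h59_gens (AlgebraicClosure ℚ) N)).comap
    (modularFunctionFieldBar N).val

theorem h59_mem_ringA (N : ℕ) (x : ↥(modularFunctionFieldBar N)) :
    x ∈ h59_ringA N ↔
      (x : LaurentSeries (AlgebraicClosure ℚ)) ∈
        Algebra.adjoin (AlgebraicClosure ℚ) (h59_gens (AlgebraicClosure ℚ) N) :=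
  Iff.rfl

/-- The function field is the fraction field of `h59_ringA N`. -/
instance h59_ringA_isFractionRing (N : ℕ) :
    IsFractionRing (h59_ringA N) ↥(modularFunctionFieldBar N) := by
  refine IsFractionRing.of_field _ _ fun z => ?_
  obtain ⟨r, hr, s, hs, hz⟩ := (h59_mem_bar_iff_div N z).1 z.2
  refine ⟨⟨⟨r, h59_algebra_adjoin_le N hr⟩, hr⟩, ⟨⟨s, h59_algebra_adjoin_le N hs⟩, hs⟩, ?_⟩
  apply Subtype.ext
  rw [hz]
  rfl

/-- Induction principle for `h59_ringA N`: the ring is generated by constants and the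
`j(q^d)`. -/
theorem h59_ringA_induction (N : ℕ) {p : LaurentSeries (AlgebraicClosure ℚ) → Prop}
    (hgen : ∀ (d : ℕ) [NeZero d], d ∣ N →
      p (qExpand (AlgebraicClosure ℚ) d (coeffEmb (AlgebraicClosure ℚ) jq)))
    (hconst : ∀ a : AlgebraicClosure ℚ,
      p (algebraMap (AlgebraicClosure ℚ) (LaurentSeries (AlgebraicClosure ℚ)) a))
    (hadd : ∀ x y, p x → p y → p (x + y)) (hmul : ∀ x y, p x → p y → p (x * y))
    (x : ↥(modularFunctionFieldBar N)) (hx : x ∈ h59_ringA N) :
    p (x : LaurentSeries (AlgebraicClosure ℚ)) := by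
  rw [h59_mem_ringA] at hx
  generalize (x : LaurentSeries (AlgebraicClosure ℚ)) = y at hx
  induction hx using Algebra.adjoin_induction with
  | mem y hy =>
    obtain ⟨d, hd, hdN, rfl⟩ := hy
    exact hgen d hdN
  | algebraMap r => exact hconst r
  | add x y _ _ hx hy => exact hadd _ _ hx hy
  | mul x y _ _ hx hy => exact hmul _ _ hx hy


/-- The function `j` as an element of the function field. -/
noncomputable def h59_jbar (N : ℕ) : ↥(modularFunctionFieldBar N) :=
  ⟨coeffEmb (AlgebraicClosure ℚ) jq, h59_jq_mem_bar N⟩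

theorem h59_coe_jbar (N : ℕ) :
    ((h59_jbar N : ↥(modularFunctionFieldBar N)) : LaurentSeries (AlgebraicClosure ℚ)) =
      coeffEmb (AlgebraicClosure ℚ) jq := rfl

theorem h59_coeff_coeffEmb_jq_pow_self (L : Type*) [Field L] [Algebra ℚ L] (n : ℕ) :
    ((coeffEmb L jq) ^ n).coeff (-(n : ℤ)) = 1 := by
  rw [← map_pow, coeffEmb_coeff, coeff_jq_pow_self, map_one]

theorem h59_coeff_coeffEmb_jq_pow_of_lt (L : Type*) [Field L] [Algebra ℚ L] {n : ℕ} {m : ℤ}
    (hm : m < -(n : ℤ)) : ((coeffEmb L jq) ^ n).coeff m = 0 := by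
  rw [← map_pow, coeffEmb_coeff, coeff_jq_pow_of_lt hm, map_zero]

/-- A polynomial in `j(q)` has the leading coefficient of the polynomial as its lowest
Laurent coefficient. -/
theorem h59_coeff_aeval_jq (L : Type*) [Field L] [Algebra ℚ L] (P : Polynomial L) :
    (Polynomial.aeval (coeffEmb L jq) P).coeff (-(P.natDegree : ℤ)) = P.leadingCoeff := by
  rw [Polynomial.aeval_eq_sum_range, HahnSeries.coeff_sum, Finset.sum_eq_single P.natDegree]
  · rw [Algebra.smul_def, algebraMap_laurentSeries_eq_single, HahnSeries.coeff_single_zero_mul,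
      h59_coeff_coeffEmb_jq_pow_self, mul_one]
    rfl
  · intro i hi hne
    rw [Finset.mem_range] at hi
    rw [Algebra.smul_def, algebraMap_laurentSeries_eq_single, HahnSeries.coeff_single_zero_mul,
      h59_coeff_coeffEmb_jq_pow_of_lt, mul_zero]
    have : i < P.natDegree := lt_of_le_of_ne (Nat.lt_succ_iff.mp hi) hne
    omega
  · intro h
    exact absurd (Finset.mem_range.mpr (Nat.lt_succ_self _)) h

theorem h59_aeval_jq_ne_zero (L : Type*) [Field L] [Algebra ℚ L] {P : Polynomial L}
    (hP : P ≠ 0) : Polynomial.aeval (coeffEmb L jq) P ≠ 0 := by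
  intro h
  have h1 := h59_coeff_aeval_jq L P
  rw [h, HahnSeries.coeff_zero] at h1
  exact hP (Polynomial.leadingCoeff_eq_zero.mp h1.symm)

/-- `j` is transcendental over the constants. -/
theorem h59_jbar_transcendental (N : ℕ) :
    Transcendental (AlgebraicClosure ℚ) (h59_jbar N) := by
  rw [Transcendental]
  rintro ⟨P, hP, h0⟩
  apply h59_aeval_jq_ne_zero (AlgebraicClosure ℚ) hP
  have := congrArg (fun x : ↥(modularFunctionFieldBar N) =>
    (x : LaurentSeries (AlgebraicClosure ℚ))) h0
  simp only [ZeroMemClass.coe_zero] at this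
  rw [← this, ← IntermediateField.aeval_coe, h59_coe_jbar]

end Fermat.Agent.S24
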