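import Mathlib

set_option autoImplicit false

open UpperHalfPlane HahnSeries

namespace Fermat.Agent.S24

/-! ### Graphs of partial ring isomorphisms -/

/-- `E` is the graph of a partial ring isomorphism between a subring of `S` and a subring
of `Y` (think: `E c g` means "the series `c` is the expansion of the function `g`"). -/
structure h83_ExpRel {S Y : Type*} [CommRing S] [CommRing Y] (E : S → Y → Prop) : Prop where
  one : E 1 1
  add : ∀ {c c' : S} {g g' : Y}, E c g → E c' g' → E (c + c') (g + g')
  mul : ∀ {c c' : S} {g g' : Y}, E c g → E c' g' → E (c * c') (g * g')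
  neg : ∀ {c : S} {g : Y}, E c g → E (-c) (-g)
  left_unique : ∀ {c c' : S} {g : Y}, E c g → E c' g → c = c'
  right_unique : ∀ {c : S} {g g' : Y}, E c g → E c g' → g = g'

section ExpRel

variable {S Y R : Type*} [CommRing S] [CommRing Y] [CommRing R] {E : S → Y → Prop}

theorem h83_ExpRel.zero (hE : h83_ExpRel E) : E 0 0 := by
  have h := hE.add hE.one (hE.neg hE.one)
  simpa using h

/-- The subring of elements whose image under `ev` has an expansion. -/
def h83_expSubring (hE : h83_ExpRel E) (ev : R →+* Y) : Subring R where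
  carrier := {r | ∃ c, E c (ev r)}
  mul_mem' := by
    rintro a b ⟨c, hc⟩ ⟨c', hc'⟩
    exact ⟨c * c', by simpa using hE.mul hc hc'⟩
  one_mem' := ⟨1, by simpa using hE.one⟩
  add_mem' := by
    rintro a b ⟨c, hc⟩ ⟨c', hc'⟩
    exact ⟨c + c', by simpa using hE.add hc hc'⟩
  zero_mem' := ⟨0, by simpa using hE.zero⟩
  neg_mem' := by
    rintro a ⟨c, hc⟩
    exact ⟨-c, by simpa using hE.neg hc⟩

theorem h83_mem_expSubring (hE : h83_ExpRel E) (ev : R →+* Y) (r : R) :
    r ∈ h83_expSubring hE ev ↔ ∃ c, E c (ev r) := Iff.rfl

/-- If every element has an expansion, taking the expansion is a ring homomorphism. -/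
noncomputable def h83_expHom (hE : h83_ExpRel E) (ev : R →+* Y)
    (htop : ∀ r, ∃ c, E c (ev r)) : R →+* S where
  toFun r := (htop r).choose
  map_one' := hE.left_unique (htop 1).choose_spec (by simpa using hE.one)
  map_mul' a b := hE.left_unique (htop (a * b)).choose_spec
    (by simpa using hE.mul (htop a).choose_spec (htop b).choose_spec)
  map_zero' := hE.left_unique (htop 0).choose_spec (by simpa using hE.zero)
  map_add' a b := hE.left_unique (htop (a + b)).choose_spec
    (by simpa using hE.add (htop a).choose_spec (htop b).choose_spec)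

theorem h83_expHom_spec (hE : h83_ExpRel E) (ev : R →+* Y)
    (htop : ∀ r, ∃ c, E c (ev r)) (r : R) : E (h83_expHom hE ev htop r) (ev r) :=
  (htop r).choose_spec

theorem h83_expHom_eq (hE : h83_ExpRel E) (ev : R →+* Y)
    (htop : ∀ r, ∃ c, E c (ev r)) {r : R} {c : S} (hc : E c (ev r)) :
    h83_expHom hE ev htop r = c :=
  hE.left_unique (h83_expHom_spec hE ev htop r) hc

theorem h83_expHom_injective (hE : h83_ExpRel E) (ev : R →+* Y)
    (htop : ∀ r, ∃ c, E c (ev r)) (hev : Function.Injective ev) :
    Function.Injective (h83_expHom hE ev htop) := by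
  rw [injective_iff_map_eq_zero]
  intro r hr
  have h1 := h83_expHom_spec hE ev htop r
  rw [hr] at h1
  have h2 : ev r = 0 := hE.right_unique h1 hE.zero
  exact hev (by rw [h2, map_zero])

/-- Generators suffice (ring version). -/
theorem h83_exists_exp_of_closure (hE : h83_ExpRel E) (ev : R →+* Y) (s : Set R)
    (hs : Subring.closure s = ⊤) (hgen : ∀ r ∈ s, ∃ c, E c (ev r)) (r : R) :
    ∃ c, E c (ev r) := by
  have h : Subring.closure s ≤ h83_expSubring hE ev := (Subring.closure_le).mpr hgen
  exact h (hs ▸ Subring.mem_top r)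

/-- Generators suffice (algebra version). -/
theorem h83_exists_exp_of_adjoin {K : Type*} [CommRing K] [Algebra K R]
    (hE : h83_ExpRel E) (ev : R →+* Y) (s : Set R)
    (hs : Algebra.adjoin K s = ⊤) (hK : ∀ a : K, ∃ c, E c (ev (algebraMap K R a)))
    (hgen : ∀ r ∈ s, ∃ c, E c (ev r)) (r : R) :
    ∃ c, E c (ev r) := by
  have hr : r ∈ Algebra.adjoin K s := hs ▸ Algebra.mem_top
  induction hr using Algebra.adjoin_induction with
  | mem x hx => exact hgen x hx
  | algebraMap a => exact hK a
  | add x y _ _ hx hy =>
      obtain ⟨c, hc⟩ := hx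
      obtain ⟨c', hc'⟩ := hy
      exact ⟨c + c', by simpa using hE.add hc hc'⟩
  | mul x y _ _ hx hy =>
      obtain ⟨c, hc⟩ := hx
      obtain ⟨c', hc'⟩ := hy
      exact ⟨c * c', by simpa using hE.mul hc hc'⟩

end ExpRel

/-! ### Twisting a Laurent series: the substitution `q ↦ u q` -/

section Twist

variable {L : Type*} [Field L]

/-- Multiply the `k`-th coefficient by `u ^ k` (the substitution `q ↦ u q`). -/
noncomputable def h83_twist (u : L) (c : LaurentSeries L) : LaurentSeries L where
  coeff k := c.coeff k * u ^ k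
  isPWO_support' := c.isPWO_support.mono (fun k hk => by
    simp only [Function.mem_support, ne_eq] at hk ⊢
    exact fun h => hk (by rw [h, zero_mul]))

@[simp]
theorem h83_twist_coeff (u : L) (c : LaurentSeries L) (k : ℤ) :
    (h83_twist u c).coeff k = c.coeff k * u ^ k := rfl

theorem h83_twist_support_subset (u : L) (c : LaurentSeries L) :
    (h83_twist u c).support ⊆ c.support := by
  intro k hk
  simp only [HahnSeries.mem_support, h83_twist_coeff, ne_eq] at hk ⊢
  exact fun h => hk (by rw [h, zero_mul])

theorem h83_twist_mul {u : L} (hu : u ≠ 0) (x y : LaurentSeries L) :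
    h83_twist u (x * y) = h83_twist u x * h83_twist u y := by
  ext k
  rw [h83_twist_coeff, HahnSeries.coeff_mul, HahnSeries.coeff_mul, Finset.sum_mul]
  have hsub : Finset.antidiagonal (h83_twist u x).isPWO_support (h83_twist u y).isPWO_support k
      ⊆ Finset.antidiagonal x.isPWO_support y.isPWO_support k := by
    intro ij hij
    rw [Finset.mem_antidiagonal] at hij ⊢
    exact ⟨h83_twist_support_subset u x hij.1, h83_twist_support_subset u y hij.2.1, hij.2.2⟩
  rw [← Finset.sum_subset hsub]
  · refine Finset.sum_congr rfl fun ij hij => ?_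
    have hk : ij.1 + ij.2 = k := (Finset.mem_antidiagonal.mp hij).2.2
    rw [h83_twist_coeff, h83_twist_coeff, ← hk, zpow_add₀ hu]
    ring
  · intro ij hij hnot
    have hk : ij.1 + ij.2 = k := (Finset.mem_antidiagonal.mp hij).2.2
    rw [Finset.mem_antidiagonal] at hnot
    have h0 : (h83_twist u x).coeff ij.1 = 0 ∨ (h83_twist u y).coeff ij.2 = 0 := by
      by_contra hcon
      rw [not_or] at hcon
      exact hnot ⟨hcon.1, hcon.2, hk⟩
    rw [h83_twist_coeff, h83_twist_coeff] at h0
    rw [← hk, zpow_add₀ hu]
    rcases h0 with h0 | h0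
    · have : x.coeff ij.1 * y.coeff ij.2 * (u ^ ij.1 * u ^ ij.2)
          = (x.coeff ij.1 * u ^ ij.1) * (y.coeff ij.2 * u ^ ij.2) := by ring
      rw [this, h0, zero_mul]
    · have : x.coeff ij.1 * y.coeff ij.2 * (u ^ ij.1 * u ^ ij.2)
          = (x.coeff ij.1 * u ^ ij.1) * (y.coeff ij.2 * u ^ ij.2) := by ring
      rw [this, h0, mul_zero]

theorem h83_twist_one (u : L) : h83_twist u (1 : LaurentSeries L) = 1 := by
  ext k
  rw [h83_twist_coeff, HahnSeries.coeff_one]
  split_ifs with h
  · subst h; simp
  · simp

theorem h83_twist_add (u : L) (x y : LaurentSeries L) :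
    h83_twist u (x + y) = h83_twist u x + h83_twist u y := by
  ext k
  simp [add_mul]

theorem h83_twist_zero (u : L) : h83_twist u (0 : LaurentSeries L) = 0 := by
  ext k
  simp

/-- The twist as a ring homomorphism. -/
noncomputable def h83_twistHom (u : L) (hu : u ≠ 0) : LaurentSeries L →+* LaurentSeries L where
  toFun := h83_twist u
  map_one' := h83_twist_one u
  map_mul' := h83_twist_mul hu
  map_zero' := h83_twist_zero u
  map_add' := h83_twist_add u

@[simp]
theorem h83_twistHom_apply (u : L) (hu : u ≠ 0) (c : LaurentSeries L) :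
    h83_twistHom u hu c = h83_twist u c := rfl

theorem h83_twist_eq_zero_iff {u : L} (hu : u ≠ 0) (c : LaurentSeries L) :
    h83_twist u c = 0 ↔ c = 0 := by
  constructor
  · intro h
    ext k
    have := congrArg (fun x : LaurentSeries L => x.coeff k) h
    simpa [zpow_ne_zero k hu] using this
  · rintro rfl
    exact h83_twist_zero u

theorem h83_twist_order {u : L} (hu : u ≠ 0) (c : LaurentSeries L) :
    (h83_twist u c).order = c.order := by
  by_cases hc : c = 0
  · subst hc
    rw [h83_twist_zero]
  have hc' : h83_twist u c ≠ 0 := fun h => hc ((h83_twist_eq_zero_iff hu c).mp h)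
  apply le_antisymm
  · apply HahnSeries.order_le_of_coeff_ne_zero
    rw [h83_twist_coeff]
    exact mul_ne_zero (fun h0 => hc (HahnSeries.coeff_order_eq_zero.mp h0)) (zpow_ne_zero _ hu)
  · apply HahnSeries.order_le_of_coeff_ne_zero
    have : (h83_twist u c).coeff (h83_twist u c).order ≠ 0 :=
      fun h0 => hc' (HahnSeries.coeff_order_eq_zero.mp h0)
    rw [h83_twist_coeff] at this
    exact left_ne_zero_of_mul this

theorem h83_twist_twist (u v : L) (c : LaurentSeries L) :
    h83_twist u (h83_twist v c) = h83_twist (v * u) c := by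
  ext k
  simp [mul_zpow, mul_assoc]

theorem h83_twist_one_left (c : LaurentSeries L) : h83_twist (1 : L) c = c := by
  ext k
  simp

end Twist

/-! ### Orders of expansions on a fraction field -/

section Lift

variable {A F : Type*} [CommRing A] [IsDomain A] [Field F] [Algebra A F] [IsFractionRing A F]
variable {L : Type*} [Field L]

/-- Every element of the fraction field is a quotient. -/
theorem h83_exists_frac (f : F) :
    ∃ a b : A, b ≠ 0 ∧ f * algebraMap A F b = algebraMap A F a := by
  obtain ⟨a, b, hb, h⟩ := IsFractionRing.div_surjective (A := A) f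
  refine ⟨a, b, nonZeroDivisors.ne_zero hb, ?_⟩
  have hb' : algebraMap A F b ≠ 0 := by
    intro h0
    exact nonZeroDivisors.ne_zero hb
      ((injective_iff_map_eq_zero (algebraMap A F)).mp (IsFractionRing.injective A F) b h0)
  rw [← h, div_mul_cancel₀ _ hb']

omit [IsDomain A] in
theorem h83_order_lift_eq {φ : A →+* LaurentSeries L} (hφ : Function.Injective φ)
    {f : F} {a b : A} (hb : b ≠ 0) (h : f * algebraMap A F b = algebraMap A F a) (hf : f ≠ 0) :
    (IsFractionRing.lift hφ f).order = (φ a).order - (φ b).order := by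
  have h1 := congrArg (IsFractionRing.lift hφ) h
  rw [map_mul, IsFractionRing.lift_algebraMap, IsFractionRing.lift_algebraMap] at h1
  have hb' : φ b ≠ 0 := fun h0 => hb (hφ (by rw [h0, map_zero]))
  have hf' : IsFractionRing.lift hφ f ≠ 0 := by
    intro h0
    exact hf ((injective_iff_map_eq_zero _).mp (RingHom.injective _) f h0)
  have h2 := HahnSeries.order_mul hf' hb'
  rw [h1] at h2
  omega

/-- Divisibility of the order passes to the fraction field. -/
theorem h83_dvd_order_lift {φ : A →+* LaurentSeries L} (hφ : Function.Injective φ) (m : ℤ)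
    (hm : ∀ a : A, a ≠ 0 → m ∣ (φ a).order) (f : F) :
    m ∣ (IsFractionRing.lift hφ f).order := by
  by_cases hf : f = 0
  · subst hf
    simp
  obtain ⟨a, b, hb, h⟩ := h83_exists_frac (A := A) f
  rw [h83_order_lift_eq hφ hb h hf]
  have ha : a ≠ 0 := by
    rintro rfl
    rw [map_zero] at h
    rcases mul_eq_zero.mp h with h0 | h0
    · exact hf h0
    · exact hb ((injective_iff_map_eq_zero (algebraMap A F)).mp (IsFractionRing.injective A F) b h0)
  exact dvd_sub (hm a ha) (hm b hb)

/-- Two expansions with the same orders on `A` have the same orders on the fraction field. -/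
theorem h83_order_lift_congr {φ ψ : A →+* LaurentSeries L} (hφ : Function.Injective φ)
    (hψ : Function.Injective ψ) (h : ∀ a : A, (φ a).order = (ψ a).order) (f : F) :
    (IsFractionRing.lift hφ f).order = (IsFractionRing.lift hψ f).order := by
  by_cases hf : f = 0
  · subst hf
    simp
  obtain ⟨a, b, hb, hab⟩ := h83_exists_frac (A := A) f
  rw [h83_order_lift_eq hφ hb hab hf, h83_order_lift_eq hψ hb hab hf, h a, h b]

end Lift

end Fermat.Agent.S24
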