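import Mathlib
import Fermat.Agent.S24.h77_QBridge
import Fermat.Agent.S24.h59_Gen
import Fermat.Agent.S24.h64_Conj
import Fermat.Agent.S24.h14_CuspOrd
import Fermat.Agent.S24.h30_Count
import Fermat.Agent.S24.h83_CuspGen

/-!
# S24: the expansions at `i∞` of the conjugates (helper83)

For `g : SL(2, ℤ)` we construct the field embedding
`h83_psi N ι g : F →+* LaurentSeries ℂ` of the function field `F = modularFunctionFieldBar N`
which sends `f` to the `q_N`-expansion (`q_N = exp (2πiτ/N)`) of the conjugate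
`τ ↦ ev f (g⁻¹ • τ)`, together with its `K`-rational version `h83_psiK`.
-/

set_option autoImplicit false

open UpperHalfPlane ModularCurve HahnSeries Matrix.SpecialLinearGroup CongruenceSubgroup
open scoped MatrixGroups

namespace Fermat.Agent.S24

local notation "𝕢" => Function.Periodic.qParam

/-! ### Translations and affine substitutions of `q`-expansions -/

theorem h83_qParam_vadd (h : ℝ) (a : ℝ) (τ : ℍ) :
    𝕢 h ((a +ᵥ τ : ℍ) : ℂ)
      = 𝕢 h (τ : ℂ) * Complex.exp (2 * Real.pi * Complex.I * a / h) := by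
  simp only [Function.Periodic.qParam, UpperHalfPlane.coe_vadd]
  rw [← Complex.exp_add]
  congr 1
  ring

/-- Translation by a real number twists the expansion. -/
theorem h83_isQExp_vadd {h : ℝ} {c : LaurentSeries ℂ} {g : ℍ → ℂ} (hc : h77_IsQExp h c g)
    (a : ℝ) :
    h77_IsQExp h (h83_twist (Complex.exp (2 * Real.pi * Complex.I * a / h)) c)
      (fun τ => g (a +ᵥ τ)) := by
  intro τ
  have := hc (a +ᵥ τ)
  rw [h83_qParam_vadd] at this
  convert this using 2 with k
  rw [h83_twist_coeff, mul_zpow]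
  ring

theorem h83_qParam_aff {A D : ℕ} (B : ℤ) (hA : 0 < A) (hD : 0 < D) (τ : ℍ) :
    𝕢 1 ((h64_aff A D B τ : ℍ) : ℂ)
      = 𝕢 (D : ℝ) (τ : ℂ) ^ A * Complex.exp (2 * Real.pi * Complex.I * B / D) := by
  rw [h64_coe_aff B hA hD τ]
  simp only [Function.Periodic.qParam]
  rw [← Complex.exp_nat_mul, ← Complex.exp_add]
  congr 1
  have hD' : (D : ℂ) ≠ 0 := by exact_mod_cast hD.ne'
  push_cast
  field_simp

/-- The expansion of `τ ↦ g ((A τ + B) / D)` in the variable `q_D`. -/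
theorem h83_isQExp_aff {c : LaurentSeries ℂ} {g : ℍ → ℂ} (hc : h77_IsQExp 1 c g)
    {A D : ℕ} [NeZero A] (B : ℤ) (hD : 0 < D) :
    h77_IsQExp (D : ℝ)
      (qExpand ℂ A (h83_twist (Complex.exp (2 * Real.pi * Complex.I * B / D)) c))
      (fun τ => g (h64_aff A D B τ)) := by
  have hA : 0 < A := Nat.pos_of_ne_zero (NeZero.ne A)
  intro τ
  rw [h77_hasSum_qExpand_iff]
  have := hc (h64_aff A D B τ)
  rw [h83_qParam_aff B hA hD] at this
  convert this using 2 with k
  rw [h83_twist_coeff, mul_zpow]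
  ring

/-- The same expansion in the variable `q_N`, for `N = m * D`. -/
theorem h83_isQExp_aff_width {c : LaurentSeries ℂ} {g : ℍ → ℂ} (hc : h77_IsQExp 1 c g)
    {A D : ℕ} [NeZero A] (B : ℤ) (hD : 0 < D) {N m : ℕ} [NeZero m] (hN : N = m * D) :
    h77_IsQExp (N : ℝ)
      (qExpand ℂ m (qExpand ℂ A (h83_twist (Complex.exp (2 * Real.pi * Complex.I * B / D)) c)))
      (fun τ => g (h64_aff A D B τ)) := by
  have h1 := (h83_isQExp_aff hc (A := A) B hD).qExpand_width m
  have h2 : ((m : ℝ) * (D : ℝ)) = (N : ℝ) := by rw [hN]; push_cast; ring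
  rw [h2] at h1
  exact h1

/-! ### Rationality of the coefficients -/

section Rational

variable {K : Type*} [Field K] (ι : K →+* ℂ)

theorem h83_coeffMap_twist (u : K) (c : LaurentSeries K) :
    coeffMap ι (h83_twist u c) = h83_twist (ι u) (coeffMap ι c) := by
  ext k
  simp [map_zpow₀]

/-- Roots of unity of `ℂ` lie in the image of an algebraically closed field. -/
theorem h83_exists_of_pow_eq_one [IsAlgClosed K] {n : ℕ} (hn : 0 < n) {ζ : ℂ}
    (hζ : ζ ^ n = 1) : ∃ u : K, ι u = ζ := by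
  have hsplit : (Polynomial.X ^ n - 1 : Polynomial K).Splits := IsAlgClosed.splits _
  have hmap : (Polynomial.X ^ n - 1 : Polynomial K).map ι = Polynomial.X ^ n - 1 := by
    simp
  have hne : (Polynomial.X ^ n - 1 : Polynomial ℂ) ≠ 0 := Polynomial.X_pow_sub_C_ne_zero hn 1
  have hroot : ζ ∈ (Polynomial.X ^ n - 1 : Polynomial ℂ).roots := by
    rw [Polynomial.mem_roots hne]
    simp [hζ]
  rw [← hmap, hsplit.roots_map ι, Multiset.mem_map] at hroot
  obtain ⟨u, -, hu⟩ := hroot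
  exact ⟨u, hu⟩

theorem h83_j_smul (γ : SL(2, ℤ)) (τ : ℍ) : h77_j (γ • τ) = h77_j τ :=
  h64_jf_smul γ τ

/-- Every conjugate of `τ ↦ j (d τ)`, `d ∣ N`, has a `q_N`-expansion with coefficients in the
image of `K`. -/
theorem h83_exists_exp_gen [IsAlgClosed K] [Algebra ℚ K] {N : ℕ} {d : ℕ} (hd0 : 0 < d)
    (hd : d ∣ N) (hN : 0 < N) (γ : SL(2, ℤ)) :
    ∃ c₀ : LaurentSeries K, h77_IsQExp (N : ℝ) (coeffMap ι c₀)
      (fun τ : ℍ => h77_j (ofComplex ((d : ℂ) * ((γ • τ : ℍ) : ℂ)))) := by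
  obtain ⟨γ', A, D, B, hAD, hA, hD, -, -, -, hmat⟩ := h64_hermite d hd0 γ
  have hfun : (fun τ : ℍ => h77_j (ofComplex ((d : ℂ) * ((γ • τ : ℍ) : ℂ))))
      = fun τ => h77_j (h64_aff A D B τ) :=
    funext fun τ => h64_conj_eq (f := h77_j) h83_j_smul hA hD hmat τ
  have hDN : D ∣ N := Dvd.dvd.trans ⟨A, by rw [← hAD, mul_comm]⟩ hd
  obtain ⟨m, hm⟩ := hDN
  have hm0 : 0 < m := by
    rcases Nat.eq_zero_or_pos m with h | h
    · rw [h, mul_zero] at hm; omega
    · exact h
  have : NeZero A := ⟨hA.ne'⟩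
  have : NeZero m := ⟨hm0.ne'⟩
  obtain ⟨u, hu⟩ := h83_exists_of_pow_eq_one ι hD
    (ζ := Complex.exp (2 * Real.pi * Complex.I * B / D)) (by
      rw [← Complex.exp_nat_mul]
      have hD' : (D : ℂ) ≠ 0 := by exact_mod_cast hD.ne'
      have : (D : ℂ) * (2 * Real.pi * Complex.I * B / D) = B * (2 * Real.pi * Complex.I) := by
        field_simp
      rw [this]
      exact Complex.exp_int_mul_two_pi_mul_I B)
  refine ⟨qExpand K m (qExpand K A (h83_twist u (coeffEmb K jq))), ?_⟩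
  rw [coeffMap_qExpand, coeffMap_qExpand, h83_coeffMap_twist, hu, h77_coeffMap_coeffEmb, hfun]
  exact h83_isQExp_aff_width h77_isQExp_jq B hD (by rw [hm, mul_comm])

end Rational

/-! ### Evaluation of the ring `A_N = K[j(q^d) : d ∣ N]` -/

section Ev

variable (N : ℕ) (ι : AlgebraicClosure ℚ →+* ℂ)

theorem h83_coe_mem_convAlg (x : h59_ringA N) :
    ((x : ↥(modularFunctionFieldBar N)) : LaurentSeries (AlgebraicClosure ℚ)) ∈ h77_convAlg ι := by
  have h := (h59_mem_ringA N x).mp x.2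
  rw [h59_gens_eq_image] at h
  exact h77_adjoin_le ι N h

/-- The inclusion of `A_N` into the convergent Laurent series. -/
noncomputable def h83_incl : h59_ringA N →+* h77_convAlg ι :=
  RingHom.codRestrict
    ((modularFunctionFieldBar N).val.toRingHom.comp (h59_ringA N).val.toRingHom)
    (h77_convAlg ι) (fun x => h83_coe_mem_convAlg N ι x)

/-- The function on the upper half plane attached to an element of `A_N`. -/
noncomputable def h83_ev : h59_ringA N →+* (ℍ → ℂ) :=
  (h77_toFun ι).comp (h83_incl N ι)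

theorem h83_ev_apply (x : h59_ringA N) :
    h83_ev N ι x = h77_toFun ι ⟨_, h83_coe_mem_convAlg N ι x⟩ := rfl

theorem h83_ev_spec (x : h59_ringA N) :
    h77_IsQExp 1 (coeffMap ι ((x : ↥(modularFunctionFieldBar N)) : LaurentSeries (AlgebraicClosure ℚ)))
      (h83_ev N ι x) :=
  h77_toFun_spec ι ⟨_, h83_coe_mem_convAlg N ι x⟩

theorem h83_ev_injective : Function.Injective (h83_ev N ι) := by
  intro x y hxy
  have h := h77_toFun_injective ι hxy
  have h' : ((x : ↥(modularFunctionFieldBar N)) : LaurentSeries (AlgebraicClosure ℚ))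
      = ((y : ↥(modularFunctionFieldBar N)) : LaurentSeries (AlgebraicClosure ℚ)) := by
    have h0 := congrArg Subtype.val h
    exact h0
  exact Subtype.ext (Subtype.ext h')

/-- Induction principle for the functions `h83_ev N ι x`. -/
theorem h83_ev_induction {P : (ℍ → ℂ) → Prop}
    (hgen : ∀ (d : ℕ) [NeZero d], d ∣ N → P (fun τ : ℍ => h77_j (ofComplex ((d : ℂ) * τ))))
    (hconst : ∀ a : AlgebraicClosure ℚ, P (fun _ => ι a))
    (hadd : ∀ f g, P f → P g → P (f + g)) (hmul : ∀ f g, P f → P g → P (f * g))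
    (x : h59_ringA N) : P (h83_ev N ι x) := by
  have key : ∃ hy : ((x : ↥(modularFunctionFieldBar N)) : LaurentSeries (AlgebraicClosure ℚ))
      ∈ h77_convAlg ι, P (h77_toFun ι ⟨_, hy⟩) := by
    refine h59_ringA_induction N
      (p := fun y => ∃ hy : y ∈ h77_convAlg ι, P (h77_toFun ι ⟨y, hy⟩)) ?_ ?_ ?_ ?_ x x.2
    · intro d _ hd
      have e : qExpand (AlgebraicClosure ℚ) d (coeffEmb (AlgebraicClosure ℚ) jq)
          = coeffEmb (AlgebraicClosure ℚ) (qExpand ℚ d jq) := (coeffMap_qExpand _ d jq).symm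
      rw [e]
      refine ⟨h77_jqd_mem ι d, ?_⟩
      rw [h77_toFun_jqd]
      exact hgen d hd
    · intro a
      refine ⟨(h77_convAlg ι).algebraMap_mem a, ?_⟩
      have := h77_toFun_algebraMap ι a
      have e : (⟨algebraMap (AlgebraicClosure ℚ) (LaurentSeries (AlgebraicClosure ℚ)) a,
          (h77_convAlg ι).algebraMap_mem a⟩ : h77_convAlg ι)
          = algebraMap (AlgebraicClosure ℚ) (h77_convAlg ι) a := rfl
      rw [e, this]
      exact hconst a
    · rintro y z ⟨hy, Py⟩ ⟨hz, Pz⟩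
      refine ⟨add_mem hy hz, ?_⟩
      have e : (⟨y + z, add_mem hy hz⟩ : h77_convAlg ι) = ⟨y, hy⟩ + ⟨z, hz⟩ := rfl
      rw [e, map_add]
      exact hadd _ _ Py Pz
    · rintro y z ⟨hy, Py⟩ ⟨hz, Pz⟩
      refine ⟨mul_mem hy hz, ?_⟩
      have e : (⟨y * z, mul_mem hy hz⟩ : h77_convAlg ι) = ⟨y, hy⟩ * ⟨z, hz⟩ := rfl
      rw [e, map_mul]
      exact hmul _ _ Py Pz
  obtain ⟨hy, hP⟩ := key
  exact hP

theorem h83_ev_algebraMap (a : AlgebraicClosure ℚ) :
    h83_ev N ι (algebraMap (AlgebraicClosure ℚ) (h59_ringA N) a) = fun _ => ι a := by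
  rw [h83_ev_apply]
  exact h77_toFun_eq ι (by
    have h1 : (((algebraMap (AlgebraicClosure ℚ) (h59_ringA N) a : h59_ringA N) :
        ↥(modularFunctionFieldBar N)) : LaurentSeries (AlgebraicClosure ℚ))
        = algebraMap (AlgebraicClosure ℚ) (LaurentSeries (AlgebraicClosure ℚ)) a := rfl
    show h77_IsQExp 1 (coeffMap ι (((algebraMap (AlgebraicClosure ℚ) (h59_ringA N) a :
      h59_ringA N) : ↥(modularFunctionFieldBar N)) : LaurentSeries (AlgebraicClosure ℚ))) _
    rw [h1, algebraMap_laurentSeries_eq_single, coeffMap_single]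
    have := h77_isQExp_single 1 0 (ι a)
    simpa using this)

/-- `j (d (γ τ)) = j (d τ)` for `γ ∈ Γ₀(N)` and `d ∣ N`. -/
theorem h83_j_mul_smul {d : ℕ} (hd0 : 0 < d) (hd : d ∣ N) {γ : SL(2, ℤ)} (hγ : γ ∈ Gamma0 N)
    (τ : ℍ) :
    h77_j (ofComplex ((d : ℂ) * ((γ • τ : ℍ) : ℂ))) = h77_j (ofComplex ((d : ℂ) * (τ : ℂ))) := by
  obtain ⟨γ', A, D, B, hAD, hA, hD, hgcd, hB0, hB1, hmat⟩ := h64_hermite d hd0 γ
  have hdvd : (d : ℤ) ∣ γ 1 0 := by
    rw [CongruenceSubgroup.Gamma0_mem, ZMod.intCast_zmod_eq_zero_iff_dvd] at hγ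
    exact Dvd.dvd.trans (by exact_mod_cast hd) hγ
  have hAd : A = d := by
    have h1 : Int.gcd (d : ℤ) (γ 1 0) = d := by
      have := Int.gcd_eq_left (Int.natCast_nonneg d) hdvd
      exact_mod_cast this
    have : (A : ℤ) = (d : ℤ) := by rw [hgcd, h1]
    exact_mod_cast this
  subst hAd
  have hD1 : D = 1 := by
    have : A * D = A * 1 := by rw [hAD, mul_one]
    exact Nat.eq_of_mul_eq_mul_left hA this
  subst hD1
  have hB : B = 0 := by
    have : B < 1 := by exact_mod_cast hB1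
    omega
  subst hB
  rw [h64_conj_eq (f := h77_j) h83_j_smul hA hD hmat τ, h64_aff]
  congr 2
  simp

/-- The functions attached to `A_N` are `Γ₀(N)`-invariant. -/
theorem h83_ev_smul [NeZero N] (x : h59_ringA N) {γ : SL(2, ℤ)} (hγ : γ ∈ Gamma0 N) (τ : ℍ) :
    h83_ev N ι x (γ • τ) = h83_ev N ι x τ := by
  have key : ∀ γ : SL(2, ℤ), γ ∈ Gamma0 N → ∀ τ : ℍ, h83_ev N ι x (γ • τ) = h83_ev N ι x τ := by
    refine h83_ev_induction N ι
      (P := fun f => ∀ γ : SL(2, ℤ), γ ∈ Gamma0 N → ∀ τ : ℍ, f (γ • τ) = f τ) ?_ ?_ ?_ ?_ x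
    · intro d _ hd γ hγ τ
      exact h83_j_mul_smul N (Nat.pos_of_ne_zero (NeZero.ne d)) hd hγ τ
    · intro a γ hγ τ
      rfl
    · intro f g hf hg γ hγ τ
      simp only [Pi.add_apply]
      rw [hf γ hγ τ, hg γ hγ τ]
    · intro f g hf hg γ hγ τ
      simp only [Pi.mul_apply]
      rw [hf γ hγ τ, hg γ hγ τ]
  exact key γ hγ τ

/-- Precomposition with a self-map of the upper half plane, as a ring homomorphism. -/
noncomputable def h83_precomp (φ : ℍ → ℍ) : (ℍ → ℂ) →+* (ℍ → ℂ) :=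
  RingHom.pi (fun τ => Pi.evalRingHom (fun _ : ℍ => ℂ) (φ τ))

@[simp]
theorem h83_precomp_apply (φ : ℍ → ℍ) (f : ℍ → ℂ) (τ : ℍ) : h83_precomp φ f τ = f (φ τ) := rfl

/-- The conjugate `τ ↦ ev x (g⁻¹ • τ)` of an element of `A_N`. -/
noncomputable def h83_evConj (g : SL(2, ℤ)) : h59_ringA N →+* (ℍ → ℂ) :=
  (h83_precomp (fun τ => g⁻¹ • τ)).comp (h83_ev N ι)

@[simp]
theorem h83_evConj_apply (g : SL(2, ℤ)) (x : h59_ringA N) (τ : ℍ) :
    h83_evConj N ι g x τ = h83_ev N ι x (g⁻¹ • τ) := rfl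

theorem h83_evConj_injective (g : SL(2, ℤ)) : Function.Injective (h83_evConj N ι g) := by
  intro x y hxy
  apply h83_ev_injective N ι
  funext τ
  have := congrFun hxy (g • τ)
  simpa using this

/-- The relation "`c₀` is the `K`-rational `q_N`-expansion of `f`". -/
def h83_E (c₀ : LaurentSeries (AlgebraicClosure ℚ)) (f : ℍ → ℂ) : Prop :=
  h77_IsQExp (N : ℝ) (coeffMap ι c₀) f

theorem h83_expRel [NeZero N] : h83_ExpRel (h83_E N ι) where
  one := by
    unfold h83_E
    rw [map_one]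
    exact h77_isQExp_one _
  add := fun h h' => by
    unfold h83_E at *
    rw [map_add]
    exact h.add h'
  mul := fun h h' => by
    unfold h83_E at *
    rw [map_mul]
    exact h.mul h'
  neg := fun h => by
    unfold h83_E at *
    rw [map_neg]
    exact h.neg
  left_unique := fun h h' =>
    h77_coeffMap_injective ι
      (h77_IsQExp.unique (by exact_mod_cast Nat.pos_of_ne_zero (NeZero.ne N)) h h')
  right_unique := fun h h' => h77_IsQExp.unique_fun h h'

/-- Every conjugate of an element of `A_N` has a `K`-rational `q_N`-expansion. -/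
theorem h83_exists_exp [NeZero N] (g : SL(2, ℤ)) (x : h59_ringA N) :
    ∃ c₀, h83_E N ι c₀ (h83_evConj N ι g x) := by
  have hN : 0 < N := Nat.pos_of_ne_zero (NeZero.ne N)
  have hE := h83_expRel N ι
  have key : ∃ c₀, h83_E N ι c₀ (fun τ => h83_ev N ι x (g⁻¹ • τ)) := by
    refine h83_ev_induction N ι
      (P := fun f => ∃ c₀, h83_E N ι c₀ (fun τ => f (g⁻¹ • τ))) ?_ ?_ ?_ ?_ x
    · intro d _ hd
      exact h83_exists_exp_gen ι (Nat.pos_of_ne_zero (NeZero.ne d)) hd hN g⁻¹
    · intro a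
      refine ⟨HahnSeries.C a, ?_⟩
      unfold h83_E
      have h1 : coeffMap ι (HahnSeries.C a : LaurentSeries (AlgebraicClosure ℚ))
          = HahnSeries.C (ι a) := by
        rw [HahnSeries.C_apply, coeffMap_single, HahnSeries.C_apply]
      rw [h1]
      exact h77_isQExp_C _ (ι a)
    · rintro f f' ⟨c, hc⟩ ⟨c', hc'⟩
      exact ⟨c + c', hE.add hc hc'⟩
    · rintro f f' ⟨c, hc⟩ ⟨c', hc'⟩
      exact ⟨c * c', hE.mul hc hc'⟩
  exact key

end Ev

/-! ### The expansion homomorphisms -/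

section Psi

variable (N : ℕ) [NeZero N] (ι : AlgebraicClosure ℚ →+* ℂ)

/-- The `K`-rational `q_N`-expansion of the `g`-conjugate, on `A_N`. -/
noncomputable def h83_cuspHomK (g : SL(2, ℤ)) :
    h59_ringA N →+* LaurentSeries (AlgebraicClosure ℚ) :=
  h83_expHom (h83_expRel N ι) (h83_evConj N ι g) (h83_exists_exp N ι g)

theorem h83_cuspHomK_spec (g : SL(2, ℤ)) (x : h59_ringA N) :
    h77_IsQExp (N : ℝ) (coeffMap ι (h83_cuspHomK N ι g x)) (fun τ => h83_ev N ι x (g⁻¹ • τ)) :=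
  h83_expHom_spec (h83_expRel N ι) (h83_evConj N ι g) (h83_exists_exp N ι g) x

theorem h83_cuspHomK_eq (g : SL(2, ℤ)) {x : h59_ringA N}
    {c₀ : LaurentSeries (AlgebraicClosure ℚ)}
    (h : h77_IsQExp (N : ℝ) (coeffMap ι c₀) (fun τ => h83_ev N ι x (g⁻¹ • τ))) :
    h83_cuspHomK N ι g x = c₀ :=
  h83_expHom_eq (h83_expRel N ι) (h83_evConj N ι g) (h83_exists_exp N ι g) h

theorem h83_cuspHomK_injective (g : SL(2, ℤ)) : Function.Injective (h83_cuspHomK N ι g) :=
  h83_expHom_injective (h83_expRel N ι) (h83_evConj N ι g) (h83_exists_exp N ι g)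
    (h83_evConj_injective N ι g)

/-- The `K`-rational expansion at `i∞` of the `g`-conjugate, on the function field. -/
noncomputable def h83_psiK (g : SL(2, ℤ)) :
    ↥(modularFunctionFieldBar N) →+* LaurentSeries (AlgebraicClosure ℚ) :=
  IsFractionRing.lift (h83_cuspHomK_injective N ι g)

/-- The expansion at `i∞` of the `g`-conjugate: a field embedding of the function field of
`X₀(N)` into `ℂ((q_N))`. -/
noncomputable def h83_psi (g : SL(2, ℤ)) :
    ↥(modularFunctionFieldBar N) →+* LaurentSeries ℂ :=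
  (coeffMap ι).comp (h83_psiK N ι g)

theorem h83_psi_apply (g : SL(2, ℤ)) (f : ↥(modularFunctionFieldBar N)) :
    h83_psi N ι g f = coeffMap ι (h83_psiK N ι g f) := rfl

theorem h83_psiK_algebraMap (g : SL(2, ℤ)) (x : h59_ringA N) :
    h83_psiK N ι g (algebraMap (h59_ringA N) ↥(modularFunctionFieldBar N) x)
      = h83_cuspHomK N ι g x :=
  IsFractionRing.lift_algebraMap _ x

theorem h83_psiK_coe (g : SL(2, ℤ)) (x : h59_ringA N) :
    h83_psiK N ι g (x : ↥(modularFunctionFieldBar N)) = h83_cuspHomK N ι g x :=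
  h83_psiK_algebraMap N ι g x

/-- **Specification on `A_N`**: `h83_psiK g x` is the `K`-rational `q_N`-expansion of the
conjugate `τ ↦ ev x (g⁻¹ • τ)`. -/
theorem h83_psiK_spec (g : SL(2, ℤ)) (x : h59_ringA N) :
    h77_IsQExp (N : ℝ) (coeffMap ι (h83_psiK N ι g (x : ↥(modularFunctionFieldBar N))))
      (fun τ => h83_ev N ι x (g⁻¹ • τ)) := by
  rw [h83_psiK_coe]
  exact h83_cuspHomK_spec N ι g x

theorem h83_psi_spec (g : SL(2, ℤ)) (x : h59_ringA N) :
    h77_IsQExp (N : ℝ) (h83_psi N ι g (x : ↥(modularFunctionFieldBar N)))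
      (fun τ => h83_ev N ι x (g⁻¹ • τ)) :=
  h83_psiK_spec N ι g x

omit [NeZero N] in
/-- Two ring homomorphisms out of the function field which agree on `A_N` are equal. -/
theorem h83_ringHom_ext {L : Type*} [Field L] {φ φ' : ↥(modularFunctionFieldBar N) →+* L}
    (h : ∀ x : h59_ringA N, φ (x : ↥(modularFunctionFieldBar N)) = φ' x) : φ = φ' := by
  refine IsLocalization.ringHom_ext (nonZeroDivisors (h59_ringA N)) ?_
  ext x
  exact h x

/-- (d) the expansions are trivial on constants. -/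
theorem h83_psiK_const (g : SL(2, ℤ)) (c : AlgebraicClosure ℚ) :
    h83_psiK N ι g (algebraMap (AlgebraicClosure ℚ) ↥(modularFunctionFieldBar N) c)
      = HahnSeries.C c := by
  have h0 : algebraMap (AlgebraicClosure ℚ) ↥(modularFunctionFieldBar N) c
      = ((algebraMap (AlgebraicClosure ℚ) (h59_ringA N) c : h59_ringA N) :
          ↥(modularFunctionFieldBar N)) := rfl
  rw [h0, h83_psiK_coe]
  apply h83_cuspHomK_eq
  rw [h83_ev_algebraMap]
  have h1 : coeffMap ι (HahnSeries.C c : LaurentSeries (AlgebraicClosure ℚ))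
      = HahnSeries.C (ι c) := by
    rw [HahnSeries.C_apply, coeffMap_single, HahnSeries.C_apply]
  rw [h1]
  exact h77_isQExp_C _ (ι c)

theorem h83_psi_const (g : SL(2, ℤ)) (c : AlgebraicClosure ℚ) :
    h83_psi N ι g (algebraMap (AlgebraicClosure ℚ) ↥(modularFunctionFieldBar N) c)
      = HahnSeries.C (ι c) := by
  rw [h83_psi_apply, h83_psiK_const, HahnSeries.C_apply, coeffMap_single, HahnSeries.C_apply]

/-- (a) the expansions only depend on the left coset `g Γ₀(N)`. -/
theorem h83_psiK_mul_right (g h : SL(2, ℤ)) (hh : h ∈ Gamma0 N) :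
    h83_psiK N ι (g * h) = h83_psiK N ι g := by
  apply h83_ringHom_ext
  intro x
  rw [h83_psiK_coe, h83_psiK_coe]
  apply h83_cuspHomK_eq
  have h1 := h83_cuspHomK_spec N ι g x
  refine h1.congr fun τ => ?_
  rw [mul_inv_rev, mul_smul]
  exact (h83_ev_smul N ι x (inv_mem hh) _).symm

theorem h83_psi_mul_right (g h : SL(2, ℤ)) (hh : h ∈ Gamma0 N) :
    h83_psi N ι (g * h) = h83_psi N ι g := by
  unfold h83_psi
  rw [h83_psiK_mul_right N ι g h hh]

/-- The primitive `N`-th root of unity by which left multiplication by `T` twists. -/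
noncomputable def h83_zeta : ℂ := Complex.exp (-(2 * Real.pi * Complex.I) / (N : ℂ))

omit [NeZero N] in
theorem h83_zeta_ne_zero : h83_zeta N ≠ 0 := Complex.exp_ne_zero _

omit [NeZero N] in
theorem h83_zeta_eq :
    Complex.exp (2 * Real.pi * Complex.I * ((-1 : ℝ) : ℂ) / ((N : ℝ) : ℂ)) = h83_zeta N := by
  unfold h83_zeta
  congr 1
  push_cast
  ring

theorem h83_zeta_zpow_eq_one (k : ℤ) (hk : h83_zeta N ^ k = 1) : (N : ℤ) ∣ k := by
  unfold h83_zeta at hk
  rw [← Complex.exp_int_mul, Complex.exp_eq_one_iff] at hk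
  obtain ⟨n, hn⟩ := hk
  have hN : (N : ℂ) ≠ 0 := by exact_mod_cast NeZero.ne N
  have hpi : (2 * Real.pi * Complex.I : ℂ) ≠ 0 := Complex.two_pi_I_ne_zero
  refine ⟨-n, ?_⟩
  have h0 : (k : ℂ) * (-(2 * Real.pi * Complex.I) / (N : ℂ)) * (N : ℂ)
      = (n : ℂ) * (2 * Real.pi * Complex.I) * (N : ℂ) := by rw [hn]
  rw [mul_assoc, div_mul_cancel₀ _ hN] at h0
  have h2 : (2 * Real.pi * Complex.I : ℂ) * (k : ℂ) = (2 * Real.pi * Complex.I) * ((N : ℂ) * (-n)) := by
    linear_combination -h0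
  have h1 : ((k : ℤ) : ℂ) = (((N : ℤ) * -n : ℤ) : ℂ) := by
    push_cast
    exact mul_left_cancel₀ hpi h2
  exact_mod_cast h1

/-- (b) left multiplication by `T` twists the expansion. -/
theorem h83_psi_T_mul (g : SL(2, ℤ)) (f : ↥(modularFunctionFieldBar N)) :
    h83_psi N ι (ModularGroup.T * g) f = h83_twist (h83_zeta N) (h83_psi N ι g f) := by
  have key : h83_psi N ι (ModularGroup.T * g)
      = (h83_twistHom (h83_zeta N) (h83_zeta_ne_zero N)).comp (h83_psi N ι g) := by
    apply h83_ringHom_ext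
    intro x
    rw [RingHom.comp_apply, h83_twistHom_apply]
    have h1 := h83_psi_spec N ι (ModularGroup.T * g) x
    have h2 := h83_isQExp_vadd (h83_psi_spec N ι g x) (-1 : ℝ)
    rw [h83_zeta_eq] at h2
    have hN : (0 : ℝ) < (N : ℝ) := by exact_mod_cast Nat.pos_of_ne_zero (NeZero.ne N)
    refine h77_IsQExp.unique hN h1 (h2.congr fun τ => ?_)
    rw [mul_inv_rev, mul_smul]
    have h3 := UpperHalfPlane.modular_T_zpow_smul τ (-1)
    rw [zpow_neg_one] at h3
    rw [h3]
    push_cast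
    rfl
  rw [key, RingHom.comp_apply, h83_twistHom_apply]

theorem h83_psi_T_mul_coeff (g : SL(2, ℤ)) (f : ↥(modularFunctionFieldBar N)) (k : ℤ) :
    (h83_psi N ι (ModularGroup.T * g) f).coeff k
      = h83_zeta N ^ k * (h83_psi N ι g f).coeff k := by
  rw [h83_psi_T_mul, h83_twist_coeff, mul_comm]

/-- The identity coset: the expansion is the formal series itself, in the variable `q_N`. -/
theorem h83_psiK_one (f : ↥(modularFunctionFieldBar N)) :
    h83_psiK N ι 1 f
      = qExpand (AlgebraicClosure ℚ) N (f : LaurentSeries (AlgebraicClosure ℚ)) := by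
  have key : h83_psiK N ι 1
      = (qExpand (AlgebraicClosure ℚ) N).comp (modularFunctionFieldBar N).val.toRingHom := by
    apply h83_ringHom_ext
    intro x
    rw [h83_psiK_coe]
    apply h83_cuspHomK_eq
    show h77_IsQExp (N : ℝ) (coeffMap ι (qExpand (AlgebraicClosure ℚ) N
      ((x : ↥(modularFunctionFieldBar N)) : LaurentSeries (AlgebraicClosure ℚ)))) _
    rw [coeffMap_qExpand]
    have h := (h83_ev_spec N ι x).qExpand_width N
    rw [mul_one] at h
    refine h.congr fun τ => ?_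
    rw [inv_one, one_smul]
  rw [key]
  rfl

omit [NeZero N] in
theorem h83_jbar_mem : h59_jbar N ∈ h59_ringA N := by
  rw [h59_mem_ringA, h59_coe_jbar]
  exact Algebra.subset_adjoin ⟨1, inferInstance, one_dvd N, (qExpand_one_apply _).symm⟩

omit [NeZero N] in
theorem h83_ev_jbar : h83_ev N ι ⟨h59_jbar N, h83_jbar_mem N⟩ = h77_j := by
  rw [h83_ev_apply]
  apply h77_toFun_eq
  show h77_IsQExp 1 (coeffMap ι (coeffEmb (AlgebraicClosure ℚ) jq)) h77_j
  rw [h77_coeffMap_coeffEmb]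
  exact h77_isQExp_jq

/-- The expansion of `j` is the same at every coset. -/
theorem h83_psiK_jbar (g : SL(2, ℤ)) :
    h83_psiK N ι g (h59_jbar N)
      = qExpand (AlgebraicClosure ℚ) N (coeffEmb (AlgebraicClosure ℚ) jq) := by
  have h0 : h59_jbar N = ((⟨h59_jbar N, h83_jbar_mem N⟩ : h59_ringA N) :
      ↥(modularFunctionFieldBar N)) := rfl
  rw [h0, h83_psiK_coe]
  apply h83_cuspHomK_eq
  rw [coeffMap_qExpand, h77_coeffMap_coeffEmb, h83_ev_jbar]
  have h := h77_isQExp_jq.qExpand_width N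
  rw [mul_one] at h
  refine h.congr fun τ => ?_
  rw [h83_j_smul]

theorem h83_psi_jbar (g : SL(2, ℤ)) :
    h83_psi N ι g (h59_jbar N) = qExpand ℂ N (coeffMap (algebraMap ℚ ℂ) jq) := by
  rw [h83_psi_apply, h83_psiK_jbar, coeffMap_qExpand, h77_coeffMap_coeffEmb]

theorem h83_order_qExpand_jq :
    (qExpand ℂ N (coeffMap (algebraMap ℚ ℂ) jq)).order = -(N : ℤ) := by
  have hN : (0 : ℤ) < N := by exact_mod_cast Nat.pos_of_ne_zero (NeZero.ne N)
  have h1 : (qExpand ℂ N (coeffMap (algebraMap ℚ ℂ) jq)).coeff (-(N : ℤ)) ≠ 0 := by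
    have : (-(N : ℤ)) = (N : ℤ) * (-1) := by ring
    rw [this, qExpand_coeff_mul, coeffMap_coeff, coeff_jq_neg_one]
    simp
  have hne : qExpand ℂ N (coeffMap (algebraMap ℚ ℂ) jq) ≠ 0 := by
    intro h0
    rw [h0] at h1
    simp at h1
  apply le_antisymm
  · exact HahnSeries.order_le_of_coeff_ne_zero h1
  · by_contra hlt
    rw [not_le] at hlt
    have h2 : (qExpand ℂ N (coeffMap (algebraMap ℚ ℂ) jq)).coeff
        (qExpand ℂ N (coeffMap (algebraMap ℚ ℂ) jq)).order = 0 := by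
      by_cases hdvd : (N : ℤ) ∣ (qExpand ℂ N (coeffMap (algebraMap ℚ ℂ) jq)).order
      · obtain ⟨k, hk⟩ := hdvd
        rw [hk, qExpand_coeff_mul, coeffMap_coeff, coeff_jq_of_lt, map_zero]
        rw [hk] at hlt
        by_contra hk1
        rw [not_lt] at hk1
        have : -(N : ℤ) ≤ (N : ℤ) * k := by nlinarith
        omega
      · exact qExpand_coeff_of_not_dvd N _ hdvd
    exact hne (HahnSeries.coeff_order_eq_zero.mp h2)

/-- (c) the expansion of `j` has order `-N` at every coset. -/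
theorem h83_psi_jbar_order (g : SL(2, ℤ)) : (h83_psi N ι g (h59_jbar N)).order = -(N : ℤ) := by
  rw [h83_psi_jbar, h83_order_qExpand_jq]

theorem h83_jN_mem :
    (⟨qExpand (AlgebraicClosure ℚ) N (coeffEmb (AlgebraicClosure ℚ) jq),
      h59_gen_mem_bar (dvd_refl N)⟩ : ↥(modularFunctionFieldBar N)) ∈ h59_ringA N := by
  rw [h59_mem_ringA]
  exact Algebra.subset_adjoin (h59_mem_gens _ (dvd_refl N))

theorem h83_ev_jN :
    h83_ev N ι ⟨⟨qExpand (AlgebraicClosure ℚ) N (coeffEmb (AlgebraicClosure ℚ) jq),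
      h59_gen_mem_bar (dvd_refl N)⟩, h83_jN_mem N⟩
      = fun τ : ℍ => h77_j (ofComplex ((N : ℂ) * τ)) := by
  rw [h83_ev_apply]
  apply h77_toFun_eq
  show h77_IsQExp 1 (coeffMap ι (qExpand (AlgebraicClosure ℚ) N
    (coeffEmb (AlgebraicClosure ℚ) jq))) _
  rw [coeffMap_qExpand, h77_coeffMap_coeffEmb]
  exact h77_isQExp_jq.comp_mul N

/-- The expansions at distinct cosets are distinct. -/
theorem h83_coset_eq_of_psi_eq {g g' : SL(2, ℤ)} (h : h83_psi N ι g = h83_psi N ι g') :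
    (g : SL(2, ℤ) ⧸ Gamma0 N) = (g' : SL(2, ℤ) ⧸ Gamma0 N) := by
  have hN : 0 < N := Nat.pos_of_ne_zero (NeZero.ne N)
  set x : h59_ringA N := ⟨⟨qExpand (AlgebraicClosure ℚ) N (coeffEmb (AlgebraicClosure ℚ) jq),
      h59_gen_mem_bar (dvd_refl N)⟩, h83_jN_mem N⟩ with hx
  have h1 := h83_psi_spec N ι g x
  have h2 := h83_psi_spec N ι g' x
  rw [h] at h1
  have h3 := h1.unique_fun h2
  rw [h83_ev_jN] at h3
  have h4 : ∀ τ : ℍ, h77_j (ofComplex ((N : ℂ) * ((g⁻¹ • τ : ℍ) : ℂ)))
      = h77_j (ofComplex ((N : ℂ) * ((g'⁻¹ • τ : ℍ) : ℂ))) := fun τ => congrFun h3 τ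
  have h5 := (h64_conj_eq_conj_iff_mem (f := h77_j) h83_j_smul h64_jf_leadOne hN g⁻¹ g'⁻¹).mp h4
  rw [inv_inv] at h5
  exact QuotientGroup.eq.mpr h5

end Psi

/-! ### The family indexed by the cosets and its order functions -/

section Sigma

variable (N : ℕ) [NeZero N] (ι : AlgebraicClosure ℚ →+* ℂ)

/-- The expansion at `i∞` attached to a coset `x = g Γ₀(N)`: the `q_N`-expansion of the
`g`-conjugate. -/
noncomputable def h83_sigma (x : SL(2, ℤ) ⧸ Gamma0 N) :
    ↥(modularFunctionFieldBar N) →+* LaurentSeries ℂ :=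
  h83_psi N ι (Quotient.out x)

theorem h83_sigma_mk (g : SL(2, ℤ)) :
    h83_sigma N ι (g : SL(2, ℤ) ⧸ Gamma0 N) = h83_psi N ι g :=
  h14_psi_out (ψ := h83_psi N ι) (h83_psi_mul_right N ι) g

/-- The expansions at distinct cosets are distinct. -/
theorem h83_sigma_injective : Function.Injective (h83_sigma N ι) := by
  intro x y hxy
  induction x using QuotientGroup.induction_on with
  | H g =>
    induction y using QuotientGroup.induction_on with
    | H g' =>
      rw [h83_sigma_mk, h83_sigma_mk] at hxy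
      exact h83_coset_eq_of_psi_eq N ι hxy

theorem h83_sigma_const (x : SL(2, ℤ) ⧸ Gamma0 N) (c : AlgebraicClosure ℚ) :
    h83_sigma N ι x (algebraMap (AlgebraicClosure ℚ) ↥(modularFunctionFieldBar N) c)
      = HahnSeries.C (ι c) :=
  h83_psi_const N ι _ c

/-- The expansion of `j` does not depend on the coset. -/
theorem h83_sigma_jbar (x : SL(2, ℤ) ⧸ Gamma0 N) :
    h83_sigma N ι x (h59_jbar N) = qExpand ℂ N (coeffMap (algebraMap ℚ ℂ) jq) :=
  h83_psi_jbar N ι _

/-- All the expansions agree on the subfield `K(j)`. -/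
theorem h83_sigma_eq_on_adjoin (x y : SL(2, ℤ) ⧸ Gamma0 N) (f : ↥(modularFunctionFieldBar N))
    (hf : f ∈ IntermediateField.adjoin (AlgebraicClosure ℚ) {h59_jbar N}) :
    h83_sigma N ι x f = h83_sigma N ι y f := by
  induction hf using IntermediateField.adjoin_induction with
  | mem z hz =>
    rw [Set.mem_singleton_iff] at hz
    rw [hz, h83_sigma_jbar, h83_sigma_jbar]
  | algebraMap c => rw [h83_sigma_const, h83_sigma_const]
  | add z z' _ _ hz hz' => rw [map_add, map_add, hz, hz']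
  | inv z _ hz => rw [map_inv₀, map_inv₀, hz]
  | mul z z' _ _ hz hz' => rw [map_mul, map_mul, hz, hz']

/-- The order function at the coset `x`. -/
noncomputable def h83_w (x : SL(2, ℤ) ⧸ Gamma0 N) (f : ↥(modularFunctionFieldBar N)) : ℤ :=
  (h83_sigma N ι x f).order

theorem h83_w_eq_cuspW (x : SL(2, ℤ) ⧸ Gamma0 N) (f : ↥(modularFunctionFieldBar N)) :
    h83_w N ι x f = h14_cuspW (h83_psi N ι) x f := rfl

/-- (V) the order functions are valuations. -/
theorem h83_w_isVal (x : SL(2, ℤ) ⧸ Gamma0 N) : h30_IsVal (h83_w N ι x) where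
  map_mul _ _ hf hg := h14_cuspW_mul (ψ := h83_psi N ι) x hf hg
  map_add _ _ _ _ hfg := h14_cuspW_add (ψ := h83_psi N ι) x hfg

/-- (V) the order functions are trivial on constants. -/
theorem h83_w_const (x : SL(2, ℤ) ⧸ Gamma0 N) (c : AlgebraicClosure ℚ) :
    h83_w N ι x (algebraMap (AlgebraicClosure ℚ) ↥(modularFunctionFieldBar N) c) = 0 := by
  unfold h83_w
  rw [h83_sigma_const]
  exact HahnSeries.order_C

/-- (E) `j` has a pole of order `N` (in the variable `q_N`) at every coset. -/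
theorem h83_w_jbar (x : SL(2, ℤ) ⧸ Gamma0 N) : h83_w N ι x (h59_jbar N) = -(N : ℤ) := by
  unfold h83_w
  rw [h83_sigma_jbar, h83_order_qExpand_jq]

/-- (E) `1 / j` has a zero of order `N` at every coset. -/
theorem h83_w_jbar_inv (x : SL(2, ℤ) ⧸ Gamma0 N) : h83_w N ι x (h59_jbar N)⁻¹ = (N : ℤ) :=
  h14_cuspW_inv_t (ψ := h83_psi N ι) (t := h59_jbar N) (h83_psi_jbar_order N ι) x

/-- (G) the order functions are invariant under `x ↦ T • x`. -/
theorem h83_w_T_smul (x : SL(2, ℤ) ⧸ Gamma0 N) :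
    h83_w N ι (ModularGroup.T • x) = h83_w N ι x :=
  funext fun f => h14_cuspW_T_smul (ψ := h83_psi N ι) (ζ := h83_zeta N) (h83_zeta_ne_zero N)
    (h83_psi_mul_right N ι) (h83_psi_T_mul_coeff N ι) x f

theorem h83_w_T_zpow_smul (k : ℤ) (x : SL(2, ℤ) ⧸ Gamma0 N) :
    h83_w N ι (ModularGroup.T ^ k • x) = h83_w N ι x := by
  induction k using Int.induction_on with
  | zero => simp
  | succ n ih =>
    rw [zpow_add_one, mul_smul] at *
    have h1 := h83_w_T_smul N ι (ModularGroup.T ^ (n : ℤ) • x)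
    rw [← mul_smul, ← zpow_one_add, add_comm, zpow_add_one, mul_smul] at h1
    rw [h1]
    simpa using ih
  | pred n ih =>
    have h1 := h83_w_T_smul N ι (ModularGroup.T ^ (-(n : ℤ) - 1) • x)
    rw [← mul_smul, ← zpow_one_add] at h1
    have h2 : (1 : ℤ) + (-(n : ℤ) - 1) = -(n : ℤ) := by ring
    rw [h2] at h1
    rw [← h1, ih]

/-- (G) the order functions are constant on the orbits of `⟨T⟩`. -/
theorem h83_w_eq_of_orbitRel {x y : SL(2, ℤ) ⧸ Gamma0 N}
    (h : (MulAction.orbitRel (Subgroup.zpowers ModularGroup.T) (SL(2, ℤ) ⧸ Gamma0 N)) x y) :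
    h83_w N ι x = h83_w N ι y := by
  rw [MulAction.orbitRel_apply] at h
  obtain ⟨⟨g, hg⟩, rfl⟩ := h
  obtain ⟨k, rfl⟩ := Subgroup.mem_zpowers_iff.mp hg
  exact h83_w_T_zpow_smul N ι k y

/-- `N` divided by the size of the `⟨T⟩`-orbit of `x`. -/
noncomputable def h83_d (x : SL(2, ℤ) ⧸ Gamma0 N) : ℕ :=
  N / Function.minimalPeriod (fun y : SL(2, ℤ) ⧸ Gamma0 N => ModularGroup.T • y) x

/-- (M) the orders at the coset `x` are divisible by `N / (size of the T-orbit of x)`. -/
theorem h83_d_dvd (x : SL(2, ℤ) ⧸ Gamma0 N) (f : ↥(modularFunctionFieldBar N)) (hf : f ≠ 0) :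
    (h83_d N x : ℤ) ∣ h83_w N ι x f :=
  h14_cuspW_dvd (ψ := h83_psi N ι) (ζ := h83_zeta N) (h83_zeta_zpow_eq_one N)
    (h83_psi_mul_right N ι) (h83_psi_T_mul_coeff N ι) x hf

omit [NeZero N] in
theorem h83_card_orbit (x : SL(2, ℤ) ⧸ Gamma0 N) :
    Nat.card {y // (MulAction.orbitRel (Subgroup.zpowers ModularGroup.T)
      (SL(2, ℤ) ⧸ Gamma0 N)) y x}
      = Function.minimalPeriod (fun y : SL(2, ℤ) ⧸ Gamma0 N => ModularGroup.T • y) x := by
  have e := MulAction.orbitZPowersEquiv ModularGroup.T x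
  have h1 := Nat.card_congr e
  rw [Nat.card_zmod] at h1
  exact h1

omit [NeZero N] in
/-- (M) `d x * (size of the T-orbit of x) = N`. -/
theorem h83_d_mul_card (x : SL(2, ℤ) ⧸ Gamma0 N) :
    h83_d N x * Nat.card {y // (MulAction.orbitRel (Subgroup.zpowers ModularGroup.T)
      (SL(2, ℤ) ⧸ Gamma0 N)) y x} = N := by
  rw [h83_card_orbit]
  exact h14_div_mul_minimalPeriod N x

/-- All the expansions agree on the image of any model `E` of the rational function field
`K(t)`, `t ∈ K(j)` (e.g. `t = j - a` or `t = 1 / j`): the hypothesis `hE` of the norm identity. -/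
theorem h83_sigma_algebraMap_eq {E : Type*} [Field E] [Algebra (Polynomial (AlgebraicClosure ℚ)) E]
    [IsFractionRing (Polynomial (AlgebraicClosure ℚ)) E] [Algebra E ↥(modularFunctionFieldBar N)]
    [Algebra (Polynomial (AlgebraicClosure ℚ)) ↥(modularFunctionFieldBar N)]
    [IsScalarTower (Polynomial (AlgebraicClosure ℚ)) E ↥(modularFunctionFieldBar N)]
    (t : ↥(modularFunctionFieldBar N))
    (ht : t ∈ IntermediateField.adjoin (AlgebraicClosure ℚ) {h59_jbar N})
    (halg : ∀ p : Polynomial (AlgebraicClosure ℚ),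
      algebraMap (Polynomial (AlgebraicClosure ℚ)) ↥(modularFunctionFieldBar N) p
        = Polynomial.aeval t p)
    (x y : SL(2, ℤ) ⧸ Gamma0 N) (e : E) :
    h83_sigma N ι x (algebraMap E ↥(modularFunctionFieldBar N) e)
      = h83_sigma N ι y (algebraMap E ↥(modularFunctionFieldBar N) e) := by
  apply h83_sigma_eq_on_adjoin
  obtain ⟨a, b, -, rfl⟩ := IsFractionRing.div_surjective (A := Polynomial (AlgebraicClosure ℚ)) e
  have hmem : ∀ p : Polynomial (AlgebraicClosure ℚ),
      algebraMap E ↥(modularFunctionFieldBar N) (algebraMap (Polynomial (AlgebraicClosure ℚ)) E p)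
        ∈ IntermediateField.adjoin (AlgebraicClosure ℚ) {h59_jbar N} := by
    intro p
    rw [← IsScalarTower.algebraMap_apply, halg]
    have h1 := Polynomial.aeval_subalgebra_coe p
      (IntermediateField.adjoin (AlgebraicClosure ℚ) {h59_jbar N}).toSubalgebra ⟨t, ht⟩
    simp only at h1
    rw [← h1]
    exact Subtype.property _
  rw [map_div₀]
  exact div_mem (hmem a) (hmem b)

end Sigma

end Fermat.Agent.S24
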