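import Mathlib
import Fermat.Prelude.Def_AlgebraicCurve_DivisorClassGroup

set_option autoImplicit false

namespace Fermat.Agent.S24

open AlgebraicCurve IntermediateField

section Basic

variable {K F : Type*} [Field K] [Field F] [Algebra K F]

/-- Membership in the valuation ring of a place, in terms of `ord`. -/
theorem h35_mem_iff_ord_nonneg (v : Place K F) {f : F} (hf : f ≠ 0) :
    f ∈ v.toValuationSubring ↔ 0 ≤ v.ord f := by
  obtain ⟨π, hπ⟩ := IsDiscreteValuationRing.exists_irreducible v.toValuationSubring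
  obtain ⟨u, hu⟩ := v.exists_unit_mul_zpow hf hπ
  have hπF : (π : F) ≠ 0 := by
    simpa [ne_eq, ZeroMemClass.coe_eq_zero] using hπ.ne_zero
  constructor
  · intro hmem
    by_contra hneg
    push Not at hneg
    obtain ⟨m, hm⟩ : ∃ m : ℕ, v.ord f = -(m : ℤ) := ⟨(-v.ord f).toNat, by omega⟩
    have hm0 : m ≠ 0 := by
      rintro rfl
      simp at hm
      omega
    have hfu : f * (π : F) ^ m = ((u : v.toValuationSubring) : F) := by
      conv_lhs => rw [hu, hm, zpow_neg, zpow_natCast]
      rw [mul_assoc, inv_mul_cancel₀ (pow_ne_zero m hπF), mul_one]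
    have hunit : IsUnit ((⟨f, hmem⟩ : v.toValuationSubring) * π ^ m) := by
      have : (⟨f, hmem⟩ : v.toValuationSubring) * π ^ m = (u : v.toValuationSubring) :=
        Subtype.ext hfu
      rw [this]
      exact u.isUnit
    exact hπ.not_isUnit ((isUnit_pow_iff hm0).mp (isUnit_of_mul_isUnit_right hunit))
  · intro hnn
    obtain ⟨m, hm⟩ : ∃ m : ℕ, v.ord f = (m : ℤ) := ⟨(v.ord f).toNat, by omega⟩
    rw [hu, hm, zpow_natCast]
    exact v.toValuationSubring.mul_mem _ _ (u : v.toValuationSubring).2
      (pow_mem π.2 m)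

theorem h35_ord_nonneg_of_mem (v : Place K F) {f : F} (hf : f ∈ v.toValuationSubring) :
    0 ≤ v.ord f := by
  by_cases h0 : f = 0
  · simp [h0]
  · exact (h35_mem_iff_ord_nonneg v h0).mp hf

theorem h35_ord_pos_iff (v : Place K F) {f : F} (hf : f ≠ 0) :
    0 < v.ord f ↔ f ∈ v.toValuationSubring ∧ f⁻¹ ∉ v.toValuationSubring := by
  rw [h35_mem_iff_ord_nonneg v hf, h35_mem_iff_ord_nonneg v (inv_ne_zero hf), v.ord_inv]
  omega

theorem h35_ord_algebraMap (v : Place K F) (a : K) : v.ord (algebraMap K F a) = 0 := by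
  by_cases ha : a = 0
  · simp [ha]
  have h1 : algebraMap K F a ≠ 0 := by simpa using ha
  have h2 := (h35_mem_iff_ord_nonneg v h1).mp (v.algebraMap_mem' a)
  have h3 := (h35_mem_iff_ord_nonneg v (inv_ne_zero h1)).mp
    (by rw [← map_inv₀]; exact v.algebraMap_mem' a⁻¹)
  rw [v.ord_inv] at h3
  omega

theorem h35_ord_div (v : Place K F) {f g : F} (hf : f ≠ 0) (hg : g ≠ 0) :
    v.ord (f / g) = v.ord f - v.ord g := by
  rw [div_eq_mul_inv, v.ord_mul hf (inv_ne_zero hg), v.ord_inv]
  ring

theorem h35_ord_neg (v : Place K F) (f : F) : v.ord (-f) = v.ord f := by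
  by_cases hf : f = 0
  · simp [hf]
  have h1 : v.ord (-1 : F) = 0 := by
    have := h35_ord_algebraMap v (-1 : K)
    simpa using this
  rw [← neg_one_mul, v.ord_mul (neg_ne_zero.mpr one_ne_zero) hf, h1, zero_add]

theorem h35_ord_add (v : Place K F) {f g : F} (hf : f ≠ 0) (hg : g ≠ 0) (hfg : f + g ≠ 0) :
    min (v.ord f) (v.ord g) ≤ v.ord (f + g) := by
  wlog hle : v.ord f ≤ v.ord g generalizing f g
  · have := this hg hf (by rwa [add_comm]) (le_of_not_ge hle)
    rwa [min_comm, add_comm]
  rw [min_eq_left hle]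
  have hgf : g / f ∈ v.toValuationSubring := by
    rw [h35_mem_iff_ord_nonneg v (div_ne_zero hg hf), h35_ord_div v hg hf]
    omega
  have h1 : 1 + g / f ∈ v.toValuationSubring :=
    v.toValuationSubring.add_mem _ _ v.toValuationSubring.one_mem hgf
  have h2 : 1 + g / f ≠ 0 := by
    intro h
    apply hfg
    have : f + g = f * (1 + g / f) := by field_simp
    rw [this, h, mul_zero]
  have h3 : f + g = f * (1 + g / f) := by field_simp
  rw [h3, v.ord_mul hf h2]
  have := (h35_mem_iff_ord_nonneg v h2).mp h1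
  omega

theorem h35_ord_sub (v : Place K F) {f g : F} (hf : f ≠ 0) (hg : g ≠ 0) (hfg : f - g ≠ 0) :
    min (v.ord f) (v.ord g) ≤ v.ord (f - g) := by
  have := h35_ord_add v hf (neg_ne_zero.mpr hg) (by rwa [← sub_eq_add_neg])
  rwa [h35_ord_neg, ← sub_eq_add_neg] at this

/-- A place is determined by its valuation ring up to inclusion. -/
theorem h35_place_eq_of_le (v w : Place K F)
    (h : v.toValuationSubring ≤ w.toValuationSubring) : v = w :=
  Place.ext (ValuationSubring.eq_of_le_of_ne_top _ h w.ne_top')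

theorem h35_place_eq_of_ord (v w : Place K F)
    (h : ∀ f : F, f ≠ 0 → 0 ≤ v.ord f → 0 ≤ w.ord f) : v = w := by
  apply h35_place_eq_of_le
  intro f hf
  by_cases h0 : f = 0
  · rw [h0]; exact w.toValuationSubring.zero_mem
  · exact (h35_mem_iff_ord_nonneg w h0).mpr (h f h0 ((h35_mem_iff_ord_nonneg v h0).mp hf))

/-- The valuation ring of a place as a `K`-subalgebra. -/
def h35_placeSubalgebra (v : Place K F) : Subalgebra K F :=
  { v.toValuationSubring.toSubring with
    algebraMap_mem' := v.algebraMap_mem' }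

theorem h35_mem_placeSubalgebra (v : Place K F) (x : F) :
    x ∈ h35_placeSubalgebra v ↔ x ∈ v.toValuationSubring := Iff.rfl

theorem h35_aeval_mem (v : Place K F) {t : F} (ht : t ∈ v.toValuationSubring)
    (g : Polynomial K) : Polynomial.aeval t g ∈ v.toValuationSubring := by
  have : Polynomial.aeval t g ∈ Algebra.adjoin K {t} := Polynomial.aeval_mem_adjoin_singleton K t
  exact (Algebra.adjoin_le (S := h35_placeSubalgebra v)
    (Set.singleton_subset_iff.mpr ht)) this

theorem h35_adjoin_le (v : Place K F) {t : F} (ht : t ∈ v.toValuationSubring) :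
    Algebra.adjoin K {t} ≤ h35_placeSubalgebra v :=
  Algebra.adjoin_le (Set.singleton_subset_iff.mpr ht)

/-- Residue of an element of positive order is zero. -/
theorem h35_residue_eq_zero_of_ord_pos (v : Place K F) (x : v.toValuationSubring)
    (hx : 0 < v.ord (x : F)) : IsLocalRing.residue v.toValuationSubring x = 0 := by
  rw [IsLocalRing.residue_eq_zero_iff, IsLocalRing.mem_maximalIdeal, mem_nonunits_iff]
  intro hu
  obtain ⟨u, rfl⟩ := hu
  rw [v.ord_coe_unit u] at hx
  exact lt_irrefl 0 hx

theorem h35_ord_pos_of_residue_eq_zero (v : Place K F) (x : v.toValuationSubring)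
    (hx0 : (x : F) ≠ 0) (hx : IsLocalRing.residue v.toValuationSubring x = 0) :
    0 < v.ord (x : F) := by
  rw [h35_ord_pos_iff v hx0]
  refine ⟨x.2, fun hinv => ?_⟩
  rw [IsLocalRing.residue_eq_zero_iff, IsLocalRing.mem_maximalIdeal, mem_nonunits_iff] at hx
  apply hx
  refine IsUnit.of_mul_eq_one (⟨_, hinv⟩ : v.toValuationSubring) (Subtype.ext ?_)
  show (x : F) * (x : F)⁻¹ = 1
  exact mul_inv_cancel₀ hx0

end Basic

section AlgClosed

variable {K F : Type*} [Field K] [Field F] [Algebra K F] [IsAlgClosed K]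

theorem h35_exists_algebraMap_eq_of_isAlgebraic {L : Type*} [Field L] [Algebra K L] (x : L)
    (hx : IsAlgebraic K x) : ∃ a : K, algebraMap K L a = x := by
  have h1 := IsAlgClosed.degree_eq_one_of_irreducible K (minpoly.irreducible hx.isIntegral)
  exact minpoly.mem_range_of_degree_eq_one K x h1

/-- If a nonzero polynomial in `t` has positive order at `v`, then `t` takes a value in `K`
at `v`. -/
theorem h35_exists_value_of_aeval (v : Place K F) {t : F} (ht : t ∈ v.toValuationSubring)
    (g : Polynomial K) (hg : g ≠ 0) (h : 0 < v.ord (Polynomial.aeval t g)) :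
    ∃ a : K, t = algebraMap K F a ∨ 0 < v.ord (t - algebraMap K F a) := by
  let t' : v.toValuationSubring := ⟨t, ht⟩
  have h1 : ((Polynomial.aeval t' g : v.toValuationSubring) : F) = Polynomial.aeval t g := by
    have := Polynomial.aeval_algebraMap_apply F t' g
    exact this.symm
  have h2 : IsLocalRing.residue v.toValuationSubring (Polynomial.aeval t' g) = 0 := by
    apply h35_residue_eq_zero_of_ord_pos
    rw [h1]
    exact h
  have h3 : Polynomial.aeval (IsLocalRing.residue v.toValuationSubring t') g = 0 := by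
    have := Polynomial.aeval_algebraMap_apply v.ResidueField t' g
    rw [IsLocalRing.ResidueField.algebraMap_eq] at this
    rw [this, h2]
  obtain ⟨a, ha⟩ := h35_exists_algebraMap_eq_of_isAlgebraic
    (IsLocalRing.residue v.toValuationSubring t') ⟨g, hg, h3⟩
  refine ⟨a, ?_⟩
  by_cases hta : t = algebraMap K F a
  · exact Or.inl hta
  right
  have h4 : IsLocalRing.residue v.toValuationSubring (t' - algebraMap K v.toValuationSubring a)
      = 0 := by
    rw [map_sub, sub_eq_zero, ← ha]
    rfl
  have h5 := h35_ord_pos_of_residue_eq_zero v (t' - algebraMap K v.toValuationSubring a)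
    (by
      show t - algebraMap K F a ≠ 0
      exact sub_ne_zero.mpr hta) h4
  exact h5

/-- If `t` is transcendental, `F` is algebraic over `K(t)` and `t` is regular at `v`, then `t`
takes a value `a ∈ K` at `v`. -/
theorem h35_exists_value_of_transcendental (v : Place K F) {t : F} (htr : Transcendental K t)
    [Algebra.IsAlgebraic K⟮t⟯ F] (ht : t ∈ v.toValuationSubring) :
    ∃ a : K, 0 < v.ord (t - algebraMap K F a) := by
  obtain ⟨π, hπ⟩ := IsDiscreteValuationRing.exists_irreducible v.toValuationSubring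
  have hπF : (π : F) ≠ 0 := by
    simpa [ne_eq, ZeroMemClass.coe_eq_zero] using hπ.ne_zero
  have halg : IsAlgebraic (Algebra.adjoin K {t}) (π : F) :=
    isAlgebraic_adjoin_iff.mp (Algebra.IsAlgebraic.isAlgebraic (π : F))
  obtain ⟨q, hq0, hq⟩ := halg.exists_nonzero_coeff_and_aeval_eq_zero
    (mem_nonZeroDivisors_of_ne_zero hπF)
  -- the constant coefficient is a nonzero element of `K[t]` of positive order
  have hdecomp : Polynomial.aeval (π : F) q.divX * (π : F) +
      ((q.coeff 0 : Algebra.adjoin K {t}) : F) = 0 := by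
    have := congrArg (Polynomial.aeval (π : F)) (Polynomial.divX_mul_X_add q)
    rw [map_add, map_mul, Polynomial.aeval_X, Polynomial.aeval_C, hq] at this
    exact this
  have hle := h35_adjoin_le v ht
  have hmemw : Polynomial.aeval (π : F) q.divX ∈ v.toValuationSubring := by
    rw [Polynomial.aeval_eq_sum_range]
    refine Subring.sum_mem v.toValuationSubring.toSubring fun i _ => ?_
    rw [Algebra.smul_def]
    exact v.toValuationSubring.mul_mem _ _ (hle (q.divX.coeff i).2) (pow_mem π.2 i)
  have hr0F : ((q.coeff 0 : Algebra.adjoin K {t}) : F) ≠ 0 := by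
    simpa [ne_eq, ZeroMemClass.coe_eq_zero] using hq0
  have hw0 : Polynomial.aeval (π : F) q.divX ≠ 0 := by
    intro h0
    rw [h0, zero_mul, zero_add] at hdecomp
    exact hr0F hdecomp
  have hr0 : ((q.coeff 0 : Algebra.adjoin K {t}) : F) =
      -(Polynomial.aeval (π : F) q.divX * (π : F)) := eq_neg_of_add_eq_zero_right hdecomp
  have hpos : 0 < v.ord ((q.coeff 0 : Algebra.adjoin K {t}) : F) := by
    rw [hr0, h35_ord_neg, v.ord_mul hw0 hπF, v.ord_coe_irreducible hπ]
    have := (h35_mem_iff_ord_nonneg v hw0).mp hmemw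
    omega
  obtain ⟨g, hg⟩ : ∃ g : Polynomial K, Polynomial.aeval t g =
      ((q.coeff 0 : Algebra.adjoin K {t}) : F) := by
    have hmem : ((q.coeff 0 : Algebra.adjoin K {t}) : F) ∈ (Polynomial.aeval (R := K) t).range := by
      rw [← Algebra.adjoin_singleton_eq_range_aeval]
      exact (q.coeff 0).2
    exact hmem
  have hg0 : g ≠ 0 := by
    rintro rfl
    rw [map_zero] at hg
    exact hr0F hg.symm
  obtain ⟨a, ha | ha⟩ := h35_exists_value_of_aeval v ht g hg0 (by rw [hg]; exact hpos)
  · exact absurd (ha ▸ isAlgebraic_algebraMap a : IsAlgebraic K t) htr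
  · exact ⟨a, ha⟩

end AlgClosed

end Fermat.Agent.S24
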