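import Mathlib

set_option autoImplicit false

namespace Fermat.Agent.S24

open Polynomial

/-- Interpolation: a polynomial over `M` of degree `< #s` whose values at the points of a finset
`s` of `E` lie in (the image of) `E` has coefficients in `E`. -/
theorem h71_poly_mem_range_of_eval {E M : Type*} [Field E] [Field M] [Algebra E M]
    (P : M[X]) (s : Finset E) (hdeg : P.degree < s.card)
    (hval : ∀ e ∈ s, P.eval (algebraMap E M e) ∈ Set.range (algebraMap E M)) :
    ∃ p : E[X], p.map (algebraMap E M) = P := by
  classical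
  choose! r hr using hval
  have hinj : Set.InjOn (id : E → E) s := Function.injective_id.injOn
  refine ⟨Lagrange.interpolate s id r, ?_⟩
  have hcard : (s.map ⟨algebraMap E M, (algebraMap E M).injective⟩).card = s.card :=
    Finset.card_map _
  refine Polynomial.eq_of_degrees_lt_of_eval_finset_eq
    (s.map ⟨algebraMap E M, (algebraMap E M).injective⟩) ?_ ?_ ?_
  · rw [hcard]
    exact lt_of_le_of_lt (Polynomial.degree_map_le) (Lagrange.degree_interpolate_lt r hinj)
  · rw [hcard]; exact hdeg
  · intro x hx
    obtain ⟨e, he, rfl⟩ := Finset.mem_map.mp hx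
    simp only [Function.Embedding.coeFn_mk]
    rw [Polynomial.eval_map_algebraMap, ← hr e he]
    have h1 : Polynomial.aeval (algebraMap E M e) (Lagrange.interpolate s id r)
        = algebraMap E M (Polynomial.eval e (Lagrange.interpolate s id r)) :=
      Polynomial.aeval_algebraMap_apply_eq_algebraMap_eval _ _
    rw [h1]
    have h2 := Lagrange.eval_interpolate_at_node r hinj he
    simp only [id] at h2
    rw [h2]

/-- Step 1: if all products `∏ x, σ x a` (`a` in a `K`-subalgebra `A`) lie in `E`, then the
polynomial `∏ x, (X - C (σ x a))` has coefficients in `E`. -/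
theorem h71_exists_charpoly {K E F M : Type*} [Field K] [Field E] [Field F] [Field M]
    [Algebra K E] [Algebra E F] [Algebra K F] [IsScalarTower K E F] [Algebra E M]
    [Infinite K] (A : Subalgebra K F)
    {Q : Type*} [Fintype Q] (σ : Q → F →ₐ[E] M)
    (hprod : ∀ a ∈ A, ∏ x, σ x a ∈ Set.range (algebraMap E M)) (a : F) (ha : a ∈ A) :
    ∃ p : E[X], p.map (algebraMap E M) = ∏ x, (X - C (σ x a)) := by
  classical
  obtain ⟨t, ht⟩ := Infinite.exists_subset_card_eq K (Fintype.card Q + 1)
  refine h71_poly_mem_range_of_eval _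
    (t.map ⟨algebraMap K E, (algebraMap K E).injective⟩) ?_ ?_
  · rw [Finset.card_map, ht, Polynomial.degree_prod]
    simp only [degree_X_sub_C, Finset.sum_const, Finset.card_univ, nsmul_eq_mul, mul_one]
    exact_mod_cast Nat.lt_succ_self _
  · intro e he
    obtain ⟨l, hl, rfl⟩ := Finset.mem_map.mp he
    simp only [Function.Embedding.coeFn_mk]
    rw [Polynomial.eval_prod]
    simp only [eval_sub, eval_X, eval_C]
    have h1 : ∀ x, algebraMap E M (algebraMap K E l) - σ x a = σ x (algebraMap K F l - a) := by
      intro x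
      rw [map_sub, IsScalarTower.algebraMap_apply K E F, AlgHom.commutes]
    simp only [h1]
    exact hprod _ (A.sub_mem (A.algebraMap_mem l) ha)

/-- Step 2: every element of `A` is integral over `E`. -/
theorem h71_isIntegral {K E F M : Type*} [Field K] [Field E] [Field F] [Field M]
    [Algebra K E] [Algebra E F] [Algebra K F] [IsScalarTower K E F] [Algebra E M]
    [Infinite K] (A : Subalgebra K F)
    {Q : Type*} [Fintype Q] [Nonempty Q] (σ : Q → F →ₐ[E] M)
    (hprod : ∀ a ∈ A, ∏ x, σ x a ∈ Set.range (algebraMap E M)) (a : F) (ha : a ∈ A) :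
    IsIntegral E a := by
  classical
  obtain ⟨p, hp⟩ := h71_exists_charpoly A σ hprod a ha
  have hmonic : p.Monic := by
    have h1 : (p.map (algebraMap E M)).Monic := by
      rw [hp]; exact monic_prod_of_monic _ _ (fun x _ => monic_X_sub_C _)
    exact Polynomial.monic_of_injective (algebraMap E M).injective h1
  refine ⟨p, hmonic, ?_⟩
  obtain ⟨x0⟩ := ‹Nonempty Q›
  apply (σ x0).toRingHom.injective
  show (σ x0) _ = (σ x0) 0
  rw [map_zero, ← Polynomial.aeval_def, ← Polynomial.aeval_algHom_apply, Polynomial.aeval_def,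
    ← Polynomial.eval_map, hp, Polynomial.eval_prod]
  exact Finset.prod_eq_zero (Finset.mem_univ x0) (by simp)

/-- Step 3a: an `E`-embedding `τ` of `F` into a field `Ω` over `M` sends every `a ∈ A` to one of
the `σ x a`. -/
theorem h71_exists_eq {K E F M Ω : Type*} [Field K] [Field E] [Field F] [Field M] [Field Ω]
    [Algebra K E] [Algebra E F] [Algebra K F] [IsScalarTower K E F] [Algebra E M]
    [Algebra M Ω] [Algebra E Ω] [IsScalarTower E M Ω]
    [Infinite K] (A : Subalgebra K F)
    {Q : Type*} [Fintype Q] [Nonempty Q] (σ : Q → F →ₐ[E] M)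
    (hprod : ∀ a ∈ A, ∏ x, σ x a ∈ Set.range (algebraMap E M)) (τ : F →ₐ[E] Ω)
    (a : F) (ha : a ∈ A) :
    ∃ x : Q, τ a = algebraMap M Ω (σ x a) := by
  classical
  obtain ⟨p, hp⟩ := h71_exists_charpoly A σ hprod a ha
  have hroot : Polynomial.aeval a p = 0 := by
    obtain ⟨x0⟩ := ‹Nonempty Q›
    apply (σ x0).toRingHom.injective
    show (σ x0) _ = (σ x0) 0
    rw [map_zero, ← Polynomial.aeval_algHom_apply, Polynomial.aeval_def,
      ← Polynomial.eval_map, hp, Polynomial.eval_prod]
    exact Finset.prod_eq_zero (Finset.mem_univ x0) (by simp)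
  have hroot' : Polynomial.aeval (τ a) p = 0 := by
    rw [Polynomial.aeval_algHom_apply, hroot, map_zero]
  have hp' : p.map (algebraMap E Ω)
      = ∏ x, (Polynomial.X - C (algebraMap M Ω (σ x a))) := by
    rw [IsScalarTower.algebraMap_eq E M Ω, ← Polynomial.map_map, hp, Polynomial.map_prod]
    simp
  rw [Polynomial.aeval_def, ← Polynomial.eval_map, hp', Polynomial.eval_prod,
    Finset.prod_eq_zero_iff] at hroot'
  obtain ⟨x, -, hx⟩ := hroot'
  simp only [eval_sub, eval_X, eval_C] at hx
  exact ⟨x, sub_eq_zero.mp hx⟩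

/-- Step 3: an `E`-embedding `τ` of `F` into a field `Ω` over `M` agrees with one of the `σ x`
on the (finitely many) generators `g i ∈ A`. -/
theorem h71_exists_agree {K E F M Ω : Type*} [Field K] [Field E] [Field F] [Field M] [Field Ω]
    [Algebra K E] [Algebra E F] [Algebra K F] [IsScalarTower K E F] [Algebra E M]
    [Algebra M Ω] [Algebra E Ω] [IsScalarTower E M Ω]
    [Infinite K] (A : Subalgebra K F) {I : Type*} [Finite I] (g : I → F) (hgA : ∀ i, g i ∈ A)
    {Q : Type*} [Fintype Q] [Nonempty Q] (σ : Q → F →ₐ[E] M)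
    (hprod : ∀ a ∈ A, ∏ x, σ x a ∈ Set.range (algebraMap E M)) (τ : F →ₐ[E] Ω) :
    ∃ x : Q, ∀ i, τ (g i) = algebraMap M Ω (σ x (g i)) := by
  classical
  cases nonempty_fintype I
  -- the subspaces `V x` of coefficient vectors on which `τ` and `σ x` agree
  let V : Q → Submodule K (I → K) := fun x =>
    { carrier := {c | ∑ i, algebraMap E Ω (algebraMap K E (c i)) *
          (τ (g i) - algebraMap M Ω (σ x (g i))) = 0}
      add_mem' := by
        intro c d hc hd
        simp only [Set.mem_ofPred_eq] at hc hd ⊢
        simp only [Pi.add_apply, map_add, add_mul, Finset.sum_add_distrib, hc, hd, add_zero]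
      zero_mem' := by simp
      smul_mem' := by
        intro k c hc
        simp only [Set.mem_ofPred_eq] at hc ⊢
        simp only [Pi.smul_apply, smul_eq_mul, map_mul, mul_assoc, ← Finset.mul_sum, hc,
          mul_zero] }
  have key : ∀ (y : F →ₐ[E] Ω) (c : I → K), y (∑ i, c i • g i)
      = ∑ i, algebraMap E Ω (algebraMap K E (c i)) * y (g i) := by
    intro y c
    rw [map_sum]
    refine Finset.sum_congr rfl fun i _ => ?_
    rw [Algebra.smul_def, IsScalarTower.algebraMap_apply K E F, map_mul, AlgHom.commutes]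
  have hcover : ⋃ x, (V x : Set (I → K)) = Set.univ := by
    refine Set.eq_univ_of_forall fun c => ?_
    have haA : (∑ i, c i • g i) ∈ A := A.sum_mem fun i _ => A.smul_mem (hgA i) _
    obtain ⟨x, hx⟩ := h71_exists_eq A σ hprod τ _ haA
    refine Set.mem_iUnion.mpr ⟨x, ?_⟩
    show ∑ i, algebraMap E Ω (algebraMap K E (c i)) *
          (τ (g i) - algebraMap M Ω (σ x (g i))) = 0
    have h2 := key ((IsScalarTower.toAlgHom E M Ω).comp (σ x)) c
    simp only [AlgHom.comp_apply, IsScalarTower.coe_toAlgHom'] at h2
    simp only [mul_sub, Finset.sum_sub_distrib]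
    rw [← key τ c, ← h2, hx, sub_self]
  obtain ⟨x, hx⟩ := Subspace.exists_eq_top_of_iUnion_eq_univ hcover
  refine ⟨x, fun i => ?_⟩
  have hmem : (Pi.single i 1 : I → K) ∈ V x := by rw [hx]; exact Submodule.mem_top
  have hmem' : ∑ j, algebraMap E Ω (algebraMap K E ((Pi.single i 1 : I → K) j)) *
          (τ (g j) - algebraMap M Ω (σ x (g j))) = 0 := hmem
  rw [Finset.sum_eq_single i] at hmem'
  · simpa [sub_eq_zero] using hmem'
  · intro j _ hj
    simp [hj]
  · intro h; exact absurd (Finset.mem_univ i) h

/-- ALG-NORM, embedding form: under the hypotheses below, the `E`-embeddings of `F` into any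
field `Ω` over `M` are exactly the `σ x` (composed with `M → Ω`). -/
theorem h71_exists_eq_comp {K E F M Ω : Type*} [Field K] [Field E] [Field F] [Field M] [Field Ω]
    [Algebra K E] [Algebra E F] [Algebra K F] [IsScalarTower K E F] [Algebra E M]
    [Algebra M Ω] [Algebra E Ω] [IsScalarTower E M Ω]
    [Infinite K] (A : Subalgebra K F) {I : Type*} [Finite I] (g : I → F) (hgA : ∀ i, g i ∈ A)
    (hgen : IntermediateField.adjoin E (Set.range g) = ⊤)
    {Q : Type*} [Fintype Q] [Nonempty Q] (σ : Q → F →ₐ[E] M)
    (hprod : ∀ a ∈ A, ∏ x, σ x a ∈ Set.range (algebraMap E M)) (τ : F →ₐ[E] Ω) :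
    ∃ x : Q, τ = (IsScalarTower.toAlgHom E M Ω).comp (σ x) := by
  obtain ⟨x, hx⟩ := h71_exists_agree A g hgA σ hprod τ
  refine ⟨x, AlgHom.ext fun f => ?_⟩
  have hf : f ∈ IntermediateField.adjoin E (Set.range g) := by rw [hgen]; exact trivial
  induction hf using IntermediateField.adjoin_induction with
  | mem y hy =>
    obtain ⟨i, rfl⟩ := hy
    simpa using hx i
  | algebraMap y => simp
  | add y z _ _ hy hz => rw [map_add, map_add, hy, hz]
  | inv y _ hy => rw [map_inv₀, map_inv₀, hy]
  | mul y z _ _ hy hz => rw [map_mul, map_mul, hy, hz]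

/-- ALG-NORM. `E ⊆ F` fields of characteristic zero, `F` generated over `E` by finitely many
elements of a `K`-subalgebra `A`; `σ x : F →ₐ[E] M` (`x ∈ Q`, `Q` finite nonempty) pairwise
distinct embeddings into a field `M` such that for every `a ∈ A` the product `∏ x, σ x a` lies in
`E`. Then `[F : E] = #Q` and the norm of every `h ∈ F` is `∏ x, σ x h`. -/
theorem h71_norm_core {K E F M : Type*} [Field K] [Field E] [Field F] [Field M]
    [Algebra K E] [Algebra E F] [Algebra K F] [IsScalarTower K E F] [Algebra E M]
    [CharZero K]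
    (A : Subalgebra K F) {I : Type*} [Finite I] (g : I → F) (hgA : ∀ i, g i ∈ A)
    (hgen : IntermediateField.adjoin E (Set.range g) = ⊤)
    {Q : Type*} [Fintype Q] [Nonempty Q] (σ : Q → F →ₐ[E] M) (hinj : Function.Injective σ)
    (hprod : ∀ a ∈ A, ∏ x, σ x a ∈ Set.range (algebraMap E M)) :
    FiniteDimensional E F ∧ Module.finrank E F = Fintype.card Q ∧
      ∀ h : F, algebraMap E M (Algebra.norm E h) = ∏ x, σ x h := by
  classical
  have : CharZero E := charZero_of_injective_algebraMap (algebraMap K E).injective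
  have hint : ∀ a ∈ A, IsIntegral E a := fun a ha => h71_isIntegral A σ hprod a ha
  have hfd : FiniteDimensional E F := by
    have h1 : FiniteDimensional E (IntermediateField.adjoin E (Set.range g)) :=
      IntermediateField.finiteDimensional_adjoin
        (by rintro _ ⟨i, rfl⟩; exact hint _ (hgA i))
    rw [hgen] at h1
    exact (IntermediateField.topEquiv (F := E) (E := F)).toLinearEquiv.finiteDimensional
  let ι : Q → (F →ₐ[E] AlgebraicClosure M) :=
    fun x => (IsScalarTower.toAlgHom E M (AlgebraicClosure M)).comp (σ x)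
  have hιinj : Function.Injective ι := by
    intro x y hxy
    apply hinj
    ext f
    have h1 : ι x f = ι y f := by rw [hxy]
    exact (algebraMap M (AlgebraicClosure M)).injective h1
  have hιsurj : Function.Surjective ι := by
    intro τ
    obtain ⟨x, hx⟩ := h71_exists_eq_comp A g hgA hgen σ hprod τ
    exact ⟨x, hx.symm⟩
  have hcard : Module.finrank E F = Fintype.card Q := by
    rw [← AlgHom.natCard_of_splits E F (AlgebraicClosure M) (fun _ => IsAlgClosed.splits _),
      ← Nat.card_eq_fintype_card]
    exact (Nat.card_eq_of_bijective ι ⟨hιinj, hιsurj⟩).symm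
  refine ⟨hfd, hcard, fun h => ?_⟩
  apply (algebraMap M (AlgebraicClosure M)).injective
  rw [← IsScalarTower.algebraMap_apply E M (AlgebraicClosure M),
    Algebra.norm_eq_prod_embeddings E (AlgebraicClosure M) h, map_prod]
  exact (Fintype.prod_bijective ι ⟨hιinj, hιsurj⟩ _ _ (fun x => rfl)).symm

/-- Stand-alone norm identity: `#Q = [F : E]` pairwise distinct `E`-embeddings of a finite
separable extension `F/E` into ANY field `M` compute the norm. -/
theorem h71_norm_of_card {E F M : Type*} [Field E] [Field F] [Field M] [Algebra E F]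
    [Algebra E M] [FiniteDimensional E F] [Algebra.IsSeparable E F]
    {Q : Type*} [Fintype Q] (σ : Q → F →ₐ[E] M) (hinj : Function.Injective σ)
    (hcard : Fintype.card Q = Module.finrank E F) (h : F) :
    algebraMap E M (Algebra.norm E h) = ∏ x, σ x h := by
  classical
  let ι : Q → (F →ₐ[E] AlgebraicClosure M) :=
    fun x => (IsScalarTower.toAlgHom E M (AlgebraicClosure M)).comp (σ x)
  have hιinj : Function.Injective ι := by
    intro x y hxy
    apply hinj
    ext f
    have h1 : ι x f = ι y f := by rw [hxy]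
    exact (algebraMap M (AlgebraicClosure M)).injective h1
  have hιbij : Function.Bijective ι := by
    rw [Fintype.bijective_iff_injective_and_card]
    exact ⟨hιinj, by rw [hcard, AlgHom.card]⟩
  apply (algebraMap M (AlgebraicClosure M)).injective
  rw [← IsScalarTower.algebraMap_apply E M (AlgebraicClosure M),
    Algebra.norm_eq_prod_embeddings E (AlgebraicClosure M) h, map_prod]
  exact (Fintype.prod_bijective ι hιbij _ _ (fun x => rfl)).symm

/-- Ring-hom form of `h71_norm_of_card` (no `Algebra E M` instance needed): the `σ x` are ring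
homs agreeing on `E`. -/
theorem h71_norm_of_card_ringHom {E F M : Type*} [Field E] [Field F] [Field M] [Algebra E F]
    [FiniteDimensional E F] [Algebra.IsSeparable E F]
    {Q : Type*} [Fintype Q] (σ : Q → F →+* M) (hinj : Function.Injective σ)
    (hE : ∀ (x y : Q) (e : E), σ x (algebraMap E F e) = σ y (algebraMap E F e))
    (hcard : Fintype.card Q = Module.finrank E F) (x₀ : Q) (h : F) :
    σ x₀ (algebraMap E F (Algebra.norm E h)) = ∏ x, σ x h := by
  let _ : Algebra E M := ((σ x₀).comp (algebraMap E F)).toAlgebra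
  let σ' : Q → F →ₐ[E] M := fun x => { σ x with commutes' := fun e => hE x x₀ e }
  have hinj' : Function.Injective σ' := by
    intro x y hxy
    apply hinj
    ext f
    exact DFunLike.congr_fun hxy f
  exact h71_norm_of_card σ' hinj' hcard h

/-- Ring-hom form of `h71_norm_core` (no `Algebra E M` instance needed): the `σ x` are pairwise
distinct ring homs `F →+* M` agreeing on `E`, and for every `a ∈ A` the product `∏ x, σ x a` is
the image of an element of `E`. -/
theorem h71_norm_core_ringHom {K E F M : Type*} [Field K] [Field E] [Field F] [Field M]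
    [Algebra K E] [Algebra E F] [Algebra K F] [IsScalarTower K E F] [CharZero K]
    (A : Subalgebra K F) {I : Type*} [Finite I] (g : I → F) (hgA : ∀ i, g i ∈ A)
    (hgen : IntermediateField.adjoin E (Set.range g) = ⊤)
    {Q : Type*} [Fintype Q] [Nonempty Q] (σ : Q → F →+* M) (hinj : Function.Injective σ)
    (hE : ∀ (x y : Q) (e : E), σ x (algebraMap E F e) = σ y (algebraMap E F e))
    (hprod : ∀ a ∈ A, ∃ (e : E) (x₀ : Q), σ x₀ (algebraMap E F e) = ∏ x, σ x a) :
    FiniteDimensional E F ∧ Module.finrank E F = Fintype.card Q ∧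
      ∀ (x₀ : Q) (h : F), σ x₀ (algebraMap E F (Algebra.norm E h)) = ∏ x, σ x h := by
  obtain ⟨x₁⟩ := ‹Nonempty Q›
  let _ : Algebra E M := ((σ x₁).comp (algebraMap E F)).toAlgebra
  let σ' : Q → F →ₐ[E] M := fun x => { σ x with commutes' := fun e => hE x x₁ e }
  have hinj' : Function.Injective σ' := by
    intro x y hxy
    apply hinj
    ext f
    exact DFunLike.congr_fun hxy f
  have hprod' : ∀ a ∈ A, ∏ x, σ' x a ∈ Set.range (algebraMap E M) := by
    intro a ha
    obtain ⟨e, x₀, he⟩ := hprod a ha
    exact ⟨e, (hE x₁ x₀ e).trans he⟩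
  obtain ⟨h1, h2, h3⟩ := h71_norm_core A g hgA hgen σ' hinj' hprod'
  refine ⟨h1, h2, fun x₀ h => ?_⟩
  rw [hE x₀ x₁]
  exact h3 h

/-- Convenience: generators over `K` are generators over any intermediate `E`. -/
theorem h71_adjoin_eq_top {K E F : Type*} [Field K] [Field E] [Field F]
    [Algebra K E] [Algebra E F] [Algebra K F] [IsScalarTower K E F] (S : Set F)
    (hS : IntermediateField.adjoin K S = ⊤) : IntermediateField.adjoin E S = ⊤ := by
  rw [← IntermediateField.restrictScalars_eq_top_iff (K := K), eq_top_iff, ← hS,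
    IntermediateField.adjoin_le_iff]
  intro x hx
  exact IntermediateField.subset_adjoin E S hx

end Fermat.Agent.S24
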