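import Mathlib
import Fermat.Agent.S24.h56_Count
import Fermat.Agent.S24.h71_NormCore
import Fermat.Agent.S24.h24_Fibre

/-!
# S24, modular layer: fibre counts from a family of embeddings into `LaurentSeries ℂ`

Generic (pure algebra) adapter: a family `σ : X → (F →+* LaurentSeries ℂ)` of pairwise distinct
field embeddings agreeing on `K(t)`, with `card X = [F : K(t)]`, computes the number of places of
`F` over `t = a` (resp. `t = ∞`) as the number of orbits of a permutation of `X` compatible with
the orders.  Built on `h56_card_fibre` (counting trick), `h71_norm_of_card_ringHom` (norm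
identity) and `h24_fibre_main` (fundamental identity).
-/

set_option autoImplicit false

open AlgebraicCurve IntermediateField
open IntermediateField.algebraAdjoinAdjoin

namespace Fermat.Agent.S24

section

variable {K F : Type*} [Field K] [Field F] [Algebra K F] [CharZero K]

/-- The norm of an element integral over `K[t]` is a polynomial in `t`, divisible by the
element in the integral closure. -/
theorem h78_norm_exists_poly (t : F) [FiniteDimensional K⟮t⟯ F] (h : F)
    (hh : IsIntegral (Algebra.adjoin K {t}) h) :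
    ∃ (P : Polynomial K) (b : F), IsIntegral (Algebra.adjoin K {t}) b ∧
      Polynomial.aeval t P = h * b ∧
      Polynomial.aeval t P = algebraMap K⟮t⟯ F (Algebra.norm K⟮t⟯ h) := by
  have hDed : IsDedekindDomain (integralClosure (Algebra.adjoin K {t}) F) :=
    integralClosure.isDedekindDomain (Algebra.adjoin K {t}) K⟮t⟯ F
  have hFrac : IsFractionRing (integralClosure (Algebra.adjoin K {t}) F) F :=
    integralClosure.isFractionRing_of_finite_extension K⟮t⟯ F
  have hfin : Module.Finite (Algebra.adjoin K {t}) (integralClosure (Algebra.adjoin K {t}) F) :=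
    IsIntegralClosure.finite (Algebra.adjoin K {t}) K⟮t⟯ F _
  obtain ⟨y, hy⟩ := Algebra.dvd_algebraMap_intNorm_self (A := Algebra.adjoin K {t})
    (B := integralClosure (Algebra.adjoin K {t}) F) ⟨h, hh⟩
  obtain ⟨P, hP⟩ : ∃ P : Polynomial K, Polynomial.aeval t P =
      ((Algebra.intNorm (Algebra.adjoin K {t}) (integralClosure (Algebra.adjoin K {t}) F)
        ⟨h, hh⟩ : Algebra.adjoin K {t}) : F) := by
    have h1 := (Algebra.intNorm (Algebra.adjoin K {t})
      (integralClosure (Algebra.adjoin K {t}) F) ⟨h, hh⟩).2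
    have h2 : ∀ z ∈ Algebra.adjoin K {t}, ∃ P : Polynomial K, Polynomial.aeval t P = z := by
      intro z hz
      rw [Algebra.adjoin_singleton_eq_range_aeval] at hz
      exact hz
    exact h2 _ h1
  refine ⟨P, (y : F), y.2, ?_, ?_⟩
  · rw [hP]
    have h2 := congrArg (fun z : integralClosure (Algebra.adjoin K {t}) F => (z : F)) hy
    exact h2
  · rw [hP]
    have h1 := Algebra.algebraMap_intNorm (A := Algebra.adjoin K {t}) (K := K⟮t⟯) (L := F)
      (B := integralClosure (Algebra.adjoin K {t}) F) ⟨h, hh⟩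
    have h2 := congrArg (algebraMap K⟮t⟯ F) h1
    exact h2

/-- The order function of a field embedding into Laurent series (value `1` at `0`, so that `0`
lies in the centre). -/
noncomputable def h78_ordOf (σ : F →+* LaurentSeries ℂ) (f : F) : ℤ :=
  letI := Classical.propDecidable (f = 0)
  if f = 0 then 1 else (σ f).order

theorem h78_ordOf_of_ne (σ : F →+* LaurentSeries ℂ) {f : F} (hf : f ≠ 0) :
    h78_ordOf σ f = (σ f).order := by
  unfold h78_ordOf
  exact if_neg hf

theorem h78_ordOf_zero (σ : F →+* LaurentSeries ℂ) : h78_ordOf σ 0 = 1 := by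
  unfold h78_ordOf
  exact if_pos rfl

omit [CharZero K] in
theorem h78_ordOf_isOrd (σ : F →+* LaurentSeries ℂ) (ι : K →+* ℂ)
    (hσK : ∀ c : K, σ (algebraMap K F c) = HahnSeries.C (ι c)) : h56_IsOrd K (h78_ordOf σ) where
  map_mul f g hf hg := by
    rw [h78_ordOf_of_ne σ hf, h78_ordOf_of_ne σ hg, h78_ordOf_of_ne σ (mul_ne_zero hf hg), map_mul,
      HahnSeries.order_mul ((map_ne_zero σ).mpr hf) ((map_ne_zero σ).mpr hg)]
  map_add f g hf hg hfg := by
    rw [h78_ordOf_of_ne σ hf, h78_ordOf_of_ne σ hg, h78_ordOf_of_ne σ hfg, map_add]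
    exact HahnSeries.min_order_le_order_add (by rw [← map_add]; exact (map_ne_zero σ).mpr hfg)
  map_algebraMap c hc := by
    rw [h78_ordOf_of_ne σ ((map_ne_zero (algebraMap K F)).mpr hc), hσK, HahnSeries.order_C]

omit [Algebra K F] [CharZero K] in
theorem h78_order_prod {X : Type*} (s : Finset X) (σ : X → F →+* LaurentSeries ℂ) {h : F}
    (hh : h ≠ 0) : (∏ x ∈ s, σ x h).order = ∑ x ∈ s, (σ x h).order := by
  classical
  induction s using Finset.induction_on with
  | empty => simp
  | insert x s hx ih =>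
    rw [Finset.prod_insert hx, Finset.sum_insert hx, HahnSeries.order_mul
      ((map_ne_zero (σ x)).mpr hh) (Finset.prod_ne_zero_iff.mpr fun y _ =>
        (map_ne_zero (σ y)).mpr hh), ih]

omit [CharZero K] in
/-- Embeddings agreeing on `K` and on `t` agree on `K(t)`. -/
theorem h78_agree_on_adjoin (t : F) (σ τ : F →+* LaurentSeries ℂ)
    (hK : ∀ c : K, σ (algebraMap K F c) = τ (algebraMap K F c)) (ht : σ t = τ t)
    (e : K⟮t⟯) : σ (algebraMap K⟮t⟯ F e) = τ (algebraMap K⟮t⟯ F e) := by
  have hle : (K⟮t⟯).toSubfield ≤ RingHom.eqLocusField σ τ := by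
    apply IntermediateField.adjoin_le_subfield
    · rintro _ ⟨c, rfl⟩
      exact hK c
    · rintro _ rfl
      exact ht
  exact hle e.2

/-- **Fibre count from a family of embeddings.**  `σ x`, `x ∈ X`, are pairwise distinct
embeddings of `F` into `ℂ((u))`, equal on `K(t)`, with `card X = [F : K(t)]`; `t - a` has order
`E > 0`; `g` permutes `X` preserving orders and `E ∣ ord (σ x f) * (size of the g-orbit of x)`.
Then the places of `F` over `t = a` are in bijection with the `g`-orbits on `X`. -/
theorem h78_card_fibre_of_family [IsAlgClosed K] (t : F) (ht : Transcendental K t)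
    [FiniteDimensional K⟮t⟯ F]
    {G X : Type*} [Group G] [MulAction G X] [Fintype X] (g : G)
    (σ : X → F →+* LaurentSeries ℂ) (ι : K →+* ℂ)
    (hσK : ∀ x (c : K), σ x (algebraMap K F c) = HahnSeries.C (ι c))
    (hσt : ∀ x y, σ x t = σ y t)
    (hσinj : Function.Injective σ)
    (hcard : Fintype.card X = Module.finrank K⟮t⟯ F)
    (a : K) (E : ℕ) (hE : 0 < E) (hEt : ∀ x, (σ x (t - algebraMap K F a)).order = E)
    (hG : ∀ x f, (σ (g • x) f).order = (σ x f).order)
    (hM : ∀ x (f : F), f ≠ 0 →
      (E : ℤ) ∣ (σ x f).order * (Function.minimalPeriod (fun y : X => g • y) x : ℤ)) :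
    Nat.card {v : Place K F // 0 < v.ord (t - algebraMap K F a)} =
      Nat.card (MulAction.orbitRel.Quotient (Subgroup.zpowers g) X) := by
  classical
  have hta0 : t - algebraMap K F a ≠ 0 := by
    intro h0
    apply ht
    rw [sub_eq_zero.mp h0]
    exact isAlgebraic_algebraMap a
  have hXne : Nonempty X := by
    rw [← Fintype.card_pos_iff, hcard]
    exact Module.finrank_pos
  have hagree : ∀ (x y : X) (e : K⟮t⟯),
      σ x (algebraMap K⟮t⟯ F e) = σ y (algebraMap K⟮t⟯ F e) := fun x y e =>
    h78_agree_on_adjoin t (σ x) (σ y) (fun c => by rw [hσK, hσK]) (hσt x y) e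
  have hnorm : ∀ (x₀ : X) (h : F),
      σ x₀ (algebraMap K⟮t⟯ F (Algebra.norm K⟮t⟯ h)) = ∏ x, σ x h := fun x₀ h =>
    h71_norm_of_card_ringHom σ hσinj hagree hcard x₀ h
  have hw : ∀ x, h56_IsOrd K (h78_ordOf (σ x)) := fun x => h78_ordOf_isOrd (σ x) ι (hσK x)
  obtain ⟨s, hs, hsum⟩ := h24_fibre_main t ht a
  have hset : {v : Place K F | 0 < v.ord (t - algebraMap K F a)} = (s : Set (Place K F)) := by
    ext v
    simp [hs]
  refine (h56_card_fibre (K := K) t a g (fun x => h78_ordOf (σ x)) hw (E : ℤ)
    (by exact_mod_cast hE) ?_ ?_ ?_ ?_ (Module.finrank K⟮t⟯ F) hcard.le ?_ ?_).1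
  · intro x
    rw [h78_ordOf_of_ne _ hta0, hEt x]
  · intro x
    funext f
    by_cases hf : f = 0
    · rw [hf, h78_ordOf_zero, h78_ordOf_zero]
    · rw [h78_ordOf_of_ne _ hf, h78_ordOf_of_ne _ hf, hG]
  · intro x f hf
    rw [h78_ordOf_of_ne _ hf]
    exact hM x f hf
  · intro h hh0 hh
    obtain ⟨P, b, hb, hPb, hPn⟩ := h78_norm_exists_poly (K := K) t h hh
    refine ⟨P, b, hb, hPb, fun hPa => ?_⟩
    obtain ⟨x₀⟩ := hXne
    have hprod : σ x₀ (Polynomial.aeval t P) = ∏ x, σ x h := by rw [hPn, hnorm]
    have hprod0 : (∏ x, σ x h) ≠ 0 :=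
      Finset.prod_ne_zero_iff.mpr fun y _ => (map_ne_zero (σ y)).mpr hh0
    have hP0 : Polynomial.aeval t P ≠ 0 := by
      intro h0
      rw [h0, map_zero] at hprod
      exact hprod0 hprod.symm
    -- `P = (X - a) * Q`
    obtain ⟨Q, rfl⟩ := Polynomial.dvd_iff_isRoot.mpr hPa
    rw [map_mul, Polynomial.aeval_sub, Polynomial.aeval_X, Polynomial.aeval_C] at hP0 hprod
    have hQ0 : Polynomial.aeval t Q ≠ 0 := right_ne_zero_of_mul hP0
    have hQnn : 0 ≤ h78_ordOf (σ x₀) (Polynomial.aeval t Q) := by
      have htnn : t = 0 ∨ 0 ≤ h78_ordOf (σ x₀) t := by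
        by_cases ha : a = 0
        · right
          have := hEt x₀
          rw [ha, map_zero, sub_zero] at this hta0
          rw [h78_ordOf_of_ne _ hta0, this]
          positivity
        · right
          have ht0 : t ≠ 0 := by
            rintro rfl
            exact ht (isAlgebraic_zero)
          have h1 := (hw x₀).map_add (t - algebraMap K F a) (algebraMap K F a) hta0
            ((map_ne_zero (algebraMap K F)).mpr ha) (by rwa [sub_add_cancel])
          rw [sub_add_cancel, (hw x₀).map_algebraMap a ha, h78_ordOf_of_ne _ hta0, hEt x₀] at h1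
          have h2 : min (E : ℤ) 0 = 0 := min_eq_right (by positivity)
          rw [h2] at h1
          exact h1
      have hint : IsIntegral (Algebra.adjoin K {t}) (Polynomial.aeval t Q) := by
        have hmem : Polynomial.aeval t Q ∈ Algebra.adjoin K {t} := by
          rw [Algebra.adjoin_singleton_eq_range_aeval]
          exact ⟨Q, rfl⟩
        exact isIntegral_algebraMap (R := Algebra.adjoin K {t}) (A := F)
          (x := ⟨Polynomial.aeval t Q, hmem⟩)
      rcases (hw x₀).nonneg_of_isIntegral htnn hint with h0 | h0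
      · exact absurd h0 hQ0
      · exact h0
    have hsumord : ∑ x, (σ x h).order = E + (σ x₀ (Polynomial.aeval t Q)).order := by
      rw [← h78_order_prod Finset.univ σ hh0, ← hprod, map_mul,
        HahnSeries.order_mul ((map_ne_zero (σ x₀)).mpr hta0) ((map_ne_zero (σ x₀)).mpr hQ0),
        hEt x₀]
    rw [h78_ordOf_of_ne _ hQ0] at hQnn
    by_contra hcon
    push Not at hcon
    have hle : ∑ x, (σ x h).order ≤ 0 := Finset.sum_nonpos fun x _ => by
      have := hcon x
      rwa [h78_ordOf_of_ne _ hh0] at this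
    have hEpos : (0 : ℤ) < E := by exact_mod_cast hE
    omega
  · rw [hset]
    exact s.finite_toSet
  · rw [hset, finsum_mem_coe_finset]
    exact hsum

omit [Algebra K F] [CharZero K] in
theorem h78_order_inv (σ : F →+* LaurentSeries ℂ) {f : F} (hf : f ≠ 0) :
    (σ f⁻¹).order = -(σ f).order := by
  have h1 : σ f * σ f⁻¹ = 1 := by rw [← map_mul, mul_inv_cancel₀ hf, map_one]
  have h2 := HahnSeries.order_mul ((map_ne_zero σ).mpr hf) ((map_ne_zero σ).mpr (inv_ne_zero hf))
  rw [h1, HahnSeries.order_one] at h2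
  omega

omit [CharZero K] in
theorem h78_finrank_congr {E₁ E₂ : IntermediateField K F} (h : E₁ = E₂) :
    Module.finrank E₁ F = Module.finrank E₂ F := by
  subst h
  rfl

/-- **Fibre count over `t = ∞` from a family of embeddings** (the previous theorem applied to
`t⁻¹`, `a = 0`): here `σ x t` has order `-E`. -/
theorem h78_card_fibre_infty_of_family [IsAlgClosed K] (t : F) (ht : Transcendental K t)
    [hfd : FiniteDimensional K⟮t⟯ F]
    {G X : Type*} [Group G] [MulAction G X] [Fintype X] (g : G)
    (σ : X → F →+* LaurentSeries ℂ) (ι : K →+* ℂ)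
    (hσK : ∀ x (c : K), σ x (algebraMap K F c) = HahnSeries.C (ι c))
    (hσt : ∀ x y, σ x t = σ y t)
    (hσinj : Function.Injective σ)
    (hcard : Fintype.card X = Module.finrank K⟮t⟯ F)
    (E : ℕ) (hE : 0 < E) (hEt : ∀ x, (σ x t).order = -(E : ℤ))
    (hG : ∀ x f, (σ (g • x) f).order = (σ x f).order)
    (hM : ∀ x (f : F), f ≠ 0 →
      (E : ℤ) ∣ (σ x f).order * (Function.minimalPeriod (fun y : X => g • y) x : ℤ)) :
    Nat.card {v : Place K F // v.ord t < 0} =
      Nat.card (MulAction.orbitRel.Quotient (Subgroup.zpowers g) X) := by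
  have ht0 : t ≠ 0 := by
    rintro rfl
    exact ht isAlgebraic_zero
  have ht' : Transcendental K t⁻¹ := fun h => ht (by simpa using h.inv)
  have hK : K⟮t⁻¹⟯ = K⟮t⟯ := h56_adjoin_inv_eq (K := K) t
  have hfd' : FiniteDimensional K⟮t⁻¹⟯ F := hK.symm ▸ hfd
  have hcard' : Fintype.card X = Module.finrank K⟮t⁻¹⟯ F := by
    rw [hcard]
    exact (h78_finrank_congr hK).symm
  have key := h78_card_fibre_of_family (K := K) t⁻¹ ht' g σ ι hσK
    (fun x y => by rw [map_inv₀, map_inv₀, hσt x y]) hσinj hcard' 0 E hE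
    (fun x => by rw [map_zero, sub_zero, h78_order_inv _ ht0, hEt x, neg_neg]) hG hM
  rw [← key]
  have hset : ∀ v : Place K F, (0 < v.ord (t⁻¹ - algebraMap K F 0)) ↔ v.ord t < 0 := by
    intro v
    rw [map_zero, sub_zero, Place.ord_inv, neg_pos]
  exact Nat.card_congr (Equiv.subtypeEquivRight fun v => (hset v).symm)

end

end Fermat.Agent.S24
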