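import Mathlib

set_option autoImplicit false

namespace Fermat.Agent.S24

/-- Number of orbits (cycles, fixed points included) of the cyclic group generated by `g`
acting on `X`. -/
noncomputable def h47_orbCount {G : Type*} (X : Type*) [Group G] [MulAction G X] (g : G) : ℕ :=
  Nat.card (MulAction.orbitRel.Quotient (Subgroup.zpowers g) X)

end Fermat.Agent.S24
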