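import Mathlib
import Fermat.Prelude.Def_ModularCurve_GenusNumerics
import Fermat.Agent.S24.h29_Basic
import Fermat.Agent.S24.h47_OrbCount

/-!
# Orbits of `S` and `S * T` on `SL(2, ℤ) ⧸ Γ₀(N)` (helper29)
-/

open Matrix Matrix.SpecialLinearGroup CongruenceSubgroup
open scoped MatrixGroups

namespace Fermat.Agent.S24

theorem h29_S_00 : ModularGroup.S 0 0 = 0 := rfl
theorem h29_S_01 : ModularGroup.S 0 1 = -1 := rfl
theorem h29_S_10 : ModularGroup.S 1 0 = 1 := rfl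
theorem h29_S_11 : ModularGroup.S 1 1 = 0 := rfl

theorem h29_coe_ST : ((ModularGroup.S * ModularGroup.T : SL(2, ℤ)) : Matrix (Fin 2) (Fin 2) ℤ)
    = !![0, -1; 1, 1] := by
  have e : ((ModularGroup.S * ModularGroup.T : SL(2, ℤ)) : Matrix (Fin 2) (Fin 2) ℤ) =
      ModularGroup.S.1 * ModularGroup.T.1 := rfl
  rw [e]
  change (ModularGroup.S : Matrix (Fin 2) (Fin 2) ℤ) * (ModularGroup.T : Matrix (Fin 2) (Fin 2) ℤ) = _
  rw [ModularGroup.coe_S, ModularGroup.coe_T, Matrix.mul_fin_two]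
  simp

theorem h29_ST_00 : (ModularGroup.S * ModularGroup.T) 0 0 = 0 := by rw [h29_coe_ST]; rfl
theorem h29_ST_01 : (ModularGroup.S * ModularGroup.T) 0 1 = -1 := by rw [h29_coe_ST]; rfl
theorem h29_ST_10 : (ModularGroup.S * ModularGroup.T) 1 0 = 1 := by rw [h29_coe_ST]; rfl
theorem h29_ST_11 : (ModularGroup.S * ModularGroup.T) 1 1 = 1 := by rw [h29_coe_ST]; rfl

theorem h29_S_sq : ModularGroup.S ^ 2 = -1 := by
  apply Subtype.ext
  rw [pow_two]
  change (ModularGroup.S : Matrix (Fin 2) (Fin 2) ℤ) * (ModularGroup.S : Matrix (Fin 2) (Fin 2) ℤ)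
    = ((-1 : SL(2, ℤ)) : Matrix (Fin 2) (Fin 2) ℤ)
  rw [ModularGroup.coe_S, Matrix.mul_fin_two]
  ext i j
  fin_cases i <;> fin_cases j <;> simp

theorem h29_ST_cube : (ModularGroup.S * ModularGroup.T) ^ 3 = -1 := by
  apply Subtype.ext
  rw [pow_succ, pow_two]
  change ((ModularGroup.S * ModularGroup.T : SL(2, ℤ)) : Matrix (Fin 2) (Fin 2) ℤ) *
      ((ModularGroup.S * ModularGroup.T : SL(2, ℤ)) : Matrix (Fin 2) (Fin 2) ℤ) *
      ((ModularGroup.S * ModularGroup.T : SL(2, ℤ)) : Matrix (Fin 2) (Fin 2) ℤ)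
    = ((-1 : SL(2, ℤ)) : Matrix (Fin 2) (Fin 2) ℤ)
  rw [h29_coe_ST, Matrix.mul_fin_two, Matrix.mul_fin_two]
  ext i j
  fin_cases i <;> fin_cases j <;> simp

theorem h29_neg_one_ne_one : (-1 : SL(2, ℤ)) ≠ 1 := by
  intro h
  have h2 := congrArg (fun g : SL(2, ℤ) => g 0 0) h
  simp at h2

theorem h29_orderOf_S : orderOf ModularGroup.S = 4 := by
  haveI : Fact (Nat.Prime 2) := ⟨Nat.prime_two⟩
  have h1 : ¬ ModularGroup.S ^ 2 ^ 1 = 1 := by
    rw [pow_one, h29_S_sq]; exact h29_neg_one_ne_one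
  have h2 : ModularGroup.S ^ 2 ^ (1 + 1) = 1 := by
    have : (2 : ℕ) ^ (1 + 1) = 2 * 2 := by norm_num
    rw [this, pow_mul, h29_S_sq]; simp
  exact orderOf_eq_prime_pow h1 h2

theorem h29_ST_sq_ne_one : (ModularGroup.S * ModularGroup.T) ^ 2 ≠ 1 := by
  intro h
  have h3 : (ModularGroup.S * ModularGroup.T) ^ 3 = ModularGroup.S * ModularGroup.T := by
    rw [pow_succ, h, one_mul]
  rw [h29_ST_cube] at h3
  have h2 := congrArg (fun g : SL(2, ℤ) => g 0 0) h3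
  simp only [h29_ST_00] at h2
  simp at h2

theorem h29_orderOf_ST : orderOf (ModularGroup.S * ModularGroup.T) = 6 := by
  refine orderOf_eq_of_pow_and_pow_div_prime (by norm_num) ?_ ?_
  · have : (6 : ℕ) = 3 * 2 := by norm_num
    rw [this, pow_mul, h29_ST_cube]; simp
  · intro p hp hpd
    have hp6 : p ∣ 2 * 3 := by simpa using hpd
    rcases (Nat.Prime.dvd_mul hp).mp hp6 with h | h
    · have : p = 2 := (Nat.prime_dvd_prime_iff_eq hp Nat.prime_two).mp h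
      subst this
      have : 6 / 2 = 3 := by norm_num
      rw [this, h29_ST_cube]; exact h29_neg_one_ne_one
    · have : p = 3 := (Nat.prime_dvd_prime_iff_eq hp Nat.prime_three).mp h
      subst this
      have : 6 / 3 = 2 := by norm_num
      rw [this]; exact h29_ST_sq_ne_one

/-- `-1` acts trivially on the cosets of `Γ₀(N)`. -/
theorem h29_neg_one_smul (N : ℕ) (x : SL(2, ℤ) ⧸ Gamma0 N) : (-1 : SL(2, ℤ)) • x = x := by
  induction x using QuotientGroup.induction_on with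
  | H g =>
    rw [h29_smul_coset_eq_iff]
    have h00 : (-1 : SL(2, ℤ)) 0 0 = -1 := by simp
    have h01 : (-1 : SL(2, ℤ)) 0 1 = 0 := by simp
    have h10 : (-1 : SL(2, ℤ)) 1 0 = 0 := by simp
    have h11 : (-1 : SL(2, ℤ)) 1 1 = -1 := by simp
    rw [h00, h01, h10, h11]
    exact ⟨0, by ring⟩

theorem h29_S_fixed_iff (N : ℕ) (g : SL(2, ℤ)) :
    ModularGroup.S • (g : SL(2, ℤ) ⧸ Gamma0 N) = g ↔ (N : ℤ) ∣ g 0 0 ^ 2 + g 1 0 ^ 2 := by
  rw [h29_smul_coset_eq_iff, h29_S_00, h29_S_01, h29_S_10, h29_S_11, ← dvd_neg]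
  have : -((0 * g 0 0 + -1 * g 1 0) * g 1 0 - g 0 0 * (1 * g 0 0 + 0 * g 1 0))
      = g 0 0 ^ 2 + g 1 0 ^ 2 := by ring
  rw [this]

theorem h29_ST_fixed_iff (N : ℕ) (g : SL(2, ℤ)) :
    (ModularGroup.S * ModularGroup.T) • (g : SL(2, ℤ) ⧸ Gamma0 N) = g ↔
      (N : ℤ) ∣ g 0 0 ^ 2 + g 0 0 * g 1 0 + g 1 0 ^ 2 := by
  rw [h29_smul_coset_eq_iff, h29_ST_00, h29_ST_01, h29_ST_10, h29_ST_11, ← dvd_neg]
  have : -((0 * g 0 0 + -1 * g 1 0) * g 1 0 - g 0 0 * (1 * g 0 0 + 1 * g 1 0))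
      = g 0 0 ^ 2 + g 0 0 * g 1 0 + g 1 0 ^ 2 := by ring
  rw [this]

/-- Fixed points of `S` on `SL(2, ℤ) ⧸ Γ₀(N)` are counted by `nuTwo N`. -/
theorem h29_card_fixedBy_S (N : ℕ) [NeZero N] :
    Nat.card (MulAction.fixedBy (SL(2, ℤ) ⧸ Gamma0 N) ModularGroup.S) = ModularCurve.nuTwo N := by
  unfold ModularCurve.nuTwo
  symm
  have hfix : ∀ u : {x : ZMod N // x ^ 2 + 1 = 0},
      ((h29_M (u.1.cast : ℤ) : SL(2, ℤ)) : SL(2, ℤ) ⧸ Gamma0 N) ∈
        MulAction.fixedBy (SL(2, ℤ) ⧸ Gamma0 N) ModularGroup.S := by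
    intro u
    rw [MulAction.mem_fixedBy, h29_S_fixed_iff, h29_M_00, h29_M_10,
      ← ZMod.intCast_zmod_eq_zero_iff_dvd]
    push_cast
    simpa using u.2
  refine Nat.card_congr (Equiv.ofBijective (fun u => ⟨_, hfix u⟩) ⟨?_, ?_⟩)
  · intro u u' h
    have h1 := congrArg Subtype.val h
    simp only at h1
    rw [h29_coset_eq_iff, h29_M_00, h29_M_10, h29_M_00, h29_M_10,
      ← ZMod.intCast_zmod_eq_zero_iff_dvd] at h1
    push_cast at h1
    apply Subtype.ext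
    linear_combination h1
  · rintro ⟨x, hx⟩
    induction x using QuotientGroup.induction_on with
    | H g =>
      rw [MulAction.mem_fixedBy, h29_S_fixed_iff] at hx
      have hcop : IsCoprime (g 1 0) (N : ℤ) := by
        have h1 : IsCoprime (g 0 0 ^ 2 + g 1 0 * g 1 0) (g 1 0) :=
          ((h29_isCoprime_col g).pow_left).add_mul_left_left _
        have h2 : g 0 0 ^ 2 + g 1 0 * g 1 0 = g 0 0 ^ 2 + g 1 0 ^ 2 := by ring
        rw [h2] at h1
        exact (IsCoprime.of_isCoprime_of_dvd_left h1 hx).symm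
      obtain ⟨s, t, hst⟩ := hcop
      have hSC : (s : ZMod N) * (g 1 0 : ZMod N) = 1 := by
        have := congrArg (fun z : ℤ => (z : ZMod N)) hst
        simpa using this
      have hAC : (g 0 0 : ZMod N) ^ 2 + (g 1 0 : ZMod N) ^ 2 = 0 := by
        have := (ZMod.intCast_zmod_eq_zero_iff_dvd _ N).mpr hx
        simpa using this
      refine ⟨⟨(g 0 0 : ZMod N) * (s : ZMod N), ?_⟩, ?_⟩
      · linear_combination (s : ZMod N) ^ 2 * hAC - (1 + (s : ZMod N) * (g 1 0 : ZMod N)) * hSC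
      · apply Subtype.ext
        simp only
        rw [h29_coset_eq_iff, h29_M_00, h29_M_10, ← ZMod.intCast_zmod_eq_zero_iff_dvd]
        push_cast
        linear_combination (g 0 0 : ZMod N) * hSC

/-- Fixed points of `S * T` on `SL(2, ℤ) ⧸ Γ₀(N)` are counted by `nuThree N`. -/
theorem h29_card_fixedBy_ST (N : ℕ) [NeZero N] :
    Nat.card (MulAction.fixedBy (SL(2, ℤ) ⧸ Gamma0 N) (ModularGroup.S * ModularGroup.T))
      = ModularCurve.nuThree N := by
  unfold ModularCurve.nuThree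
  symm
  have hfix : ∀ u : {x : ZMod N // x ^ 2 + x + 1 = 0},
      ((h29_M (u.1.cast : ℤ) : SL(2, ℤ)) : SL(2, ℤ) ⧸ Gamma0 N) ∈
        MulAction.fixedBy (SL(2, ℤ) ⧸ Gamma0 N) (ModularGroup.S * ModularGroup.T) := by
    intro u
    rw [MulAction.mem_fixedBy, h29_ST_fixed_iff, h29_M_00, h29_M_10,
      ← ZMod.intCast_zmod_eq_zero_iff_dvd]
    push_cast
    simpa using u.2
  refine Nat.card_congr (Equiv.ofBijective (fun u => ⟨_, hfix u⟩) ⟨?_, ?_⟩)
  · intro u u' h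
    have h1 := congrArg Subtype.val h
    simp only at h1
    rw [h29_coset_eq_iff, h29_M_00, h29_M_10, h29_M_00, h29_M_10,
      ← ZMod.intCast_zmod_eq_zero_iff_dvd] at h1
    push_cast at h1
    apply Subtype.ext
    linear_combination h1
  · rintro ⟨x, hx⟩
    induction x using QuotientGroup.induction_on with
    | H g =>
      rw [MulAction.mem_fixedBy, h29_ST_fixed_iff] at hx
      have hcop : IsCoprime (g 1 0) (N : ℤ) := by
        have h1 : IsCoprime (g 0 0 ^ 2 + g 1 0 * (g 0 0 + g 1 0)) (g 1 0) :=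
          ((h29_isCoprime_col g).pow_left).add_mul_left_left _
        have h2 : g 0 0 ^ 2 + g 1 0 * (g 0 0 + g 1 0)
            = g 0 0 ^ 2 + g 0 0 * g 1 0 + g 1 0 ^ 2 := by ring
        rw [h2] at h1
        exact (IsCoprime.of_isCoprime_of_dvd_left h1 hx).symm
      obtain ⟨s, t, hst⟩ := hcop
      have hSC : (s : ZMod N) * (g 1 0 : ZMod N) = 1 := by
        have := congrArg (fun z : ℤ => (z : ZMod N)) hst
        simpa using this
      have hAC : (g 0 0 : ZMod N) ^ 2 + (g 0 0 : ZMod N) * (g 1 0 : ZMod N)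
          + (g 1 0 : ZMod N) ^ 2 = 0 := by
        have := (ZMod.intCast_zmod_eq_zero_iff_dvd _ N).mpr hx
        simpa using this
      refine ⟨⟨(g 0 0 : ZMod N) * (s : ZMod N), ?_⟩, ?_⟩
      · linear_combination (s : ZMod N) ^ 2 * hAC
          - ((g 0 0 : ZMod N) * (s : ZMod N) + 1 + (s : ZMod N) * (g 1 0 : ZMod N)) * hSC
      · apply Subtype.ext
        simp only
        rw [h29_coset_eq_iff, h29_M_00, h29_M_10, ← ZMod.intCast_zmod_eq_zero_iff_dvd]
        push_cast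
        linear_combination (g 0 0 : ZMod N) * hSC

/-- (5b) The number `c_S` of orbits of `S` on `SL(2, ℤ) ⧸ Γ₀(N)`. -/
theorem h29_orbits_S (N : ℕ) [NeZero N] :
    2 * h47_orbCount (SL(2, ℤ) ⧸ Gamma0 N) ModularGroup.S
      = Nat.card (SL(2, ℤ) ⧸ Gamma0 N) + ModularCurve.nuTwo N := by
  have hB := h29_burnside (X := SL(2, ℤ) ⧸ Gamma0 N) ModularGroup.S 4 h29_orderOf_S (by norm_num)
  unfold h47_orbCount
  have htriv : ∀ x : SL(2, ℤ) ⧸ Gamma0 N, (ModularGroup.S ^ 2) • x = x := by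
    intro x; rw [h29_S_sq]; exact h29_neg_one_smul N x
  have h0 : Nat.card (MulAction.fixedBy (SL(2, ℤ) ⧸ Gamma0 N) (ModularGroup.S ^ 0))
      = Nat.card (SL(2, ℤ) ⧸ Gamma0 N) :=
    h29_card_fixedBy_of_trivial _ (fun x => by rw [pow_zero, one_smul])
  have h2 : Nat.card (MulAction.fixedBy (SL(2, ℤ) ⧸ Gamma0 N) (ModularGroup.S ^ 2))
      = Nat.card (SL(2, ℤ) ⧸ Gamma0 N) :=
    h29_card_fixedBy_of_trivial _ htriv
  have h3 : MulAction.fixedBy (SL(2, ℤ) ⧸ Gamma0 N) (ModularGroup.S ^ 3)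
      = MulAction.fixedBy (SL(2, ℤ) ⧸ Gamma0 N) ModularGroup.S := by
    ext x
    rw [MulAction.mem_fixedBy, MulAction.mem_fixedBy, pow_succ' ModularGroup.S 2, mul_smul,
      htriv]
  rw [Finset.sum_range_succ, Finset.sum_range_succ, Finset.sum_range_succ, Finset.sum_range_one,
    h0, h2, h3, pow_one, h29_card_fixedBy_S] at hB
  omega

/-- (5c) The number `c_R` of orbits of `R = S * T` on `SL(2, ℤ) ⧸ Γ₀(N)`. -/
theorem h29_orbits_ST (N : ℕ) [NeZero N] :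
    3 * h47_orbCount (SL(2, ℤ) ⧸ Gamma0 N) (ModularGroup.S * ModularGroup.T)
      = Nat.card (SL(2, ℤ) ⧸ Gamma0 N) + 2 * ModularCurve.nuThree N := by
  unfold h47_orbCount
  set R : SL(2, ℤ) := ModularGroup.S * ModularGroup.T with hR
  have hB := h29_burnside (X := SL(2, ℤ) ⧸ Gamma0 N) R 6 h29_orderOf_ST (by norm_num)
  have htriv : ∀ x : SL(2, ℤ) ⧸ Gamma0 N, (R ^ 3) • x = x := by
    intro x; rw [hR, h29_ST_cube]; exact h29_neg_one_smul N x
  have h0 : Nat.card (MulAction.fixedBy (SL(2, ℤ) ⧸ Gamma0 N) (R ^ 0))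
      = Nat.card (SL(2, ℤ) ⧸ Gamma0 N) :=
    h29_card_fixedBy_of_trivial _ (fun x => by rw [pow_zero, one_smul])
  have h3 : Nat.card (MulAction.fixedBy (SL(2, ℤ) ⧸ Gamma0 N) (R ^ 3))
      = Nat.card (SL(2, ℤ) ⧸ Gamma0 N) :=
    h29_card_fixedBy_of_trivial _ htriv
  have h2 : MulAction.fixedBy (SL(2, ℤ) ⧸ Gamma0 N) (R ^ 2)
      = MulAction.fixedBy (SL(2, ℤ) ⧸ Gamma0 N) R := by
    ext x
    rw [MulAction.mem_fixedBy, MulAction.mem_fixedBy]
    constructor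
    · intro h
      have h' := htriv x
      rw [pow_succ' R 2, mul_smul, h] at h'
      exact h'
    · intro h
      rw [pow_two, mul_smul, h, h]
  have h4 : MulAction.fixedBy (SL(2, ℤ) ⧸ Gamma0 N) (R ^ 4)
      = MulAction.fixedBy (SL(2, ℤ) ⧸ Gamma0 N) R := by
    ext x
    rw [MulAction.mem_fixedBy, MulAction.mem_fixedBy, pow_succ' R 3, mul_smul, htriv]
  have h5 : MulAction.fixedBy (SL(2, ℤ) ⧸ Gamma0 N) (R ^ 5)
      = MulAction.fixedBy (SL(2, ℤ) ⧸ Gamma0 N) R := by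
    rw [← h2]
    ext x
    have e : R ^ 5 = R ^ 2 * R ^ 3 := by rw [← pow_add]
    rw [MulAction.mem_fixedBy, MulAction.mem_fixedBy, e, mul_smul, htriv]
  rw [Finset.sum_range_succ, Finset.sum_range_succ, Finset.sum_range_succ,
    Finset.sum_range_succ, Finset.sum_range_succ, Finset.sum_range_one,
    h0, h2, h3, h4, h5, pow_one, h29_card_fixedBy_ST] at hB
  omega

end Fermat.Agent.S24
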