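/-
S24 / the three POINT FIBRES of the MOD contract (helper54): number of places of
`F = modularFunctionFieldBar N` over `j = a` for `a ≠ 0, 1728`, `a = 1728`, `a = 0`,
given `[F : K(j)] = #X`.
-/
import Fermat.Agent.S24.h54_Point
import Fermat.Agent.S24.h56_CountNorm
import Fermat.Agent.S24.h71_NormCore
import Fermat.Agent.S24.h59_Gen
import Fermat.Agent.S24.h47_OrbCount
import Fermat.Agent.S24.h29_Elliptic

set_option autoImplicit false

open UpperHalfPlane ModularCurve AlgebraicCurve IntermediateField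
open scoped Manifold MatrixGroups

namespace Fermat.Agent.S24

/-- The order of a finite product of nonzero Laurent series is the sum of the orders. -/
theorem h54_order_prod {Q : Type*} (s : Finset Q) (f : Q → LaurentSeries ℂ)
    (hf : ∀ x ∈ s, f x ≠ 0) : (∏ x ∈ s, f x).order = ∑ x ∈ s, (f x).order := by
  classical
  induction s using Finset.induction_on with
  | empty => simp
  | insert a s ha ih =>
    have h1 : f a ≠ 0 := hf a (Finset.mem_insert_self a s)
    have h2 : ∀ x ∈ s, f x ≠ 0 := fun x hx => hf x (Finset.mem_insert_of_mem hx)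
    have h3 : ∏ x ∈ s, f x ≠ 0 := Finset.prod_ne_zero_iff.mpr h2
    rw [Finset.prod_insert ha, Finset.sum_insert ha, HahnSeries.order_mul h1 h3, ih h2]

/-- Orbits of the trivial cyclic group are points. -/
theorem h54_card_orbits_one {G X : Type*} [Group G] [MulAction G X] :
    Nat.card (MulAction.orbitRel.Quotient (Subgroup.zpowers (1 : G)) X) = Nat.card X := by
  apply Nat.card_congr
  refine (Equiv.ofBijective (fun x : X => (Quotient.mk'' x :
    MulAction.orbitRel.Quotient (Subgroup.zpowers (1 : G)) X)) ⟨?_, ?_⟩).symm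
  · intro x y h
    have h1 : (MulAction.orbitRel (Subgroup.zpowers (1 : G)) X) x y := Quotient.eq''.mp h
    rw [MulAction.orbitRel_apply] at h1
    obtain ⟨⟨g, hg⟩, hgx⟩ := h1
    have hg1 : g = 1 := by
      rw [Subgroup.zpowers_one_eq_bot, Subgroup.mem_bot] at hg
      exact hg
    subst hg1
    simpa using hgx.symm
  · intro q
    exact Quotient.inductionOn' q (fun x => ⟨x, rfl⟩)

section Fibres

variable (N : ℕ) [NeZero N]

/-- The general point-fibre count: `τ₀` above `a`, `g` fixing `τ₀`, and the divisibility (M). -/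
theorem h54_card_fibre_aux
    [FiniteDimensional (AlgebraicClosure ℚ)⟮h59_jbar N⟯ ↥(modularFunctionFieldBar N)]
    (hdeg : Module.finrank (AlgebraicClosure ℚ)⟮h59_jbar N⟯ ↥(modularFunctionFieldBar N)
      = Nat.card (SL(2, ℤ) ⧸ CongruenceSubgroup.Gamma0 N))
    (ι : AlgebraicClosure ℚ →+* ℂ) (a : AlgebraicClosure ℚ) (τ₀ : ℍ) (hτ : h77_j τ₀ = ι a)
    (g : SL(2, ℤ)) (hg : g • τ₀ = τ₀)
    (hM : ∀ (x : SL(2, ℤ) ⧸ CongruenceSubgroup.Gamma0 N) (f : ↥(modularFunctionFieldBar N)),
      f ≠ 0 → ((if ι a = 0 then 3 else if ι a = 1728 then 2 else 1 : ℤ)) ∣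
        h54_w ι N τ₀ x f * (Function.minimalPeriod
          (fun y : SL(2, ℤ) ⧸ CongruenceSubgroup.Gamma0 N => g • y) x : ℤ)) :
    Nat.card {v : Place (AlgebraicClosure ℚ) ↥(modularFunctionFieldBar N) //
        0 < v.ord (h59_jbar N - algebraMap (AlgebraicClosure ℚ) ↥(modularFunctionFieldBar N) a)}
      = Nat.card (MulAction.orbitRel.Quotient (Subgroup.zpowers g)
          (SL(2, ℤ) ⧸ CongruenceSubgroup.Gamma0 N)) := by
  classical
  let _ : Fintype (SL(2, ℤ) ⧸ CongruenceSubgroup.Gamma0 N) := Fintype.ofFinite _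
  have hj : h78_j (AlgebraicClosure ℚ) N = h59_jbar N := rfl
  have hcard : Fintype.card (SL(2, ℤ) ⧸ CongruenceSubgroup.Gamma0 N)
      = Module.finrank (AlgebraicClosure ℚ)⟮h59_jbar N⟯ ↥(modularFunctionFieldBar N) := by
    rw [hdeg, Nat.card_eq_fintype_card]
  refine h56_card_fibre_of_norm (h59_jbar N) (h59_jbar_transcendental N) a g (h54_w ι N τ₀)
    ?_ (if ι a = 0 then 3 else if ι a = 1728 then 2 else 1) ?_ ?_ ?_ hM ?_ hcard
  · intro x
    exact ⟨fun f₁ f₂ h₁ h₂ => h54_w_mul ι N τ₀ x h₁ h₂,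
      fun f₁ f₂ _ _ h => h54_w_add ι N τ₀ x h, fun c _ => h54_w_const ι N τ₀ x c⟩
  · split_ifs <;> norm_num
  · intro x
    have := h54_w_j_sub_of_eq ι N τ₀ x a hτ
    rw [hj] at this
    exact this
  · intro x
    funext f
    exact h54_ptX_order_smul_of_fixed (h54_evData ι N) g τ₀ hg x f
  · intro h hh x₀
    have hE : ∀ (x y : SL(2, ℤ) ⧸ CongruenceSubgroup.Gamma0 N)
        (e : (AlgebraicClosure ℚ)⟮h59_jbar N⟯),
        h54_sigma ι N τ₀ x (algebraMap (AlgebraicClosure ℚ)⟮h59_jbar N⟯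
            ↥(modularFunctionFieldBar N) e)
          = h54_sigma ι N τ₀ y (algebraMap (AlgebraicClosure ℚ)⟮h59_jbar N⟯
            ↥(modularFunctionFieldBar N) e) := by
      intro x y e
      exact h54_sigma_eqOn_adjoin ι N τ₀ x y
        (show ((e : ↥(modularFunctionFieldBar N))) ∈
          IntermediateField.adjoin (AlgebraicClosure ℚ) {h78_j (AlgebraicClosure ℚ) N} from e.2)
    have : CharZero ↥(modularFunctionFieldBar N) :=
      charZero_of_injective_algebraMap
        (algebraMap (AlgebraicClosure ℚ) ↥(modularFunctionFieldBar N)).injective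
    have : CharZero ↥((AlgebraicClosure ℚ)⟮h59_jbar N⟯) :=
      charZero_of_injective_algebraMap
        (algebraMap (AlgebraicClosure ℚ) ↥((AlgebraicClosure ℚ)⟮h59_jbar N⟯)).injective
    have : Algebra.IsAlgebraic ↥((AlgebraicClosure ℚ)⟮h59_jbar N⟯) ↥(modularFunctionFieldBar N) :=
      Algebra.IsAlgebraic.of_finite _ _
    have : Algebra.IsSeparable ↥((AlgebraicClosure ℚ)⟮h59_jbar N⟯) ↥(modularFunctionFieldBar N) :=
      Algebra.IsAlgebraic.isSeparable_of_perfectField
    have key := h71_norm_of_card_ringHom (E := (AlgebraicClosure ℚ)⟮h59_jbar N⟯)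
      (σ := h54_sigma ι N τ₀) (h54_sigma_injective ι N τ₀) hE hcard x₀ h
    show (h54_sigma ι N τ₀ x₀ _).order = ∑ x, (h54_sigma ι N τ₀ x h).order
    rw [key]
    exact h54_order_prod Finset.univ _ (fun x _ => (map_ne_zero (h54_sigma ι N τ₀ x)).mpr hh)

/-- POINT FIBRE over `a ≠ 0, 1728`: `#X` places (unramified). -/
theorem h54_card_fibre
    [FiniteDimensional (AlgebraicClosure ℚ)⟮h59_jbar N⟯ ↥(modularFunctionFieldBar N)]
    (hdeg : Module.finrank (AlgebraicClosure ℚ)⟮h59_jbar N⟯ ↥(modularFunctionFieldBar N)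
      = Nat.card (SL(2, ℤ) ⧸ CongruenceSubgroup.Gamma0 N))
    (a : AlgebraicClosure ℚ) (h0 : a ≠ 0) (h1 : a ≠ 1728) :
    Nat.card {v : Place (AlgebraicClosure ℚ) ↥(modularFunctionFieldBar N) //
        0 < v.ord (h59_jbar N - algebraMap (AlgebraicClosure ℚ) ↥(modularFunctionFieldBar N) a)}
      = Nat.card (SL(2, ℤ) ⧸ CongruenceSubgroup.Gamma0 N) := by
  obtain ⟨τ₀, hτ⟩ := h54_exists_point (h78_iota a)
  have hι0 : h78_iota a ≠ 0 := by
    intro h
    exact h0 (h78_iota_injective (by rw [h, map_zero]))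
  have hι1 : h78_iota a ≠ 1728 := by
    intro h
    exact h1 (h78_iota_injective (by rw [h, map_ofNat]))
  refine (h54_card_fibre_aux N hdeg h78_iota a τ₀ hτ 1 (one_smul _ _) ?_).trans
    h54_card_orbits_one
  intro x f _
  rw [if_neg hι0, if_neg hι1]
  exact one_dvd _

/-- POINT FIBRE over `1728`: the number of `⟨S⟩`-orbits on `X`. -/
theorem h54_card_fibre_1728
    [FiniteDimensional (AlgebraicClosure ℚ)⟮h59_jbar N⟯ ↥(modularFunctionFieldBar N)]
    (hdeg : Module.finrank (AlgebraicClosure ℚ)⟮h59_jbar N⟯ ↥(modularFunctionFieldBar N)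
      = Nat.card (SL(2, ℤ) ⧸ CongruenceSubgroup.Gamma0 N)) :
    Nat.card {v : Place (AlgebraicClosure ℚ) ↥(modularFunctionFieldBar N) //
        0 < v.ord (h59_jbar N -
          algebraMap (AlgebraicClosure ℚ) ↥(modularFunctionFieldBar N) 1728)}
      = h47_orbCount (SL(2, ℤ) ⧸ CongruenceSubgroup.Gamma0 N) ModularGroup.S := by
  have hι : h78_iota (1728 : AlgebraicClosure ℚ) = 1728 := map_ofNat _ _
  have hτ : h77_j UpperHalfPlane.I = h78_iota (1728 : AlgebraicClosure ℚ) := by
    rw [hι]; exact h39_jfun_I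
  refine h54_card_fibre_aux N hdeg h78_iota 1728 UpperHalfPlane.I hτ ModularGroup.S
    h54_S_smul_I ?_
  intro x f hf
  rw [hι, if_neg (by norm_num), if_pos rfl]
  have hper : Function.IsPeriodicPt
      (fun y : SL(2, ℤ) ⧸ CongruenceSubgroup.Gamma0 N => ModularGroup.S • y) 2 x := by
    show (fun y : SL(2, ℤ) ⧸ CongruenceSubgroup.Gamma0 N => ModularGroup.S • y)^[2] x = x
    rw [smul_iterate, h29_S_sq]
    exact h29_neg_one_smul N x
  have hdvd := hper.minimalPeriod_dvd
  rcases (Nat.dvd_prime Nat.prime_two).mp hdvd with h1 | h2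
  · have hfix : ModularGroup.S • x = x := Function.minimalPeriod_eq_one_iff_isFixedPt.mp h1
    exact Dvd.dvd.mul_right (h54_w_two_dvd h78_iota N x hfix hf) _
  · rw [h2]
    exact dvd_mul_left _ _

/-- POINT FIBRE over `0`: the number of `⟨S T⟩`-orbits on `X`. -/
theorem h54_card_fibre_zero
    [FiniteDimensional (AlgebraicClosure ℚ)⟮h59_jbar N⟯ ↥(modularFunctionFieldBar N)]
    (hdeg : Module.finrank (AlgebraicClosure ℚ)⟮h59_jbar N⟯ ↥(modularFunctionFieldBar N)
      = Nat.card (SL(2, ℤ) ⧸ CongruenceSubgroup.Gamma0 N)) :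
    Nat.card {v : Place (AlgebraicClosure ℚ) ↥(modularFunctionFieldBar N) //
        0 < v.ord (h59_jbar N -
          algebraMap (AlgebraicClosure ℚ) ↥(modularFunctionFieldBar N) 0)}
      = h47_orbCount (SL(2, ℤ) ⧸ CongruenceSubgroup.Gamma0 N)
          (ModularGroup.S * ModularGroup.T) := by
  have hι : h78_iota (0 : AlgebraicClosure ℚ) = 0 := map_zero _
  have hτ : h77_j ρ = h78_iota (0 : AlgebraicClosure ℚ) := by
    rw [hι]; exact h39_jfun_rho
  refine h54_card_fibre_aux N hdeg h78_iota 0 ρ hτ (ModularGroup.S * ModularGroup.T)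
    h54_ST_smul_rho ?_
  intro x f hf
  rw [hι, if_pos rfl]
  have hper : Function.IsPeriodicPt
      (fun y : SL(2, ℤ) ⧸ CongruenceSubgroup.Gamma0 N =>
        (ModularGroup.S * ModularGroup.T) • y) 3 x := by
    show (fun y : SL(2, ℤ) ⧸ CongruenceSubgroup.Gamma0 N =>
        (ModularGroup.S * ModularGroup.T) • y)^[3] x = x
    rw [smul_iterate, h29_ST_cube]
    exact h29_neg_one_smul N x
  have hdvd := hper.minimalPeriod_dvd
  rcases (Nat.dvd_prime Nat.prime_three).mp hdvd with h1 | h3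
  · have hfix : (ModularGroup.S * ModularGroup.T) • x = x :=
      Function.minimalPeriod_eq_one_iff_isFixedPt.mp h1
    exact Dvd.dvd.mul_right (h54_w_three_dvd h78_iota N x hfix hf) _
  · rw [h3]
    exact dvd_mul_left _ _

end Fibres

end Fermat.Agent.S24
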