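import Fermat.Agent.S24.h35_PlaceOfOrd
import Fermat.Agent.S24.h35_PlaceBasic

set_option autoImplicit false
set_option linter.style.haveILetI false

namespace Fermat.Agent.S24

open AlgebraicCurve IsDedekindDomain WithZero

section Log

theorem h35_log_nonpos_iff {x : ℤᵐ⁰} (hx : x ≠ 0) : WithZero.log x ≤ 0 ↔ x ≤ 1 := by
  rw [show (0 : ℤ) = WithZero.log (1 : ℤᵐ⁰) from WithZero.log_one.symm,
    WithZero.log_le_log hx one_ne_zero]

theorem h35_log_neg_iff {x : ℤᵐ⁰} (hx : x ≠ 0) : WithZero.log x < 0 ↔ x < 1 := by
  rw [show (0 : ℤ) = WithZero.log (1 : ℤᵐ⁰) from WithZero.log_one.symm,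
    WithZero.log_lt_log hx one_ne_zero]

end Log

section Dedekind

variable {K F : Type*} [Field K] [Field F] [Algebra K F]
variable {S : Type*} [CommRing S] [IsDedekindDomain S] [Algebra S F] [IsFractionRing S F]

/-- **Place of a prime.** A nonzero prime of a Dedekind domain with fraction field `F` that
contains the constants defines a place, whose order function is the adic one. -/
theorem h35_exists_place_of_prime (hKS : ∀ a : K, ∃ s : S, algebraMap S F s = algebraMap K F a)
    (P : HeightOneSpectrum S) :
    ∃ v : Place K F, ∀ f : F, f ≠ 0 → v.ord f = -(WithZero.log (P.valuation F f)) := by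
  let o : F → ℤ := fun f => -(WithZero.log (P.valuation F f))
  have hval_ne : ∀ f : F, f ≠ 0 → P.valuation F f ≠ 0 := fun f hf =>
    (Valuation.ne_zero_iff _).mpr hf
  have hmul : ∀ f g : F, f ≠ 0 → g ≠ 0 → o (f * g) = o f + o g := by
    intro f g hf hg
    simp only [o, map_mul]
    rw [WithZero.log_mul (hval_ne f hf) (hval_ne g hg)]
    ring
  have hadd : ∀ f g : F, f ≠ 0 → g ≠ 0 → f + g ≠ 0 → min (o f) (o g) ≤ o (f + g) := by
    intro f g hf hg hfg
    have h := (P.valuation F).map_add f g
    rcases le_max_iff.mp h with h1 | h1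
    · have h2 := (WithZero.log_le_log (hval_ne _ hfg) (hval_ne f hf)).mpr h1
      simp only [o]
      omega
    · have h2 := (WithZero.log_le_log (hval_ne _ hfg) (hval_ne g hg)).mpr h1
      simp only [o]
      omega
  have hK : ∀ a : K, a ≠ 0 → o (algebraMap K F a) = 0 := by
    intro a ha
    obtain ⟨s, hs⟩ := hKS a
    obtain ⟨s', hs'⟩ := hKS a⁻¹
    have hss' : s * s' = 1 := by
      apply IsFractionRing.injective S F
      rw [map_mul, hs, hs', ← map_mul, mul_inv_cancel₀ ha, map_one, map_one]
    have hsP : s ∉ P.asIdeal := fun h =>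
      P.isPrime.ne_top (Ideal.eq_top_of_isUnit_mem _ h (IsUnit.of_mul_eq_one _ hss'))
    simp only [o]
    rw [← hs, HeightOneSpectrum.valuation_of_algebraMap,
      HeightOneSpectrum.intValuation_eq_one_iff.mpr hsP, WithZero.log_one, neg_zero]
  obtain ⟨π, hπ⟩ := P.valuation_exists_uniformizer F
  have hπ0 : π ≠ 0 := by
    rintro rfl
    rw [map_zero] at hπ
    exact WithZero.exp_ne_zero.symm hπ
  have hoπ : o π = 1 := by
    simp only [o]
    rw [hπ, WithZero.log_exp]
    norm_num
  obtain ⟨v, d, hd, hv⟩ := h35_exists_place_of_ord (K := K) o hmul hadd hK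
    ⟨π, hπ0, by rw [hoπ]; exact one_ne_zero⟩
  have hd1 : d = 1 := by
    have h1 := hv π hπ0
    rw [hoπ] at h1
    have h2 : (d : ℤ) ∣ 1 := ⟨v.ord π, h1⟩
    have h3 := Int.eq_one_of_dvd_one (by positivity) h2
    exact_mod_cast h3
  refine ⟨v, fun f hf => ?_⟩
  have h1 := hv f hf
  rw [hd1] at h1
  simp only [Nat.cast_one, one_mul] at h1
  exact h1.symm

/-- **Prime of a place.** A place whose valuation ring contains a Dedekind domain `S` with
fraction field `F` is the place of a nonzero prime of `S`. -/
theorem h35_exists_prime_of_place (hKS : ∀ a : K, ∃ s : S, algebraMap S F s = algebraMap K F a)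
    (v : Place K F) (hS : ∀ s : S, algebraMap S F s ∈ v.toValuationSubring) :
    ∃ P : HeightOneSpectrum S, ∀ f : F, f ≠ 0 → v.ord f = -(WithZero.log (P.valuation F f)) := by
  let φ : S →+* v.toValuationSubring :=
    (algebraMap S F).codRestrict v.toValuationSubring.toSubring hS
  have hφ : ∀ s : S, ((φ s : v.toValuationSubring) : F) = algebraMap S F s := fun _ => rfl
  let I : Ideal S := (IsLocalRing.maximalIdeal v.toValuationSubring).comap φ
  have hIprime : I.IsPrime := Ideal.comap_isPrime φ _
  have hinv_mem : ∀ s : S, s ∉ I → (algebraMap S F s)⁻¹ ∈ v.toValuationSubring := by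
    intro s hs
    have hunit : IsUnit (φ s) := by
      by_contra hnu
      exact hs (Ideal.mem_comap.mpr ((IsLocalRing.mem_maximalIdeal _).mpr hnu))
    obtain ⟨u, hu⟩ := hunit
    have h1 := congrArg (Subtype.val) (Units.inv_mul u)
    have h2 : (((u⁻¹ : v.toValuationSubringˣ) : v.toValuationSubring) : F) *
        algebraMap S F s = 1 := by
      rw [← hφ s, ← hu]
      exact h1
    rw [← eq_inv_of_mul_eq_one_left h2]
    exact Subtype.coe_prop _
  have hIne : I ≠ ⊥ := by
    intro hbot
    apply v.ne_top'
    refine eq_top_iff.mpr fun x _ => ?_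
    obtain ⟨a, b, hb, rfl⟩ := IsFractionRing.div_surjective S x
    have hb0 : b ≠ 0 := nonZeroDivisors.ne_zero hb
    have hbI : b ∉ I := by
      rw [hbot]
      simpa using hb0
    rw [div_eq_mul_inv]
    exact v.toValuationSubring.mul_mem _ _ (hS a) (hinv_mem b hbI)
  let P : HeightOneSpectrum S := ⟨I, hIprime, hIne⟩
  obtain ⟨w, hw⟩ := h35_exists_place_of_prime (K := K) hKS P
  have hwv : w = v := by
    apply h35_place_eq_of_le
    intro x hx
    by_cases hx0 : x = 0
    · rw [hx0]; exact v.toValuationSubring.zero_mem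
    have h0 : 0 ≤ w.ord x := (h35_mem_iff_ord_nonneg w hx0).mp hx
    rw [hw x hx0] at h0
    have hle : P.valuation F x ≤ 1 :=
      (h35_log_nonpos_iff ((Valuation.ne_zero_iff _).mpr hx0)).mp (by omega)
    obtain ⟨n, d, hnd⟩ := P.exists_primeCompl_mul_eq_of_integer x hle
    have hdI : (d : S) ∉ I := d.2
    have hd0 : algebraMap S F (d : S) ≠ 0 := by
      intro h0'
      apply hdI
      have : (d : S) = 0 := IsFractionRing.injective S F (by rw [h0', map_zero])
      rw [this]
      exact I.zero_mem
    have hxeq : x = algebraMap S F n * (algebraMap S F (d : S))⁻¹ := by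
      rw [← hnd, mul_assoc, mul_inv_cancel₀ hd0, mul_one]
    rw [hxeq]
    exact v.toValuationSubring.mul_mem _ _ (hS n) (hinv_mem d hdI)
  exact ⟨P, fun f hf => hwv ▸ hw f hf⟩

/-- Membership in the prime attached to a place. -/
theorem h35_mem_prime_iff (v : Place K F) (P : HeightOneSpectrum S)
    (hv : ∀ f : F, f ≠ 0 → v.ord f = -(WithZero.log (P.valuation F f))) (s : S) :
    s ∈ P.asIdeal ↔ s = 0 ∨ 0 < v.ord (algebraMap S F s) := by
  by_cases hs : s = 0
  · simp [hs]
  have hsF : algebraMap S F s ≠ 0 := fun h => hs (IsFractionRing.injective S F (by rw [h, map_zero]))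
  rw [← HeightOneSpectrum.valuation_lt_one_iff_mem (K := F), hv _ hsF,
    ← h35_log_neg_iff ((Valuation.ne_zero_iff _).mpr hsF)]
  constructor
  · intro h; right; omega
  · rintro (h | h)
    · exact absurd h hs
    · omega

end Dedekind

section FibreGeneric

variable {K F : Type*} [Field K] [Field F] [Algebra K F]
variable {S : Type*} [CommRing S] [IsDedekindDomain S] [Algebra S F] [IsFractionRing S F]
variable {R L : Type*} [CommRing R] [IsDedekindDomain R] [Field L] [Algebra R L]
  [IsFractionRing R L] [Algebra R S] [Module.IsTorsionFree R S] [Module.Finite R S]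
  [Algebra L F] [Algebra R F] [IsScalarTower R L F] [IsScalarTower R S F]

set_option linter.deprecated false in
/-- **Fundamental identity for places** (generic `AKLB` form): the places of `F` at which a
generator `x` of a maximal ideal of `R` has positive order are finite in number, and the
orders of `x` at them add up to `[F : L]`, provided all residue fields are `K`. -/
theorem h35_fibre_sum_generic
    (hKS : ∀ a : K, ∃ s : S, algebraMap S F s = algebraMap K F a)
    (hKR : ∀ a : K, ∃ r : R, algebraMap R F r = algebraMap K F a)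
    (hres : ∀ (v : Place K F) (f : F), f ∈ v.toValuationSubring →
      ∃ a : K, f = algebraMap K F a ∨ 0 < v.ord (f - algebraMap K F a))
    (x : R) (hx0 : x ≠ 0) (hxmax : (Ideal.span {x}).IsMaximal)
    (hSv : ∀ v : Place K F, 0 < v.ord (algebraMap R F x) →
      ∀ s : S, algebraMap S F s ∈ v.toValuationSubring) :
    ∃ hfin : {v : Place K F | 0 < v.ord (algebraMap R F x)}.Finite,
      ∑ v ∈ hfin.toFinset, v.ord (algebraMap R F x) = Module.finrank L F := by
  classical
  set p : Ideal R := Ideal.span {x} with hp
  have hp0 : p ≠ ⊥ := by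
    rw [hp, Ne, Ideal.span_singleton_eq_bot]
    exact hx0
  haveI hpmax : p.IsMaximal := hxmax
  let pH : HeightOneSpectrum R := ⟨p, hxmax.isPrime, hp0⟩
  have hpval : pH.intValuation x = exp (-1 : ℤ) := pH.intValuation_singleton hx0 rfl
  have hxF : algebraMap R F x ≠ 0 := by
    rw [IsScalarTower.algebraMap_apply R L F]
    intro h
    have h1 : algebraMap R L x = 0 := (algebraMap L F).injective (by rw [h, map_zero])
    exact hx0 (IsFractionRing.injective R L (by rw [h1, map_zero]))
  have hT : ∀ P ∈ IsDedekindDomain.primesOverFinset p S, P.IsPrime ∧ P.LiesOver p := fun P hP =>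
    (IsDedekindDomain.mem_primesOverFinset_iff hp0 S).mp hP
  have hTne : ∀ P ∈ IsDedekindDomain.primesOverFinset p S, P ≠ ⊥ := fun P hP =>
    Ideal.ne_bot_of_mem_primesOver hp0 ((IsDedekindDomain.mem_primesOverFinset_iff hp0 S).mp hP)
  let wOf : (IsDedekindDomain.primesOverFinset p S) → HeightOneSpectrum S := fun i =>
    ⟨i.1, (hT i.1 i.2).1, hTne i.1 i.2⟩
  have hchoice : ∀ i : IsDedekindDomain.primesOverFinset p S, ∃ v : Place K F,
      ∀ f : F, f ≠ 0 → v.ord f = -(WithZero.log ((wOf i).valuation F f)) :=
    fun i => h35_exists_place_of_prime hKS (wOf i)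
  choose φ hφ using hchoice
  -- the order of `x` is the ramification index
  have hA : ∀ i : IsDedekindDomain.primesOverFinset p S,
      (φ i).ord (algebraMap R F x) = (p.ramificationIdx' i.1 : ℤ) := by
    intro i
    haveI : (wOf i).asIdeal.LiesOver pH.asIdeal := (hT i.1 i.2).2
    rw [hφ i _ hxF, IsScalarTower.algebraMap_apply R S F,
      HeightOneSpectrum.valuation_of_algebraMap,
      ← HeightOneSpectrum.intValuation_liesOver pH (wOf i) x, hpval, WithZero.log_pow,
      WithZero.log_exp]
    simp
    rfl
  -- all inertia degrees are one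
  have hB : ∀ i : IsDedekindDomain.primesOverFinset p S, p.inertiaDeg' i.1 = 1 := by
    intro i
    haveI : i.1.LiesOver p := (hT i.1 i.2).2
    haveI : i.1.IsPrime := (hT i.1 i.2).1
    rw [Ideal.inertiaDeg'_algebraMap]
    have hsurj : Function.Surjective (algebraMap (R ⧸ p) (S ⧸ i.1)) := by
      intro y
      obtain ⟨s, rfl⟩ := Ideal.Quotient.mk_surjective y
      have hs_mem : algebraMap S F s ∈ (φ i).toValuationSubring := by
        by_cases hs0 : algebraMap S F s = 0
        · rw [hs0]; exact (φ i).toValuationSubring.zero_mem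
        rw [h35_mem_iff_ord_nonneg _ hs0, hφ i _ hs0]
        have h1 := (wOf i).valuation_le_one (K := F) s
        have h2 := (h35_log_nonpos_iff ((Valuation.ne_zero_iff _).mpr hs0)).mpr h1
        omega
      obtain ⟨a, ha⟩ := hres (φ i) _ hs_mem
      obtain ⟨r, hr⟩ := hKR a
      refine ⟨Ideal.Quotient.mk p r, ?_⟩
      rw [Ideal.Quotient.algebraMap_mk_of_liesOver, eq_comm, Ideal.Quotient.eq]
      have hmem := h35_mem_prime_iff (φ i) (wOf i) (hφ i) (s - algebraMap R S r)
      apply hmem.mpr
      have himg : algebraMap S F (s - algebraMap R S r) =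
          algebraMap S F s - algebraMap K F a := by
        rw [map_sub, ← IsScalarTower.algebraMap_apply R S F, hr]
      rcases ha with ha | ha
      · left
        apply IsFractionRing.injective S F
        rw [himg, ha, sub_self, map_zero]
      · right
        rw [himg]
        exact ha
    have hinj : Function.Injective (algebraMap (R ⧸ p) (S ⧸ i.1)) := by
      intro y y' hyy'
      obtain ⟨r, rfl⟩ := Ideal.Quotient.mk_surjective y
      obtain ⟨r', rfl⟩ := Ideal.Quotient.mk_surjective y'
      rw [Ideal.Quotient.algebraMap_mk_of_liesOver, Ideal.Quotient.algebraMap_mk_of_liesOver,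
        Ideal.Quotient.eq, ← map_sub] at hyy'
      rw [Ideal.Quotient.eq, Ideal.LiesOver.over (p := p) (P := i.1)]
      exact hyy'
    haveI : Nontrivial (R ⧸ p) := Ideal.Quotient.nontrivial_iff.mpr hxmax.ne_top
    let e : (R ⧸ p) ≃ₗ[R ⧸ p] (S ⧸ i.1) :=
      LinearEquiv.ofBijective (Algebra.linearMap (R ⧸ p) (S ⧸ i.1)) ⟨hinj, hsurj⟩
    rw [← e.finrank_eq, Module.finrank_self]
  -- the places are distinct
  have hC : Function.Injective φ := by
    intro i j hij
    apply Subtype.ext
    ext s
    have h1 := h35_mem_prime_iff (φ i) (wOf i) (hφ i) s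
    have h2 := h35_mem_prime_iff (φ j) (wOf j) (hφ j) s
    rw [hij] at h1
    exact h1.trans h2.symm
  -- and they exhaust the fibre
  have hD : Set.range φ = {v : Place K F | 0 < v.ord (algebraMap R F x)} := by
    ext v
    constructor
    · rintro ⟨i, rfl⟩
      show 0 < (φ i).ord (algebraMap R F x)
      rw [hA i]
      haveI : i.1.IsPrime := (hT i.1 i.2).1
      haveI : i.1.LiesOver p := (hT i.1 i.2).2
      have h1 := Ideal.IsDedekindDomain.ramificationIdx'_ne_zero_of_liesOver i.1 hp0
      exact_mod_cast Nat.pos_of_ne_zero h1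
    · intro hv
      have hv' : 0 < v.ord (algebraMap R F x) := hv
      obtain ⟨P, hP⟩ := h35_exists_prime_of_place hKS v (hSv v hv')
      have hxP : algebraMap R S x ∈ P.asIdeal := by
        rw [h35_mem_prime_iff v P hP]
        right
        rw [← IsScalarTower.algebraMap_apply R S F]
        exact hv'
      have hle : p ≤ P.asIdeal.comap (algebraMap R S) := by
        rw [hp, Ideal.span_le, Set.singleton_subset_iff]
        exact hxP
      have hcomap_ne : P.asIdeal.comap (algebraMap R S) ≠ ⊤ :=
        (Ideal.comap_isPrime (algebraMap R S) P.asIdeal).ne_top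
      have hover : P.asIdeal.LiesOver p := ⟨hxmax.eq_of_le hcomap_ne hle⟩
      have hmem : P.asIdeal ∈ IsDedekindDomain.primesOverFinset p S :=
        (IsDedekindDomain.mem_primesOverFinset_iff hp0 S).mpr ⟨P.isPrime, hover⟩
      refine ⟨⟨P.asIdeal, hmem⟩, ?_⟩
      apply h35_place_eq_of_ord
      intro f hf h0
      rw [hP f hf]
      rw [hφ _ f hf] at h0
      exact h0
  have hfin : {v : Place K F | 0 < v.ord (algebraMap R F x)}.Finite := by
    rw [← hD]
    exact Set.finite_range φ
  refine ⟨hfin, ?_⟩
  have himage : hfin.toFinset = Finset.univ.image φ := by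
    ext v
    rw [Set.Finite.mem_toFinset, ← hD]
    simp
  rw [himage, Finset.sum_image (fun a _ b _ h => hC h)]
  have hsum := Ideal.sum_ramification_inertia S L F (p := p) hp0
  calc ∑ i : IsDedekindDomain.primesOverFinset p S, (φ i).ord (algebraMap R F x)
      = ∑ i : IsDedekindDomain.primesOverFinset p S,
          ((p.ramificationIdx' i.1 * p.inertiaDeg' i.1 : ℕ) : ℤ) := by
        refine Finset.sum_congr rfl fun i _ => ?_
        rw [hA i, hB i, mul_one]
    _ = ((∑ P ∈ IsDedekindDomain.primesOverFinset p S, p.ramificationIdx' P * p.inertiaDeg' P : ℕ) : ℤ) := by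
        rw [Nat.cast_sum, ← Finset.sum_coe_sort (IsDedekindDomain.primesOverFinset p S)]
    _ = Module.finrank L F := by rw [hsum]

end FibreGeneric

end Fermat.Agent.S24
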