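import Fermat.Agent.S24.h35_PlaceBasic
import Fermat.Agent.S24.h35_Dedekind

set_option autoImplicit false

namespace Fermat.Agent.S24

open AlgebraicCurve IntermediateField

section Exchange

variable {K F : Type*} [Field K] [Field F] [Algebra K F]

theorem h35_isAlgebraic_adjoin_of_transcendental {t x : F} (ht : Transcendental K t)
    (hx : Transcendental K x) [Algebra.IsAlgebraic K⟮t⟯ F] : IsAlgebraic K⟮x⟯ t := by
  have h1 : IsAlgebraic (Algebra.adjoin K {t}) x :=
    isAlgebraic_adjoin_iff.mp (Algebra.IsAlgebraic.isAlgebraic x)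
  have h2 := IsAlgebraic.adjoin_singleton ht hx h1
  rw [Algebra.algebraMap_self, RingHom.id_apply] at h2
  exact isAlgebraic_adjoin_iff.mpr h2

/-- If `F` is finite over `K(t)` and `x` is transcendental over `K`, then `F` is finite over
`K(x)`. -/
theorem h35_finiteDimensional_of_transcendental {t x : F} (ht : Transcendental K t)
    (hx : Transcendental K x) [FiniteDimensional K⟮t⟯ F] : FiniteDimensional K⟮x⟯ F := by
  let Fxt := restrictScalars K K⟮x⟯⟮t⟯
  let Ftx := restrictScalars K K⟮t⟯⟮x⟯
  let _i1 : Algebra K⟮x⟯ Fxt := K⟮x⟯⟮t⟯.algebra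
  let _i2 : Module K⟮x⟯ Fxt := Algebra.toModule
  let _i3 : SMul K⟮x⟯ Fxt := Algebra.toSMul
  let _i4 : Algebra K⟮t⟯ Ftx := K⟮t⟯⟮x⟯.algebra
  let _i5 : Module K⟮t⟯ Ftx := Algebra.toModule
  let _i6 : SMul K⟮t⟯ Ftx := Algebra.toSMul
  have h1 : FiniteDimensional K⟮x⟯ Fxt :=
    adjoin.finiteDimensional
      (isAlgebraic_iff_isIntegral.mp (h35_isAlgebraic_adjoin_of_transcendental ht hx))
  have h2 : FiniteDimensional Fxt F := by
    unfold Fxt
    rw [adjoin_simple_comm]
    have : IsScalarTower K⟮t⟯ Ftx F := isScalarTower_mid' K⟮t⟯⟮x⟯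
    exact .right K⟮t⟯ Ftx F
  have h3 : IsScalarTower K⟮x⟯ Fxt F := isScalarTower_mid' K⟮x⟯⟮t⟯
  exact .trans K⟮x⟯ Fxt F

end Exchange

section Residue

variable {K F : Type*} [Field K] [Field F] [Algebra K F] [IsAlgClosed K]

/-- **Values.** Every function regular at a place takes a value in `K` there. -/
theorem h35_exists_value {t : F} (ht : Transcendental K t) [FiniteDimensional K⟮t⟯ F]
    (v : Place K F) {f : F} (hf : f ∈ v.toValuationSubring) :
    ∃ a : K, f = algebraMap K F a ∨ 0 < v.ord (f - algebraMap K F a) := by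
  by_cases hfalg : IsAlgebraic K f
  · obtain ⟨a, ha⟩ := h35_exists_algebraMap_eq_of_isAlgebraic f hfalg
    exact ⟨a, Or.inl ha.symm⟩
  · have hfin : FiniteDimensional K⟮f⟯ F := h35_finiteDimensional_of_transcendental ht hfalg
    obtain ⟨a, ha⟩ := h35_exists_value_of_transcendental v hfalg hf
    exact ⟨a, Or.inr ha⟩

/-- The residue field of every place is `K`. -/
theorem h35_residue_surjective {t : F} (ht : Transcendental K t) [FiniteDimensional K⟮t⟯ F]
    (v : Place K F) : Function.Surjective (algebraMap K v.ResidueField) := by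
  intro y
  obtain ⟨x, rfl⟩ := IsLocalRing.residue_surjective y
  obtain ⟨a, ha⟩ := h35_exists_value ht v x.2
  refine ⟨a, ?_⟩
  have key : IsLocalRing.residue v.toValuationSubring (x - algebraMap K v.toValuationSubring a)
      = 0 := by
    rcases ha with ha | ha
    · have : x - algebraMap K v.toValuationSubring a = 0 := by
        apply Subtype.ext
        show (x : F) - algebraMap K F a = 0
        rw [ha, sub_self]
      rw [this, map_zero]
    · exact h35_residue_eq_zero_of_ord_pos v _ ha
  rw [map_sub, sub_eq_zero] at key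
  rw [key]
  rfl

theorem h35_deg_eq_one {t : F} (ht : Transcendental K t) [FiniteDimensional K⟮t⟯ F]
    (v : Place K F) : v.deg = 1 := by
  have hsurj := h35_residue_surjective ht v
  have hinj : Function.Injective (algebraMap K v.ResidueField) :=
    (algebraMap K v.ResidueField).injective
  let e : K ≃ₗ[K] v.ResidueField :=
    LinearEquiv.ofBijective (Algebra.linearMap K v.ResidueField) ⟨hinj, hsurj⟩
  show Module.finrank K v.ResidueField = 1
  rw [← e.finrank_eq, Module.finrank_self]

end Residue

section FunctionFieldFibre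

open scoped IntermediateField.algebraAdjoinAdjoin

variable {K F : Type*} [Field K] [Field F] [Algebra K F] [IsAlgClosed K] [CharZero K]

omit [IsAlgClosed K] [CharZero K] in
/-- Elements integral over `K[t]` are regular at every place at which `t` is regular. -/
theorem h35_integral_mem (v : Place K F) {t : F} (ht : t ∈ v.toValuationSubring) {s : F}
    (hs : IsIntegral (Algebra.adjoin K {t}) s) : s ∈ v.toValuationSubring := by
  have hle := h35_adjoin_le v ht
  let ι : Algebra.adjoin K {t} →+* v.toValuationSubring :=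
    (algebraMap (Algebra.adjoin K {t}) F).codRestrict v.toValuationSubring.toSubring
      (fun r => hle r.2)
  obtain ⟨q, hq, hq0⟩ := hs
  have hint : IsIntegral v.toValuationSubring s := by
    refine ⟨q.map ι, hq.map ι, ?_⟩
    rw [Polynomial.eval₂_map]
    exact hq0
  obtain ⟨y, hy⟩ := IsIntegrallyClosed.isIntegral_iff.mp hint
  rw [← hy]
  exact y.2

set_option linter.style.haveILetI false in
/-- **Fundamental identity.** For `a ∈ K` the places of `F` over `t = a` are finite in number
and the orders of `t - a` at them add up to `[F : K(t)]`. -/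
theorem h35_fibre_sum (t : F) (ht : Transcendental K t) [FiniteDimensional K⟮t⟯ F] (a : K) :
    ∃ hfin : {v : Place K F | 0 < v.ord (t - algebraMap K F a)}.Finite,
      ∑ v ∈ hfin.toFinset, v.ord (t - algebraMap K F a) = Module.finrank K⟮t⟯ F := by
  let e : Polynomial K ≃ₐ[K] Algebra.adjoin K {t} := Polynomial.algEquivOfTranscendental K t ht
  haveI : IsPrincipalIdealRing (Algebra.adjoin K {t}) :=
    IsPrincipalIdealRing.of_surjective (e : Polynomial K →+* Algebra.adjoin K {t}) e.surjective
  haveI : IsDedekindDomain (integralClosure (Algebra.adjoin K {t}) F) :=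
    integralClosure.isDedekindDomain (Algebra.adjoin K {t}) K⟮t⟯ F
  haveI : IsFractionRing (integralClosure (Algebra.adjoin K {t}) F) F :=
    integralClosure.isFractionRing_of_finite_extension K⟮t⟯ F
  haveI : Module.Finite (Algebra.adjoin K {t}) (integralClosure (Algebra.adjoin K {t}) F) :=
    IsIntegralClosure.finite (Algebra.adjoin K {t}) K⟮t⟯ F
      (integralClosure (Algebra.adjoin K {t}) F)
  let x : Algebra.adjoin K {t} :=
    ⟨t, Algebra.self_mem_adjoin_singleton K t⟩ - algebraMap K (Algebra.adjoin K {t}) a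
  have hxF : algebraMap (Algebra.adjoin K {t}) F x = t - algebraMap K F a := rfl
  have hta : t - algebraMap K F a ≠ 0 := by
    intro h
    exact ht ((sub_eq_zero.mp h) ▸ isAlgebraic_algebraMap a)
  have hx0 : x ≠ 0 := by
    intro h
    apply hta
    rw [← hxF, h, map_zero]
  have hxmax : (Ideal.span {x}).IsMaximal := by
    have h1 : (Ideal.span {(Polynomial.X - Polynomial.C a : Polynomial K)}).IsMaximal := by
      rw [← Polynomial.ker_evalRingHom]
      exact RingHom.ker_isMaximal_of_surjective _ (fun y => ⟨Polynomial.C y, by simp⟩)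
    have h2 : (Ideal.map e (Ideal.span {(Polynomial.X - Polynomial.C a : Polynomial K)})).IsMaximal :=
      Ideal.map_isMaximal_of_equiv e
    rw [Ideal.map_span, Set.image_singleton] at h2
    have hex : e (Polynomial.X - Polynomial.C a) = x := by
      apply Subtype.ext
      show ((e (Polynomial.X - Polynomial.C a) : Algebra.adjoin K {t}) : F) = t - algebraMap K F a
      rw [map_sub]
      simp [e, Polynomial.algEquivOfTranscendental_apply]
    rw [← hex]
    exact h2
  have hKS : ∀ b : K, ∃ s : integralClosure (Algebra.adjoin K {t}) F,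
      algebraMap (integralClosure (Algebra.adjoin K {t}) F) F s = algebraMap K F b := fun b =>
    ⟨⟨algebraMap K F b, (integralClosure (Algebra.adjoin K {t}) F).algebraMap_mem
      (algebraMap K (Algebra.adjoin K {t}) b)⟩, rfl⟩
  have hKR : ∀ b : K, ∃ r : Algebra.adjoin K {t},
      algebraMap (Algebra.adjoin K {t}) F r = algebraMap K F b := fun b =>
    ⟨algebraMap K (Algebra.adjoin K {t}) b, rfl⟩
  have hres : ∀ (v : Place K F) (f : F), f ∈ v.toValuationSubring →
      ∃ b : K, f = algebraMap K F b ∨ 0 < v.ord (f - algebraMap K F b) := fun v f hf =>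
    h35_exists_value ht v hf
  have hSv : ∀ v : Place K F, 0 < v.ord (algebraMap (Algebra.adjoin K {t}) F x) →
      ∀ s : integralClosure (Algebra.adjoin K {t}) F,
        algebraMap (integralClosure (Algebra.adjoin K {t}) F) F s ∈ v.toValuationSubring := by
    intro v hv s
    rw [hxF] at hv
    have h1 : t - algebraMap K F a ∈ v.toValuationSubring := ((h35_ord_pos_iff v hta).mp hv).1
    have h2 : t ∈ v.toValuationSubring := by
      have := v.toValuationSubring.add_mem _ _ h1 (v.algebraMap_mem' a)
      simpa using this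
    exact h35_integral_mem v h2 s.2
  obtain ⟨hfin, hsum⟩ := h35_fibre_sum_generic (K := K) (F := F)
    (S := integralClosure (Algebra.adjoin K {t}) F) (R := Algebra.adjoin K {t}) (L := K⟮t⟯)
    hKS hKR hres x hx0 hxmax hSv
  exact ⟨hfin, hsum⟩

end FunctionFieldFibre

section Principal

variable {K F : Type*} [Field K] [Field F] [Algebra K F] [IsAlgClosed K] [CharZero K]

omit [IsAlgClosed K] [CharZero K] in
theorem h35_adjoin_inv (t : F) : K⟮t⁻¹⟯ = K⟮t⟯ := by
  apply le_antisymm
  · rw [adjoin_simple_le_iff]
    exact K⟮t⟯.inv_mem (mem_adjoin_simple_self K t)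
  · rw [adjoin_simple_le_iff]
    have := K⟮t⁻¹⟯.inv_mem (mem_adjoin_simple_self K t⁻¹)
    rwa [inv_inv] at this

omit [IsAlgClosed K] [CharZero K] in
theorem h35_finrank_congr {E₁ E₂ : IntermediateField K F} (h : E₁ = E₂)
    [FiniteDimensional E₁ F] :
    FiniteDimensional E₂ F ∧ Module.finrank E₂ F = Module.finrank E₁ F := by
  subst h
  exact ⟨inferInstance, rfl⟩

omit [IsAlgClosed K] [CharZero K] in
theorem h35_transcendental_inv {t : F} (ht : Transcendental K t) : Transcendental K t⁻¹ :=
  fun h => ht (by simpa using h.inv)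

/-- **Poles.** The places at which `t` has a pole are finite in number and the orders of `t`
at them add up to `-[F : K(t)]`. -/
theorem h35_poles_sum (t : F) (ht : Transcendental K t) [FiniteDimensional K⟮t⟯ F] :
    ∃ hfin : {v : Place K F | v.ord t < 0}.Finite,
      ∑ v ∈ hfin.toFinset, v.ord t = -(Module.finrank K⟮t⟯ F : ℤ) := by
  have ht' : Transcendental K t⁻¹ := h35_transcendental_inv ht
  obtain ⟨hfd, hrank⟩ := h35_finrank_congr (h35_adjoin_inv (K := K) t).symm
  obtain ⟨hfin, hsum⟩ := h35_fibre_sum t⁻¹ ht' (0 : K)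
  have hset : {v : Place K F | 0 < v.ord (t⁻¹ - algebraMap K F 0)} =
      {v : Place K F | v.ord t < 0} := by
    ext v
    simp only [Set.mem_ofPred_eq, map_zero, sub_zero, v.ord_inv]
    omega
  have hfin' : {v : Place K F | v.ord t < 0}.Finite := hset ▸ hfin
  refine ⟨hfin', ?_⟩
  have hfs : hfin'.toFinset = hfin.toFinset := by
    ext v
    rw [Set.Finite.mem_toFinset, Set.Finite.mem_toFinset, hset]
  rw [hfs, ← hrank, ← hsum, ← Finset.sum_neg_distrib]
  refine Finset.sum_congr rfl fun v _ => ?_
  rw [map_zero, sub_zero, v.ord_inv, neg_neg]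

/-- **Zeros.** The places at which `t` vanishes are finite in number and the orders of `t`
at them add up to `[F : K(t)]`. -/
theorem h35_zeros_sum (t : F) (ht : Transcendental K t) [FiniteDimensional K⟮t⟯ F] :
    ∃ hfin : {v : Place K F | 0 < v.ord t}.Finite,
      ∑ v ∈ hfin.toFinset, v.ord t = (Module.finrank K⟮t⟯ F : ℤ) := by
  obtain ⟨hfin, hsum⟩ := h35_fibre_sum t ht (0 : K)
  have hset : {v : Place K F | 0 < v.ord (t - algebraMap K F 0)} =
      {v : Place K F | 0 < v.ord t} := by
    ext v
    simp only [Set.mem_ofPred_eq, map_zero, sub_zero]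
  have hfin' : {v : Place K F | 0 < v.ord t}.Finite := hset ▸ hfin
  refine ⟨hfin', ?_⟩
  have hfs : hfin'.toFinset = hfin.toFinset := by
    ext v
    rw [Set.Finite.mem_toFinset, Set.Finite.mem_toFinset, hset]
  rw [hfs, ← hsum]
  refine Finset.sum_congr rfl fun v _ => ?_
  rw [map_zero, sub_zero]

/-- **Principal divisors have degree zero.** -/
theorem h35_principal {t : F} (ht : Transcendental K t) [FiniteDimensional K⟮t⟯ F] (f : F) :
    ∃ hfin : {v : Place K F | v.ord f ≠ 0}.Finite, ∑ v ∈ hfin.toFinset, v.ord f = 0 := by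
  classical
  by_cases hfalg : IsAlgebraic K f
  · obtain ⟨a, rfl⟩ := h35_exists_algebraMap_eq_of_isAlgebraic f hfalg
    have hempty : {v : Place K F | v.ord (algebraMap K F a) ≠ 0} = ∅ := by
      ext v
      simp [h35_ord_algebraMap]
    refine ⟨hempty ▸ Set.finite_empty, ?_⟩
    exact Finset.sum_eq_zero fun v _ => h35_ord_algebraMap v a
  · haveI := h35_finiteDimensional_of_transcendental ht hfalg
    obtain ⟨hz, hzsum⟩ := h35_zeros_sum f hfalg
    obtain ⟨hp, hpsum⟩ := h35_poles_sum f hfalg
    have hunion : {v : Place K F | v.ord f ≠ 0} =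
        {v : Place K F | 0 < v.ord f} ∪ {v : Place K F | v.ord f < 0} := by
      ext v
      simp only [Set.mem_ofPred_eq, Set.mem_union]
      omega
    have hfin : {v : Place K F | v.ord f ≠ 0}.Finite := hunion ▸ (hz.union hp)
    refine ⟨hfin, ?_⟩
    have hfs : hfin.toFinset = hz.toFinset ∪ hp.toFinset := by
      ext v
      rw [Finset.mem_union, Set.Finite.mem_toFinset, Set.Finite.mem_toFinset,
        Set.Finite.mem_toFinset, hunion]
      rfl
    have hdisj : Disjoint hz.toFinset hp.toFinset := by
      rw [Finset.disjoint_left]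
      intro v h1 h2
      rw [Set.Finite.mem_toFinset] at h1 h2
      have h1' : 0 < v.ord f := h1
      have h2' : v.ord f < 0 := h2
      omega
    rw [hfs, Finset.sum_union hdisj, hzsum, hpsum]
    ring

omit [IsAlgClosed K] [CharZero K] in
/-- The value of `t` at a place is unique. -/
theorem h35_value_unique (v : Place K F) {t : F} {a b : K}
    (ha : 0 < v.ord (t - algebraMap K F a)) (hb : 0 < v.ord (t - algebraMap K F b)) : a = b := by
  by_contra hab
  have hne : algebraMap K F (b - a) ≠ 0 := by
    simpa [sub_eq_zero] using (Ne.symm hab)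
  have h1 : t - algebraMap K F a ≠ 0 := by
    intro h
    rw [h, v.ord_zero] at ha
    exact lt_irrefl 0 ha
  have h2 : t - algebraMap K F b ≠ 0 := by
    intro h
    rw [h, v.ord_zero] at hb
    exact lt_irrefl 0 hb
  have h3 : (t - algebraMap K F a) - (t - algebraMap K F b) = algebraMap K F (b - a) := by
    rw [map_sub]
    ring
  have h4 := h35_ord_sub v h1 h2 (by rw [h3]; exact hne)
  rw [h3, h35_ord_algebraMap] at h4
  have := le_min ha.le hb.le
  have h5 : 0 < min (v.ord (t - algebraMap K F a)) (v.ord (t - algebraMap K F b)) :=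
    lt_min ha hb
  omega

end Principal

end Fermat.Agent.S24
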