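/-
helper73: generic algebra for S24. Differentials on a function field in one variable
over an algebraically closed field of characteristic zero (residue fields, the local
derivation at a place, and the order of `d f` at a place).
-/
import Mathlib
import Fermat.Prelude.Def_AlgebraicCurve_CanonicalDivisor

set_option autoImplicit false

namespace Fermat.Agent.S24

open Polynomial KaehlerDifferential IntermediateField AlgebraicCurve

section Fields

variable {K F : Type*} [Field K] [Field F] [Algebra K F]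

/-- `F/K` is a function field in one variable: finite over `K(t)` for some `t`. -/
def h73_IsFF (K F : Type*) [Field K] [Field F] [Algebra K F] : Prop :=
  ∃ t : F, FiniteDimensional K⟮t⟯ F

theorem h73_mem_range_of_isAlgebraic [IsAlgClosed K] {x : F} (hx : IsAlgebraic K x) :
    x ∈ Set.range (algebraMap K F) :=
  minpoly.mem_range_of_degree_eq_one K x
    (IsAlgClosed.degree_eq_one_of_irreducible K (minpoly.irreducible hx.isIntegral))

/-- `K[X] → K(x)` is a fraction ring when `x` is transcendental. -/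
theorem h73_isFractionRing_aux (x : F) (hx : Transcendental K x) :
    @IsFractionRing K[X] _ K⟮x⟯ _
      (aeval (AdjoinSimple.gen K x) : K[X] →ₐ[K] K⟮x⟯).toRingHom.toAlgebra := by
  let algM : Algebra K[X] K⟮x⟯ :=
    (aeval (AdjoinSimple.gen K x) : K[X] →ₐ[K] K⟮x⟯).toRingHom.toAlgebra
  have hmap : ∀ p : K[X], ((algebraMap K[X] K⟮x⟯ p : K⟮x⟯) : F) = aeval x p := by
    intro p
    show ((aeval (AdjoinSimple.gen K x) p : K⟮x⟯) : F) = aeval x p
    have h := Polynomial.aeval_algebraMap_apply F (AdjoinSimple.gen K x) p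
    rw [AdjoinSimple.algebraMap_gen] at h
    exact h.symm
  have hinj : Function.Injective (algebraMap K[X] K⟮x⟯) := by
    intro p q hpq
    have h1 : aeval x p = aeval x q := by rw [← hmap, ← hmap, hpq]
    exact (transcendental_iff_injective.mp hx) h1
  have : FaithfulSMul K[X] K⟮x⟯ := (faithfulSMul_iff_algebraMap_injective _ _).mpr hinj
  refine IsFractionRing.of_field K[X] K⟮x⟯ (fun z => ?_)
  obtain ⟨r, s, hrs⟩ := (mem_adjoin_simple_iff K (z : F)).mp z.2
  refine ⟨r, s, ?_⟩
  apply Subtype.ext
  rw [hrs]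
  push_cast
  rw [hmap, hmap]

/-- For `x` transcendental, every `f` algebraic over `K(x)` satisfies a polynomial relation
`P(x, f) = 0` with `P ∈ K[X][Y]` whose reduction modulo `X` is nonzero. -/
theorem h73_exists_poly_rel {x : F} (hx : Transcendental K x) {f : F}
    (hf : IsAlgebraic K⟮x⟯ f) :
    ∃ P : K[X][X], P.map (evalRingHom (0 : K)) ≠ 0 ∧
      P.eval₂ ((aeval x : K[X] →ₐ[K] F) : K[X] →+* F) f = 0 := by
  let algF : Algebra K[X] F := (aeval x : K[X] →ₐ[K] F).toRingHom.toAlgebra
  let algM : Algebra K[X] K⟮x⟯ :=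
    (aeval (AdjoinSimple.gen K x) : K[X] →ₐ[K] K⟮x⟯).toRingHom.toAlgebra
  have hmap : ∀ p : K[X], ((algebraMap K[X] K⟮x⟯ p : K⟮x⟯) : F) = aeval x p := by
    intro p
    show ((aeval (AdjoinSimple.gen K x) p : K⟮x⟯) : F) = aeval x p
    have h := Polynomial.aeval_algebraMap_apply F (AdjoinSimple.gen K x) p
    rw [AdjoinSimple.algebraMap_gen] at h
    exact h.symm
  have towM : IsScalarTower K[X] K⟮x⟯ F :=
    IsScalarTower.of_algebraMap_eq (fun p => (hmap p).symm)
  have := h73_isFractionRing_aux x hx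
  obtain ⟨p, hp0, hp⟩ := (IsFractionRing.isAlgebraic_iff K[X] K⟮x⟯ F).mpr hf
  classical
  let _i : NormalizedGCDMonoid K[X] := UniqueFactorizationMonoid.toNormalizedGCDMonoid K[X]
  refine ⟨p.primPart, ?_, ?_⟩
  · intro h0
    have hdvd : C (X : K[X]) ∣ p.primPart := by
      rw [C_dvd_iff_dvd_coeff]
      intro i
      have hi := congrArg (fun q => q.coeff i) h0
      simp only [coeff_map, coeff_zero, coe_evalRingHom] at hi
      rw [X_dvd_iff, coeff_zero_eq_eval_zero]
      exact hi
    exact not_isUnit_X (p.isPrimitive_primPart X hdvd)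
  · have h1 : aeval f p = 0 := hp
    rw [p.eq_C_content_mul_primPart, map_mul, aeval_C] at h1
    have hc : algebraMap K[X] F p.content ≠ 0 := by
      show aeval x p.content ≠ 0
      intro h
      have := (transcendental_iff_injective.mp hx) (h.trans (map_zero _).symm)
      exact hp0 (content_eq_zero_iff.mp this)
    exact (mul_eq_zero.mp h1).resolve_left hc

end Fields

section Kaehler

variable {K F : Type*} [Field K] [Field F] [Algebra K F] [CharZero K]

/-- For `x` transcendental over `K` with `F / K(x)` finite, `D x` is a basis of `Ω[F/K]`. -/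
theorem h73_kaehler_basis (x : F) (hx : Transcendental K x) [FiniteDimensional K⟮x⟯ F] :
    ∃ b : Module.Basis Unit F Ω[F⁄K], b () = D K F x := by
  let algF : Algebra K[X] F := (aeval x : K[X] →ₐ[K] F).toRingHom.toAlgebra
  have towF : IsScalarTower K K[X] F :=
    IsScalarTower.of_algebraMap_eq (fun r => by
      show algebraMap K F r = aeval x (algebraMap K K[X] r)
      simp)
  let algM : Algebra K[X] K⟮x⟯ :=
    (aeval (AdjoinSimple.gen K x) : K[X] →ₐ[K] K⟮x⟯).toRingHom.toAlgebra
  have hmap : ∀ p : K[X], ((algebraMap K[X] K⟮x⟯ p : K⟮x⟯) : F) = aeval x p := by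
    intro p
    show ((aeval (AdjoinSimple.gen K x) p : K⟮x⟯) : F) = aeval x p
    have h := Polynomial.aeval_algebraMap_apply F (AdjoinSimple.gen K x) p
    rw [AdjoinSimple.algebraMap_gen] at h
    exact h.symm
  have towM : IsScalarTower K[X] K⟮x⟯ F :=
    IsScalarTower.of_algebraMap_eq (fun p => (hmap p).symm)
  have hinj : Function.Injective (algebraMap K[X] K⟮x⟯) := by
    intro p q hpq
    have h1 : aeval x p = aeval x q := by rw [← hmap, ← hmap, hpq]
    exact (transcendental_iff_injective.mp hx) h1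
  have : FaithfulSMul K[X] K⟮x⟯ := (faithfulSMul_iff_algebraMap_injective _ _).mpr hinj
  have : IsFractionRing K[X] K⟮x⟯ := by
    refine IsFractionRing.of_field K[X] K⟮x⟯ (fun z => ?_)
    obtain ⟨r, s, hrs⟩ := (mem_adjoin_simple_iff K (z : F)).mp z.2
    refine ⟨r, s, ?_⟩
    apply Subtype.ext
    rw [hrs]
    push_cast
    rw [hmap, hmap]
  have : Algebra.FormallyEtale K[X] K⟮x⟯ :=
    Algebra.FormallyEtale.of_isLocalization (nonZeroDivisors K[X])
  have : Algebra.FormallyEtale K⟮x⟯ F := Algebra.FormallyEtale.of_isSeparable _ _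
  have : Algebra.FormallyEtale K[X] F := Algebra.FormallyEtale.comp K[X] K⟮x⟯ F
  have hbc : IsBaseChange F (KaehlerDifferential.map K K K[X] F) :=
    isBaseChange_of_formallyEtale K K[X] F
  let b0 : Module.Basis Unit K[X] Ω[K[X]⁄K] :=
    (Module.Basis.singleton Unit K[X]).map (polynomialEquiv K).symm
  refine ⟨(b0.baseChange F).map hbc.equiv, ?_⟩
  have hb0 : b0 () = D K K[X] X := by
    simp [b0, polynomialEquiv_symm]
  rw [Module.Basis.map_apply, Module.Basis.baseChange_apply, IsBaseChange.equiv_tmul, one_smul,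
    hb0, KaehlerDifferential.map_D]
  congr 1
  show aeval x (X : K[X]) = x
  simp

end Kaehler

section Trdeg

variable {K F : Type*} [Field K] [Field F] [Algebra K F]

open scoped IntermediateField.algebraAdjoinAdjoin in
/-- In a function field of one variable, `F` is finite over `K(x)` for every transcendental `x`. -/
theorem h73_finite_of_transcendental (hF : h73_IsFF K F)
    {x : F} (hx : Transcendental K x) : FiniteDimensional K⟮x⟯ F := by
  obtain ⟨t, ht⟩ := hF
  have h1 : Algebra.IsAlgebraic (Algebra.adjoin K ({t} : Set F)) F :=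
    (IsFractionRing.comap_isAlgebraic_iff (A := Algebra.adjoin K ({t} : Set F))
      (K := K⟮t⟯) (C := F)).mpr inferInstance
  have h2 : Algebra.trdeg K F ≤ 1 :=
    (Algebra.IsAlgebraic.trdeg_le_cardinalMk K ({t} : Set F)).trans (by simp)
  have h3 : IsTranscendenceBasis K (fun _ : PUnit => x) :=
    AlgebraicIndependent.isTranscendenceBasis_of_trdeg_le_of_finite
      (algebraicIndependent_unique_type_iff.mpr hx) (by simpa using h2)
  have h4 : Algebra.IsAlgebraic K⟮x⟯ F := by
    have h := h3.isAlgebraic_field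
    rwa [Set.range_const] at h
  have e1 : Algebra.FiniteType K (Algebra.adjoin K ({t} : Set F)) :=
    .adjoin_of_finite (Set.finite_singleton t)
  have e2 : Algebra.EssFiniteType (Algebra.adjoin K ({t} : Set F)) K⟮t⟯ :=
    .of_isLocalization _ (nonZeroDivisors _)
  have e3 : Algebra.EssFiniteType K K⟮t⟯ := .comp _ (Algebra.adjoin K ({t} : Set F)) _
  have e4 : Algebra.EssFiniteType K F := .comp K K⟮t⟯ F
  have e5 : Algebra.EssFiniteType K⟮x⟯ F := .of_comp K K⟮x⟯ F
  exact Algebra.finite_of_essFiniteType_of_isAlgebraic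

end Trdeg

section PlaceBasics

variable {K F : Type*} [Field K] [Field F] [Algebra K F] (v : Place K F)

theorem h73_ord_algebraMap (a : K) : v.ord (algebraMap K F a) = 0 := by
  rcases eq_or_ne a 0 with rfl | ha
  · simp
  · have hu : IsUnit (algebraMap K v.toValuationSubring a) := (isUnit_iff_ne_zero.mpr ha).map _
    have h := v.ord_coe_unit hu.unit
    rwa [IsUnit.unit_spec, v.coe_algebraMap] at h

theorem h73_ord_nonneg_of_mem {f : F} (hf : f ∈ v.toValuationSubring) : 0 ≤ v.ord f := by
  rcases eq_or_ne f 0 with rfl | hf0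
  · simp
  · have h1 : v.adicValuation f ≤ 1 := by
      have h := v.adicValuation_coe ⟨f, hf⟩
      rw [show ((⟨f, hf⟩ : v.toValuationSubring) : F) = f from rfl] at h
      rw [h]
      exact IsDedekindDomain.HeightOneSpectrum.intValuation_le_one _ _
    have h2 := (WithZero.log_le_log (v.adicValuation_ne_zero hf0) one_ne_zero).mpr h1
    rw [WithZero.log_one] at h2
    unfold Place.ord
    omega

theorem h73_mem_of_ord_nonneg {f : F} (hf : 0 ≤ v.ord f) : f ∈ v.toValuationSubring := by
  rcases eq_or_ne f 0 with rfl | hf0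
  · exact zero_mem _
  · obtain ⟨ϖ, hϖ⟩ := IsDiscreteValuationRing.exists_irreducible v.toValuationSubring
    obtain ⟨u, hu⟩ := v.exists_unit_mul_zpow hf0 hϖ
    rw [hu]
    obtain ⟨n, hn⟩ := Int.eq_ofNat_of_zero_le hf
    rw [hn, zpow_natCast]
    exact mul_mem (u : v.toValuationSubring).2 (pow_mem ϖ.2 n)

theorem h73_ord_pos_iff {f : F} (hf : f ∈ v.toValuationSubring) :
    0 < v.ord f ↔ f ≠ 0 ∧ ¬ IsUnit (⟨f, hf⟩ : v.toValuationSubring) := by
  constructor
  · intro h
    refine ⟨?_, ?_⟩
    · rintro rfl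
      simp at h
    · intro hu
      have h1 := v.ord_coe_unit hu.unit
      rw [IsUnit.unit_spec] at h1
      change v.ord f = 0 at h1
      omega
  · rintro ⟨hf0, hnu⟩
    obtain ⟨ϖ, hϖ⟩ := IsDiscreteValuationRing.exists_irreducible v.toValuationSubring
    obtain ⟨u, hu⟩ := v.exists_unit_mul_zpow hf0 hϖ
    have h0 := h73_ord_nonneg_of_mem v hf
    rcases h0.lt_or_eq with h | h
    · exact h
    · exfalso
      apply hnu
      rw [← h, zpow_zero, mul_one] at hu
      have : (⟨f, hf⟩ : v.toValuationSubring) = (u : v.toValuationSubring) := Subtype.ext hu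
      rw [this]
      exact u.isUnit

theorem h73_mem_maximalIdeal_iff {f : F} (hf : f ∈ v.toValuationSubring) :
    (⟨f, hf⟩ : v.toValuationSubring) ∈ IsLocalRing.maximalIdeal v.toValuationSubring ↔
      f = 0 ∨ 0 < v.ord f := by
  rw [IsLocalRing.mem_maximalIdeal, mem_nonunits_iff, h73_ord_pos_iff v hf]
  constructor
  · intro h
    by_cases h0 : f = 0
    · exact Or.inl h0
    · exact Or.inr ⟨h0, h⟩
  · rintro (rfl | ⟨_, h⟩)
    · intro hu
      have : (⟨0, hf⟩ : v.toValuationSubring) = 0 := rfl
      rw [this] at hu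
      exact not_isUnit_zero hu
    · exact h

theorem h73_exists_irreducible_of_ord_eq_one {π : F} (hπ : v.ord π = 1) :
    ∃ ϖ : v.toValuationSubring, (ϖ : F) = π ∧ Irreducible ϖ := by
  have hmem : π ∈ v.toValuationSubring := h73_mem_of_ord_nonneg v (by omega)
  have h0 : π ≠ 0 := by
    rintro rfl
    simp at hπ
  obtain ⟨ϖ, hϖ⟩ := IsDiscreteValuationRing.exists_irreducible v.toValuationSubring
  obtain ⟨u, hu⟩ := v.exists_unit_mul_zpow h0 hϖ
  rw [hπ, zpow_one] at hu
  refine ⟨⟨π, hmem⟩, rfl, ?_⟩
  have : (⟨π, hmem⟩ : v.toValuationSubring) = (u : v.toValuationSubring) * ϖ := Subtype.ext hu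
  rw [this]
  exact (irreducible_units_mul u).mpr hϖ

theorem h73_exists_ord_eq_one : ∃ π : F, v.ord π = 1 := by
  obtain ⟨ϖ, hϖ⟩ := IsDiscreteValuationRing.exists_irreducible v.toValuationSubring
  exact ⟨ϖ, v.ord_coe_irreducible hϖ⟩

end PlaceBasics

section Residue

variable {K F : Type*} [Field K] [Field F] [Algebra K F] [IsAlgClosed K]

theorem h73_transcendental_of_ord_ne_zero (v : Place K F) {f : F} (hf : v.ord f ≠ 0) :
    Transcendental K f := by
  intro halg
  obtain ⟨a, rfl⟩ := h73_mem_range_of_isAlgebraic halg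
  exact hf (h73_ord_algebraMap v a)

/-- The residue field of a place of a function field over an algebraically closed field is `K`:
every element of the valuation ring is congruent to a constant. -/
theorem h73_exists_sub_mem_maximalIdeal (hF : h73_IsFF K F) (v : Place K F)
    (g : v.toValuationSubring) :
    ∃ a : K, g - algebraMap K v.toValuationSubring a ∈
      IsLocalRing.maximalIdeal v.toValuationSubring := by
  obtain ⟨ϖ, hϖ⟩ := IsDiscreteValuationRing.exists_irreducible v.toValuationSubring
  have hord : v.ord (ϖ : F) = 1 := v.ord_coe_irreducible hϖ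
  have htr : Transcendental K (ϖ : F) := h73_transcendental_of_ord_ne_zero v (by omega)
  have hfin : FiniteDimensional K⟮(ϖ : F)⟯ F := h73_finite_of_transcendental hF htr
  have halg : IsAlgebraic K⟮(ϖ : F)⟯ (g : F) := Algebra.IsAlgebraic.isAlgebraic _
  obtain ⟨P, hP0, hP⟩ := h73_exists_poly_rel htr halg
  -- the ring hom `K[X] → O_v`
  let φ : K[X] →ₐ[K] v.toValuationSubring := aeval ϖ
  let ι : v.toValuationSubring →ₐ[K] F := IsScalarTower.toAlgHom K v.toValuationSubring F
  have hι : ∀ y : v.toValuationSubring, ι y = (y : F) := fun _ => rfl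
  have hcomp : ((aeval (ϖ : F) : K[X] →ₐ[K] F) : K[X] →+* F)
      = (ι : v.toValuationSubring →+* F).comp (φ : K[X] →+* v.toValuationSubring) := by
    apply Polynomial.ringHom_ext
    · intro a
      simp [φ, ι]
    · simp [φ, ι]
  have h1 : eval₂ (φ : K[X] →+* v.toValuationSubring) g P = 0 := by
    have h2 : (ι : v.toValuationSubring →+* F) (eval₂ (φ : K[X] →+* v.toValuationSubring) g P)
        = 0 := by
      rw [Polynomial.hom_eval₂, ← hcomp]
      exact hP
    have h3 : ((eval₂ (φ : K[X] →+* v.toValuationSubring) g P : v.toValuationSubring) : F)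
        = 0 := h2
    exact Subtype.ext h3
  -- apply the residue map
  let res := IsLocalRing.residue v.toValuationSubring
  have h4 : eval₂ (res.comp (φ : K[X] →+* v.toValuationSubring)) (res g) P = 0 := by
    rw [← Polynomial.hom_eval₂, h1, map_zero]
  have h5 : res.comp (φ : K[X] →+* v.toValuationSubring)
      = (algebraMap K v.ResidueField).comp (evalRingHom (0 : K)) := by
    apply Polynomial.ringHom_ext
    · intro a
      simp only [RingHom.comp_apply, coe_evalRingHom, eval_C]
      show res (φ (C a)) = _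
      rw [show φ (C a) = algebraMap K v.toValuationSubring a from aeval_C _ _]
      rfl
    · simp only [RingHom.comp_apply, coe_evalRingHom, eval_X, map_zero]
      show res (φ X) = 0
      rw [show φ X = ϖ from aeval_X _]
      rw [IsLocalRing.residue_eq_zero_iff]
      exact hϖ.not_isUnit
  rw [h5, ← Polynomial.eval₂_map] at h4
  have h6 : IsAlgebraic K (res g) := ⟨P.map (evalRingHom (0 : K)), hP0, h4⟩
  obtain ⟨a, ha⟩ := h73_mem_range_of_isAlgebraic h6
  refine ⟨a, ?_⟩
  rw [← IsLocalRing.residue_eq_zero_iff, map_sub, sub_eq_zero]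
  exact ha.symm

theorem h73_deg_eq_one (hF : h73_IsFF K F) (v : Place K F) : v.deg = 1 := by
  unfold Place.deg
  refine finrank_eq_one (1 : v.ResidueField) one_ne_zero (fun w => ?_)
  obtain ⟨g, rfl⟩ := IsLocalRing.residue_surjective w
  obtain ⟨a, ha⟩ := h73_exists_sub_mem_maximalIdeal hF v g
  refine ⟨a, ?_⟩
  rw [← IsLocalRing.residue_eq_zero_iff, map_sub, sub_eq_zero] at ha
  rw [Algebra.smul_def, mul_one]
  exact ha.symm

/-- Value of an element of the valuation ring at a place. -/
theorem h73_exists_value (hF : h73_IsFF K F) (v : Place K F) {f : F}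
    (hf : f ∈ v.toValuationSubring) :
    ∃ a : K, f = algebraMap K F a ∨ 0 < v.ord (f - algebraMap K F a) := by
  obtain ⟨a, ha⟩ := h73_exists_sub_mem_maximalIdeal hF v ⟨f, hf⟩
  refine ⟨a, ?_⟩
  have hmem : f - algebraMap K F a ∈ v.toValuationSubring :=
    sub_mem hf (v.algebraMap_mem' a)
  have h := (h73_mem_maximalIdeal_iff v hmem).mp ha
  rcases h with h | h
  · exact Or.inl (sub_eq_zero.mp h)
  · exact Or.inr h

end Residue

section Decomp

variable {K F : Type*} [Field K] [Field F] [Algebra K F] [IsAlgClosed K] [CharZero K]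

/-- Every element of the valuation ring `O_v` is a quotient `b / d` of elements of a finite
`K[π]`-module contained in `O_v`, with `d` a unit of `O_v`. -/
theorem h73_integral_decomp (hF : h73_IsFF K F) (v : Place K F) {π : F} (hπ : v.ord π = 1) :
    ∃ (n : ℕ) (s : Fin n → F), (∀ i, s i ∈ v.toValuationSubring) ∧
      ∀ g ∈ v.toValuationSubring, ∃ (cb cd : Fin n → K[X]),
        (∑ i, aeval π (cd i) * s i)⁻¹ ∈ v.toValuationSubring ∧
        (∑ i, aeval π (cd i) * s i) ≠ 0 ∧
        g * (∑ i, aeval π (cd i) * s i) = ∑ i, aeval π (cb i) * s i := by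
  have htr : Transcendental K π := h73_transcendental_of_ord_ne_zero v (by omega)
  have hfin : FiniteDimensional K⟮π⟯ F := h73_finite_of_transcendental hF htr
  obtain ⟨ϖ, hϖπ, hϖ⟩ := h73_exists_irreducible_of_ord_eq_one v hπ
  let algF : Algebra K[X] F := (aeval π : K[X] →ₐ[K] F).toRingHom.toAlgebra
  have halgF : ∀ p : K[X], algebraMap K[X] F p = aeval π p := fun _ => rfl
  let algM : Algebra K[X] K⟮π⟯ :=
    (aeval (AdjoinSimple.gen K π) : K[X] →ₐ[K] K⟮π⟯).toRingHom.toAlgebra
  have hmap : ∀ p : K[X], ((algebraMap K[X] K⟮π⟯ p : K⟮π⟯) : F) = aeval π p := by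
    intro p
    show ((aeval (AdjoinSimple.gen K π) p : K⟮π⟯) : F) = aeval π p
    have h := Polynomial.aeval_algebraMap_apply F (AdjoinSimple.gen K π) p
    rw [AdjoinSimple.algebraMap_gen] at h
    exact h.symm
  have towM : IsScalarTower K[X] K⟮π⟯ F :=
    IsScalarTower.of_algebraMap_eq (fun p => (hmap p).symm)
  have fr := h73_isFractionRing_aux π htr
  -- `K[X] → O_v`
  let algO : Algebra K[X] v.toValuationSubring :=
    (aeval ϖ : K[X] →ₐ[K] v.toValuationSubring).toRingHom.toAlgebra
  have hO : ∀ p : K[X], ((algebraMap K[X] v.toValuationSubring p : v.toValuationSubring) : F)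
      = aeval π p := by
    intro p
    show ((aeval ϖ p : v.toValuationSubring) : F) = aeval π p
    have h := Polynomial.aeval_algebraMap_apply F ϖ p
    rw [show algebraMap v.toValuationSubring F ϖ = π from hϖπ] at h
    exact h.symm
  have towO : IsScalarTower K[X] v.toValuationSubring F :=
    IsScalarTower.of_algebraMap_eq (fun p => (hO p).symm)
  have haevalO : ∀ p : K[X], aeval π p ∈ v.toValuationSubring := by
    intro p
    rw [← hO p]
    exact (algebraMap K[X] v.toValuationSubring p).2
  -- the integral closure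
  let B := integralClosure K[X] F
  have hBfin : Module.Finite K[X] B := IsIntegralClosure.finite K[X] K⟮π⟯ F B
  have hBded : IsDedekindDomain B := IsIntegralClosure.isDedekindDomain K[X] K⟮π⟯ F B
  have hBfr : IsFractionRing B F := integralClosure.isFractionRing_of_finite_extension K⟮π⟯ F
  have hBO : ∀ b : B, (b : F) ∈ v.toValuationSubring := by
    intro b
    have h1 : IsIntegral K[X] (b : F) := b.2
    have h2 : IsIntegral v.toValuationSubring (b : F) := h1.tower_top
    obtain ⟨y, hy⟩ := IsIntegrallyClosed.algebraMap_eq_of_integral h2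
    rw [← hy]
    exact y.2
  let incl : B →+* v.toValuationSubring :=
    (B.val : B →+* F).codRestrict v.toValuationSubring (fun b => hBO b)
  have hincl : ∀ b : B, ((incl b : v.toValuationSubring) : F) = (b : F) := fun _ => rfl
  let 𝔭 : Ideal B := (IsLocalRing.maximalIdeal v.toValuationSubring).comap incl
  have h𝔭 : 𝔭.IsPrime := Ideal.comap_isPrime _ _
  have hπB : π ∈ B := by
    have : π = algebraMap K[X] F X := by rw [halgF, aeval_X]
    rw [this]
    exact Subalgebra.algebraMap_mem B X
  have h𝔭ne : 𝔭 ≠ ⊥ := by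
    intro h
    have h1 : (⟨π, hπB⟩ : B) ∈ 𝔭 := by
      show incl ⟨π, hπB⟩ ∈ IsLocalRing.maximalIdeal v.toValuationSubring
      have : incl ⟨π, hπB⟩ = ϖ := Subtype.ext (by rw [hincl]; exact hϖπ.symm)
      rw [this]
      exact hϖ.not_isUnit
    rw [h, Ideal.mem_bot] at h1
    have h2 : π = 0 := congrArg Subtype.val h1
    rw [h2] at hπ
    simp at hπ
  let w : IsDedekindDomain.HeightOneSpectrum B := ⟨𝔭, h𝔭, h𝔭ne⟩
  -- units: elements of `B` outside `𝔭` are units of `O_v`
  have hunit : ∀ d : B, d ∉ 𝔭 → IsUnit (incl d) := by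
    intro d hd
    by_contra hnu
    exact hd hnu
  have hdinv : ∀ d : B, d ∉ 𝔭 → ((d : F))⁻¹ ∈ v.toValuationSubring ∧ (d : F) ≠ 0 := by
    intro d hd
    obtain ⟨u, hu⟩ := hunit d hd
    have h3 : ((u⁻¹ : (v.toValuationSubring)ˣ) : v.toValuationSubring) * incl d = 1 := by
      rw [← hu]; exact u.inv_mul
    have h4 : (((u⁻¹ : (v.toValuationSubring)ˣ) : v.toValuationSubring) : F) * (d : F) = 1 :=
      congrArg Subtype.val h3
    refine ⟨?_, ?_⟩
    · rw [← eq_inv_of_mul_eq_one_left h4]
      exact Subtype.property _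
    · intro h0
      rw [h0, mul_zero] at h4
      exact zero_ne_one h4
  have hval : ∀ g ∈ v.toValuationSubring, w.valuation F g ≤ 1 := by
    intro g hg
    by_contra hlt
    rw [not_le] at hlt
    have hg0 : g ≠ 0 := by
      rintro rfl
      simp at hlt
    have hinv : w.valuation F g⁻¹ < 1 := by
      rw [map_inv₀]
      exact inv_lt_one_of_one_lt₀ hlt
    obtain ⟨n, d, hnd⟩ := w.exists_primeCompl_mul_eq_of_integer g⁻¹ hinv.le
    have hn : n ∈ 𝔭 := by
      have h1 : w.valuation F (algebraMap B F n) < 1 := by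
        rw [← hnd, map_mul]
        calc w.valuation F g⁻¹ * w.valuation F (algebraMap B F d)
            ≤ w.valuation F g⁻¹ * 1 := by
              gcongr
              exact w.valuation_le_one _
          _ < 1 := by rw [mul_one]; exact hinv
      exact (w.valuation_lt_one_iff_mem n).mp h1
    have hn' : incl n ∈ IsLocalRing.maximalIdeal v.toValuationSubring := hn
    obtain ⟨hdi, hd0⟩ := hdinv d d.2
    have hginv : g⁻¹ = (n : F) * ((d : B) : F)⁻¹ := by
      have h5 : g⁻¹ * ((d : B) : F) = (n : F) := hnd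
      rw [← h5, mul_assoc, mul_inv_cancel₀ hd0, mul_one]
    have h6 : incl n * (⟨((d : B) : F)⁻¹, hdi⟩ : v.toValuationSubring)
        ∈ IsLocalRing.maximalIdeal v.toValuationSubring := Ideal.mul_mem_right _ _ hn'
    have h7 : IsUnit (incl n * (⟨((d : B) : F)⁻¹, hdi⟩ : v.toValuationSubring)) := by
      refine IsUnit.of_mul_eq_one ⟨g, hg⟩ (Subtype.ext ?_)
      show (n : F) * ((d : B) : F)⁻¹ * g = 1
      rw [← hginv]
      exact inv_mul_cancel₀ hg0
    exact (IsLocalRing.mem_maximalIdeal _).mp h6 h7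
  -- finite generation
  obtain ⟨n, s, hs⟩ := Module.Finite.exists_fin (R := K[X]) (M := B)
  have hcomb : ∀ b : B, ∃ c : Fin n → K[X], (b : F) = ∑ i, aeval π (c i) * (s i : F) := by
    intro b
    have hb : b ∈ Submodule.span K[X] (Set.range s) := hs ▸ Submodule.mem_top
    obtain ⟨c, hc⟩ := (Submodule.mem_span_range_iff_exists_fun K[X]).mp hb
    refine ⟨c, ?_⟩
    rw [← hc]
    simp [Algebra.smul_def, halgF]
  refine ⟨n, fun i => (s i : F), fun i => hBO (s i), ?_⟩
  intro g hg
  obtain ⟨b, d, hbd⟩ := w.exists_primeCompl_mul_eq_of_integer g (hval g hg)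
  obtain ⟨cb, hcb⟩ := hcomb b
  obtain ⟨cd, hcd⟩ := hcomb d
  obtain ⟨hdi, hd0⟩ := hdinv d d.2
  refine ⟨cb, cd, ?_, ?_, ?_⟩
  · rw [← hcd]
    exact hdi
  · rw [← hcd]
    exact hd0
  · rw [← hcd, ← hcb]
    exact hbd

end Decomp

section Deriv

variable {K F : Type*} [Field K] [Field F] [Algebra K F] [IsAlgClosed K] [CharZero K]

omit [IsAlgClosed K] in
theorem h73_exists_derivation (hF : h73_IsFF K F) {x : F} (hx : Transcendental K x) :
    ∃ δ : Derivation K F F, δ x = 1 ∧ D K F x ≠ 0 ∧ ∀ f : F, D K F f = δ f • D K F x := by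
  have hfin := h73_finite_of_transcendental hF hx
  obtain ⟨b, hb⟩ := h73_kaehler_basis x hx
  refine ⟨(b.coord ()).compDer (D K F), ?_, ?_, ?_⟩
  · show b.coord () (D K F x) = 1
    rw [← hb]
    simp
  · rw [← hb]
    exact b.ne_zero ()
  · intro f
    show D K F f = (b.coord () (D K F f)) • D K F x
    rw [← hb]
    have h := b.sum_repr (D K F f)
    simpa using h.symm

/-- Boundedness: `d/dπ` preserves the valuation ring of a place with uniformizer `π`. -/
theorem h73_deriv_mem (hF : h73_IsFF K F) (v : Place K F) {π : F} (hπ : v.ord π = 1)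
    (δ : Derivation K F F) (hδ : δ π = 1) {g : F} (hg : g ∈ v.toValuationSubring) :
    δ g ∈ v.toValuationSubring := by
  obtain ⟨n, s, hs, hdec⟩ := h73_integral_decomp hF v hπ
  obtain ⟨ϖ, hϖπ, hϖ⟩ := h73_exists_irreducible_of_ord_eq_one v hπ
  have hπmem : π ∈ v.toValuationSubring := hϖπ ▸ ϖ.2
  have hπ0 : π ≠ 0 := by
    rintro rfl
    simp at hπ
  have haev : ∀ p : K[X], aeval π p ∈ v.toValuationSubring := by
    intro p
    have h := Polynomial.aeval_algebraMap_apply F ϖ p
    rw [show algebraMap v.toValuationSubring F ϖ = π from hϖπ] at h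
    rw [h]
    exact Subtype.property _
  have hexp : ∀ f : F, ∃ m : ℕ, π ^ m * f ∈ v.toValuationSubring := by
    intro f
    rcases eq_or_ne f 0 with rfl | hf0
    · exact ⟨0, by simp⟩
    · refine ⟨(-(v.ord f)).toNat, h73_mem_of_ord_nonneg v ?_⟩
      rw [v.ord_mul (pow_ne_zero _ hπ0) hf0, ← zpow_natCast, v.ord_zpow, hπ]
      have := Int.self_le_toNat (-(v.ord f))
      omega
  choose m hm using fun i => hexp (δ (s i))
  let M := ∑ i, m i
  have hM : ∀ i, π ^ M * δ (s i) ∈ v.toValuationSubring := by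
    intro i
    have hle : m i ≤ M := Finset.single_le_sum (fun _ _ => Nat.zero_le _) (Finset.mem_univ i)
    obtain ⟨k, hk⟩ := Nat.exists_eq_add_of_le hle
    rw [hk, pow_add, mul_comm (π ^ m i), mul_assoc]
    exact mul_mem (pow_mem hπmem k) (hm i)
  have hcomb : ∀ c : Fin n → K[X], (∑ i, aeval π (c i) * s i) ∈ v.toValuationSubring ∧
      π ^ M * δ (∑ i, aeval π (c i) * s i) ∈ v.toValuationSubring := by
    intro c
    refine ⟨sum_mem (fun i _ => mul_mem (haev _) (hs i)), ?_⟩
    rw [map_sum, Finset.mul_sum]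
    refine sum_mem (fun i _ => ?_)
    rw [Derivation.leibniz, Derivation.map_aeval, hδ]
    simp only [smul_eq_mul, mul_one]
    have h1 : π ^ M * (aeval π (c i) * δ (s i) + s i * aeval π (derivative (c i)))
        = aeval π (c i) * (π ^ M * δ (s i)) + s i * aeval π (derivative (c i)) * π ^ M := by
      ring
    rw [h1]
    exact add_mem (mul_mem (haev _) (hM i))
      (mul_mem (mul_mem (hs i) (haev _)) (pow_mem hπmem M))
  have hall : ∀ g ∈ v.toValuationSubring, π ^ M * δ g ∈ v.toValuationSubring := by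
    intro g hg
    obtain ⟨cb, cd, hdi, hd0, hgd⟩ := hdec g hg
    have h1 := congrArg δ hgd
    rw [Derivation.leibniz] at h1
    simp only [smul_eq_mul] at h1
    have h2 : π ^ M * δ g = (π ^ M * δ (∑ i, aeval π (cb i) * s i)
        - g * (π ^ M * δ (∑ i, aeval π (cd i) * s i))) * (∑ i, aeval π (cd i) * s i)⁻¹ := by
      rw [← h1]
      field_simp
      ring
    rw [h2]
    exact mul_mem (sub_mem (hcomb cb).2 (mul_mem hg (hcomb cd).2)) hdi
  have hstep : ∀ j : ℕ, (∀ g ∈ v.toValuationSubring, π ^ (j + 1) * δ g ∈ v.toValuationSubring) →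
      ∀ g ∈ v.toValuationSubring, π ^ j * δ g ∈ v.toValuationSubring := by
    intro j hj g hg
    obtain ⟨a, ha⟩ := h73_exists_sub_mem_maximalIdeal hF v ⟨g, hg⟩
    rw [hϖ.maximalIdeal_eq, Ideal.mem_span_singleton'] at ha
    obtain ⟨g1, hg1⟩ := ha
    have hg1' : (g1 : F) * π = g - algebraMap K F a := by
      have h := congrArg Subtype.val hg1
      rw [← hϖπ]
      exact h
    have hgeq : g = (g1 : F) * π + algebraMap K F a := by
      rw [hg1']
      ring
    have hδg : δ g = (g1 : F) + π * δ (g1 : F) := by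
      rw [hgeq, map_add, Derivation.leibniz, hδ, Derivation.map_algebraMap]
      simp only [smul_eq_mul, mul_one, add_zero]
    rw [hδg, mul_add]
    refine add_mem (mul_mem (pow_mem hπmem j) g1.2) ?_
    have h := hj g1 g1.2
    rw [pow_succ, mul_assoc] at h
    exact h
  have hfinal : ∀ j : ℕ, (∀ g ∈ v.toValuationSubring, π ^ j * δ g ∈ v.toValuationSubring) →
      ∀ g ∈ v.toValuationSubring, δ g ∈ v.toValuationSubring := by
    intro j
    induction j with
    | zero =>
      intro h g hg
      simpa using h g hg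
    | succ j ih =>
      intro h
      exact ih (hstep j h)
  exact hfinal M hall g hg

end Deriv


section OrdDiff

variable {K F : Type*} [Field K] [Field F] [Algebra K F]

/-- The prelude's (private) uniformizer: `dCoord = d π` for some `π` of order one. -/
theorem h73_exists_dCoord (v : Place K F) : ∃ π : F, v.ord π = 1 ∧ v.dCoord = D K F π :=
  ⟨_, v.ord_coe_irreducible
    (IsDiscreteValuationRing.exists_irreducible v.toValuationSubring).choose_spec, rfl⟩

variable [IsAlgClosed K] [CharZero K]

omit [IsAlgClosed K] in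
theorem h73_nontrivial_kaehler (hF : h73_IsFF K F) {x : F} (hx : Transcendental K x) :
    Nontrivial Ω[F⁄K] := by
  obtain ⟨δ, -, h0, -⟩ := h73_exists_derivation hF hx
  exact ⟨⟨_, _, h0⟩⟩

theorem h73_nontrivial_kaehler_of_place (hF : h73_IsFF K F) (v : Place K F) :
    Nontrivial Ω[F⁄K] := by
  obtain ⟨π, hπ⟩ := h73_exists_ord_eq_one v
  exact h73_nontrivial_kaehler hF (h73_transcendental_of_ord_ne_zero v (f := π) (by omega))

omit [IsAlgClosed K] in
theorem h73_finrank_kaehler (hF : h73_IsFF K F) {x : F} (hx : Transcendental K x) :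
    Module.finrank F Ω[F⁄K] = 1 := by
  have hfin := h73_finite_of_transcendental hF hx
  obtain ⟨b, -⟩ := h73_kaehler_basis x hx
  rw [Module.finrank_eq_card_basis b]
  simp

theorem h73_dCoordGenerates (hF : h73_IsFF K F) (v : Place K F) : v.DCoordGenerates := by
  obtain ⟨π, hπ, hd⟩ := h73_exists_dCoord v
  have htr := h73_transcendental_of_ord_ne_zero v (f := π) (by omega)
  have hfin := h73_finite_of_transcendental hF htr
  obtain ⟨b, hb⟩ := h73_kaehler_basis π htr
  refine ⟨?_⟩
  rw [hd, ← hb]
  have h := b.span_eq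
  rwa [Set.range_unique] at h

/-- The local derivation at a place: `differentialCoeff (d f) = δ f`, and `δ` preserves the
valuation ring. -/
theorem h73_exists_local_derivation (hF : h73_IsFF K F) (v : Place K F) :
    ∃ (π : F) (δ : Derivation K F F), v.ord π = 1 ∧ δ π = 1 ∧
      (∀ f : F, v.differentialCoeff (D K F f) = δ f) ∧
      (∀ g ∈ v.toValuationSubring, δ g ∈ v.toValuationSubring) := by
  obtain ⟨π, hπ, hd⟩ := h73_exists_dCoord v
  have htr := h73_transcendental_of_ord_ne_zero v (f := π) (by omega)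
  obtain ⟨δ, hδ1, hδ0, hδ⟩ := h73_exists_derivation hF htr
  have := h73_dCoordGenerates hF v
  have := h73_nontrivial_kaehler hF htr
  refine ⟨π, δ, hπ, hδ1, fun f => ?_, fun g hg => h73_deriv_mem hF v hπ δ hδ1 hg⟩
  exact v.differentialCoeff_unique (by rw [hd]; exact hδ f)

/-- Order of `d f` at a place where `f - a` vanishes. -/
theorem h73_ordDifferential_D_pos (hF : h73_IsFF K F) (v : Place K F) {f : F} {a : K}
    (h : 0 < v.ord (f - algebraMap K F a)) :
    v.ordDifferential (D K F f) = v.ord (f - algebraMap K F a) - 1 := by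
  obtain ⟨π, δ, hπ, hδ1, hcoef, hδmem⟩ := h73_exists_local_derivation hF v
  obtain ⟨ϖ, hϖπ, hϖ⟩ := h73_exists_irreducible_of_ord_eq_one v hπ
  have hπ0 : π ≠ 0 := by
    rintro rfl
    simp at hπ
  have hh0 : f - algebraMap K F a ≠ 0 := by
    intro h0
    rw [h0] at h
    simp at h
  obtain ⟨u, hu⟩ := v.exists_unit_mul_zpow hh0 hϖ
  obtain ⟨k, hk⟩ : ∃ k : ℕ, v.ord (f - algebraMap K F a) = (k : ℤ) + 1 :=
    ⟨(v.ord (f - algebraMap K F a) - 1).toNat, by omega⟩
  rw [hk] at hu ⊢
  have hu' : f - algebraMap K F a = ((u : v.toValuationSubring) : F) * π ^ (k + 1) := by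
    rw [hu, hϖπ]
    norm_cast
  unfold Place.ordDifferential
  rw [hcoef]
  have hδf : δ f = π ^ k * (((k : F) + 1) * ((u : v.toValuationSubring) : F)
      + π * δ ((u : v.toValuationSubring) : F)) := by
    have hf : f = ((u : v.toValuationSubring) : F) * π ^ (k + 1) + algebraMap K F a := by
      rw [← hu']
      ring
    conv_lhs => rw [hf]
    rw [map_add, Derivation.map_algebraMap, add_zero, Derivation.leibniz,
      Derivation.leibniz_pow, hδ1]
    simp only [smul_eq_mul, nsmul_eq_mul, Nat.add_sub_cancel, mul_one]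
    push_cast
    ring
  rw [hδf]
  have hk0 : ((k : K) + 1) ≠ 0 := by exact_mod_cast Nat.succ_ne_zero k
  have hc : IsUnit (algebraMap K v.toValuationSubring ((k : K) + 1)) :=
    (isUnit_iff_ne_zero.mpr hk0).map _
  have hx : IsUnit (algebraMap K v.toValuationSubring ((k : K) + 1) * (u : v.toValuationSubring)
      + ϖ * ⟨δ ((u : v.toValuationSubring) : F), hδmem _ (u : v.toValuationSubring).2⟩) := by
    by_contra hnu
    have h1 : algebraMap K v.toValuationSubring ((k : K) + 1) * (u : v.toValuationSubring)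
      + ϖ * ⟨δ ((u : v.toValuationSubring) : F), hδmem _ (u : v.toValuationSubring).2⟩
        ∈ IsLocalRing.maximalIdeal v.toValuationSubring := hnu
    have h2 : ϖ * (⟨δ ((u : v.toValuationSubring) : F), hδmem _ (u : v.toValuationSubring).2⟩ :
        v.toValuationSubring) ∈ IsLocalRing.maximalIdeal v.toValuationSubring :=
      Ideal.mul_mem_right _ _ hϖ.not_isUnit
    have h3 : algebraMap K v.toValuationSubring ((k : K) + 1) * (u : v.toValuationSubring)
        ∈ IsLocalRing.maximalIdeal v.toValuationSubring := by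
      have h4 := Ideal.sub_mem _ h1 h2
      rwa [add_sub_cancel_right] at h4
    exact h3 (hc.mul u.isUnit)
  have hw : ((hx.unit : v.toValuationSubring) : F) = ((k : F) + 1) * ((u : v.toValuationSubring) : F)
      + π * δ ((u : v.toValuationSubring) : F) := by
    rw [IsUnit.unit_spec]
    push_cast
    rw [hϖπ]
  rw [← hw, v.ord_mul (pow_ne_zero _ hπ0) (by
    intro h0
    have : (hx.unit : v.toValuationSubring) = 0 := Subtype.ext h0
    exact hx.unit.ne_zero this), v.ord_coe_unit, add_zero, ← zpow_natCast, v.ord_zpow, hπ]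
  ring

theorem h73_differentialCoeff_ne_zero (hF : h73_IsFF K F) (v : Place K F) {ω : Ω[F⁄K]}
    (hω : ω ≠ 0) : v.differentialCoeff ω ≠ 0 := by
  have := h73_dCoordGenerates hF v
  intro h0
  apply hω
  rw [← v.differentialCoeff_smul_dCoord ω, h0, zero_smul]

theorem h73_ordDifferential_smul (hF : h73_IsFF K F) (v : Place K F) {c : F} (hc : c ≠ 0)
    {ω : Ω[F⁄K]} (hω : ω ≠ 0) :
    v.ordDifferential (c • ω) = v.ord c + v.ordDifferential ω := by
  have := h73_dCoordGenerates hF v
  have := h73_nontrivial_kaehler_of_place hF v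
  exact v.ordDifferential_smul hc (h73_differentialCoeff_ne_zero hF v hω)

omit [IsAlgClosed K] in
theorem h73_D_ne_zero (hF : h73_IsFF K F) {x : F} (hx : Transcendental K x) : D K F x ≠ 0 := by
  obtain ⟨δ, -, h0, -⟩ := h73_exists_derivation hF hx
  exact h0

/-- Order of `d f` at a pole of `f`. -/
theorem h73_ordDifferential_D_neg (hF : h73_IsFF K F) (v : Place K F) {f : F}
    (h : v.ord f < 0) : v.ordDifferential (D K F f) = v.ord f - 1 := by
  have hf0 : f ≠ 0 := by
    rintro rfl
    simp at h
  have h1 : 0 < v.ord (f⁻¹ - algebraMap K F 0) := by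
    rw [map_zero, sub_zero, v.ord_inv]
    omega
  have h2 := h73_ordDifferential_D_pos hF v h1
  rw [map_zero, sub_zero, v.ord_inv] at h2
  have htr : Transcendental K f⁻¹ := h73_transcendental_of_ord_ne_zero v (by
    rw [v.ord_inv]
    omega)
  have h3 : D K F f = (-(f ^ 2)) • D K F f⁻¹ := by
    have h4 := Derivation.leibniz_inv (D K F) f⁻¹
    rw [inv_inv] at h4
    rw [h4]
  rw [h3, h73_ordDifferential_smul hF v (neg_ne_zero.mpr (pow_ne_zero 2 hf0))
    (h73_D_ne_zero hF htr), h2]
  have h5 : v.ord (-(f ^ 2)) = 2 * v.ord f := by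
    have h6 : -(f ^ 2) = (algebraMap K F (-1)) * (f * f) := by
      rw [map_neg, map_one]
      ring
    rw [h6, v.ord_mul (by simp) (mul_ne_zero hf0 hf0), h73_ord_algebraMap, v.ord_mul hf0 hf0]
    ring
  rw [h5]
  ring

end OrdDiff

end Fermat.Agent.S24
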