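import Mathlib
import Fermat.Agent.S24.h59_Gen
import Fermat.Agent.S24.h71_NormCore

set_option autoImplicit false

namespace Fermat.Agent.S24

open ModularCurve IntermediateField

/-- The generators `j(q^d)`, `d ∣ N`, as elements of the function field, indexed by the divisors
of `N`. -/
noncomputable def h71_gen (N : ℕ) (d : N.divisors) : ↥(modularFunctionFieldBar N) :=
  haveI : NeZero (d : ℕ) := ⟨(Nat.pos_of_mem_divisors d.2).ne'⟩
  ⟨qExpand (AlgebraicClosure ℚ) d (coeffEmb (AlgebraicClosure ℚ) jq),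
    h59_gen_mem_bar (Nat.dvd_of_mem_divisors d.2)⟩

theorem h71_gen_mem_ringA (N : ℕ) (d : N.divisors) : h71_gen N d ∈ h59_ringA N := by
  have : NeZero (d : ℕ) := ⟨(Nat.pos_of_mem_divisors d.2).ne'⟩
  rw [h59_mem_ringA]
  exact Algebra.subset_adjoin (h59_mem_gens _ (Nat.dvd_of_mem_divisors d.2))

theorem h71_image_gen (N : ℕ) [NeZero N] :
    (modularFunctionFieldBar N).val '' Set.range (h71_gen N) = h59_gens (AlgebraicClosure ℚ) N := by
  ext x
  constructor
  · rintro ⟨_, ⟨d, rfl⟩, rfl⟩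
    have : NeZero (d : ℕ) := ⟨(Nat.pos_of_mem_divisors d.2).ne'⟩
    exact h59_mem_gens _ (Nat.dvd_of_mem_divisors d.2)
  · rintro ⟨d, hd, hdN, rfl⟩
    exact ⟨h71_gen N ⟨d, Nat.mem_divisors.mpr ⟨hdN, NeZero.ne N⟩⟩, ⟨_, rfl⟩, rfl⟩

/-- The function field is generated over `K` by the `h71_gen N d`. -/
theorem h71_adjoin_gen (N : ℕ) [NeZero N] :
    IntermediateField.adjoin (AlgebraicClosure ℚ) (Set.range (h71_gen N)) = ⊤ := by
  apply IntermediateField.map_injective (modularFunctionFieldBar N).val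
  rw [IntermediateField.adjoin_map, h71_image_gen, ← h59_modularFunctionFieldBar_eq,
    ← AlgHom.fieldRange_eq_map, IntermediateField.fieldRange_val]

/-- Two ring homs out of `F` which agree on `K` and at `t` agree on `K⟮t⟯`. -/
theorem h71_agree_on_adjoin {K F M : Type*} [Field K] [Field F] [Field M] [Algebra K F] (t : F)
    (σ τ : F →+* M) (hK : ∀ c : K, σ (algebraMap K F c) = τ (algebraMap K F c))
    (ht : σ t = τ t) (e : K⟮t⟯) :
    σ (algebraMap K⟮t⟯ F e) = τ (algebraMap K⟮t⟯ F e) := by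
  obtain ⟨y, hy⟩ := e
  show σ y = τ y
  induction hy using IntermediateField.adjoin_induction with
  | mem y hy => rw [Set.mem_singleton_iff.mp hy, ht]
  | algebraMap c => exact hK c
  | add y z _ _ hy hz => rw [map_add, map_add, hy, hz]
  | inv y _ hy => rw [map_inv₀, map_inv₀, hy]
  | mul y z _ _ hy hz => rw [map_mul, map_mul, hy, hz]

/-- DEGREE + NORM for the modular function field, conditional on a family of embeddings.
`σ x` (`x ∈ Q`) pairwise distinct ring homs from `F = modularFunctionFieldBar N` into a field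
`M`, agreeing on the constants and at `j`, such that for every `a ∈ A_N = K[j(q^d) : d ∣ N]` the
product of the conjugates `∏ x, σ x a` is (the image of) a polynomial in `j`. Then
`[F : K(j)] = #Q` and the norm of every `h ∈ F` is the product of its conjugates. -/
theorem h71_degree_core (N : ℕ) [NeZero N] {M : Type*} [Field M] {Q : Type*} [Fintype Q]
    [Nonempty Q] (σ : Q → ↥(modularFunctionFieldBar N) →+* M) (hinj : Function.Injective σ)
    (hK : ∀ (x y : Q) (c : AlgebraicClosure ℚ),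
      σ x (algebraMap (AlgebraicClosure ℚ) ↥(modularFunctionFieldBar N) c)
        = σ y (algebraMap (AlgebraicClosure ℚ) ↥(modularFunctionFieldBar N) c))
    (hj : ∀ x y : Q, σ x (h59_jbar N) = σ y (h59_jbar N))
    (hprod : ∀ a ∈ h59_ringA N, ∃ (P : Polynomial (AlgebraicClosure ℚ)) (x₀ : Q),
        σ x₀ (Polynomial.aeval (h59_jbar N) P) = ∏ x, σ x a) :
    FiniteDimensional (AlgebraicClosure ℚ)⟮h59_jbar N⟯ ↥(modularFunctionFieldBar N) ∧
    Module.finrank (AlgebraicClosure ℚ)⟮h59_jbar N⟯ ↥(modularFunctionFieldBar N)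
      = Fintype.card Q ∧
    ∀ (x₀ : Q) (h : ↥(modularFunctionFieldBar N)),
      σ x₀ (algebraMap (AlgebraicClosure ℚ)⟮h59_jbar N⟯ ↥(modularFunctionFieldBar N)
        (Algebra.norm (AlgebraicClosure ℚ)⟮h59_jbar N⟯ h)) = ∏ x, σ x h := by
  refine h71_norm_core_ringHom (K := AlgebraicClosure ℚ) (h59_ringA N) (h71_gen N)
    (h71_gen_mem_ringA N) (h71_adjoin_eq_top _ (h71_adjoin_gen N)) σ hinj
    (fun x y e => h71_agree_on_adjoin (h59_jbar N) (σ x) (σ y) (hK x y) (hj x y) e) ?_
  intro a ha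
  obtain ⟨P, x₀, hP⟩ := hprod a ha
  refine ⟨Polynomial.aeval (IntermediateField.AdjoinSimple.gen (AlgebraicClosure ℚ)
    (h59_jbar N)) P, x₀, ?_⟩
  rw [← hP, ← Polynomial.aeval_algebraMap_apply, IntermediateField.AdjoinSimple.algebraMap_gen]

end Fermat.Agent.S24
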