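import Mathlib
import Fermat.Agent.S24.h78_FibreGen
import Fermat.Agent.S24.h14_CuspOrd
import Fermat.Agent.S24.h71_Degree
import Fermat.Agent.S24.h47_OrbCount

/-!
# S24, modular layer: degree and the fibre over `j = ∞` from a cusp family

Conditional assembly: given a family `ψ g : F →+* LaurentSeries ℂ`, `g ∈ SL(2, ℤ)` (the
`q_N`-expansions of the `g⁻¹`-conjugates) with the properties (a), (b), (c), (d) of helper14's
adapter, distinct on cosets of `Γ₀(N)`, and with the product property PROD-INV, we get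
`[F : K(j)] = #X` and `#{places over j = ∞} = #(T-orbits on X)`.
-/

set_option autoImplicit false

open ModularCurve AlgebraicCurve IntermediateField CongruenceSubgroup
open scoped MatrixGroups

namespace Fermat.Agent.S24

/-- **Degree and cusp fibre from a cusp family.** -/
theorem h78_cusp_main (N : ℕ) [NeZero N] (ι : AlgebraicClosure ℚ →+* ℂ)
    [Fintype (SL(2, ℤ) ⧸ Gamma0 N)]
    (ψ : SL(2, ℤ) → (↥(modularFunctionFieldBar N) →+* LaurentSeries ℂ)) (ζ : ℂ)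
    (ha : ∀ g h : SL(2, ℤ), h ∈ Gamma0 N → ψ (g * h) = ψ g)
    (hb : ∀ (g : SL(2, ℤ)) (f : ↥(modularFunctionFieldBar N)) (k : ℤ),
      (ψ (ModularGroup.T * g) f).coeff k = ζ ^ k * (ψ g f).coeff k)
    (hζ0 : ζ ≠ 0) (hζ : ∀ k : ℤ, ζ ^ k = 1 → (N : ℤ) ∣ k)
    (hc : ∀ g : SL(2, ℤ), (ψ g (h59_jbar N)).order = -(N : ℤ))
    (hd : ∀ (g : SL(2, ℤ)) (c : AlgebraicClosure ℚ),
      ψ g (algebraMap (AlgebraicClosure ℚ) ↥(modularFunctionFieldBar N) c) = HahnSeries.C (ι c))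
    (hj : ∀ g g' : SL(2, ℤ), ψ g (h59_jbar N) = ψ g' (h59_jbar N))
    (hsep : ∀ g g' : SL(2, ℤ), ψ g = ψ g' →
      (g : SL(2, ℤ) ⧸ Gamma0 N) = (g' : SL(2, ℤ) ⧸ Gamma0 N))
    (hprod : ∀ a ∈ h59_ringA N, ∃ (P : Polynomial (AlgebraicClosure ℚ)) (g₀ : SL(2, ℤ)),
      ψ g₀ (Polynomial.aeval (h59_jbar N) P)
        = ∏ x : SL(2, ℤ) ⧸ Gamma0 N, ψ (Quotient.out x) a) :
    FiniteDimensional (AlgebraicClosure ℚ)⟮h59_jbar N⟯ ↥(modularFunctionFieldBar N) ∧
    Module.finrank (AlgebraicClosure ℚ)⟮h59_jbar N⟯ ↥(modularFunctionFieldBar N)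
      = Nat.card (SL(2, ℤ) ⧸ Gamma0 N) ∧
    Nat.card {v : Place (AlgebraicClosure ℚ) ↥(modularFunctionFieldBar N) //
        v.ord (h59_jbar N) < 0}
      = h47_orbCount (SL(2, ℤ) ⧸ Gamma0 N) ModularGroup.T := by
  have hXne : Nonempty (SL(2, ℤ) ⧸ Gamma0 N) := ⟨((1 : SL(2, ℤ)) : SL(2, ℤ) ⧸ Gamma0 N)⟩
  have hinj : Function.Injective
      (fun x : SL(2, ℤ) ⧸ Gamma0 N => ψ (Quotient.out x)) := by
    intro x y hxy
    have h := hsep _ _ hxy
    rwa [QuotientGroup.out_eq', QuotientGroup.out_eq'] at h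
  obtain ⟨hfd, hrank, -⟩ := h71_degree_core N (fun x : SL(2, ℤ) ⧸ Gamma0 N => ψ (Quotient.out x))
    hinj (fun x y c => by rw [hd, hd]) (fun x y => hj _ _) (by
      intro a haA
      obtain ⟨P, g₀, hP⟩ := hprod a haA
      refine ⟨P, (g₀ : SL(2, ℤ) ⧸ Gamma0 N), ?_⟩
      show ψ (Quotient.out (g₀ : SL(2, ℤ) ⧸ Gamma0 N)) _ = _
      rw [h14_psi_out ha g₀, hP])
  refine ⟨hfd, by rw [hrank, Nat.card_eq_fintype_card], ?_⟩
  exact h78_card_fibre_infty_of_family (K := AlgebraicClosure ℚ) (h59_jbar N)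
    (h59_jbar_transcendental N) ModularGroup.T
    (fun x : SL(2, ℤ) ⧸ Gamma0 N => ψ (Quotient.out x)) ι (fun x c => hd _ c)
    (fun x y => hj _ _) hinj hrank.symm N (Nat.pos_of_ne_zero (NeZero.ne N)) (fun x => hc _)
    (fun x f => h14_cuspW_T_smul (ζ := ζ) hζ0 ha hb x f)
    (fun x f hf => by
      have h1 := h14_cuspW_dvd (ζ := ζ) hζ ha hb x hf
      have h2 := h14_div_mul_minimalPeriod N x
      have h3 : ((N : ℕ) : ℤ) = ((N / Function.minimalPeriod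
          (fun y : SL(2, ℤ) ⧸ Gamma0 N => ModularGroup.T • y) x : ℕ) : ℤ) *
          (Function.minimalPeriod (fun y : SL(2, ℤ) ⧸ Gamma0 N => ModularGroup.T • y) x : ℤ) := by
        exact_mod_cast h2.symm
      rw [h3]
      exact mul_dvd_mul_right h1 _)

end Fermat.Agent.S24
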