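import Mathlib
import Fermat.Agent.S24.h78_Cusp
import Fermat.Agent.S24.h83_Cusp
import Fermat.Agent.S24.h14_ProdInv
import Fermat.Agent.S24.h54_Fibres

/-!
# S24, modular layer: the final exports (MOD contract)

For `K = AlgebraicClosure ℚ`, `F = modularFunctionFieldBar N`, `j = h59_jbar N`,
`X = SL(2, ℤ) ⧸ Γ₀(N)`:

* `h78_finiteDimensional`, `h78_finrank` : `[F : K(j)] = #X`;
* `h78_card_fibre` : `#{places over j = a} = #X` for `a ≠ 0, 1728`;
* `h78_card_fibre_1728`, `h78_card_fibre_zero` : the fibres over `1728`, `0` are counted by the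
  orbits of `S`, `S * T` on `X`;
* `h78_card_poles` : the fibre over `∞` is counted by the orbits of `T` on `X`.
-/

set_option autoImplicit false

open ModularCurve AlgebraicCurve IntermediateField CongruenceSubgroup UpperHalfPlane
open scoped MatrixGroups

namespace Fermat.Agent.S24

/-- PROD-INV for helper83's cusp family: the product of the cusp expansions of the conjugates of
`a ∈ A_N` is the cusp expansion of a polynomial in `j`. -/
theorem h78_cusp_prod (N : ℕ) [NeZero N] (ι : AlgebraicClosure ℚ →+* ℂ)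
    [Fintype (SL(2, ℤ) ⧸ Gamma0 N)] (a : ↥(modularFunctionFieldBar N)) (ha : a ∈ h59_ringA N) :
    ∃ (P : Polynomial (AlgebraicClosure ℚ)) (g₀ : SL(2, ℤ)),
      h83_psi N ι g₀ (Polynomial.aeval (h59_jbar N) P)
        = ∏ x : SL(2, ℤ) ⧸ Gamma0 N, h83_psi N ι (Quotient.out x) a := by
  set xa : h59_ringA N := ⟨a, ha⟩ with hxa
  obtain ⟨P, hP1, hP2⟩ := h14_prod_inv_fun ι N (φ := h83_ev N ι xa)
    (fun γ hγ τ => h83_ev_smul N ι xa hγ τ)
    (fun g => ⟨h83_psiK N ι g⁻¹ (xa : ↥(modularFunctionFieldBar N)), by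
      have h := h83_psiK_spec N ι g⁻¹ xa
      simpa only [inv_inv] using h⟩)
  refine ⟨P, 1, ?_⟩
  have hc₀ : h77_IsQExp (N : ℝ)
      (qExpand ℂ N (coeffMap ι (Polynomial.aeval (coeffEmb (AlgebraicClosure ℚ) jq) P)))
      (fun τ => ∏ x : SL(2, ℤ) ⧸ Gamma0 N, h83_ev N ι xa ((Quotient.out x)⁻¹ • τ)) := by
    have h := hP2.qExpand_width N
    rwa [mul_one] at h
  have hprod := h14_prod_expansion_eq (N := N) (φ := h83_ev N ι xa)
    (c := fun x : SL(2, ℤ) ⧸ Gamma0 N => h83_psi N ι (Quotient.out x) a)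
    (fun x => h83_psi_spec N ι (Quotient.out x) xa) hc₀ (fun τ => rfl)
  rw [hprod, h83_psi_apply, h83_psiK_one, coeffMap_qExpand]
  congr 2
  have hcoe : ((Polynomial.aeval (h59_jbar N) P : ↥(modularFunctionFieldBar N)) :
      LaurentSeries (AlgebraicClosure ℚ))
      = Polynomial.aeval (coeffEmb (AlgebraicClosure ℚ) jq) P := by
    have h := Polynomial.aeval_algHom_apply (modularFunctionFieldBar N).val (h59_jbar N) P
    rw [← h59_coe_jbar N]
    exact h.symm
  rw [hcoe]

/-- The three cusp-side statements at once. -/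
theorem h78_cusp_all (N : ℕ) [NeZero N] :
    FiniteDimensional (AlgebraicClosure ℚ)⟮h59_jbar N⟯ ↥(modularFunctionFieldBar N) ∧
    Module.finrank (AlgebraicClosure ℚ)⟮h59_jbar N⟯ ↥(modularFunctionFieldBar N)
      = Nat.card (SL(2, ℤ) ⧸ Gamma0 N) ∧
    Nat.card {v : Place (AlgebraicClosure ℚ) ↥(modularFunctionFieldBar N) //
        v.ord (h59_jbar N) < 0}
      = h47_orbCount (SL(2, ℤ) ⧸ Gamma0 N) ModularGroup.T := by
  have : Fintype (SL(2, ℤ) ⧸ Gamma0 N) := Fintype.ofFinite _
  exact h78_cusp_main N h78_iota (h83_psi N h78_iota) (h83_zeta N)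
    (h83_psi_mul_right N h78_iota) (h83_psi_T_mul_coeff N h78_iota) (h83_zeta_ne_zero N)
    (h83_zeta_zpow_eq_one N) (h83_psi_jbar_order N h78_iota) (h83_psi_const N h78_iota)
    (fun g g' => by rw [h83_psi_jbar, h83_psi_jbar])
    (fun g g' h => h83_coset_eq_of_psi_eq N h78_iota h)
    (fun a ha => h78_cusp_prod N h78_iota a ha)

/-- **MOD contract 1.** `F` is finite over `K(j)`. -/
theorem h78_finiteDimensional (N : ℕ) [NeZero N] :
    FiniteDimensional (AlgebraicClosure ℚ)⟮h59_jbar N⟯ ↥(modularFunctionFieldBar N) :=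
  (h78_cusp_all N).1

/-- **MOD contract 2.** `[F : K(j)] = [SL₂(ℤ) : Γ₀(N)]`. -/
theorem h78_finrank (N : ℕ) [NeZero N] :
    Module.finrank (AlgebraicClosure ℚ)⟮h59_jbar N⟯ ↥(modularFunctionFieldBar N)
      = Nat.card (SL(2, ℤ) ⧸ Gamma0 N) :=
  (h78_cusp_all N).2.1

/-- **MOD contract 6.** The places over `j = ∞` are counted by the `T`-orbits (the cusps). -/
theorem h78_card_poles (N : ℕ) [NeZero N] :
    Nat.card {v : Place (AlgebraicClosure ℚ) ↥(modularFunctionFieldBar N) //
        v.ord (h59_jbar N) < 0}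
      = h47_orbCount (SL(2, ℤ) ⧸ Gamma0 N) ModularGroup.T :=
  (h78_cusp_all N).2.2

/-- **MOD contract 3.** Unramified fibres: `a ≠ 0, 1728`. -/
theorem h78_card_fibre (N : ℕ) [NeZero N] (a : AlgebraicClosure ℚ) (h0 : a ≠ 0)
    (h1 : a ≠ 1728) :
    Nat.card {v : Place (AlgebraicClosure ℚ) ↥(modularFunctionFieldBar N) //
        0 < v.ord (h59_jbar N
          - algebraMap (AlgebraicClosure ℚ) ↥(modularFunctionFieldBar N) a)}
      = Nat.card (SL(2, ℤ) ⧸ Gamma0 N) :=
  haveI := h78_finiteDimensional N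
  h54_card_fibre N (h78_finrank N) a h0 h1

/-- **MOD contract 4.** The fibre over `j = 1728` is counted by the `S`-orbits. -/
theorem h78_card_fibre_1728 (N : ℕ) [NeZero N] :
    Nat.card {v : Place (AlgebraicClosure ℚ) ↥(modularFunctionFieldBar N) //
        0 < v.ord (h59_jbar N
          - algebraMap (AlgebraicClosure ℚ) ↥(modularFunctionFieldBar N) 1728)}
      = h47_orbCount (SL(2, ℤ) ⧸ Gamma0 N) ModularGroup.S :=
  haveI := h78_finiteDimensional N
  h54_card_fibre_1728 N (h78_finrank N)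

/-- **MOD contract 5.** The fibre over `j = 0` is counted by the `S * T`-orbits. -/
theorem h78_card_fibre_zero (N : ℕ) [NeZero N] :
    Nat.card {v : Place (AlgebraicClosure ℚ) ↥(modularFunctionFieldBar N) //
        0 < v.ord (h59_jbar N
          - algebraMap (AlgebraicClosure ℚ) ↥(modularFunctionFieldBar N) 0)}
      = h47_orbCount (SL(2, ℤ) ⧸ Gamma0 N) (ModularGroup.S * ModularGroup.T) :=
  haveI := h78_finiteDimensional N
  h54_card_fibre_zero N (h78_finrank N)

end Fermat.Agent.S24
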