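import Mathlib
import Fermat.Prelude.Def_ModularCurve_GenusNumerics
import Fermat.Agent.S24.h29_Basic

/-!
# The index of `Γ₀(N)` in `SL(2, ℤ)` is `dedekindPsi N` (helper29)

Induction over primes: `[Γ₀(M) : Γ₀(p M)]` is `p` if `p ∣ M` and `p + 1` otherwise, by an explicit
bijection of the coset space with `ZMod p`, resp. `Option (ZMod p)`.
-/

open Matrix Matrix.SpecialLinearGroup CongruenceSubgroup
open scoped MatrixGroups

namespace Fermat.Agent.S24

theorem h29_card_eq_of_fiber {A B C : Type*} (π : A → B) (hπ : Function.Surjective π)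
    (f : A → C) (hf : Function.Surjective f) (h : ∀ a a', π a = π a' ↔ f a = f a') :
    Nat.card B = Nat.card C := by
  refine Nat.card_congr (Equiv.ofBijective (fun b => f (Function.surjInv hπ b)) ⟨?_, ?_⟩)
  · intro b b' hbb
    have := (h _ _).mpr hbb
    rwa [Function.surjInv_eq hπ, Function.surjInv_eq hπ] at this
  · intro c
    obtain ⟨a, rfl⟩ := hf c
    refine ⟨π a, ?_⟩
    exact (h _ _).mp (Function.surjInv_eq hπ (π a))

/-! ### The recursion for `dedekindPsi` -/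

theorem h29_psi_mul_of_dvd (p M : ℕ) (hp : p.Prime) (hM : 0 < M) (hpM : p ∣ M) :
    ModularCurve.dedekindPsi (p * M) = p * ModularCurve.dedekindPsi M := by
  unfold ModularCurve.dedekindPsi
  have hset : (p * M).divisors.filter Squarefree = M.divisors.filter Squarefree := by
    ext d
    simp only [Finset.mem_filter, Nat.mem_divisors]
    constructor
    · rintro ⟨⟨hd, -⟩, hsq⟩
      refine ⟨⟨?_, hM.ne'⟩, hsq⟩
      by_cases hpd : p ∣ d
      · obtain ⟨d', rfl⟩ := hpd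
        have hd' : d' ∣ M := (Nat.mul_dvd_mul_iff_left hp.pos).mp hd
        have hcop : Nat.Coprime p d' := (Nat.squarefree_mul_iff.mp hsq).1
        obtain ⟨M', rfl⟩ := hpM
        have : d' ∣ M' := (Nat.Coprime.dvd_of_dvd_mul_left hcop.symm hd')
        exact Nat.mul_dvd_mul_left p this
      · have hcop : Nat.Coprime d p := ((Nat.Prime.coprime_iff_not_dvd hp).mpr hpd).symm
        exact Nat.Coprime.dvd_of_dvd_mul_left hcop hd
    · rintro ⟨⟨hd, -⟩, hsq⟩
      exact ⟨⟨Dvd.dvd.mul_left hd p, Nat.mul_ne_zero hp.ne_zero hM.ne'⟩, hsq⟩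
  rw [hset, Finset.mul_sum]
  refine Finset.sum_congr rfl fun d hd => ?_
  simp only [Finset.mem_filter, Nat.mem_divisors] at hd
  exact Nat.mul_div_assoc p hd.1.1

theorem h29_psi_mul_of_not_dvd (p M : ℕ) (hp : p.Prime) (hM : 0 < M) (hpM : ¬ p ∣ M) :
    ModularCurve.dedekindPsi (p * M) = (p + 1) * ModularCurve.dedekindPsi M := by
  unfold ModularCurve.dedekindPsi
  rw [← Finset.sum_filter_add_sum_filter_not ((p * M).divisors.filter Squarefree) (fun d => p ∣ d)]
  have hset2 : ((p * M).divisors.filter Squarefree).filter (fun d => ¬ p ∣ d)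
      = M.divisors.filter Squarefree := by
    ext d
    simp only [Finset.mem_filter, Nat.mem_divisors]
    constructor
    · rintro ⟨⟨⟨hd, -⟩, hsq⟩, hpd⟩
      have hcop : Nat.Coprime d p := ((Nat.Prime.coprime_iff_not_dvd hp).mpr hpd).symm
      exact ⟨⟨Nat.Coprime.dvd_of_dvd_mul_left hcop hd, hM.ne'⟩, hsq⟩
    · rintro ⟨⟨hd, -⟩, hsq⟩
      exact ⟨⟨⟨Dvd.dvd.mul_left hd p, Nat.mul_ne_zero hp.ne_zero hM.ne'⟩, hsq⟩,
        fun h => hpM (dvd_trans h hd)⟩
  have hset1 : ((p * M).divisors.filter Squarefree).filter (fun d => p ∣ d)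
      = (M.divisors.filter Squarefree).image (fun d => p * d) := by
    ext d
    simp only [Finset.mem_filter, Nat.mem_divisors, Finset.mem_image]
    constructor
    · rintro ⟨⟨⟨hd, -⟩, hsq⟩, hpd⟩
      obtain ⟨d', rfl⟩ := hpd
      exact ⟨d', ⟨⟨(Nat.mul_dvd_mul_iff_left hp.pos).mp hd, hM.ne'⟩,
        (Nat.squarefree_mul_iff.mp hsq).2.2⟩, rfl⟩
    · rintro ⟨d', ⟨⟨hd, -⟩, hsq⟩, rfl⟩
      have hcop : Nat.Coprime p d' :=
        (Nat.Prime.coprime_iff_not_dvd hp).mpr (fun h => hpM (dvd_trans h hd))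
      exact ⟨⟨⟨Nat.mul_dvd_mul_left p hd, Nat.mul_ne_zero hp.ne_zero hM.ne'⟩,
        (Nat.squarefree_mul hcop).mpr ⟨hp.squarefree, hsq⟩⟩, dvd_mul_right p d'⟩
  rw [hset1, hset2, Finset.sum_image (fun x _ y _ h => Nat.eq_of_mul_eq_mul_left hp.pos h),
    add_mul, one_mul, Finset.mul_sum, add_comm]
  congr 1
  · refine Finset.sum_congr rfl fun d hd => ?_
    simp only [Finset.mem_filter, Nat.mem_divisors] at hd
    exact Nat.mul_div_assoc p hd.1.1
  · refine Finset.sum_congr rfl fun d _ => ?_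
    exact Nat.mul_div_mul_left M d hp.pos

/-! ### The relative index -/

theorem h29_Gamma0_le (p M : ℕ) : Gamma0 (p * M) ≤ Gamma0 M := by
  intro g hg
  rw [Gamma0_mem, ZMod.intCast_zmod_eq_zero_iff_dvd] at *
  refine dvd_trans ?_ hg
  push_cast
  exact dvd_mul_left _ _

theorem h29_rel_iff (p M : ℕ) (k k' : Gamma0 M) :
    ((k : Gamma0 M ⧸ (Gamma0 (p * M)).subgroupOf (Gamma0 M)) = k') ↔
      ((p * M : ℕ) : ℤ) ∣ k.1 0 0 * k'.1 1 0 - k'.1 0 0 * k.1 1 0 := by
  rw [QuotientGroup.eq, Subgroup.mem_subgroupOf, Gamma0_mem, ZMod.intCast_zmod_eq_zero_iff_dvd,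
    ← h29_inv_mul_10]
  rfl

/-- The arithmetic core: the coset relation read in `ZMod p`. -/
theorem h29_rel_arith (p M : ℕ) (hM : 0 < M) (a c a' c' : ℤ) (hc : (M : ℤ) ∣ c)
    (hc' : (M : ℤ) ∣ c') :
    ((p * M : ℕ) : ℤ) ∣ a * c' - a' * c ↔
      (a : ZMod p) * ((c' / M : ℤ) : ZMod p) = (a' : ZMod p) * ((c / M : ℤ) : ZMod p) := by
  obtain ⟨c₀, rfl⟩ := hc
  obtain ⟨c₀', rfl⟩ := hc'
  have hM' : (M : ℤ) ≠ 0 := by exact_mod_cast hM.ne'
  rw [Int.mul_ediv_cancel_left _ hM', Int.mul_ediv_cancel_left _ hM']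
  have e : a * (↑M * c₀') - a' * (↑M * c₀) = (a * c₀' - a' * c₀) * M := by ring
  rw [e]
  push_cast
  rw [mul_dvd_mul_iff_right hM', ← ZMod.intCast_zmod_eq_zero_iff_dvd]
  push_cast
  exact sub_eq_zero

theorem h29_det_zmod (p : ℕ) (g : SL(2, ℤ)) :
    (g 0 0 : ZMod p) * (g 1 1 : ZMod p) - (g 0 1 : ZMod p) * (g 1 0 : ZMod p) = 1 := by
  have h := g.det_coe
  rw [Matrix.det_fin_two] at h
  have := congrArg (fun z : ℤ => (z : ZMod p)) h
  simpa using this

theorem h29_Gamma0_dvd {M : ℕ} (k : Gamma0 M) : (M : ℤ) ∣ k.1 1 0 := by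
  have := k.2
  rwa [Gamma0_mem, ZMod.intCast_zmod_eq_zero_iff_dvd] at this

/-- The lower unipotent matrix `[1, 0; c, 1]`. -/
def h29_L0 (c : ℤ) : SL(2, ℤ) := ⟨!![1, 0; c, 1], by simp [Matrix.det_fin_two]⟩

theorem h29_L0_mem (M : ℕ) (t : ℤ) : h29_L0 (M * t) ∈ Gamma0 M := by
  rw [Gamma0_mem]
  change (((M : ℤ) * t : ℤ) : ZMod M) = 0
  simp

/-- The lower unipotent matrix `[1, 0; M * t, 1]` as an element of `Γ₀(M)`. -/
def h29_L (M : ℕ) (t : ℤ) : Gamma0 M := ⟨h29_L0 (M * t), h29_L0_mem M t⟩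

@[simp] theorem h29_L_00 (M : ℕ) (t : ℤ) : (h29_L M t).1 0 0 = 1 := rfl
@[simp] theorem h29_L_10 (M : ℕ) (t : ℤ) : (h29_L M t).1 1 0 = M * t := rfl

theorem h29_relIndex_of_dvd (p M : ℕ) (hp : p.Prime) (hM : 0 < M) (hpM : p ∣ M) :
    (Gamma0 (p * M)).relIndex (Gamma0 M) = p := by
  haveI : Fact p.Prime := ⟨hp⟩
  have hM' : (M : ℤ) ≠ 0 := by exact_mod_cast hM.ne'
  have hA : ∀ k : Gamma0 M, ((k.1 0 0 : ℤ) : ZMod p) ≠ 0 := by
    intro k h0
    have hdet := h29_det_zmod p k.1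
    have hC : ((k.1 1 0 : ℤ) : ZMod p) = 0 := by
      rw [ZMod.intCast_zmod_eq_zero_iff_dvd]
      exact dvd_trans (by exact_mod_cast hpM) (h29_Gamma0_dvd k)
    rw [h0, hC] at hdet
    simp at hdet
  have key := h29_card_eq_of_fiber
    (QuotientGroup.mk : Gamma0 M → Gamma0 M ⧸ (Gamma0 (p * M)).subgroupOf (Gamma0 M))
    QuotientGroup.mk_surjective
    (fun k : Gamma0 M => ((k.1 1 0 / M : ℤ) : ZMod p) / ((k.1 0 0 : ℤ) : ZMod p)) ?_ ?_
  · have : (Gamma0 (p * M)).relIndex (Gamma0 M)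
        = Nat.card (Gamma0 M ⧸ (Gamma0 (p * M)).subgroupOf (Gamma0 M)) := rfl
    rw [this, key, Nat.card_zmod]
  · intro t
    refine ⟨h29_L M (t.cast : ℤ), ?_⟩
    simp only [h29_L_00, h29_L_10]
    rw [Int.mul_ediv_cancel_left _ hM']
    simp
  · intro k k'
    rw [h29_rel_iff, h29_rel_arith p M hM _ _ _ _ (h29_Gamma0_dvd k) (h29_Gamma0_dvd k'),
      div_eq_div_iff (hA k) (hA k')]
    constructor
    · intro h; rw [mul_comm, ← h, mul_comm]
    · intro h; rw [mul_comm, ← h, mul_comm]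

theorem h29_relIndex_of_not_dvd (p M : ℕ) (hp : p.Prime) (hM : 0 < M) (hpM : ¬ p ∣ M) :
    (Gamma0 (p * M)).relIndex (Gamma0 M) = p + 1 := by
  classical
  haveI : Fact p.Prime := ⟨hp⟩
  have hM' : (M : ℤ) ≠ 0 := by exact_mod_cast hM.ne'
  have hMp : ((M : ℤ) : ZMod p) ≠ 0 := by
    rw [Ne, ZMod.intCast_zmod_eq_zero_iff_dvd]
    exact_mod_cast hpM
  -- if `a ≡ 0` then `c / M ≢ 0`
  have hC : ∀ k : Gamma0 M, ((k.1 0 0 : ℤ) : ZMod p) = 0 →
      ((k.1 1 0 / M : ℤ) : ZMod p) ≠ 0 := by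
    intro k h0 hc0
    have hdet := h29_det_zmod p k.1
    obtain ⟨c₀, hc₀⟩ := h29_Gamma0_dvd k
    rw [hc₀, Int.mul_ediv_cancel_left _ hM'] at hc0
    have hC : ((k.1 1 0 : ℤ) : ZMod p) = 0 := by
      rw [hc₀]; push_cast; rw [hc0, mul_zero]
    rw [h0, hC] at hdet
    simp at hdet
  have key := h29_card_eq_of_fiber
    (QuotientGroup.mk : Gamma0 M → Gamma0 M ⧸ (Gamma0 (p * M)).subgroupOf (Gamma0 M))
    QuotientGroup.mk_surjective
    (fun k : Gamma0 M => if ((k.1 0 0 : ℤ) : ZMod p) = 0 then (none : Option (ZMod p))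
      else some (((k.1 1 0 / M : ℤ) : ZMod p) / ((k.1 0 0 : ℤ) : ZMod p))) ?_ ?_
  · have : (Gamma0 (p * M)).relIndex (Gamma0 M)
        = Nat.card (Gamma0 M ⧸ (Gamma0 (p * M)).subgroupOf (Gamma0 M)) := rfl
    rw [this, key, Nat.card_eq_fintype_card, Fintype.card_option, ZMod.card]
  · intro t
    rcases t with _ | t
    · -- a matrix `[p, -v; M, u]`
      have hcop : IsCoprime (p : ℤ) (M : ℤ) :=
        Nat.isCoprime_iff_coprime.mpr ((Nat.Prime.coprime_iff_not_dvd hp).mpr hpM)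
      obtain ⟨u, v, huv⟩ := hcop
      let g : SL(2, ℤ) := ⟨!![(p : ℤ), -v; (M : ℤ), u], by
        rw [Matrix.det_fin_two]; simp; linarith⟩
      have hg : g ∈ Gamma0 M := by
        rw [Gamma0_mem]
        change (((M : ℤ)) : ZMod M) = 0
        simp
      refine ⟨⟨g, hg⟩, ?_⟩
      have h00 : g 0 0 = (p : ℤ) := rfl
      simp only [h00]
      simp
    · refine ⟨h29_L M (t.cast : ℤ), ?_⟩
      simp only [h29_L_00, h29_L_10]
      rw [Int.mul_ediv_cancel_left _ hM']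
      simp
  · intro k k'
    rw [h29_rel_iff, h29_rel_arith p M hM _ _ _ _ (h29_Gamma0_dvd k) (h29_Gamma0_dvd k')]
    by_cases hk : ((k.1 0 0 : ℤ) : ZMod p) = 0
    · by_cases hk' : ((k'.1 0 0 : ℤ) : ZMod p) = 0
      · simp [hk, hk']
      · simp only [hk, hk', if_true, if_false, zero_mul]
        constructor
        · intro h
          exact absurd (mul_eq_zero.mp h.symm) (not_or.mpr ⟨hk', hC k hk⟩)
        · intro h; exact absurd h (by simp)
    · by_cases hk' : ((k'.1 0 0 : ℤ) : ZMod p) = 0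
      · simp only [hk, hk', if_true, if_false, zero_mul]
        constructor
        · intro h
          exact absurd (mul_eq_zero.mp h) (not_or.mpr ⟨hk, hC k' hk'⟩)
        · intro h; exact absurd h (by simp)
      · simp only [hk, hk', if_false, Option.some.injEq]
        rw [div_eq_div_iff hk hk']
        constructor
        · intro h; rw [mul_comm, ← h, mul_comm]
        · intro h; rw [mul_comm, ← h, mul_comm]

theorem h29_index_Gamma0 (N : ℕ) : 0 < N → (Gamma0 N).index = ModularCurve.dedekindPsi N := by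
  induction N using induction_on_primes with
  | zero => intro h; exact absurd h (lt_irrefl 0)
  | one =>
    intro _
    have : Gamma0 1 = ⊤ := by
      ext g
      simp only [Gamma0_mem, Subgroup.mem_top, iff_true]
      exact Subsingleton.elim _ _
    rw [this, Subgroup.index_top, ModularCurve.dedekindPsi_one]
  | prime_mul p M hp ih =>
    intro hpos
    have hM : 0 < M := Nat.pos_of_ne_zero (fun h => by simp [h] at hpos)
    have hrec := Subgroup.relIndex_mul_index (h29_Gamma0_le p M)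
    rw [ih hM] at hrec
    by_cases hpM : p ∣ M
    · rw [← hrec, h29_relIndex_of_dvd p M hp hM hpM, h29_psi_mul_of_dvd p M hp hM hpM]
    · rw [← hrec, h29_relIndex_of_not_dvd p M hp hM hpM, h29_psi_mul_of_not_dvd p M hp hM hpM]

/-- (5a) The coset space `SL(2, ℤ) ⧸ Γ₀(N)` has `dedekindPsi N` elements. -/
theorem h29_card_quotient_Gamma0 (N : ℕ) [NeZero N] :
    Nat.card (SL(2, ℤ) ⧸ Gamma0 N) = ModularCurve.dedekindPsi N :=
  h29_index_Gamma0 N (Nat.pos_of_ne_zero (NeZero.ne N))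

end Fermat.Agent.S24
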