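/-
helper73: wrappers for the generic Riemann-Hurwitz statement of S24
(residue field surjectivity and essential finiteness of the valuation rings of places).
-/
import Mathlib
import Fermat.Prelude.Def_AlgebraicCurve_CanonicalDivisor
import Fermat.Agent.S24.h73_Diff

set_option autoImplicit false

namespace Fermat.Agent.S24

open Polynomial KaehlerDifferential IntermediateField AlgebraicCurve

section Wrap

variable {K F : Type*} [Field K] [Field F] [Algebra K F] [IsAlgClosed K]

/-- The residue field of every place is `K`. -/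
theorem h73_hres (hF : h73_IsFF K F) (v : Place K F) :
    Function.Surjective (algebraMap K v.ResidueField) := by
  intro w
  obtain ⟨g, rfl⟩ := IsLocalRing.residue_surjective w
  obtain ⟨a, ha⟩ := h73_exists_sub_mem_maximalIdeal hF v g
  refine ⟨a, ?_⟩
  rw [← IsLocalRing.residue_eq_zero_iff, map_sub, sub_eq_zero] at ha
  exact ha.symm

variable [CharZero K]

/-- The valuation ring of every place is essentially of finite type over `K`. -/
theorem h73_hEFT (hF : h73_IsFF K F) (v : Place K F) :
    Algebra.EssFiniteType K v.toValuationSubring := by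
  classical
  obtain ⟨ϖ, hϖ⟩ := IsDiscreteValuationRing.exists_irreducible v.toValuationSubring
  have hord : v.ord (ϖ : F) = 1 := v.ord_coe_irreducible hϖ
  obtain ⟨n, s, hs, hdec⟩ := h73_integral_decomp hF v hord
  let s' : Fin n → v.toValuationSubring := fun i => ⟨s i, hs i⟩
  let σ : Finset v.toValuationSubring := insert ϖ (Finset.univ.image s')
  have hcoe : ∀ p : K[X], ((aeval ϖ p : v.toValuationSubring) : F) = aeval (ϖ : F) p := by
    intro p
    exact (Polynomial.aeval_algebraMap_apply F ϖ p).symm
  have hϖσ : ϖ ∈ Algebra.adjoin K (σ : Set v.toValuationSubring) :=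
    Algebra.subset_adjoin (by simp [σ])
  have hsσ : ∀ i, s' i ∈ Algebra.adjoin K (σ : Set v.toValuationSubring) := fun i =>
    Algebra.subset_adjoin (by simp [σ])
  have haev : ∀ p : K[X], aeval ϖ p ∈ Algebra.adjoin K (σ : Set v.toValuationSubring) := by
    intro p
    rw [← Polynomial.aeval_subalgebra_coe p _ ⟨ϖ, hϖσ⟩]
    exact Subtype.property _
  have hcomb : ∀ c : Fin n → K[X], (∑ i, aeval ϖ (c i) * s' i)
      ∈ Algebra.adjoin K (σ : Set v.toValuationSubring) := fun c =>
    sum_mem (fun i _ => mul_mem (haev _) (hsσ i))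
  have hcombcoe : ∀ c : Fin n → K[X],
      ((∑ i, aeval ϖ (c i) * s' i : v.toValuationSubring) : F)
        = ∑ i, aeval (ϖ : F) (c i) * s i := by
    intro c
    push_cast
    refine Finset.sum_congr rfl (fun i _ => ?_)
    rw [hcoe]
  rw [Algebra.essFiniteType_iff]
  refine ⟨σ, fun g => ?_⟩
  obtain ⟨cb, cd, hdi, hd0, hgd⟩ := hdec g g.2
  refine ⟨∑ i, aeval ϖ (cd i) * s' i, hcomb cd, ?_, ?_⟩
  · refine IsUnit.of_mul_eq_one ⟨_, hdi⟩ (Subtype.ext ?_)
    push_cast
    rw [← hcombcoe cd]
    push_cast
    exact mul_inv_cancel₀ (by rw [← hcombcoe cd] at hd0; exact_mod_cast hd0)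
  · have : g * (∑ i, aeval ϖ (cd i) * s' i) = ∑ i, aeval ϖ (cb i) * s' i := by
      apply Subtype.ext
      rw [Subring.coe_mul, hcombcoe, hcombcoe]
      exact hgd
    rw [this]
    exact hcomb cb

end Wrap

end Fermat.Agent.S24
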