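import Mathlib
import Fermat.Prelude.Def_AlgebraicCurve_DivisorClassGroup

set_option autoImplicit false

namespace Fermat.Agent.S24

open AlgebraicCurve

section OrdFun

variable {F : Type*} [Field F] (o : F → ℤ)
  (hmul : ∀ f g : F, f ≠ 0 → g ≠ 0 → o (f * g) = o f + o g)

include hmul

theorem h35_ordfun_one : o 1 = 0 := by
  have h := hmul 1 1 one_ne_zero one_ne_zero
  rw [mul_one] at h
  omega

theorem h35_ordfun_neg_one : o (-1) = 0 := by
  have h := hmul (-1) (-1) (neg_ne_zero.mpr one_ne_zero) (neg_ne_zero.mpr one_ne_zero)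
  rw [neg_mul_neg, mul_one, h35_ordfun_one o hmul] at h
  omega

theorem h35_ordfun_neg (x : F) (hx : x ≠ 0) : o (-x) = o x := by
  have h := hmul (-1) x (neg_ne_zero.mpr one_ne_zero) hx
  rw [neg_one_mul, h35_ordfun_neg_one o hmul, zero_add] at h
  exact h

theorem h35_ordfun_inv (x : F) (hx : x ≠ 0) : o x⁻¹ = -o x := by
  have h := hmul x x⁻¹ hx (inv_ne_zero hx)
  rw [mul_inv_cancel₀ hx, h35_ordfun_one o hmul] at h
  omega

theorem h35_ordfun_div (x y : F) (hx : x ≠ 0) (hy : y ≠ 0) : o (x / y) = o x - o y := by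
  rw [div_eq_mul_inv, hmul x y⁻¹ hx (inv_ne_zero hy), h35_ordfun_inv o hmul y hy]
  ring

theorem h35_ordfun_pow (x : F) (hx : x ≠ 0) (n : ℕ) : o (x ^ n) = n * o x := by
  induction n with
  | zero => simp [h35_ordfun_one o hmul]
  | succ n ih =>
    rw [pow_succ, hmul _ _ (pow_ne_zero n hx) hx, ih]
    push_cast
    ring

theorem h35_ordfun_zpow (x : F) (hx : x ≠ 0) (n : ℤ) : o (x ^ n) = n * o x := by
  obtain ⟨m, rfl | rfl⟩ := n.eq_nat_or_neg
  · rw [zpow_natCast, h35_ordfun_pow o hmul x hx]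
  · rw [zpow_neg, zpow_natCast, h35_ordfun_inv o hmul _ (pow_ne_zero m hx),
      h35_ordfun_pow o hmul x hx]
    ring

end OrdFun

section PlaceOfOrd

variable {K F : Type*} [Field K] [Field F] [Algebra K F]

/-- An order function that is additive on products and vanishes on the units of the valuation
ring of a place is a multiple of the order function of that place. -/
theorem h35_ordfun_eq_mul_ord (v : Place K F) (o : F → ℤ)
    (hmul : ∀ f g : F, f ≠ 0 → g ≠ 0 → o (f * g) = o f + o g)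
    (hunit : ∀ u : v.toValuationSubringˣ, o ((u : v.toValuationSubring) : F) = 0)
    {π : v.toValuationSubring} (hπ : Irreducible π) (f : F) (hf : f ≠ 0) :
    o f = o (π : F) * v.ord f := by
  obtain ⟨u, hu⟩ := v.exists_unit_mul_zpow hf hπ
  have hπF : (π : F) ≠ 0 := by
    simpa [ne_eq, ZeroMemClass.coe_eq_zero] using hπ.ne_zero
  have huF : ((u : v.toValuationSubring) : F) ≠ 0 := by
    simp [ne_eq, ZeroMemClass.coe_eq_zero]
  conv_lhs => rw [hu]
  rw [hmul _ _ huF (zpow_ne_zero _ hπF), hunit u, zero_add, h35_ordfun_zpow o hmul _ hπF]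
  ring

/-- The valuation subring attached to an order function. -/
def h35_subringOfOrd (o : F → ℤ)
    (hmul : ∀ f g : F, f ≠ 0 → g ≠ 0 → o (f * g) = o f + o g)
    (hadd : ∀ f g : F, f ≠ 0 → g ≠ 0 → f + g ≠ 0 → min (o f) (o g) ≤ o (f + g)) :
    ValuationSubring F where
  carrier := {x | x = 0 ∨ 0 ≤ o x}
  mul_mem' := by
    rintro x y (rfl | hx) (rfl | hy)
    · left; simp
    · left; simp
    · left; simp
    · by_cases hx0 : x = 0
      · left; simp [hx0]
      by_cases hy0 : y = 0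
      · left; simp [hy0]
      right
      rw [hmul x y hx0 hy0]
      omega
  one_mem' := Or.inr (by rw [h35_ordfun_one o hmul])
  add_mem' := by
    rintro x y hx hy
    by_cases hx0 : x = 0
    · simpa [hx0] using hy
    by_cases hy0 : y = 0
    · simpa [hy0] using hx
    by_cases hxy : x + y = 0
    · exact Or.inl hxy
    right
    have h1 := hx.resolve_left hx0
    have h2 := hy.resolve_left hy0
    have h3 := hadd x y hx0 hy0 hxy
    exact le_trans (le_min h1 h2) h3
  zero_mem' := Or.inl rfl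
  neg_mem' := by
    rintro x (rfl | hx)
    · left; simp
    · by_cases hx0 : x = 0
      · left; simp [hx0]
      right
      rw [h35_ordfun_neg o hmul x hx0]
      exact hx
  mem_or_inv_mem' := by
    intro x
    by_cases hx0 : x = 0
    · exact Or.inl (Or.inl hx0)
    rcases le_total 0 (o x) with h | h
    · exact Or.inl (Or.inr h)
    · refine Or.inr (Or.inr ?_)
      rw [h35_ordfun_inv o hmul x hx0]
      omega

theorem h35_mem_subringOfOrd (o : F → ℤ)
    (hmul : ∀ f g : F, f ≠ 0 → g ≠ 0 → o (f * g) = o f + o g)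
    (hadd : ∀ f g : F, f ≠ 0 → g ≠ 0 → f + g ≠ 0 → min (o f) (o g) ≤ o (f + g)) (x : F) :
    x ∈ h35_subringOfOrd o hmul hadd ↔ x = 0 ∨ 0 ≤ o x := Iff.rfl

theorem h35_subringOfOrd_isPrincipalIdealRing (o : F → ℤ)
    (hmul : ∀ f g : F, f ≠ 0 → g ≠ 0 → o (f * g) = o f + o g)
    (hadd : ∀ f g : F, f ≠ 0 → g ≠ 0 → f + g ≠ 0 → min (o f) (o g) ≤ o (f + g)) :
    IsPrincipalIdealRing (h35_subringOfOrd o hmul hadd) := by
  refine ⟨fun I => ?_⟩
  by_cases hI : I = ⊥
  · rw [hI]
    exact bot_isPrincipal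
  have hne : ∃ n : ℕ, ∃ x : h35_subringOfOrd o hmul hadd, x ∈ I ∧ x ≠ 0 ∧ o (x : F) = n := by
    obtain ⟨x, hxI, hx0⟩ := Submodule.exists_mem_ne_zero_of_ne_bot hI
    have hxF : (x : F) ≠ 0 := by
      simpa [ne_eq, ZeroMemClass.coe_eq_zero] using hx0
    have h0 : 0 ≤ o (x : F) := x.2.resolve_left hxF
    exact ⟨(o (x : F)).toNat, x, hxI, hx0, (Int.toNat_of_nonneg h0).symm⟩
  classical
  obtain ⟨x₀, hx₀I, hx₀ne, hx₀o⟩ := Nat.find_spec hne
  have hx₀F : (x₀ : F) ≠ 0 := by
    simpa [ne_eq, ZeroMemClass.coe_eq_zero] using hx₀ne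
  refine ⟨⟨x₀, le_antisymm ?_ ?_⟩⟩
  · intro y hyI
    rw [Submodule.mem_span_singleton]
    by_cases hy0 : y = 0
    · exact ⟨0, by simp [hy0]⟩
    have hyF : (y : F) ≠ 0 := by
      simpa [ne_eq, ZeroMemClass.coe_eq_zero] using hy0
    have h0 : 0 ≤ o (y : F) := y.2.resolve_left hyF
    have hmin : Nat.find hne ≤ (o (y : F)).toNat :=
      Nat.find_min' hne ⟨y, hyI, hy0, (Int.toNat_of_nonneg h0).symm⟩
    have hle : o (x₀ : F) ≤ o (y : F) := by
      rw [hx₀o]
      have := Int.toNat_of_nonneg h0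
      omega
    have hz : (y : F) / (x₀ : F) ∈ h35_subringOfOrd o hmul hadd := by
      right
      rw [h35_ordfun_div o hmul _ _ hyF hx₀F]
      omega
    refine ⟨⟨_, hz⟩, Subtype.ext ?_⟩
    show (y : F) / (x₀ : F) * (x₀ : F) = (y : F)
    field_simp
  · rw [Submodule.span_singleton_le_iff_mem]
    exact hx₀I

/-- **Place from an order function.** Any nontrivial `ℤ`-valued order function on `F` that is
trivial on the constants comes from a place, up to a positive integer factor. -/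
theorem h35_exists_place_of_ord' (o : F → ℤ)
    (hmul : ∀ f g : F, f ≠ 0 → g ≠ 0 → o (f * g) = o f + o g)
    (hadd : ∀ f g : F, f ≠ 0 → g ≠ 0 → f + g ≠ 0 → min (o f) (o g) ≤ o (f + g))
    (hK : ∀ a : K, a ≠ 0 → o (algebraMap K F a) = 0)
    (hnt : ∃ f : F, f ≠ 0 ∧ o f ≠ 0) :
    ∃ v : Place K F, (∀ x : F, x ∈ v.toValuationSubring ↔ x = 0 ∨ 0 ≤ o x) ∧
      ∃ d : ℕ, 0 < d ∧ ∀ f : F, f ≠ 0 → o f = d * v.ord f := by
  obtain ⟨v, hv⟩ : ∃ v : Place K F, v.toValuationSubring = h35_subringOfOrd o hmul hadd :=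
    ⟨{ toValuationSubring := h35_subringOfOrd o hmul hadd
       algebraMap_mem' := fun a => by
        by_cases ha : a = 0
        · left; simp [ha]
        · right; rw [hK a ha]
       ne_top' := by
        obtain ⟨f, hf0, hf⟩ := hnt
        intro htop
        rcases lt_or_gt_of_ne hf with h | h
        · have : f ∈ h35_subringOfOrd o hmul hadd := htop ▸ ValuationSubring.mem_top f
          rcases this with h0 | h0
          · exact hf0 h0
          · omega
        · have : f⁻¹ ∈ h35_subringOfOrd o hmul hadd := htop ▸ ValuationSubring.mem_top f⁻¹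
          rcases this with h0 | h0
          · exact inv_ne_zero hf0 h0
          · rw [h35_ordfun_inv o hmul f hf0] at h0
            omega
       isPrincipalIdealRing' := h35_subringOfOrd_isPrincipalIdealRing o hmul hadd }, rfl⟩
  have hmem : ∀ x : F, x ∈ v.toValuationSubring ↔ x = 0 ∨ 0 ≤ o x := fun x => by
    rw [hv]; exact Iff.rfl
  refine ⟨v, hmem, ?_⟩
  obtain ⟨π, hπ⟩ := IsDiscreteValuationRing.exists_irreducible v.toValuationSubring
  have hπF : (π : F) ≠ 0 := by
    simpa [ne_eq, ZeroMemClass.coe_eq_zero] using hπ.ne_zero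
  have hπ0 : 0 ≤ o (π : F) := ((hmem _).mp π.2).resolve_left hπF
  have hπpos : 0 < o (π : F) := by
    rcases hπ0.lt_or_eq with h | h
    · exact h
    · exfalso
      have hinv : (π : F)⁻¹ ∈ v.toValuationSubring := by
        refine (hmem _).mpr (Or.inr ?_)
        rw [h35_ordfun_inv o hmul _ hπF]
        omega
      apply hπ.not_isUnit
      refine IsUnit.of_mul_eq_one (⟨_, hinv⟩ : v.toValuationSubring) (Subtype.ext ?_)
      show (π : F) * (π : F)⁻¹ = 1
      exact mul_inv_cancel₀ hπF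
  have hunit : ∀ u : v.toValuationSubringˣ, o ((u : v.toValuationSubring) : F) = 0 := by
    intro u
    have huF : ((u : v.toValuationSubring) : F) ≠ 0 := by
      simp [ne_eq, ZeroMemClass.coe_eq_zero]
    have h1 : 0 ≤ o ((u : v.toValuationSubring) : F) :=
      ((hmem _).mp (u : v.toValuationSubring).2).resolve_left huF
    have hinv : (((u⁻¹ : v.toValuationSubringˣ) : v.toValuationSubring) : F) =
        ((u : v.toValuationSubring) : F)⁻¹ := by
      have h1 := congrArg (Subtype.val) (Units.inv_mul u)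
      have h2 : (((u⁻¹ : v.toValuationSubringˣ) : v.toValuationSubring) : F) *
          ((u : v.toValuationSubring) : F) = 1 := h1
      exact eq_inv_of_mul_eq_one_left h2
    have h2 : 0 ≤ o (((u : v.toValuationSubring) : F)⁻¹) := by
      rw [← hinv]
      refine ((hmem _).mp ((u⁻¹ : v.toValuationSubringˣ) : v.toValuationSubring).2).resolve_left ?_
      rw [hinv]
      exact inv_ne_zero huF
    rw [h35_ordfun_inv o hmul _ huF] at h2
    omega
  refine ⟨(o (π : F)).toNat, by omega, fun f hf => ?_⟩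
  rw [h35_ordfun_eq_mul_ord v o hmul hunit hπ f hf, Int.toNat_of_nonneg hπ0]

theorem h35_exists_place_of_ord (o : F → ℤ)
    (hmul : ∀ f g : F, f ≠ 0 → g ≠ 0 → o (f * g) = o f + o g)
    (hadd : ∀ f g : F, f ≠ 0 → g ≠ 0 → f + g ≠ 0 → min (o f) (o g) ≤ o (f + g))
    (hK : ∀ a : K, a ≠ 0 → o (algebraMap K F a) = 0)
    (hnt : ∃ f : F, f ≠ 0 ∧ o f ≠ 0) :
    ∃ (v : Place K F) (d : ℕ), 0 < d ∧ ∀ f : F, f ≠ 0 → o f = d * v.ord f := by
  obtain ⟨v, -, d, hd, h⟩ := h35_exists_place_of_ord' (K := K) o hmul hadd hK hnt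
  exact ⟨v, d, hd, h⟩

end PlaceOfOrd

end Fermat.Agent.S24
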