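import Mathlib
import Fermat.Agent.S24.h47_OrbCount

set_option autoImplicit false

namespace Fermat.Agent.S24

open Module

section LinAlg

/-- `dim ker (δ ∘ β) ≤ dim ker β + dim ker δ`. -/
lemma h47_finrank_ker_comp_le {V W U : Type*} [AddCommGroup V] [Module ℚ V]
    [FiniteDimensional ℚ V] [AddCommGroup W] [Module ℚ W] [FiniteDimensional ℚ W]
    [AddCommGroup U] [Module ℚ U] (β : V →ₗ[ℚ] W) (δ : W →ₗ[ℚ] U) :
    finrank ℚ (LinearMap.ker (δ ∘ₗ β)) ≤
      finrank ℚ (LinearMap.ker β) + finrank ℚ (LinearMap.ker δ) := by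
  set K := LinearMap.ker (δ ∘ₗ β) with hK
  let β' : K →ₗ[ℚ] W := β.domRestrict K
  have h1 := LinearMap.finrank_range_add_finrank_ker β'
  have h2 : finrank ℚ (LinearMap.range β') ≤ finrank ℚ (LinearMap.ker δ) := by
    apply Submodule.finrank_mono
    rintro _ ⟨k, rfl⟩
    have hk : (δ ∘ₗ β) (k : V) = 0 := LinearMap.mem_ker.mp k.2
    exact LinearMap.mem_ker.mpr hk
  have h3 : finrank ℚ (LinearMap.ker β') ≤ finrank ℚ (LinearMap.ker β) := by
    let ι : LinearMap.ker β' →ₗ[ℚ] LinearMap.ker β :=
      LinearMap.codRestrict _ (K.subtype ∘ₗ (LinearMap.ker β').subtype) (fun x => by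
        have hx : β' (x : K) = 0 := LinearMap.mem_ker.mp x.2
        exact LinearMap.mem_ker.mpr hx)
    refine LinearMap.finrank_le_finrank_of_injective (f := ι) ?_
    intro x y hxy
    have : (ι x : V) = (ι y : V) := congrArg Subtype.val hxy
    apply Subtype.ext
    apply Subtype.ext
    simpa [ι] using this
  omega

lemma h47_finrank_span_singleton_le {V : Type*} [AddCommGroup V] [Module ℚ V] (v : V) :
    finrank ℚ (Submodule.span ℚ {v}) ≤ 1 :=
  (finrank_span_le_card ({v} : Set V)).trans (by simp)

end LinAlg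

section Ree

variable {G X : Type*} [Group G] [MulAction G X]

/-- The permutation operator of `g` on functions `X → ℚ`. -/
noncomputable def h47_P (g : G) : (X → ℚ) →ₗ[ℚ] (X → ℚ) :=
  LinearMap.funLeft ℚ ℚ (fun x => g⁻¹ • x)

lemma h47_P_apply (g : G) (f : X → ℚ) (x : X) : h47_P g f x = f (g⁻¹ • x) := rfl

lemma h47_P_mul (g h : G) : h47_P (X := X) (g * h) = h47_P g ∘ₗ h47_P h := by
  refine LinearMap.ext fun f => funext fun x => ?_
  simp [h47_P_apply, mul_smul]

lemma h47_P_single [DecidableEq X] (g : G) (x : X) :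
    h47_P g (Pi.single x (1 : ℚ)) = Pi.single (g • x) (1 : ℚ) := by
  funext y
  rw [h47_P_apply]
  by_cases h : y = g • x
  · subst h
    simp
  · rw [Pi.single_eq_of_ne h, Pi.single_eq_of_ne]
    intro h'
    apply h
    rw [← h', smul_inv_smul]

/-- A function fixed by `g` is constant on the orbits of `zpowers g`. -/
lemma h47_fixed_zpowers {g : G} {f : X → ℚ} (hf : ∀ x, f (g⁻¹ • x) = f x)
    {h : G} (hh : h ∈ Subgroup.zpowers g) (x : X) : f (h • x) = f x := by
  let H : Subgroup G :=
    { carrier := {h | ∀ x, f (h • x) = f x}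
      mul_mem' := fun {a b} ha hb x => by rw [mul_smul, ha, hb]
      one_mem' := fun x => by rw [one_smul]
      inv_mem' := fun {a} ha x => by
        have := ha (a⁻¹ • x)
        rw [smul_inv_smul] at this
        exact this.symm }
  have hg : g ∈ H := fun x => by
    have := hf (g • x)
    rw [inv_smul_smul] at this
    exact this.symm
  exact (Subgroup.zpowers_le.mpr hg) hh x

lemma h47_finrank_ker [Finite X] (g : G) :
    finrank ℚ (LinearMap.ker (LinearMap.id - h47_P (X := X) g)) = h47_orbCount X g := by
  classical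
  have := Fintype.ofFinite X
  let mk : X → MulAction.orbitRel.Quotient (Subgroup.zpowers g) X := Quotient.mk''
  have hmk : Function.Surjective mk := Quotient.mk''_surjective
  let L : (MulAction.orbitRel.Quotient (Subgroup.zpowers g) X → ℚ) →ₗ[ℚ] (X → ℚ) :=
    LinearMap.funLeft ℚ ℚ mk
  have hinj : Function.Injective L := LinearMap.funLeft_injective_of_surjective ℚ ℚ mk hmk
  have hrange : LinearMap.range L = LinearMap.ker (LinearMap.id - h47_P (X := X) g) := by
    ext f
    simp only [LinearMap.mem_range, LinearMap.mem_ker, LinearMap.sub_apply, LinearMap.id_apply,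
      sub_eq_zero]
    constructor
    · rintro ⟨φ, rfl⟩
      funext x
      rw [h47_P_apply]
      show φ (mk x) = φ (mk (g⁻¹ • x))
      congr 1
      apply Quotient.sound
      show MulAction.orbitRel _ _ _ _
      rw [MulAction.orbitRel_apply]
      exact ⟨⟨g, Subgroup.mem_zpowers g⟩, by simp [Subgroup.smul_def]⟩
    · intro hf
      have hf' : ∀ x, f (g⁻¹ • x) = f x := fun x => by
        have := congrFun hf x
        rw [h47_P_apply] at this
        exact this.symm
      refine ⟨Quotient.lift f ?_, ?_⟩
      · intro a b hab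
        have hab' : a ∈ MulAction.orbit (Subgroup.zpowers g) b := hab
        obtain ⟨⟨h, hh⟩, rfl⟩ := hab'
        exact h47_fixed_zpowers hf' hh b
      · funext x
        rfl
  rw [← hrange, LinearMap.finrank_range_of_inj hinj, Module.finrank_fintype_fun_eq_card,
    h47_orbCount, Nat.card_eq_fintype_card]

/-- The subgroup of elements fixing a function. -/
def h47_fixer (f : X → ℚ) : Subgroup G where
  carrier := {h | ∀ x, f (h • x) = f x}
  mul_mem' := fun {a b} ha hb x => by rw [mul_smul, ha, hb]
  one_mem' := fun x => by rw [one_smul]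
  inv_mem' := fun {a} ha x => by
    have := ha (a⁻¹ • x)
    rw [smul_inv_smul] at this
    exact this.symm

lemma h47_mem_fixer_of_inv {g : G} {f : X → ℚ} (hf : ∀ x, f (g⁻¹ • x) = f x) :
    g ∈ h47_fixer (G := G) f := fun x => by
  have := hf (g • x)
  rw [inv_smul_smul] at this
  exact this.symm

/-- The subgroup of `g` with `e_{g x} - e_x ∈ W` for all `x`. -/
def h47_mover [DecidableEq X] (W : Submodule ℚ (X → ℚ)) : Subgroup G where
  carrier := {g | ∀ x : X, Pi.single (g • x) (1 : ℚ) - Pi.single x (1 : ℚ) ∈ W}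
  mul_mem' := fun {a b} ha hb x => by
    have h1 := ha (b • x)
    have h2 := hb x
    have := W.add_mem h1 h2
    rw [mul_smul]
    convert this using 1
    abel
  one_mem' := fun x => by simp
  inv_mem' := fun {a} ha x => by
    have h1 := ha (a⁻¹ • x)
    rw [smul_inv_smul] at h1
    have := W.neg_mem h1
    convert this using 1
    abel

theorem h47_ree [Finite X] [MulAction.IsPretransitive G X] (s t : G)
    (hgen : Subgroup.closure {s, t} = ⊤) :
    h47_orbCount X s + h47_orbCount X t + h47_orbCount X (s * t) ≤ Nat.card X + 2 := by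
  classical
  have := Fintype.ofFinite X
  rcases isEmpty_or_nonempty X with hX | ⟨⟨x₀⟩⟩
  · simp [h47_orbCount]
  set A : (X → ℚ) →ₗ[ℚ] (X → ℚ) := LinearMap.id - h47_P s with hA
  set B : (X → ℚ) →ₗ[ℚ] (X → ℚ) := LinearMap.id - h47_P t with hB
  set D : (X → ℚ) →ₗ[ℚ] (X → ℚ) := LinearMap.id - h47_P (s * t) with hD
  have hDAB : D = A + h47_P s ∘ₗ B := by
    rw [hD, hA, hB, h47_P_mul]
    refine LinearMap.ext fun f => ?_
    simp only [LinearMap.sub_apply, LinearMap.id_apply, LinearMap.add_apply,
      LinearMap.comp_apply, map_sub]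
    abel
  let β : (X → ℚ) →ₗ[ℚ] (LinearMap.range A × LinearMap.range B) :=
    A.rangeRestrict.prod B.rangeRestrict
  let δ : (LinearMap.range A × LinearMap.range B) →ₗ[ℚ] (X → ℚ) :=
    (LinearMap.range A).subtype.coprod (h47_P s ∘ₗ (LinearMap.range B).subtype)
  have hδβ : δ ∘ₗ β = D := by
    rw [hDAB]
    refine LinearMap.ext fun f => ?_
    simp [δ, β]
  -- the kernel of β consists of constant functions
  have hconst : ∀ f : X → ℚ, f ∈ LinearMap.ker β → ∀ x, f x = f x₀ := by
    intro f hf x
    have hf' : β f = 0 := LinearMap.mem_ker.mp hf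
    have h1 : A f = 0 := by
      have := congrArg (fun p => (p.1 : X → ℚ)) hf'
      simpa [β] using this
    have h2 : B f = 0 := by
      have := congrArg (fun p => (p.2 : X → ℚ)) hf'
      simpa [β] using this
    have hs : ∀ x, f (s⁻¹ • x) = f x := fun x => by
      have := congrFun h1 x
      simp only [hA, LinearMap.sub_apply, LinearMap.id_apply, Pi.sub_apply, Pi.zero_apply,
        h47_P_apply] at this
      linarith
    have ht : ∀ x, f (t⁻¹ • x) = f x := fun x => by
      have := congrFun h2 x
      simp only [hB, LinearMap.sub_apply, LinearMap.id_apply, Pi.sub_apply, Pi.zero_apply,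
        h47_P_apply] at this
      linarith
    have hle : Subgroup.closure {s, t} ≤ h47_fixer (G := G) f := by
      rw [Subgroup.closure_le]
      rintro g (rfl | rfl)
      · exact h47_mem_fixer_of_inv hs
      · exact h47_mem_fixer_of_inv ht
    rw [hgen] at hle
    obtain ⟨g, rfl⟩ := MulAction.exists_smul_eq G x₀ x
    exact hle (Subgroup.mem_top g) x₀
  have hkβ : finrank ℚ (LinearMap.ker β) ≤ 1 := by
    have hle : LinearMap.ker β ≤ Submodule.span ℚ {(fun _ => 1 : X → ℚ)} := by
      intro f hf
      rw [Submodule.mem_span_singleton]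
      exact ⟨f x₀, funext fun x => by simp [hconst f hf x]⟩
    exact (Submodule.finrank_mono hle).trans (h47_finrank_span_singleton_le _)
  -- the range of δ has codimension at most one
  have hAle : LinearMap.range A ≤ LinearMap.range δ := by
    rintro _ ⟨v, rfl⟩
    exact ⟨(A.rangeRestrict v, 0), by simp [δ]⟩
  have hBle : LinearMap.range B ≤ LinearMap.range δ := by
    rintro _ ⟨v, rfl⟩
    refine ⟨(A.rangeRestrict (B v), B.rangeRestrict v), ?_⟩
    show (A (B v) : X → ℚ) + h47_P s (B v) = B v
    simp only [hA, LinearMap.sub_apply, LinearMap.id_apply]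
    abel
  have hmov : Subgroup.closure {s, t} ≤ h47_mover (G := G) (LinearMap.range δ) := by
    rw [Subgroup.closure_le]
    rintro g (rfl | rfl)
    · intro x
      apply hAle
      refine ⟨-Pi.single x (1 : ℚ), ?_⟩
      simp only [hA, map_neg, LinearMap.sub_apply, LinearMap.id_apply, h47_P_single]
      abel
    · intro x
      apply hBle
      refine ⟨-Pi.single x (1 : ℚ), ?_⟩
      simp only [hB, map_neg, LinearMap.sub_apply, LinearMap.id_apply, h47_P_single]
      abel
  rw [hgen] at hmov
  have htop : LinearMap.range δ ⊔ Submodule.span ℚ {(Pi.single x₀ (1 : ℚ) : X → ℚ)} = ⊤ := by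
    rw [eq_top_iff, ← (Pi.basisFun ℚ X).span_eq, Submodule.span_le]
    rintro _ ⟨y, rfl⟩
    obtain ⟨g, rfl⟩ := MulAction.exists_smul_eq G x₀ y
    have h1 := hmov (Subgroup.mem_top g) x₀
    have h2 : (Pi.single x₀ (1 : ℚ) : X → ℚ) ∈ Submodule.span ℚ {(Pi.single x₀ (1 : ℚ) : X → ℚ)} :=
      Submodule.mem_span_singleton_self _
    have := Submodule.add_mem_sup h1 h2
    rw [Pi.basisFun_apply]
    rw [sub_add_cancel] at this
    exact this
  have hrδ : Fintype.card X ≤ finrank ℚ (LinearMap.range δ) + 1 := by
    have h1 := Submodule.finrank_add_le_finrank_add_finrank (LinearMap.range δ)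
      (Submodule.span ℚ {(Pi.single x₀ (1 : ℚ) : X → ℚ)})
    rw [htop, finrank_top, Module.finrank_fintype_fun_eq_card] at h1
    have h2 := h47_finrank_span_singleton_le (Pi.single x₀ (1 : ℚ) : X → ℚ)
    omega
  -- dimension count
  have hrA := LinearMap.finrank_range_add_finrank_ker A
  have hrB := LinearMap.finrank_range_add_finrank_ker B
  have hrδ' := LinearMap.finrank_range_add_finrank_ker δ
  rw [Module.finrank_fintype_fun_eq_card] at hrA hrB
  rw [Module.finrank_prod] at hrδ'
  have hkA : finrank ℚ (LinearMap.ker A) = h47_orbCount X s := h47_finrank_ker s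
  have hkB : finrank ℚ (LinearMap.ker B) = h47_orbCount X t := h47_finrank_ker t
  have hkD : finrank ℚ (LinearMap.ker D) = h47_orbCount X (s * t) := h47_finrank_ker (s * t)
  have hcomp := h47_finrank_ker_comp_le β δ
  rw [hδβ] at hcomp
  rw [Nat.card_eq_fintype_card]
  omega

end Ree

section Parity

open Equiv Equiv.Perm

/-- Number of cycles (fixed points included) of a permutation, in terms of the cycle type. -/
lemma h47_card_sameCycle {α : Type*} [Fintype α] [DecidableEq α] (σ : Perm α) :
    Nat.card (Quotient (SameCycle.setoid σ)) + σ.cycleType.sum =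
      Fintype.card α + Multiset.card σ.cycleType := by
  classical
  let Φ : α → Function.fixedPoints σ ⊕ {c // c ∈ σ.cycleFactorsFinset} := fun x =>
    if h : σ x = x then Sum.inl ⟨x, h⟩
    else Sum.inr ⟨σ.cycleOf x, cycleOf_mem_cycleFactorsFinset_iff.mpr (mem_support.mpr h)⟩
  have hfix : ∀ x y, σ x = x → SameCycle σ x y → y = x := by
    rintro x y hx ⟨i, rfl⟩
    exact zpow_apply_eq_self_of_apply_eq_self hx i
  have hΦ : ∀ x y, Φ x = Φ y ↔ SameCycle σ x y := by
    intro x y
    by_cases hx : σ x = x
    · by_cases hy : σ y = y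
      · simp only [Φ, dif_pos hx, dif_pos hy, Sum.inl.injEq, Subtype.mk.injEq]
        constructor
        · rintro rfl
          exact SameCycle.refl _ _
        · intro h
          exact (hfix x y hx h).symm
      · simp only [Φ, dif_pos hx, dif_neg hy, reduceCtorEq, false_iff]
        intro h
        exact hy (by rw [hfix x y hx h]; exact hx)
    · by_cases hy : σ y = y
      · simp only [Φ, dif_neg hx, dif_pos hy, reduceCtorEq, false_iff]
        intro h
        exact hx (by rw [hfix y x hy h.symm]; exact hy)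
      · simp only [Φ, dif_neg hx, dif_neg hy, Sum.inr.injEq, Subtype.mk.injEq]
        exact (sameCycle_iff_cycleOf_eq_of_mem_support (mem_support.mpr hx)
          (mem_support.mpr hy)).symm
  have hsurj : Function.Surjective Φ := by
    rintro (⟨x, hx⟩ | ⟨c, hc⟩)
    · have hx' : σ x = x := hx
      exact ⟨x, by simp only [Φ]; rw [dif_pos hx']⟩
    · obtain ⟨a, ha⟩ := IsCycle.nonempty_support (mem_cycleFactorsFinset_iff.mp hc).1
      have ha' : σ a ≠ a := mem_support.mp (mem_cycleFactorsFinset_support_le hc ha)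
      refine ⟨a, ?_⟩
      simp only [Φ]
      rw [dif_neg ha']
      congr 1
      exact Subtype.ext (cycle_is_cycleOf ha hc).symm
  let e : Quotient (SameCycle.setoid σ) ≃ Function.fixedPoints σ ⊕ {c // c ∈ σ.cycleFactorsFinset} :=
    Equiv.ofBijective (Quotient.lift Φ (fun a b hab => (hΦ a b).mpr hab)) (by
      constructor
      · intro a b
        induction a using Quotient.inductionOn
        induction b using Quotient.inductionOn
        intro h
        exact Quotient.sound ((hΦ _ _).mp h)
      · intro y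
        obtain ⟨x, rfl⟩ := hsurj y
        exact ⟨Quotient.mk _ x, rfl⟩)
  rw [Nat.card_congr e, Nat.card_eq_fintype_card, Fintype.card_sum, card_fixedPoints,
    Fintype.card_coe, cycleType_def, Multiset.card_map, ← Finset.card_def]
  have := σ.sum_cycleType_le
  rw [cycleType_def] at this
  omega

lemma h47_neg_one_pow_congr {a b : ℕ} (h : a % 2 = b % 2) : (-1 : ℤˣ) ^ a = (-1) ^ b := by
  rw [← Nat.div_add_mod a 2, ← Nat.div_add_mod b 2, h, pow_add, pow_add, pow_mul, pow_mul]
  simp

lemma h47_sign_eq {α : Type*} [Fintype α] [DecidableEq α] (σ : Perm α) :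
    Perm.sign σ = (-1 : ℤˣ) ^ (Fintype.card α + Nat.card (Quotient (SameCycle.setoid σ))) := by
  rw [sign_of_cycleType]
  apply h47_neg_one_pow_congr
  have := h47_card_sameCycle σ
  omega

variable {G X : Type*} [Group G] [MulAction G X]

lemma h47_orbCount_eq_card_sameCycle (g : G) :
    h47_orbCount X g =
      Nat.card (Quotient (SameCycle.setoid (MulAction.toPerm g : Perm X))) := by
  unfold h47_orbCount MulAction.orbitRel.Quotient
  refine Nat.card_congr (Quotient.congrRight fun a b => ?_)
  have hpow : ∀ (k : ℤ) (y : X), ((MulAction.toPerm g : Perm X) ^ k) y = g ^ k • y := by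
    intro k y
    have : (MulAction.toPerm g : Perm X) ^ k = MulAction.toPerm (g ^ k) :=
      (map_zpow (MulAction.toPermHom G X) g k).symm
    rw [this]
    rfl
  show a ∈ MulAction.orbit (Subgroup.zpowers g) b ↔ SameCycle (MulAction.toPerm g : Perm X) a b
  constructor
  · rintro ⟨⟨h, k, rfl⟩, rfl⟩
    refine SameCycle.symm ⟨k, ?_⟩
    rw [hpow]
    rfl
  · rintro ⟨k, rfl⟩
    refine MulAction.mem_orbit_symm.mp ?_
    exact ⟨⟨g ^ k, k, rfl⟩, (hpow k a).symm⟩

theorem h47_parity [Finite X] (s t : G) :
    Even (Nat.card X + h47_orbCount X s + h47_orbCount X t + h47_orbCount X (s * t)) := by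
  classical
  have := Fintype.ofFinite X
  have hsign : ∀ g : G, Perm.sign (MulAction.toPerm g : Perm X) =
      (-1 : ℤˣ) ^ (Fintype.card X + h47_orbCount X g) := fun g => by
    rw [h47_orbCount_eq_card_sameCycle]
    exact h47_sign_eq _
  have hmul : Perm.sign (MulAction.toPerm (s * t) : Perm X) =
      Perm.sign (MulAction.toPerm s : Perm X) * Perm.sign (MulAction.toPerm t : Perm X) := by
    rw [show (MulAction.toPerm (s * t) : Perm X) = MulAction.toPerm s * MulAction.toPerm t from
      map_mul (MulAction.toPermHom G X) s t, Perm.sign_mul]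
  rw [hsign, hsign, hsign] at hmul
  have h4 : (-1 : ℤˣ) ^ (Fintype.card X + h47_orbCount X s + (Fintype.card X + h47_orbCount X t)
      + (Fintype.card X + h47_orbCount X (s * t))) = 1 := by
    rw [pow_add, pow_add, hmul]
    exact Int.units_mul_self _
  rw [neg_one_pow_eq_one_iff_even (by decide)] at h4
  rw [Nat.card_eq_fintype_card]
  obtain ⟨m, hm⟩ := h4
  exact ⟨m - Fintype.card X, by omega⟩

end Parity

end Fermat.Agent.S24
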