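import Mathlib
import Fermat.Prelude.Def_ModularCurve_GenusNumerics
import Fermat.Agent.S24.h47_OrbCount
import Fermat.Agent.S24.h29_Basic

set_option autoImplicit false

/-!
# The number of `T`-orbits on `SL(2, ℤ) ⧸ Γ₀(N)` is `cuspCount N` (helper33, project S24, (5d))

The `T`-orbit of the coset `g Γ₀(N)` with first column `(a, c)` is classified by
`d = gcd(c, N)` and the class of `a * (c / d)⁻¹` in `(ℤ / gcd(d, N/d))ˣ`.
-/

open Matrix Matrix.SpecialLinearGroup CongruenceSubgroup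
open scoped MatrixGroups

namespace Fermat.Agent.S24

/-! ### Number theory core -/

/-- gcd with the level is an invariant of the `T`-orbit. -/
theorem h33_nt_gcd {N : ℕ} (a c a' c' k : ℤ) (h1 : IsCoprime a c) (h2 : IsCoprime a' c')
    (h : (N : ℤ) ∣ (a + k * c) * c' - a' * c) : Int.gcd c N = Int.gcd c' N := by
  apply Nat.dvd_antisymm
  · -- d ∣ c'
    have hd1 : (Int.gcd c N : ℤ) ∣ c := Int.gcd_dvd_left c N
    have hd2 : (Int.gcd c N : ℤ) ∣ N := Int.gcd_dvd_right c N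
    have h3 : (Int.gcd c N : ℤ) ∣ (a + k * c) * c' := by
      have h4 : (Int.gcd c N : ℤ) ∣ (a + k * c) * c' - a' * c := hd2.trans h
      have h5 : (Int.gcd c N : ℤ) ∣ a' * c := Dvd.dvd.mul_left hd1 a'
      have := dvd_add h4 h5
      simpa using this
    have hcop : IsCoprime (a + k * c) (Int.gcd c N : ℤ) :=
      (IsCoprime.add_mul_right_left h1 k).of_isCoprime_of_dvd_right hd1
    have h6 : (Int.gcd c N : ℤ) ∣ c' := hcop.symm.dvd_of_dvd_mul_left h3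
    exact Int.natCast_dvd_natCast.mp (Int.dvd_coe_gcd h6 hd2)
  · have hd1 : (Int.gcd c' N : ℤ) ∣ c' := Int.gcd_dvd_left c' N
    have hd2 : (Int.gcd c' N : ℤ) ∣ N := Int.gcd_dvd_right c' N
    have h3 : (Int.gcd c' N : ℤ) ∣ a' * c := by
      have h4 : (Int.gcd c' N : ℤ) ∣ (a + k * c) * c' - a' * c := hd2.trans h
      have h5 : (Int.gcd c' N : ℤ) ∣ (a + k * c) * c' := Dvd.dvd.mul_left hd1 _
      have := dvd_sub h5 h4
      simpa using this
    have hcop : IsCoprime a' (Int.gcd c' N : ℤ) := h2.of_isCoprime_of_dvd_right hd1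
    have h6 : (Int.gcd c' N : ℤ) ∣ c := hcop.symm.dvd_of_dvd_mul_left h3
    exact Int.natCast_dvd_natCast.mp (Int.dvd_coe_gcd h6 hd2)

/-- The second invariant (explicit-data form). -/
theorem h33_nt_dvd {d M : ℕ} (hd : 0 < d) (a e a' e' k : ℤ)
    (h : ((d * M : ℕ) : ℤ) ∣ (a + k * (d * e)) * (d * e') - a' * (d * e)) :
    ((Nat.gcd d M : ℕ) : ℤ) ∣ a * e' - a' * e := by
  have h1 : (a + k * (d * e)) * (d * e') - a' * (d * e)
      = (d : ℤ) * (a * e' - a' * e + k * d * e * e') := by ring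
  rw [h1] at h
  push_cast at h
  have h2 : (M : ℤ) ∣ a * e' - a' * e + k * d * e * e' :=
    (mul_dvd_mul_iff_left (by exact_mod_cast hd.ne')).mp h
  have g1 : ((Nat.gcd d M : ℕ) : ℤ) ∣ (M : ℤ) := Int.natCast_dvd_natCast.mpr (Nat.gcd_dvd_right d M)
  have g2 : ((Nat.gcd d M : ℕ) : ℤ) ∣ (d : ℤ) := Int.natCast_dvd_natCast.mpr (Nat.gcd_dvd_left d M)
  have h3 := g1.trans h2
  have h4 : ((Nat.gcd d M : ℕ) : ℤ) ∣ k * d * e * e' := by
    have : k * d * e * e' = (d : ℤ) * (k * e * e') := by ring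
    rw [this]
    exact Dvd.dvd.mul_right g2 _
  have := dvd_sub h3 h4
  simpa using this

/-- Converse: solvability of the linear congruence. -/
theorem h33_nt_exists {d M : ℕ} (a e a' e' : ℤ) (he : IsCoprime e (M : ℤ))
    (he' : IsCoprime e' (M : ℤ))
    (h : ((Nat.gcd d M : ℕ) : ℤ) ∣ a * e' - a' * e) :
    ∃ k : ℤ, ((d * M : ℕ) : ℤ) ∣ (a + k * (d * e)) * (d * e') - a' * (d * e) := by
  obtain ⟨m, hm⟩ := h
  have hee : IsCoprime (e * e') (M : ℤ) := he.mul_left he'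
  obtain ⟨u, v, huv⟩ := hee
  have hb := Nat.gcd_eq_gcd_ab d M
  set x0 := Nat.gcdA d M
  set y0 := Nat.gcdB d M
  refine ⟨-m * (x0 * u), ?_⟩
  have h1 : (a + -m * (x0 * u) * (d * e)) * (d * e') - a' * (d * e)
      = (d : ℤ) * ((a * e' - a' * e) - m * x0 * d * (u * (e * e'))) := by ring
  have h2 : u * (e * e') = 1 - v * M := by linarith
  rw [h1, hm, h2, hb]
  push_cast
  refine mul_dvd_mul_left _ ⟨m * (y0 + x0 * d * v), ?_⟩
  ring

/-! ### The invariant -/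

/-- The invariant of a first column `(a, c)`: `d = gcd(c, N)` and the residue of
`a * (c/d)⁻¹` modulo `gcd(d, N/d)`. -/
noncomputable def h33_inv (N : ℕ) (a c : ℤ) : Σ _ : ℕ, ℕ :=
  ⟨Int.gcd c N,
    ((a : ZMod (Nat.gcd (Int.gcd c N) (N / Int.gcd c N))) *
      ((c / (Int.gcd c N : ℤ) : ℤ) : ZMod (Nat.gcd (Int.gcd c N) (N / Int.gcd c N)))⁻¹).val⟩

theorem h33_inv_eq_of (N : ℕ) (a c : ℤ) (d : ℕ) (hd : Int.gcd c N = d) :
    h33_inv N a c = ⟨d, ((a : ZMod (Nat.gcd d (N / d))) *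
      ((c / (d : ℤ) : ℤ) : ZMod (Nat.gcd d (N / d)))⁻¹).val⟩ := by
  subst hd
  rfl

theorem h33_val_eq_iff {g : ℕ} [NeZero g] (a e a' e' : ℤ) (he : IsUnit (e : ZMod g))
    (he' : IsUnit (e' : ZMod g)) :
    ((a : ZMod g) * (e : ZMod g)⁻¹).val = ((a' : ZMod g) * (e' : ZMod g)⁻¹).val ↔
      (g : ℤ) ∣ a * e' - a' * e := by
  rw [(ZMod.val_injective g).eq_iff]
  have key : (a : ZMod g) * (e : ZMod g)⁻¹ = (a' : ZMod g) * (e' : ZMod g)⁻¹ ↔
      ((a * e' : ℤ) : ZMod g) = ((a' * e : ℤ) : ZMod g) := by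
    push_cast
    constructor
    · intro h
      have h2 : (a : ZMod g) * (e : ZMod g)⁻¹ * ((e : ZMod g) * (e' : ZMod g))
          = (a' : ZMod g) * (e' : ZMod g)⁻¹ * ((e : ZMod g) * (e' : ZMod g)) := by rw [h]
      have l1 : (a : ZMod g) * (e : ZMod g)⁻¹ * ((e : ZMod g) * (e' : ZMod g))
          = (a : ZMod g) * (e' : ZMod g) * ((e : ZMod g)⁻¹ * (e : ZMod g)) := by ring
      have l2 : (a' : ZMod g) * (e' : ZMod g)⁻¹ * ((e : ZMod g) * (e' : ZMod g))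
          = (a' : ZMod g) * (e : ZMod g) * ((e' : ZMod g)⁻¹ * (e' : ZMod g)) := by ring
      rw [l1, l2, ZMod.inv_mul_of_unit _ he, ZMod.inv_mul_of_unit _ he', mul_one, mul_one] at h2
      exact h2
    · intro h
      have h2 : (a : ZMod g) * (e' : ZMod g) * ((e : ZMod g)⁻¹ * (e' : ZMod g)⁻¹)
          = (a' : ZMod g) * (e : ZMod g) * ((e : ZMod g)⁻¹ * (e' : ZMod g)⁻¹) := by rw [h]
      have l1 : (a : ZMod g) * (e' : ZMod g) * ((e : ZMod g)⁻¹ * (e' : ZMod g)⁻¹)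
          = (a : ZMod g) * (e : ZMod g)⁻¹ * ((e' : ZMod g) * (e' : ZMod g)⁻¹) := by ring
      have l2 : (a' : ZMod g) * (e : ZMod g) * ((e : ZMod g)⁻¹ * (e' : ZMod g)⁻¹)
          = (a' : ZMod g) * (e' : ZMod g)⁻¹ * ((e : ZMod g) * (e : ZMod g)⁻¹) := by ring
      rw [l1, l2, ZMod.mul_inv_of_unit _ he, ZMod.mul_inv_of_unit _ he', mul_one, mul_one] at h2
      exact h2
  rw [key, ZMod.intCast_eq_intCast_iff_dvd_sub, ← dvd_neg, neg_sub]

/-- Basic data of `d = gcd(c, N)`. -/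
theorem h33_data {N : ℕ} (hN : 0 < N) (c : ℤ) :
    0 < Int.gcd c N ∧ Int.gcd c N * (N / Int.gcd c N) = N ∧
      c = (Int.gcd c N : ℤ) * (c / (Int.gcd c N : ℤ)) ∧
      IsCoprime (c / (Int.gcd c N : ℤ)) ((N / Int.gcd c N : ℕ) : ℤ) := by
  have hpos : 0 < Int.gcd c N := Int.gcd_pos_of_ne_zero_right c (by exact_mod_cast hN.ne')
  have hdN : Int.gcd c N ∣ N := Int.natCast_dvd_natCast.mp (Int.gcd_dvd_right c N)
  refine ⟨hpos, Nat.mul_div_cancel' hdN, (Int.mul_ediv_cancel' (Int.gcd_dvd_left c N)).symm, ?_⟩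
  have h := Int.gcd_div_gcd_div_gcd (i := c) (j := (N : ℤ)) hpos
  rw [Int.isCoprime_iff_gcd_eq_one]
  rw [Int.natCast_div]
  exact h

/-- **Classification of `T`-orbits of first columns.** -/
theorem h33_inv_eq_iff {N : ℕ} (hN : 0 < N) (a c a' c' : ℤ) (h1 : IsCoprime a c)
    (h2 : IsCoprime a' c') :
    h33_inv N a c = h33_inv N a' c' ↔ ∃ k : ℤ, (N : ℤ) ∣ (a + k * c) * c' - a' * c := by
  obtain ⟨hpos, hdM, hc, hcop⟩ := h33_data hN c
  obtain ⟨hpos', hdM', hc', hcop'⟩ := h33_data hN c'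
  constructor
  · intro h
    have hd : Int.gcd c N = Int.gcd c' N := congrArg Sigma.fst h
    rw [h33_inv_eq_of N a' c' (Int.gcd c N) hd.symm, h33_inv_eq_of N a c (Int.gcd c N) rfl] at h
    rw [← hd] at hc' hcop' hdM'
    set d := Int.gcd c N with hd_def
    set M := N / d with hM_def
    set e := c / (d : ℤ)
    set e' := c' / (d : ℤ)
    have hg : NeZero (Nat.gcd d M) := ⟨(Nat.gcd_pos_of_pos_left M hpos).ne'⟩
    have hgM : ((Nat.gcd d M : ℕ) : ℤ) ∣ (M : ℤ) :=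
      Int.natCast_dvd_natCast.mpr (Nat.gcd_dvd_right d M)
    have hu : IsUnit (e : ZMod (Nat.gcd d M)) :=
      (ZMod.coe_int_isUnit_iff_isCoprime _ _).mpr (hcop.symm.of_isCoprime_of_dvd_left hgM)
    have hu' : IsUnit (e' : ZMod (Nat.gcd d M)) :=
      (ZMod.coe_int_isUnit_iff_isCoprime _ _).mpr (hcop'.symm.of_isCoprime_of_dvd_left hgM)
    have h3 : ((a : ZMod (Nat.gcd d M)) * (e : ZMod (Nat.gcd d M))⁻¹).val
        = ((a' : ZMod (Nat.gcd d M)) * (e' : ZMod (Nat.gcd d M))⁻¹).val := by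
      have := Sigma.mk.inj_iff.mp h
      exact eq_of_heq this.2
    rw [h33_val_eq_iff a e a' e' hu hu'] at h3
    obtain ⟨k, hk⟩ := h33_nt_exists (d := d) a e a' e' hcop hcop' h3
    refine ⟨k, ?_⟩
    rw [hdM] at hk
    rw [hc, hc']
    exact hk
  · rintro ⟨k, hk⟩
    have hd : Int.gcd c N = Int.gcd c' N := h33_nt_gcd a c a' c' k h1 h2 hk
    rw [h33_inv_eq_of N a' c' (Int.gcd c N) hd.symm, h33_inv_eq_of N a c (Int.gcd c N) rfl]
    rw [← hd] at hc' hcop' hdM'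
    set d := Int.gcd c N with hd_def
    set M := N / d with hM_def
    set e := c / (d : ℤ)
    set e' := c' / (d : ℤ)
    have hg : NeZero (Nat.gcd d M) := ⟨(Nat.gcd_pos_of_pos_left M hpos).ne'⟩
    have hgM : ((Nat.gcd d M : ℕ) : ℤ) ∣ (M : ℤ) :=
      Int.natCast_dvd_natCast.mpr (Nat.gcd_dvd_right d M)
    have hu : IsUnit (e : ZMod (Nat.gcd d M)) :=
      (ZMod.coe_int_isUnit_iff_isCoprime _ _).mpr (hcop.symm.of_isCoprime_of_dvd_left hgM)
    have hu' : IsUnit (e' : ZMod (Nat.gcd d M)) :=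
      (ZMod.coe_int_isUnit_iff_isCoprime _ _).mpr (hcop'.symm.of_isCoprime_of_dvd_left hgM)
    have hk2 : ((d * M : ℕ) : ℤ) ∣ (a + k * (d * e)) * (d * e') - a' * (d * e) := by
      rw [hdM, ← hc, ← hc']
      exact hk
    have h3 := h33_nt_dvd hpos a e a' e' k hk2
    rw [← h33_val_eq_iff a e a' e' hu hu'] at h3
    rw [h3]

/-! ### The action of `T` on cosets -/

theorem h33_T_zpow_mul_00 (k : ℤ) (g : SL(2, ℤ)) :
    (ModularGroup.T ^ k * g) 0 0 = g 0 0 + k * g 1 0 := by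
  rw [h29_mul_00]
  have h := ModularGroup.coe_T_zpow k
  have h00 : (ModularGroup.T ^ k) 0 0 = 1 := by
    show (ModularGroup.T ^ k).1 0 0 = 1
    rw [h]; rfl
  have h01 : (ModularGroup.T ^ k) 0 1 = k := by
    show (ModularGroup.T ^ k).1 0 1 = k
    rw [h]; rfl
  rw [h00, h01, one_mul]

theorem h33_T_zpow_mul_10 (k : ℤ) (g : SL(2, ℤ)) :
    (ModularGroup.T ^ k * g) 1 0 = g 1 0 := by
  rw [h29_mul_10]
  have h := ModularGroup.coe_T_zpow k
  have h10 : (ModularGroup.T ^ k) 1 0 = 0 := by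
    show (ModularGroup.T ^ k).1 1 0 = 0
    rw [h]; rfl
  have h11 : (ModularGroup.T ^ k) 1 1 = 1 := by
    show (ModularGroup.T ^ k).1 1 1 = 1
    rw [h]; rfl
  rw [h10, h11, zero_mul, zero_add, one_mul]

/-- Two cosets are in the same `T`-orbit iff their invariants agree. -/
theorem h33_orbit_iff {N : ℕ} (hN : 0 < N) (g g' : SL(2, ℤ)) :
    (∃ k : ℤ, (ModularGroup.T ^ k) • (g : SL(2, ℤ) ⧸ Gamma0 N) = (g' : SL(2, ℤ) ⧸ Gamma0 N)) ↔
      h33_inv N (g 0 0) (g 1 0) = h33_inv N (g' 0 0) (g' 1 0) := by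
  rw [h33_inv_eq_iff hN _ _ _ _ (h29_isCoprime_col g) (h29_isCoprime_col g')]
  refine exists_congr fun k => ?_
  rw [h29_smul_mk, h29_coset_eq_iff, h33_T_zpow_mul_00, h33_T_zpow_mul_10]

/-- The target set of invariants. -/
def h33_target (N : ℕ) : Finset (Σ _ : ℕ, ℕ) :=
  N.divisors.sigma fun d =>
    (Finset.range (Nat.gcd d (N / d))).filter fun r => (Nat.gcd d (N / d)).Coprime r

theorem h33_card_target (N : ℕ) : (h33_target N).card = ModularCurve.cuspCount N := by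
  rw [h33_target, Finset.card_sigma, ModularCurve.cuspCount]
  refine Finset.sum_congr rfl fun d _ => ?_
  rw [Nat.totient_eq_card_coprime]

theorem h33_inv_mem_target {N : ℕ} (hN : 0 < N) (a c : ℤ) (h1 : IsCoprime a c) :
    h33_inv N a c ∈ h33_target N := by
  obtain ⟨hpos, hdM, hc, hcop⟩ := h33_data hN c
  rw [h33_target, h33_inv, Finset.mem_sigma]
  set d := Int.gcd c N with hd_def
  set M := N / d with hM_def
  set e := c / (d : ℤ)
  have hg : NeZero (Nat.gcd d M) := ⟨(Nat.gcd_pos_of_pos_left M hpos).ne'⟩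
  have hgM : ((Nat.gcd d M : ℕ) : ℤ) ∣ (M : ℤ) :=
    Int.natCast_dvd_natCast.mpr (Nat.gcd_dvd_right d M)
  have hgd : ((Nat.gcd d M : ℕ) : ℤ) ∣ (d : ℤ) :=
    Int.natCast_dvd_natCast.mpr (Nat.gcd_dvd_left d M)
  have hu : IsUnit (e : ZMod (Nat.gcd d M)) :=
    (ZMod.coe_int_isUnit_iff_isCoprime _ _).mpr (hcop.symm.of_isCoprime_of_dvd_left hgM)
  have hgc : ((Nat.gcd d M : ℕ) : ℤ) ∣ c := hgd.trans (Int.gcd_dvd_left c N)
  have hua : IsUnit (a : ZMod (Nat.gcd d M)) :=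
    (ZMod.coe_int_isUnit_iff_isCoprime _ _).mpr (h1.symm.of_isCoprime_of_dvd_left hgc)
  have hunit : IsUnit ((a : ZMod (Nat.gcd d M)) * (e : ZMod (Nat.gcd d M))⁻¹) :=
    hua.mul (ZMod.isUnit_inv hu)
  refine ⟨?_, ?_⟩
  · rw [Nat.mem_divisors]
    exact ⟨⟨M, hdM.symm⟩, hN.ne'⟩
  · rw [Finset.mem_filter, Finset.mem_range]
    refine ⟨ZMod.val_lt _, ?_⟩
    obtain ⟨u, hu⟩ := hunit
    rw [← hu]
    exact (ZMod.val_coe_unit_coprime u).symm

theorem h33_exists_of_mem_target {N : ℕ} (hN : 0 < N) (s : Σ _ : ℕ, ℕ) (hs : s ∈ h33_target N) :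
    ∃ g : SL(2, ℤ), h33_inv N (g 0 0) (g 1 0) = s := by
  obtain ⟨d, r⟩ := s
  rw [h33_target, Finset.mem_sigma, Nat.mem_divisors, Finset.mem_filter, Finset.mem_range] at hs
  obtain ⟨⟨hdN, -⟩, hr, hcop⟩ := hs
  have hdpos : 0 < d := Nat.pos_of_dvd_of_pos hdN hN
  have hd : NeZero d := ⟨hdpos.ne'⟩
  set G := Nat.gcd d (N / d) with hG
  have hGd : G ∣ d := Nat.gcd_dvd_left d (N / d)
  have hg : NeZero G := ⟨(Nat.gcd_pos_of_pos_left _ hdpos).ne'⟩
  obtain ⟨v, hv⟩ := ZMod.unitsMap_surjective hGd (ZMod.unitOfCoprime r hcop.symm)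
  have hv2 : (((v : ZMod d).val : ℕ) : ZMod G) = (r : ZMod G) := by
    have h1 := congrArg (fun u : (ZMod G)ˣ => (u : ZMod G)) hv
    simp only [ZMod.unitsMap_val, ZMod.coe_unitOfCoprime] at h1
    rw [ZMod.natCast_val]
    exact h1
  have hcopa : IsCoprime (((v : ZMod d).val : ℕ) : ℤ) (d : ℤ) :=
    Nat.isCoprime_iff_coprime.mpr (ZMod.val_coe_unit_coprime v)
  obtain ⟨g, hg0, hg1⟩ := hcopa.exists_SL2_col 0
  refine ⟨g, ?_⟩
  have hgcd : Int.gcd (d : ℤ) (N : ℤ) = d := by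
    rw [Int.gcd_natCast_natCast]
    exact Nat.gcd_eq_left hdN
  rw [hg0, hg1, h33_inv_eq_of N _ _ d hgcd]
  have hdiv : ((d : ℤ) / (d : ℤ)) = 1 := Int.ediv_self (by exact_mod_cast hdpos.ne')
  rw [hdiv]
  have hone : ((1 : ℤ) : ZMod G)⁻¹ = 1 := by
    have := ZMod.mul_inv_of_unit ((1 : ℤ) : ZMod G) (by simp)
    simp
  rw [hone, mul_one, Int.cast_natCast, hv2, ZMod.val_natCast_of_lt hr]

/-- **(5d)** The number of `T`-orbits on `SL(2, ℤ) ⧸ Γ₀(N)` is `cuspCount N`. -/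
theorem h33_orbits_T (N : ℕ) [NeZero N] :
    h47_orbCount (SL(2, ℤ) ⧸ Gamma0 N) ModularGroup.T = ModularCurve.cuspCount N := by
  classical
  have hN : 0 < N := Nat.pos_of_ne_zero (NeZero.ne N)
  rw [h47_orbCount, ← h33_card_target]
  set Q := MulAction.orbitRel.Quotient (Subgroup.zpowers ModularGroup.T) (SL(2, ℤ) ⧸ Gamma0 N)
    with hQ
  -- the class of a matrix
  let cls : SL(2, ℤ) → Q := fun g => Quotient.mk'' (g : SL(2, ℤ) ⧸ Gamma0 N)
  have hcls : ∀ g g' : SL(2, ℤ), cls g = cls g' ↔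
      h33_inv N (g 0 0) (g 1 0) = h33_inv N (g' 0 0) (g' 1 0) := by
    intro g g'
    have h1 := h33_orbit_iff hN g' g
    have h2 : cls g = cls g' ↔
        ∃ k : ℤ, (ModularGroup.T ^ k) • (g' : SL(2, ℤ) ⧸ Gamma0 N) = (g : SL(2, ℤ) ⧸ Gamma0 N) := by
      show (Quotient.mk'' (g : SL(2, ℤ) ⧸ Gamma0 N) : Q)
        = Quotient.mk'' (g' : SL(2, ℤ) ⧸ Gamma0 N) ↔ _
      rw [Quotient.eq'', MulAction.orbitRel_apply]
      constructor
      · rintro ⟨⟨h, hh⟩, hx⟩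
        obtain ⟨k, rfl⟩ := Subgroup.mem_zpowers_iff.mp hh
        exact ⟨k, hx⟩
      · rintro ⟨k, hk⟩
        exact ⟨⟨ModularGroup.T ^ k, Subgroup.mem_zpowers_iff.mpr ⟨k, rfl⟩⟩, hk⟩
    rw [h2, h1]
    exact eq_comm
  have hsurj : ∀ q : Q, ∃ g : SL(2, ℤ), cls g = q := by
    intro q
    induction q using Quotient.inductionOn' with | _ x => ?_
    induction x using Quotient.inductionOn' with | _ g => ?_
    exact ⟨g, rfl⟩
  choose rep hrep using hsurj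
  let F : Q → (h33_target N : Set (Σ _ : ℕ, ℕ)) := fun q =>
    ⟨h33_inv N ((rep q) 0 0) ((rep q) 1 0),
      h33_inv_mem_target hN _ _ (h29_isCoprime_col (rep q))⟩
  have hF : Function.Bijective F := by
    constructor
    · intro q q' h
      have h' : h33_inv N ((rep q) 0 0) ((rep q) 1 0) = h33_inv N ((rep q') 0 0) ((rep q') 1 0) :=
        congrArg Subtype.val h
      rw [← hcls, hrep, hrep] at h'
      exact h'
    · rintro ⟨s, hs⟩
      obtain ⟨g, hg⟩ := h33_exists_of_mem_target hN s hs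
      refine ⟨cls g, Subtype.ext ?_⟩
      show h33_inv N ((rep (cls g)) 0 0) ((rep (cls g)) 1 0) = s
      rw [← hg, ← hcls, hrep]
  have hcard := Nat.card_eq_of_bijective F hF
  refine hcard.trans ?_
  simp


end Fermat.Agent.S24
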