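import Mathlib
import Fermat.Agent.S24.h47_OrbCount

set_option autoImplicit false

namespace Fermat.Agent.S24

open Module

section Eigen

variable {G X : Type*} [Group G] [MulAction G X]

/-- The operator `(Q v) x = v (g • x)` on functions `X → ℂ`. -/
noncomputable def h47_Q (g : G) : (X → ℂ) →ₗ[ℂ] (X → ℂ) :=
  LinearMap.funLeft ℂ ℂ (fun x => g • x)

lemma h47_Q_apply (g : G) (v : X → ℂ) (x : X) : h47_Q g v x = v (g • x) := rfl

/-- The `c`-eigenspace of the permutation operator of `g` on `X → ℂ`. -/
noncomputable def h47_eig (g : G) (c : ℂ) : Submodule ℂ (X → ℂ) :=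
  LinearMap.ker (h47_Q g - c • LinearMap.id)

lemma h47_mem_eig {g : G} {c : ℂ} {v : X → ℂ} :
    v ∈ h47_eig g c ↔ ∀ x, v (g • x) = c * v x := by
  unfold h47_eig
  rw [LinearMap.mem_ker]
  constructor
  · intro h x
    have := congrFun h x
    simp only [LinearMap.sub_apply, LinearMap.smul_apply, LinearMap.id_apply, Pi.sub_apply,
      Pi.smul_apply, smul_eq_mul, Pi.zero_apply, h47_Q_apply] at this
    exact sub_eq_zero.mp this
  · intro h
    funext x
    simp only [LinearMap.sub_apply, LinearMap.smul_apply, LinearMap.id_apply, Pi.sub_apply,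
      Pi.smul_apply, smul_eq_mul, Pi.zero_apply, h47_Q_apply]
    exact sub_eq_zero.mpr (h x)

/-- A `g`-invariant function is constant on the orbits of `zpowers g`. -/
lemma h47_inv_zpowers {g : G} {f : X → ℂ} (hf : ∀ x, f (g • x) = f x)
    {h : G} (hh : h ∈ Subgroup.zpowers g) (x : X) : f (h • x) = f x := by
  let H : Subgroup G :=
    { carrier := {h | ∀ x, f (h • x) = f x}
      mul_mem' := fun {a b} ha hb x => by rw [mul_smul, ha, hb]
      one_mem' := fun x => by rw [one_smul]
      inv_mem' := fun {a} ha x => by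
        have := ha (a⁻¹ • x)
        rw [smul_inv_smul] at this
        exact this.symm }
  have hg : g ∈ H := hf
  exact (Subgroup.zpowers_le.mpr hg) hh x

theorem h47_finrank_eig_one [Finite X] (g : G) :
    finrank ℂ (h47_eig (X := X) g 1) = h47_orbCount X g := by
  classical
  have := Fintype.ofFinite X
  let mk : X → MulAction.orbitRel.Quotient (Subgroup.zpowers g) X := Quotient.mk''
  have hmk : Function.Surjective mk := Quotient.mk''_surjective
  let L : (MulAction.orbitRel.Quotient (Subgroup.zpowers g) X → ℂ) →ₗ[ℂ] (X → ℂ) :=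
    LinearMap.funLeft ℂ ℂ mk
  have hinj : Function.Injective L := LinearMap.funLeft_injective_of_surjective ℂ ℂ mk hmk
  have hrange : LinearMap.range L = h47_eig (X := X) g 1 := by
    ext f
    rw [h47_mem_eig, LinearMap.mem_range]
    constructor
    · rintro ⟨φ, rfl⟩ x
      rw [one_mul]
      show φ (mk (g • x)) = φ (mk x)
      congr 1
      apply Quotient.sound
      show MulAction.orbitRel _ _ _ _
      rw [MulAction.orbitRel_apply]
      exact ⟨⟨g, Subgroup.mem_zpowers g⟩, rfl⟩
    · intro hf
      have hf' : ∀ x, f (g • x) = f x := fun x => by rw [hf x, one_mul]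
      refine ⟨Quotient.lift f ?_, ?_⟩
      · intro a b hab
        have hab' : a ∈ MulAction.orbit (Subgroup.zpowers g) b := hab
        obtain ⟨⟨h, hh⟩, rfl⟩ := hab'
        exact h47_inv_zpowers hf' hh b
      · funext x
        rfl
  rw [← hrange, LinearMap.finrank_range_of_inj hinj, Module.finrank_fintype_fun_eq_card,
    h47_orbCount, Nat.card_eq_fintype_card]

theorem h47_finrank_eig_neg_one [Finite X] (g : G) (hg : ∀ x : X, g • g • x = x) :
    finrank ℂ (h47_eig (X := X) g (-1)) + h47_orbCount X g = Nat.card X := by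
  classical
  have := Fintype.ofFinite X
  set A : (X → ℂ) →ₗ[ℂ] (X → ℂ) := h47_Q g - (1 : ℂ) • LinearMap.id with hA
  have hrange : LinearMap.range A = h47_eig (X := X) g (-1) := by
    ext v
    rw [h47_mem_eig, LinearMap.mem_range]
    constructor
    · rintro ⟨w, rfl⟩ x
      simp only [hA, LinearMap.sub_apply, LinearMap.smul_apply, LinearMap.id_apply, Pi.sub_apply,
        Pi.smul_apply, smul_eq_mul, h47_Q_apply, hg]
      ring
    · intro hv
      refine ⟨(-(1 / 2 : ℂ)) • v, ?_⟩
      funext x
      simp only [hA, LinearMap.sub_apply, LinearMap.smul_apply, LinearMap.id_apply, Pi.sub_apply,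
        Pi.smul_apply, smul_eq_mul, h47_Q_apply, hv x]
      ring
  have h1 := LinearMap.finrank_range_add_finrank_ker A
  rw [Module.finrank_fintype_fun_eq_card, hrange] at h1
  have h2 : finrank ℂ (LinearMap.ker A) = h47_orbCount X g := h47_finrank_eig_one g
  rw [Nat.card_eq_fintype_card]
  omega

/-- Complex conjugation identifies the `c`- and `conj c`-eigenspaces (real-linearly). -/
noncomputable def h47_eigConj (g : G) (c : ℂ) :
    h47_eig (X := X) g c ≃ₗ[ℝ] h47_eig (X := X) g ((starRingEnd ℂ) c) where
  toFun v := ⟨fun x => (starRingEnd ℂ) (v.1 x), h47_mem_eig.mpr fun x => by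
    have := h47_mem_eig.mp v.2 x
    rw [this, map_mul]⟩
  invFun v := ⟨fun x => (starRingEnd ℂ) (v.1 x), h47_mem_eig.mpr fun x => by
    have := h47_mem_eig.mp v.2 x
    rw [this, map_mul, Complex.conj_conj]⟩
  map_add' v w := by
    apply Subtype.ext
    funext x
    simp
  map_smul' r v := by
    apply Subtype.ext
    funext x
    simp
  left_inv v := by
    apply Subtype.ext
    funext x
    simp
  right_inv v := by
    apply Subtype.ext
    funext x
    simp

lemma h47_finrank_eig_conj (g : G) (c : ℂ) :
    finrank ℂ (h47_eig (X := X) g ((starRingEnd ℂ) c)) = finrank ℂ (h47_eig (X := X) g c) := by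
  have h1 := Module.finrank_mul_finrank ℝ ℂ (h47_eig (X := X) g c)
  have h2 := Module.finrank_mul_finrank ℝ ℂ (h47_eig (X := X) g ((starRingEnd ℂ) c))
  have h3 := (h47_eigConj (X := X) g c).finrank_eq
  rw [Complex.finrank_real_complex] at h1 h2
  omega

lemma h47_conj_omega {ω : ℂ} (hω : ω ^ 2 + ω + 1 = 0) : (starRingEnd ℂ) ω = -1 - ω := by
  have hre := congrArg Complex.re hω
  have him := congrArg Complex.im hω
  simp only [pow_two, Complex.add_re, Complex.mul_re, Complex.one_re, Complex.zero_re,
    Complex.add_im, Complex.mul_im, Complex.one_im, Complex.zero_im] at hre him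
  have hb : ω.im ≠ 0 := by
    intro hb
    rw [hb] at hre
    nlinarith [sq_nonneg (ω.re + 1 / 2)]
  have ha : ω.re = -1 / 2 := by
    have : ω.im * (2 * ω.re + 1) = 0 := by linarith
    rcases mul_eq_zero.mp this with h | h
    · exact absurd h hb
    · linarith
  apply Complex.ext
  · simp [ha]; norm_num
  · simp

theorem h47_finrank_eig_omega [Finite X] (g : G) (hg : ∀ x : X, g • g • g • x = x) (ω : ℂ)
    (hω : ω ^ 2 + ω + 1 = 0) :
    2 * finrank ℂ (h47_eig (X := X) g ω) + h47_orbCount X g = Nat.card X := by
  classical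
  have := Fintype.ofFinite X
  set ω' : ℂ := -1 - ω with hω'
  have hsum : ω + ω' = -1 := by rw [hω']; ring
  have hprod : ω * ω' = 1 := by rw [hω']; linear_combination -hω
  have hne : ω - ω' ≠ 0 := by
    intro h
    have h2 : (ω - ω') ^ 2 = -3 := by rw [hω']; linear_combination 4 * hω
    rw [h, zero_pow two_ne_zero] at h2
    norm_num at h2
  -- the kernel of `1 + Q + Q²`
  set A : (X → ℂ) →ₗ[ℂ] (X → ℂ) := h47_Q g - (1 : ℂ) • LinearMap.id with hA
  let K : Submodule ℂ (X → ℂ) :=
    { carrier := {v | ∀ x, v x + v (g • x) + v (g • g • x) = 0}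
      add_mem' := fun {v w} hv hw x => by
        have := hv x
        have := hw x
        simp only [Pi.add_apply]
        linear_combination hv x + hw x
      zero_mem' := fun x => by simp
      smul_mem' := fun c v hv x => by
        simp only [Pi.smul_apply, smul_eq_mul]
        linear_combination c * hv x }
  have hrange : LinearMap.range A = K := by
    ext v
    rw [LinearMap.mem_range]
    constructor
    · rintro ⟨w, rfl⟩ x
      simp only [hA, LinearMap.sub_apply, LinearMap.smul_apply, LinearMap.id_apply, Pi.sub_apply,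
        Pi.smul_apply, smul_eq_mul, h47_Q_apply, hg]
      ring
    · intro hv
      refine ⟨(-(2 / 3 : ℂ)) • v + (-(1 / 3 : ℂ)) • h47_Q g v, ?_⟩
      funext x
      have := hv x
      simp only [hA, LinearMap.sub_apply, LinearMap.smul_apply, LinearMap.id_apply, Pi.sub_apply,
        Pi.smul_apply, smul_eq_mul, h47_Q_apply, map_add, map_smul, Pi.add_apply]
      linear_combination (-(1 / 3 : ℂ)) * hv x
  have h1 := LinearMap.finrank_range_add_finrank_ker A
  rw [Module.finrank_fintype_fun_eq_card, hrange] at h1
  have h2 : finrank ℂ (LinearMap.ker A) = h47_orbCount X g := h47_finrank_eig_one g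
  -- `K` is the sum of the `ω`- and `ω'`-eigenspaces
  have hωK : h47_eig (X := X) g ω ≤ K := by
    intro v hv x
    have e1 := h47_mem_eig.mp hv x
    have e2 := h47_mem_eig.mp hv (g • x)
    rw [e2, e1]
    linear_combination (v x) * hω
  have hω'K : h47_eig (X := X) g ω' ≤ K := by
    intro v hv x
    have e1 := h47_mem_eig.mp hv x
    have e2 := h47_mem_eig.mp hv (g • x)
    rw [e2, e1]
    have hω2 : ω' ^ 2 + ω' + 1 = 0 := by rw [hω']; linear_combination hω
    linear_combination (v x) * hω2
  let B : K →ₗ[ℂ] (X → ℂ) := (h47_Q g - ω' • LinearMap.id) ∘ₗ K.subtype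
  have hBrange : LinearMap.range B = h47_eig (X := X) g ω := by
    ext u
    rw [LinearMap.mem_range, h47_mem_eig]
    constructor
    · rintro ⟨v, rfl⟩ x
      have hv := v.2 x
      simp only [B, LinearMap.comp_apply, Submodule.subtype_apply, LinearMap.sub_apply,
        LinearMap.smul_apply, LinearMap.id_apply, Pi.sub_apply, Pi.smul_apply, smul_eq_mul,
        h47_Q_apply]
      linear_combination hv - (v : X → ℂ) (g • x) * hsum + (v : X → ℂ) x * hprod
    · intro hu
      have huK : u ∈ K := hωK (h47_mem_eig.mpr hu)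
      refine ⟨⟨(ω - ω')⁻¹ • u, K.smul_mem _ huK⟩, ?_⟩
      funext x
      simp only [B, LinearMap.comp_apply, Submodule.subtype_apply, LinearMap.sub_apply,
        LinearMap.smul_apply, LinearMap.id_apply, Pi.sub_apply, Pi.smul_apply, smul_eq_mul,
        h47_Q_apply, hu x]
      field_simp
  have hBker : LinearMap.ker B = Submodule.comap K.subtype (h47_eig (X := X) g ω') := by
    ext v
    rw [LinearMap.mem_ker, Submodule.mem_comap]
    rfl
  have h3 := LinearMap.finrank_range_add_finrank_ker B
  rw [hBrange, hBker, (Submodule.comapSubtypeEquivOfLe hω'K).finrank_eq] at h3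
  have h4 : finrank ℂ (h47_eig (X := X) g ω') = finrank ℂ (h47_eig (X := X) g ω) := by
    rw [hω', ← h47_conj_omega hω]
    exact h47_finrank_eig_conj g ω
  rw [Nat.card_eq_fintype_card]
  omega

end Eigen

end Fermat.Agent.S24
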