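import Mathlib
import Fermat.Agent.S24.h59_InvQ
import Fermat.Agent.S24.h64_ConjQ

set_option autoImplicit false

namespace Fermat.Agent.S24

open UpperHalfPlane

theorem h59_qParam_vadd (h a : ℝ) (τ : ℍ) :
    Function.Periodic.qParam h ((a +ᵥ τ : ℍ) : ℂ)
      = Complex.exp (2 * Real.pi * Complex.I * a / h) * Function.Periodic.qParam h (τ : ℂ) := by
  rw [Function.Periodic.qParam, Function.Periodic.qParam, ← Complex.exp_add]
  congr 1
  rw [UpperHalfPlane.coe_vadd]
  ring

/-- Translation: if `g` has the `q_h`-expansion `c` then `τ ↦ g (a + τ)` has the twisted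
expansion. -/
theorem h59_isQExp_vadd {h : ℝ} {c : LaurentSeries ℂ} {g : ℍ → ℂ} (hg : h77_IsQExp h c g)
    (a : ℝ) :
    h77_IsQExp h (h64_twist (Complex.exp (2 * Real.pi * Complex.I * a / h)) c)
      (fun τ => g (a +ᵥ τ)) := by
  intro τ
  have := hg (a +ᵥ τ)
  convert this using 2 with k
  rw [h64_twist_coeff, h59_qParam_vadd, mul_zpow, mul_assoc]

/-- Period implies support: a function of period `w` with a `q_N`-expansion only has
coefficients at indices `k` with `N ∣ w * k`. -/
theorem h59_coeff_eq_zero_of_periodic {N : ℕ} [NeZero N] {c : LaurentSeries ℂ} {g : ℍ → ℂ}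
    (hg : h77_IsQExp N c g) (w : ℕ) (hper : ∀ τ : ℍ, g ((w : ℝ) +ᵥ τ) = g τ) (k : ℤ)
    (hk : ¬ (N : ℤ) ∣ w * k) : c.coeff k = 0 := by
  have hN : (0 : ℝ) < N := by exact_mod_cast Nat.pos_of_ne_zero (NeZero.ne N)
  have h1 := h59_isQExp_vadd hg (w : ℝ)
  have h2 : (fun τ => g ((w : ℝ) +ᵥ τ)) = g := funext hper
  rw [h2] at h1
  have h3 := h1.unique hN hg
  have h4 := congrArg (fun s : LaurentSeries ℂ => s.coeff k) h3
  simp only [h64_twist_coeff] at h4
  by_contra hck
  have h5 : Complex.exp (2 * Real.pi * Complex.I * (w : ℝ) / (N : ℝ)) ^ k = 1 := by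
    have := mul_left_cancel₀ hck (h4.trans (mul_one _).symm)
    exact this
  rw [← Complex.exp_int_mul, Complex.exp_eq_one_iff] at h5
  obtain ⟨n, hn⟩ := h5
  apply hk
  refine ⟨n, ?_⟩
  have hN' : (N : ℂ) ≠ 0 := by exact_mod_cast NeZero.ne N
  have hpi : (2 * Real.pi * Complex.I : ℂ) ≠ 0 := Complex.two_pi_I_ne_zero
  have h6 : (k : ℂ) * (w : ℂ) = n * N := by
    have : (k : ℂ) * (2 * Real.pi * Complex.I * ((w : ℝ) : ℂ) / ((N : ℝ) : ℂ)) =
        n * (2 * Real.pi * Complex.I) := hn
    push_cast at this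
    field_simp at this
    linear_combination this
  have h7 : ((k * w : ℤ) : ℂ) = ((n * N : ℤ) : ℂ) := by push_cast; exact h6
  have h8 : k * w = n * N := by exact_mod_cast h7
  rw [mul_comm (w : ℤ) k, h8, mul_comm]

section Contract

variable {R : Type*} [CommRing R]

/-- The series `∑ c_{N k} q^k`. -/
noncomputable def h59_contract (N : ℕ) [NeZero N] (c : LaurentSeries R) : LaurentSeries R :=
  HahnSeries.ofSuppBddBelow (fun k : ℤ => c.coeff ((N : ℤ) * k))
    ⟨min c.order 0, fun m hm => by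
      by_contra hlt
      rw [not_le] at hlt
      apply hm
      have hN : (1 : ℤ) ≤ N := by exact_mod_cast Nat.one_le_iff_ne_zero.mpr (NeZero.ne N)
      have hm0 : m < 0 := lt_of_lt_of_le hlt (min_le_right _ _)
      have hmo : m < c.order := lt_of_lt_of_le hlt (min_le_left _ _)
      have : (N : ℤ) * m ≤ m := by nlinarith
      exact HahnSeries.coeff_eq_zero_of_lt_order (lt_of_le_of_lt this hmo)⟩

@[simp]
theorem h59_contract_coeff (N : ℕ) [NeZero N] (c : LaurentSeries R) (k : ℤ) :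
    (h59_contract N c).coeff k = c.coeff ((N : ℤ) * k) := rfl

theorem h59_qExpand_contract (N : ℕ) [NeZero N] (c : LaurentSeries R)
    (hc : ∀ k : ℤ, ¬ (N : ℤ) ∣ k → c.coeff k = 0) :
    ModularCurve.qExpand R N (h59_contract N c) = c := by
  ext k
  by_cases hk : (N : ℤ) ∣ k
  · obtain ⟨m, rfl⟩ := hk
    rw [ModularCurve.qExpand_coeff_mul, h59_contract_coeff]
  · rw [ModularCurve.qExpand_coeff_of_not_dvd N _ hk, hc k hk]

theorem h59_contract_qExpand (N : ℕ) [NeZero N] (c : LaurentSeries R) :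
    h59_contract N (ModularCurve.qExpand R N c) = c := by
  ext k
  rw [h59_contract_coeff, ModularCurve.qExpand_coeff_mul]

theorem h59_coeffMap_contract {S : Type*} [CommRing S] (f : R →+* S) (N : ℕ) [NeZero N]
    (c : LaurentSeries R) :
    ModularCurve.coeffMap f (h59_contract N c) = h59_contract N (ModularCurve.coeffMap f c) := by
  ext k
  simp

end Contract

/-- **Width reduction.** A function of period one with a `q_N`-expansion `c` has the
`q`-expansion `h59_contract N c`, and `c` is the `N`-fold dilation of it. -/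
theorem h59_isQExp_width_one {N : ℕ} [NeZero N] {c : LaurentSeries ℂ} {g : ℍ → ℂ}
    (hc : h77_IsQExp N c g) (hper : ∀ τ : ℍ, g ((1 : ℝ) +ᵥ τ) = g τ) :
    c = ModularCurve.qExpand ℂ N (h59_contract N c) ∧ h77_IsQExp 1 (h59_contract N c) g := by
  have hsupp : ∀ k : ℤ, ¬ (N : ℤ) ∣ k → c.coeff k = 0 := by
    intro k hk
    refine h59_coeff_eq_zero_of_periodic hc 1 (by simpa using hper) k ?_
    simpa using hk
  have hq := h59_qExpand_contract N c hsupp
  refine ⟨hq.symm, fun τ => ?_⟩
  have h1 := hc τ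
  rw [← hq] at h1
  rw [h77_hasSum_qExpand_iff] at h1
  have h2 := h77_qParam_pow N 1 (τ : ℂ)
  rw [mul_one] at h2
  rw [h2] at h1
  exact h1

/-- Width reduction over a coefficient field `K`. -/
theorem h59_isQExp_width_one_K {K : Type*} [Field K] (ι : K →+* ℂ) {N : ℕ} [NeZero N]
    {c : LaurentSeries K} {g : ℍ → ℂ} (hc : h77_IsQExp N (ModularCurve.coeffMap ι c) g)
    (hper : ∀ τ : ℍ, g ((1 : ℝ) +ᵥ τ) = g τ) :
    c = ModularCurve.qExpand K N (h59_contract N c) ∧
      h77_IsQExp 1 (ModularCurve.coeffMap ι (h59_contract N c)) g := by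
  obtain ⟨h1, h2⟩ := h59_isQExp_width_one hc hper
  refine ⟨?_, ?_⟩
  · apply h77_coeffMap_injective ι
    rw [ModularCurve.coeffMap_qExpand, h59_coeffMap_contract]
    exact h1
  · rw [h59_coeffMap_contract]
    exact h2

/-- **Invariants with a `K`-rational `q_N`-expansion are polynomials in `j` over `K`.**
This is the form used for products of conjugates: `g` is `SL(2, ℤ)`-invariant and has a
`q_N`-expansion `c` with coefficients in `K`; then `c` is the `N`-fold dilation of a
polynomial in the formal `j`. -/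
theorem h59_invariant_of_width {K : Type*} [Field K] [Algebra ℚ K] (ι : K →+* ℂ) {N : ℕ}
    [NeZero N] (c : LaurentSeries K) (g : ℍ → ℂ)
    (hc : h77_IsQExp N (ModularCurve.coeffMap ι c) g)
    (hinv : ∀ (γ : Matrix.SpecialLinearGroup (Fin 2) ℤ) (τ : ℍ), g (γ • τ) = g τ) :
    ∃ P : Polynomial K,
      c = ModularCurve.qExpand K N
        (Polynomial.aeval (ModularCurve.coeffEmb K ModularCurve.jq) P) ∧
      ∀ τ : ℍ, g τ = (P.map ι).eval (h77_j τ) := by
  have hper : ∀ τ : ℍ, g ((1 : ℝ) +ᵥ τ) = g τ := by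
    intro τ
    rw [← UpperHalfPlane.modular_T_smul]
    exact hinv _ τ
  obtain ⟨h1, h2⟩ := h59_isQExp_width_one_K ι hc hper
  obtain ⟨P, hP, hg⟩ := h59_isQExp_invariant_K ι _ g h2 hinv
  exact ⟨P, by rw [← hP]; exact h1, hg⟩

end Fermat.Agent.S24
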