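import Mathlib
import Fermat.Prelude.Def_ModularCurve_GenusNumerics
import Fermat.Agent.S24.h47_Ree

set_option autoImplicit false

namespace Fermat.Agent.S24

/-- Pure arithmetic: from the orbit counts to the genus formula. `n - cS - cR - cT` is the
degree of the divisor of `dj`. -/
theorem h47_genus_numerics (N : ℕ) (n cS cR cT : ℕ)
    (h2 : 2 * cS = n + ModularCurve.nuTwo N) (h3 : 3 * cR = n + 2 * ModularCurve.nuThree N)
    (hT : cT = ModularCurve.cuspCount N) (hn : n = ModularCurve.dedekindPsi N)
    (hree : cS + cR + cT ≤ n + 2) (hpar : Even (n + cS + cR + cT)) :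
    ((((n : ℤ) - cS - cR - cT + 2).toNat / 2 : ℕ) : ℚ) = ModularCurve.genusFormula N := by
  obtain ⟨m, hm⟩ := hpar
  have hd : ((n : ℤ) - cS - cR - cT + 2).toNat = n + 2 - (cS + cR + cT) := by omega
  have hd2 : n + 2 - (cS + cR + cT) = 2 * (m + 1 - (cS + cR + cT)) := by omega
  have hle : cS + cR + cT ≤ m + 1 := by omega
  rw [hd, hd2, Nat.mul_div_cancel_left _ (by norm_num : 0 < 2)]
  unfold ModularCurve.genusFormula
  rw [← hn, ← hT]
  have h2' : (2 : ℚ) * cS = n + ModularCurve.nuTwo N := by exact_mod_cast h2
  have h3' : (3 : ℚ) * cR = n + 2 * ModularCurve.nuThree N := by exact_mod_cast h3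
  have hm' : (n : ℚ) + cS + cR + cT = m + m := by exact_mod_cast hm
  rw [Nat.cast_sub hle]
  push_cast
  linarith

/-- Packaged form: for a finite transitive `G`-set `X` and generators `s`, `t`, the number
`(Nat.card X - c(s) - c(s*t) - c(t) + 2).toNat / 2` equals the genus formula as soon as the
orbit counts are the expected ones. -/
theorem h47_genus_of_counts (N : ℕ) {G X : Type*} [Group G] [MulAction G X] [Finite X]
    [MulAction.IsPretransitive G X] (s t : G) (hgen : Subgroup.closure {s, t} = ⊤)
    (hn : Nat.card X = ModularCurve.dedekindPsi N)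
    (h2 : 2 * h47_orbCount X s = Nat.card X + ModularCurve.nuTwo N)
    (h3 : 3 * h47_orbCount X (s * t) = Nat.card X + 2 * ModularCurve.nuThree N)
    (hT : h47_orbCount X t = ModularCurve.cuspCount N) :
    (((((Nat.card X : ℕ) : ℤ) - h47_orbCount X s - h47_orbCount X (s * t) - h47_orbCount X t
      + 2).toNat / 2 : ℕ) : ℚ) = ModularCurve.genusFormula N := by
  have hree := h47_ree (X := X) s t hgen
  have hpar := h47_parity (X := X) s t
  refine h47_genus_numerics N (Nat.card X) _ _ _ h2 h3 hT hn (by omega) ?_
  have : Nat.card X + h47_orbCount X s + h47_orbCount X (s * t) + h47_orbCount X t =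
      Nat.card X + h47_orbCount X s + h47_orbCount X t + h47_orbCount X (s * t) := by ring
  rw [this]
  exact hpar

end Fermat.Agent.S24
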