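import Mathlib
import Fermat.Prelude.Def_AlgebraicCurve_CanonicalDivisor

set_option autoImplicit false

open KaehlerDifferential IsLocalRing AlgebraicCurve

namespace Fermat.Agent.S24

variable {K F : Type*} [Field K] [Field F] [Algebra K F] (v : Place K F)

/-- The prelude's coordinate differential at a place is `d π` for some uniformizer `π`. -/
theorem h46_exists_irreducible_dCoord :
    ∃ π : v.toValuationSubring, Irreducible π ∧
      v.dCoord = KaehlerDifferential.D K F (π : F) :=
  ⟨_, (IsDiscreteValuationRing.exists_irreducible v.toValuationSubring).choose_spec, rfl⟩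

/-- If the residue field is `K`, every element of the valuation ring is congruent to a
constant. -/
theorem h46_exists_sub_mem_maximalIdeal
    (hres : Function.Surjective (algebraMap K v.ResidueField)) (x : v.toValuationSubring) :
    ∃ a : K, x - algebraMap K v.toValuationSubring a ∈ maximalIdeal v.toValuationSubring := by
  obtain ⟨a, ha⟩ := hres (residue v.toValuationSubring x)
  refine ⟨a, ?_⟩
  rw [← residue_eq_zero_iff, map_sub, sub_eq_zero, ← ha]
  rfl

/-- Nakayama: the differentials of the valuation ring are generated by `d π`. -/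
theorem h46_span_D_irreducible
    (hres : Function.Surjective (algebraMap K v.ResidueField))
    [Algebra.EssFiniteType K v.toValuationSubring]
    {π : v.toValuationSubring} (hπ : Irreducible π) :
    Submodule.span v.toValuationSubring
      {KaehlerDifferential.D K v.toValuationSubring π} = ⊤ := by
  have hfg : (⊤ : Submodule v.toValuationSubring Ω[v.toValuationSubring⁄K]).FG :=
    Module.finite_def.mp inferInstance
  have hJ : maximalIdeal v.toValuationSubring ≤ Ideal.jacobson ⊥ :=
    (IsLocalRing.jacobson_eq_maximalIdeal ⊥ bot_ne_top).ge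
  refine top_le_iff.mp (Submodule.le_of_le_smul_of_le_jacobson_bot hfg hJ ?_)
  intro ω _
  have hω : ω ∈ Submodule.span v.toValuationSubring
      (Set.range (KaehlerDifferential.D K v.toValuationSubring)) := by
    rw [KaehlerDifferential.span_range_derivation]; trivial
  refine Submodule.span_le.mpr ?_ hω
  rintro _ ⟨x, rfl⟩
  obtain ⟨a, ha⟩ := h46_exists_sub_mem_maximalIdeal v hres x
  rw [hπ.maximalIdeal_eq, Ideal.mem_span_singleton'] at ha
  obtain ⟨y, hy⟩ := ha
  have h1 : x = algebraMap K v.toValuationSubring a + y * π := by rw [hy]; ring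
  have h2 : KaehlerDifferential.D K v.toValuationSubring x =
      y • KaehlerDifferential.D K v.toValuationSubring π +
        π • KaehlerDifferential.D K v.toValuationSubring y := by
    rw [h1, map_add, Derivation.map_algebraMap, zero_add, Derivation.leibniz]
  rw [h2]
  refine Submodule.add_mem_sup
    (Submodule.smul_mem _ _ (Submodule.mem_span_singleton_self _))
    (Submodule.smul_mem_smul ?_ Submodule.mem_top)
  rw [hπ.maximalIdeal_eq]
  exact Ideal.mem_span_singleton_self π

/-- Every differential `d x` with `x` in the valuation ring is an integral multiple of `d π`. -/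
theorem h46_D_mem
    (hres : Function.Surjective (algebraMap K v.ResidueField))
    [Algebra.EssFiniteType K v.toValuationSubring]
    {π : v.toValuationSubring} (hπ : Irreducible π) (x : v.toValuationSubring) :
    ∃ c : v.toValuationSubring,
      KaehlerDifferential.D K F (x : F) = (c : F) • KaehlerDifferential.D K F (π : F) := by
  have hx : KaehlerDifferential.D K v.toValuationSubring x ∈
      Submodule.span v.toValuationSubring
        {KaehlerDifferential.D K v.toValuationSubring π} := by
    rw [h46_span_D_irreducible v hres hπ]; trivial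
  obtain ⟨c, hc⟩ := Submodule.mem_span_singleton.mp hx
  refine ⟨c, ?_⟩
  have h := congrArg (KaehlerDifferential.map K K v.toValuationSubring F) hc
  rw [map_smul, KaehlerDifferential.map_D, KaehlerDifferential.map_D] at h
  rw [show ((x : v.toValuationSubring) : F) = algebraMap v.toValuationSubring F x from rfl,
    ← h]
  rfl

/-- Every differential `d z`, `z ∈ F`, is a multiple of `d π`. -/
theorem h46_D_mem_field
    (hres : Function.Surjective (algebraMap K v.ResidueField))
    [Algebra.EssFiniteType K v.toValuationSubring]
    {π : v.toValuationSubring} (hπ : Irreducible π) (z : F) :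
    ∃ c : F, KaehlerDifferential.D K F z = c • KaehlerDifferential.D K F (π : F) := by
  rcases v.toValuationSubring.mem_or_inv_mem z with hz | hz
  · obtain ⟨c, hc⟩ := h46_D_mem v hres hπ ⟨z, hz⟩
    exact ⟨c, hc⟩
  · obtain ⟨c, hc⟩ := h46_D_mem v hres hπ ⟨z⁻¹, hz⟩
    refine ⟨-z ^ 2 * c, ?_⟩
    have h := Derivation.leibniz_inv (KaehlerDifferential.D K F) z⁻¹
    rw [inv_inv] at h
    rw [h, show KaehlerDifferential.D K F z⁻¹ = (c : F) • KaehlerDifferential.D K F (π : F)
      from hc, smul_smul]

/-- The coordinate differential of the prelude generates the differentials. -/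
theorem h46_dCoordGenerates
    (hres : Function.Surjective (algebraMap K v.ResidueField))
    [Algebra.EssFiniteType K v.toValuationSubring] : v.DCoordGenerates := by
  obtain ⟨π, hπ, hd⟩ := h46_exists_irreducible_dCoord v
  refine ⟨top_le_iff.mp ?_⟩
  intro ω _
  have hω : ω ∈ Submodule.span F (Set.range (KaehlerDifferential.D K F)) := by
    rw [KaehlerDifferential.span_range_derivation]; trivial
  refine Submodule.span_le.mpr ?_ hω
  rintro _ ⟨z, rfl⟩
  obtain ⟨c, hc⟩ := h46_D_mem_field v hres hπ z
  rw [hc, hd]
  exact Submodule.smul_mem _ _ (Submodule.mem_span_singleton_self _)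

/-- Explicit form of `d x` at a place where `x` has nonzero order: a unit times
`π ^ (ord x - 1)` times the coordinate differential. -/
theorem h46_D_eq_unit_smul_dCoord
    (hres : Function.Surjective (algebraMap K v.ResidueField))
    [Algebra.EssFiniteType K v.toValuationSubring] [CharZero K]
    {x : F} (hx : v.ord x ≠ 0) :
    ∃ (π : v.toValuationSubring) (_ : Irreducible π) (w : v.toValuationSubringˣ),
      KaehlerDifferential.D K F x =
        (((w : v.toValuationSubring) : F) * (π : F) ^ (v.ord x - 1)) • v.dCoord := by
  obtain ⟨π, hπ, hd⟩ := h46_exists_irreducible_dCoord v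
  have hx0 : x ≠ 0 := by
    rintro rfl
    exact hx v.ord_zero
  obtain ⟨u, hu⟩ := v.exists_unit_mul_zpow hx0 hπ
  obtain ⟨c, hc⟩ := h46_D_mem v hres hπ (u : v.toValuationSubring)
  have hπF : (π : F) ≠ 0 := by
    simpa [ne_eq, ZeroMemClass.coe_eq_zero] using hπ.ne_zero
  have hkK : ((v.ord x : ℤ) : K) ≠ 0 := by exact_mod_cast hx
  have hunit : IsUnit (π * c + algebraMap K v.toValuationSubring ((v.ord x : ℤ) : K) * u) := by
    have h1 : IsUnit (algebraMap K v.toValuationSubring ((v.ord x : ℤ) : K) * u) :=
      ((isUnit_iff_ne_zero.mpr hkK).map (algebraMap K v.toValuationSubring)).mul u.isUnit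
    have h2 : π * c ∈ maximalIdeal v.toValuationSubring := by
      rw [hπ.maximalIdeal_eq]
      exact Ideal.mul_mem_right _ _ (Ideal.mem_span_singleton_self π)
    by_contra hnot
    have h3 : π * c + algebraMap K v.toValuationSubring ((v.ord x : ℤ) : K) * u ∈
        maximalIdeal v.toValuationSubring := hnot
    have h4 := (maximalIdeal v.toValuationSubring).sub_mem h3 h2
    rw [add_sub_cancel_left] at h4
    exact h4 h1
  obtain ⟨w, hw⟩ := hunit
  refine ⟨π, hπ, w, ?_⟩
  have hw' : ((w : v.toValuationSubring) : F) =
      (π : F) * (c : F) + ((v.ord x : ℤ) : F) * ((u : v.toValuationSubring) : F) := by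
    rw [hw]
    push_cast
    congr 2
    simp
  rw [hd, hw']
  conv_lhs => rw [hu]
  have hpow : (π : F) ^ (v.ord x) = (π : F) ^ (v.ord x - 1) * (π : F) := by
    rw [← zpow_add_one₀ hπF, sub_add_cancel]
  rw [Derivation.leibniz, Derivation.leibniz_zpow, hc, ← Int.cast_smul_eq_zsmul F (v.ord x)]
  simp only [smul_smul, ← add_smul]
  congr 1
  rw [hpow]
  ring

/-- The order of a differential `d x` at a place where `x` has nonzero order. -/
theorem h46_ordDifferential_D
    (hres : Function.Surjective (algebraMap K v.ResidueField))
    [Algebra.EssFiniteType K v.toValuationSubring] [CharZero K] [Nontrivial Ω[F⁄K]]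
    {x : F} (hx : v.ord x ≠ 0) :
    v.ordDifferential (KaehlerDifferential.D K F x) = v.ord x - 1 := by
  have := h46_dCoordGenerates v hres
  obtain ⟨π, hπ, w, hcoeff⟩ := h46_D_eq_unit_smul_dCoord v hres hx
  rw [Place.ordDifferential, v.differentialCoeff_unique hcoeff, v.ord_unit_smul_zpow w hπ]

/-- A nonzero differential has a nonzero coefficient with respect to the coordinate
differential. -/
theorem h46_differentialCoeff_ne_zero
    (hres : Function.Surjective (algebraMap K v.ResidueField))
    [Algebra.EssFiniteType K v.toValuationSubring]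
    {ω : Ω[F⁄K]} (hω : ω ≠ 0) : v.differentialCoeff ω ≠ 0 := by
  have := h46_dCoordGenerates v hres
  intro h
  apply hω
  rw [← v.differentialCoeff_smul_dCoord ω, h, zero_smul]

/-- Orders of differentials are compatible with scalar multiplication. -/
theorem h46_ordDifferential_smul
    (hres : Function.Surjective (algebraMap K v.ResidueField))
    [Algebra.EssFiniteType K v.toValuationSubring] [Nontrivial Ω[F⁄K]]
    {f : F} (hf : f ≠ 0) {ω : Ω[F⁄K]} (hω : ω ≠ 0) :
    v.ordDifferential (f • ω) = v.ord f + v.ordDifferential ω := by
  have := h46_dCoordGenerates v hres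
  exact v.ordDifferential_smul hf (h46_differentialCoeff_ne_zero v hres hω)

/-- If `x` has nonzero order at one place then `d x ≠ 0`. -/
theorem h46_D_ne_zero
    (hres : Function.Surjective (algebraMap K v.ResidueField))
    [Algebra.EssFiniteType K v.toValuationSubring] [CharZero K] [Nontrivial Ω[F⁄K]]
    {x : F} (hx : v.ord x ≠ 0) : KaehlerDifferential.D K F x ≠ 0 := by
  have := h46_dCoordGenerates v hres
  obtain ⟨π, hπ, w, hcoeff⟩ := h46_D_eq_unit_smul_dCoord v hres hx
  intro h0
  have hcoef : v.differentialCoeff (KaehlerDifferential.D K F x) = 0 := by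
    rw [h0]; exact v.differentialCoeff_zero
  rw [v.differentialCoeff_unique hcoeff] at hcoef
  have hπF : (π : F) ≠ 0 := by
    simpa [ne_eq, ZeroMemClass.coe_eq_zero] using hπ.ne_zero
  have hwF : ((w : v.toValuationSubring) : F) ≠ 0 := by
    simp [ne_eq, ZeroMemClass.coe_eq_zero]
  exact mul_ne_zero hwF (zpow_ne_zero _ hπF) hcoef

/-- The order of `f • d x` at a place where `x` has nonzero order. -/
theorem h46_ordDifferential_smul_D
    (hres : Function.Surjective (algebraMap K v.ResidueField))
    [Algebra.EssFiniteType K v.toValuationSubring] [CharZero K] [Nontrivial Ω[F⁄K]]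
    {f x : F} (hf : f ≠ 0) (hx : v.ord x ≠ 0) :
    v.ordDifferential (f • KaehlerDifferential.D K F x) = v.ord f + v.ord x - 1 := by
  rw [h46_ordDifferential_smul v hres hf (h46_D_ne_zero v hres hx),
    h46_ordDifferential_D v hres hx]
  ring

/-- The order of `f • d x` at a place where `x - a` has nonzero order, `a` a constant. -/
theorem h46_ordDifferential_smul_D_sub
    (hres : Function.Surjective (algebraMap K v.ResidueField))
    [Algebra.EssFiniteType K v.toValuationSubring] [CharZero K] [Nontrivial Ω[F⁄K]]
    {f x : F} (a : K) (hf : f ≠ 0) (hx : v.ord (x - algebraMap K F a) ≠ 0) :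
    v.ordDifferential (f • KaehlerDifferential.D K F x) =
      v.ord f + v.ord (x - algebraMap K F a) - 1 := by
  have h := h46_ordDifferential_smul_D v hres hf hx
  rwa [map_sub, Derivation.map_algebraMap, sub_zero] at h

end Fermat.Agent.S24
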