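import Mathlib
import Fermat.Prelude.Def_AlgebraicCurve_CanonicalDivisor
import Fermat.Agent.S24.h46_DiffOrd

set_option autoImplicit false

open KaehlerDifferential IsLocalRing AlgebraicCurve

namespace Fermat.Agent.S24

variable {K F : Type*} [Field K] [Field F] [Algebra K F]

section OrdBasics

variable (v : Place K F)

/-- Elements of the valuation ring have nonnegative order. -/
theorem h46_ord_nonneg_of_mem {x : F} (hx : x ∈ v.toValuationSubring) : 0 ≤ v.ord x := by
  by_cases hx0 : x = 0
  · rw [hx0, v.ord_zero]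
  obtain ⟨π, hπ⟩ := IsDiscreteValuationRing.exists_irreducible v.toValuationSubring
  obtain ⟨u, hu⟩ := v.exists_unit_mul_zpow hx0 hπ
  by_contra hneg
  rw [not_le] at hneg
  have hπF : (π : F) ≠ 0 := by
    simpa [ne_eq, ZeroMemClass.coe_eq_zero] using hπ.ne_zero
  obtain ⟨m, hm⟩ : ∃ m : ℕ, v.ord x = -((m : ℤ) + 1) := ⟨(-v.ord x - 1).toNat, by omega⟩
  have h1 : x * (π : F) ^ (m + 1) = ((u : v.toValuationSubring) : F) := by
    conv_lhs => rw [hu, hm]
    rw [mul_assoc, ← zpow_natCast, ← zpow_add₀ hπF]
    push_cast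
    rw [neg_add_cancel, zpow_zero, mul_one]
  have h2 : (⟨x, hx⟩ : v.toValuationSubring) * π ^ (m + 1) = u := by
    apply Subtype.ext
    push_cast
    exact h1
  have h3 : π ∣ (u : v.toValuationSubring) := ⟨⟨x, hx⟩ * π ^ m, by rw [← h2]; ring⟩
  exact hπ.not_isUnit (isUnit_of_dvd_unit h3 u.isUnit)

/-- Elements of nonnegative order lie in the valuation ring. -/
theorem h46_mem_of_ord_nonneg {x : F} (hx : 0 ≤ v.ord x) : x ∈ v.toValuationSubring := by
  by_cases hx0 : x = 0
  · rw [hx0]; exact zero_mem _
  obtain ⟨π, hπ⟩ := IsDiscreteValuationRing.exists_irreducible v.toValuationSubring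
  obtain ⟨u, hu⟩ := v.exists_unit_mul_zpow hx0 hπ
  obtain ⟨m, hm⟩ : ∃ m : ℕ, v.ord x = (m : ℤ) := ⟨(v.ord x).toNat, by omega⟩
  rw [hu, hm, zpow_natCast]
  exact mul_mem (u : v.toValuationSubring).2 (pow_mem π.2 m)

/-- Nonzero elements of the maximal ideal are exactly those of positive order. -/
theorem h46_mem_maximalIdeal_iff {x : v.toValuationSubring} (hx0 : x ≠ 0) :
    x ∈ maximalIdeal v.toValuationSubring ↔ 0 < v.ord (x : F) := by
  have hxF : (x : F) ≠ 0 := by simpa [ne_eq, ZeroMemClass.coe_eq_zero] using hx0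
  constructor
  · intro hx
    rcases (h46_ord_nonneg_of_mem v x.2).lt_or_eq with h | h
    · exact h
    · exfalso
      obtain ⟨π, hπ⟩ := IsDiscreteValuationRing.exists_irreducible v.toValuationSubring
      obtain ⟨u, hu⟩ := v.exists_unit_mul_zpow hxF hπ
      rw [← h, zpow_zero, mul_one] at hu
      have : x = u := Subtype.ext hu
      rw [this] at hx
      exact hx u.isUnit
  · intro hx hunit
    obtain ⟨u, hu⟩ := hunit
    rw [← hu, v.ord_coe_unit] at hx
    exact lt_irrefl _ hx

/-- Constants have order zero. -/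
theorem h46_ord_algebraMap (c : K) : v.ord (algebraMap K F c) = 0 := by
  by_cases hc : c = 0
  · rw [hc, map_zero, v.ord_zero]
  have hu : IsUnit (algebraMap K v.toValuationSubring c) :=
    (isUnit_iff_ne_zero.mpr hc).map _
  obtain ⟨u, hu⟩ := hu
  have := v.ord_coe_unit u
  rwa [hu] at this

/-- The degree of a place whose residue field is the constant field. -/
theorem h46_deg_eq_one (hres : Function.Surjective (algebraMap K v.ResidueField)) :
    v.deg = 1 := by
  rw [Place.deg]
  refine (finrank_eq_one_iff_of_nonzero' (1 : v.ResidueField) one_ne_zero).mpr fun w => ?_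
  obtain ⟨c, hc⟩ := hres w
  exact ⟨c, by rw [Algebra.smul_def, mul_one, hc]⟩

/-- A place is a pole of `t` or lies over a unique value `a` of `t`. -/
theorem h46_pole_or_fibre (hres : Function.Surjective (algebraMap K v.ResidueField))
    {t : F} (ht : ∀ a : K, t ≠ algebraMap K F a) :
    v.ord t < 0 ∨ ∃ a : K, 0 < v.ord (t - algebraMap K F a) := by
  rcases lt_or_ge (v.ord t) 0 with h | h
  · exact Or.inl h
  · right
    have htm := h46_mem_of_ord_nonneg v h
    obtain ⟨a, ha⟩ := h46_exists_sub_mem_maximalIdeal v hres ⟨t, htm⟩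
    refine ⟨a, ?_⟩
    have hne : (⟨t, htm⟩ : v.toValuationSubring) - algebraMap K v.toValuationSubring a ≠ 0 := by
      intro h0
      apply ht a
      have := congrArg (fun y : v.toValuationSubring => (y : F)) h0
      simpa [sub_eq_zero] using this
    exact (h46_mem_maximalIdeal_iff v hne).mp ha

/-- The fibres over distinct values are disjoint. -/
theorem h46_fibre_disjoint {t : F} {a b : K} (hab : a ≠ b)
    (ha : 0 < v.ord (t - algebraMap K F a)) (hb : 0 < v.ord (t - algebraMap K F b)) : False := by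
  have h1 := h46_mem_of_ord_nonneg v ha.le
  have h2 := h46_mem_of_ord_nonneg v hb.le
  have ha0 : t - algebraMap K F a ≠ 0 := by
    intro h; rw [h, v.ord_zero] at ha; exact lt_irrefl _ ha
  have hb0 : t - algebraMap K F b ≠ 0 := by
    intro h; rw [h, v.ord_zero] at hb; exact lt_irrefl _ hb
  have ha' : (⟨_, h1⟩ : v.toValuationSubring) ∈ maximalIdeal v.toValuationSubring :=
    (h46_mem_maximalIdeal_iff v (x := ⟨_, h1⟩)
      (by simpa [ne_eq, Subtype.ext_iff] using ha0)).mpr ha
  have hb' : (⟨_, h2⟩ : v.toValuationSubring) ∈ maximalIdeal v.toValuationSubring :=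
    (h46_mem_maximalIdeal_iff v (x := ⟨_, h2⟩)
      (by simpa [ne_eq, Subtype.ext_iff] using hb0)).mpr hb
  have hsub := (maximalIdeal v.toValuationSubring).sub_mem hb' ha'
  have hunit : IsUnit (algebraMap K v.toValuationSubring (a - b)) :=
    (isUnit_iff_ne_zero.mpr (sub_ne_zero.mpr hab)).map _
  have heq : (⟨_, h2⟩ : v.toValuationSubring) - ⟨_, h1⟩ =
      algebraMap K v.toValuationSubring (a - b) := by
    apply Subtype.ext
    simp
  rw [heq] at hsub
  exact hsub hunit

/-- A place in a fibre is not a pole. -/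
theorem h46_fibre_not_pole {t : F} {a : K}
    (ha : 0 < v.ord (t - algebraMap K F a)) : 0 ≤ v.ord t := by
  have h1 := h46_mem_of_ord_nonneg v ha.le
  have h2 : algebraMap K F a ∈ v.toValuationSubring := v.algebraMap_mem' a
  have : t ∈ v.toValuationSubring := by
    have := add_mem h1 h2
    rwa [sub_add_cancel] at this
  exact h46_ord_nonneg_of_mem v this

end OrdBasics

section Hurwitz

/-- The degree of a divisor computed placewise, when all residue fields are the constants. -/
theorem h46_degree_eq_sum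
    (hres : ∀ v : Place K F, Function.Surjective (algebraMap K v.ResidueField))
    (D : Divisor K F) : Divisor.degree D = ∑ w ∈ D.support, D w := by
  rw [Divisor.degree, Finsupp.liftAddHom_apply, Finsupp.sum]
  refine Finset.sum_congr rfl fun w _ => ?_
  rw [AddMonoidHom.mulRight_apply, h46_deg_eq_one w (hres w), Nat.cast_one, mul_one]

variable [CharZero K] [Nontrivial Ω[F⁄K]]

/-- **Generic Riemann–Hurwitz sum.**  Let `t ∈ F` be non-constant, with all fibres of `t` finite
of total multiplicity `n`, principal divisors of degree zero, and places with residue field `K`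
whose valuation rings are essentially of finite type.  Then the divisor of any nonzero
differential has degree `-2n + ∑_{a ∈ S} (n - #fibre a) + (n - #poles)`, where `S` contains all
branch values. -/
theorem h46_hurwitz (t : F) (n : ℕ)
    (ht : ∀ a : K, t ≠ algebraMap K F a)
    (hres : ∀ v : Place K F, Function.Surjective (algebraMap K v.ResidueField))
    (hEFT : ∀ v : Place K F, Algebra.EssFiniteType K v.toValuationSubring)
    (hfin : ∀ a : K, {v : Place K F | 0 < v.ord (t - algebraMap K F a)}.Finite)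
    (hsum : ∀ a : K, ∑ v ∈ (hfin a).toFinset, v.ord (t - algebraMap K F a) = n)
    (hpfin : {v : Place K F | v.ord t < 0}.Finite)
    (hpsum : ∑ v ∈ hpfin.toFinset, v.ord t = -(n : ℤ))
    (hffin : ∀ f : F, f ≠ 0 → {v : Place K F | v.ord f ≠ 0}.Finite)
    (hfsum : ∀ (f : F) (hf : f ≠ 0), ∑ v ∈ (hffin f hf).toFinset, v.ord f = 0)
    (S : Finset K) (hS : ∀ a : K, a ∉ S → (hfin a).toFinset.card = n)
    {ω : Ω[F⁄K]} (hω : ω ≠ 0) (D : Divisor K F) (hD : ∀ v, D v = v.ordDifferential ω) :
    Divisor.degree D =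
      -2 * (n : ℤ) + ∑ a ∈ S, ((n : ℤ) - ((hfin a).toFinset.card : ℤ)) +
        ((n : ℤ) - (hpfin.toFinset.card : ℤ)) := by
  classical
  have : ∀ v : Place K F, Algebra.EssFiniteType K v.toValuationSubring := hEFT
  rw [h46_degree_eq_sum hres D]
  by_cases hne : Nonempty (Place K F)
  swap
  · -- no places at all
    rw [not_nonempty_iff] at hne
    have hn : (n : ℤ) = 0 := by
      have := hpsum
      rw [Finset.eq_empty_of_isEmpty hpfin.toFinset, Finset.sum_empty] at this
      omega
    have h1 : ∀ a : K, ((hfin a).toFinset.card : ℤ) = 0 := fun a => by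
      rw [Finset.eq_empty_of_isEmpty (hfin a).toFinset, Finset.card_empty, Nat.cast_zero]
    rw [Finset.eq_empty_of_isEmpty D.support, Finset.eq_empty_of_isEmpty hpfin.toFinset]
    simp [hn, h1]
  obtain ⟨v₀⟩ := hne
  -- `d t ≠ 0`
  have hDt : KaehlerDifferential.D K F t ≠ 0 := by
    rcases h46_pole_or_fibre v₀ (hres v₀) ht with h | ⟨a, ha⟩
    · exact h46_D_ne_zero v₀ (hres v₀) (ne_of_lt h)
    · have := h46_D_ne_zero v₀ (hres v₀) (ne_of_gt ha)
      rwa [map_sub, Derivation.map_algebraMap, sub_zero] at this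
  -- `ω = f • d t`
  obtain ⟨f, hf, hωf⟩ : ∃ f : F, f ≠ 0 ∧ ω = f • KaehlerDifferential.D K F t := by
    have := h46_dCoordGenerates v₀ (hres v₀)
    obtain ⟨f₀, hf₀⟩ := v₀.exists_eq_smul_dCoord ω
    obtain ⟨c, hc⟩ := v₀.exists_eq_smul_dCoord (KaehlerDifferential.D K F t)
    have hc0 : c ≠ 0 := by
      rintro rfl
      exact hDt (by rw [hc, zero_smul])
    have hf0 : f₀ ≠ 0 := by
      rintro rfl
      exact hω (by rw [hf₀, zero_smul])
    refine ⟨f₀ / c, div_ne_zero hf0 hc0, ?_⟩
    rw [hc, smul_smul, div_mul_cancel₀ _ hc0, hf₀]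
  set δ : Place K F → ℤ := fun w => w.ordDifferential (KaehlerDifferential.D K F t) with hδdef
  have hDw : ∀ w, D w = w.ord f + δ w := fun w => by
    rw [hD, hωf]
    exact h46_ordDifferential_smul w (hres w) hf hDt
  have hδ_pole : ∀ w : Place K F, w.ord t < 0 → δ w = w.ord t - 1 := fun w h =>
    h46_ordDifferential_D w (hres w) (ne_of_lt h)
  have hδ_fib : ∀ (w : Place K F) (a : K), 0 < w.ord (t - algebraMap K F a) →
      δ w = w.ord (t - algebraMap K F a) - 1 := fun w a h => by
    have := h46_ordDifferential_D w (hres w) (ne_of_gt h)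
    rwa [map_sub, Derivation.map_algebraMap, sub_zero] at this
  -- unramified fibres
  have hunram : ∀ a : K, (hfin a).toFinset.card = n → ∀ w ∈ (hfin a).toFinset,
      w.ord (t - algebraMap K F a) = 1 := by
    intro a hcard w hw
    have h0 : ∑ w ∈ (hfin a).toFinset, (w.ord (t - algebraMap K F a) - 1) = 0 := by
      rw [Finset.sum_sub_distrib, hsum a, Finset.sum_const, hcard]
      simp
    have hnn : ∀ w ∈ (hfin a).toFinset, 0 ≤ w.ord (t - algebraMap K F a) - 1 := by
      intro w hw
      have : 0 < w.ord (t - algebraMap K F a) := by simpa using hw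
      omega
    have := (Finset.sum_eq_zero_iff_of_nonneg hnn).mp h0 w hw
    omega
  set T₀ : Finset (Place K F) := hpfin.toFinset ∪ S.biUnion fun a => (hfin a).toFinset with hT₀
  have hδ0 : ∀ w, w ∉ T₀ → δ w = 0 := by
    intro w hw
    rw [hT₀, Finset.mem_union, not_or] at hw
    rcases h46_pole_or_fibre w (hres w) ht with h | ⟨a, ha⟩
    · exact absurd (by simpa using h) hw.1
    · have haS : a ∉ S := by
        intro haS
        exact hw.2 (Finset.mem_biUnion.mpr ⟨a, haS, by simpa using ha⟩)
      rw [hδ_fib w a ha, hunram a (hS a haS) w (by simpa using ha), sub_self]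
  have hsumδ : ∑ w ∈ T₀, δ w =
      (-(n : ℤ) - (hpfin.toFinset.card : ℤ)) +
        ∑ a ∈ S, ((n : ℤ) - ((hfin a).toFinset.card : ℤ)) := by
    have hdisj : Disjoint hpfin.toFinset (S.biUnion fun a => (hfin a).toFinset) := by
      rw [Finset.disjoint_left]
      intro w hw1 hw2
      obtain ⟨a, _, ha⟩ := Finset.mem_biUnion.mp hw2
      have h1 : w.ord t < 0 := by simpa using hw1
      have h2 : 0 < w.ord (t - algebraMap K F a) := by simpa using ha
      exact absurd (h46_fibre_not_pole w h2) (not_le.mpr h1)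
    have hpair : (S : Set K).PairwiseDisjoint fun a => (hfin a).toFinset := by
      intro a _ b _ hab
      rw [Function.onFun, Finset.disjoint_left]
      intro w hwa hwb
      exact h46_fibre_disjoint w hab (by simpa using hwa) (by simpa using hwb)
    rw [hT₀, Finset.sum_union hdisj, Finset.sum_biUnion hpair]
    congr 1
    · rw [Finset.sum_congr rfl (fun w hw => hδ_pole w (by simpa using hw)),
        Finset.sum_sub_distrib, hpsum, Finset.sum_const]
      simp
    · refine Finset.sum_congr rfl fun a _ => ?_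
      rw [Finset.sum_congr rfl (fun w hw => hδ_fib w a (by simpa using hw)),
        Finset.sum_sub_distrib, hsum a, Finset.sum_const]
      simp
  -- assemble
  set G : Finset (Place K F) := (hffin f hf).toFinset with hG
  set U : Finset (Place K F) := T₀ ∪ G ∪ D.support with hU
  have h1 : ∑ w ∈ D.support, D w = ∑ w ∈ U, D w := by
    refine Finset.sum_subset (by rw [hU]; exact Finset.subset_union_right) ?_
    intro w _ hw
    exact Finsupp.notMem_support_iff.mp hw
  have h2 : ∑ w ∈ U, w.ord f = ∑ w ∈ G, w.ord f := by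
    symm
    refine Finset.sum_subset (by
      rw [hU]
      exact Finset.subset_union_left.trans' Finset.subset_union_right |>.trans le_rfl) ?_
    intro w _ hw
    by_contra hne
    exact hw (by rw [hG]; simpa using hne)
  have h3 : ∑ w ∈ U, δ w = ∑ w ∈ T₀, δ w := by
    symm
    refine Finset.sum_subset (by
      rw [hU]
      exact Finset.subset_union_left.trans Finset.subset_union_left) ?_
    intro w _ hw
    exact hδ0 w hw
  rw [h1, Finset.sum_congr rfl (fun w _ => hDw w), Finset.sum_add_distrib, h2, h3, hG, hfsum f hf,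
    hsumδ]
  ring

/-- The generic Riemann–Hurwitz sum with at most two finite branch values, in `Nat.card`
form: `deg = n - #fibre a₁ - #fibre a₂ - #poles`. -/
theorem h46_hurwitz_two (t : F) (n : ℕ)
    (ht : ∀ a : K, t ≠ algebraMap K F a)
    (hres : ∀ v : Place K F, Function.Surjective (algebraMap K v.ResidueField))
    (hEFT : ∀ v : Place K F, Algebra.EssFiniteType K v.toValuationSubring)
    (hfin : ∀ a : K, {v : Place K F | 0 < v.ord (t - algebraMap K F a)}.Finite)
    (hsum : ∀ a : K, ∑ v ∈ (hfin a).toFinset, v.ord (t - algebraMap K F a) = n)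
    (hpfin : {v : Place K F | v.ord t < 0}.Finite)
    (hpsum : ∑ v ∈ hpfin.toFinset, v.ord t = -(n : ℤ))
    (hffin : ∀ f : F, f ≠ 0 → {v : Place K F | v.ord f ≠ 0}.Finite)
    (hfsum : ∀ (f : F) (hf : f ≠ 0), ∑ v ∈ (hffin f hf).toFinset, v.ord f = 0)
    (a₁ a₂ : K) (ha : a₁ ≠ a₂)
    (hS : ∀ a : K, a ≠ a₁ → a ≠ a₂ →
      Nat.card {v : Place K F // 0 < v.ord (t - algebraMap K F a)} = n)
    {ω : Ω[F⁄K]} (hω : ω ≠ 0) (D : Divisor K F) (hD : ∀ v, D v = v.ordDifferential ω) :
    Divisor.degree D =
      (n : ℤ) - (Nat.card {v : Place K F // 0 < v.ord (t - algebraMap K F a₁)} : ℤ)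
        - (Nat.card {v : Place K F // 0 < v.ord (t - algebraMap K F a₂)} : ℤ)
        - (Nat.card {v : Place K F // v.ord t < 0} : ℤ) := by
  classical
  have hc : ∀ a : K, Nat.card {v : Place K F // 0 < v.ord (t - algebraMap K F a)} =
      (hfin a).toFinset.card := fun a => by
    rw [← Set.ncard_eq_toFinset_card _ (hfin a)]
    exact Nat.card_coe_set_eq _
  have hcp : Nat.card {v : Place K F // v.ord t < 0} = hpfin.toFinset.card := by
    rw [← Set.ncard_eq_toFinset_card _ hpfin]
    exact Nat.card_coe_set_eq _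
  have h := h46_hurwitz t n ht hres hEFT hfin hsum hpfin hpsum hffin hfsum {a₁, a₂}
    (fun a haS => by
      rw [← hc a]
      refine hS a ?_ ?_
      · rintro rfl; exact haS (by simp)
      · rintro rfl; exact haS (by simp)) hω D hD
  rw [h, Finset.sum_pair ha, hc a₁, hc a₂, hcp]
  ring

end Hurwitz

end Fermat.Agent.S24
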