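import Mathlib
import Fermat.Prelude.Def_AlgebraicCurve_CanonicalDivisor
import Fermat.Agent.S24.h46_Hurwitz

/-!
# Genus of a function field from the number of places in three fibres

`h36_genus_of_hurwitz_two` turns helper46's generic Riemann–Hurwitz sum `h46_hurwitz_two`
into a statement about the prelude's `AlgebraicCurve.genus`.
-/

set_option autoImplicit false

open KaehlerDifferential AlgebraicCurve

namespace Fermat.Agent.S24

variable {K F : Type*} [Field K] [Field F] [Algebra K F]

/-- The prelude genus is computed from the degree of the divisor of any nonzero differential: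
if every divisor of a nonzero differential has degree `d`, then the genus is
`(d + 2).toNat / 2`. -/
theorem h36_genus_of_degree [Nontrivial Ω[F⁄K]]
    [AlgebraicCurve.HasCanonicalDivisor (K := K) (F := F)] (d : ℤ)
    (hd : ∀ (ω : Ω[F⁄K]), ω ≠ 0 → ∀ D : Divisor K F,
      (∀ v : Place K F, D v = v.ordDifferential ω) → Divisor.degree D = d) :
    AlgebraicCurve.genus K F = (d + 2).toNat / 2 := by
  have hex : ∃ ω : Ω[F⁄K], ω ≠ 0 := exists_ne 0
  unfold AlgebraicCurve.genus
  rw [dif_pos hex]
  rw [hd _ hex.choose_spec (canonicalDivisorOf hex.choose_spec)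
    (fun v => canonicalDivisorOf_apply hex.choose_spec v)]

/-- **Genus from fibre counts** (two special fibres `a₁`, `a₂` and the fibre at infinity),
with the place-theoretic facts as hypotheses in the shapes of `h46_hurwitz_two`. -/
theorem h36_genus_of_hurwitz_two [CharZero K] [Nontrivial Ω[F⁄K]]
    [AlgebraicCurve.HasCanonicalDivisor (K := K) (F := F)] (t : F) (n : ℕ)
    (ht : ∀ a : K, t ≠ algebraMap K F a)
    (hres : ∀ v : Place K F, Function.Surjective (algebraMap K v.ResidueField))
    (hEFT : ∀ v : Place K F, Algebra.EssFiniteType K v.toValuationSubring)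
    (hfin : ∀ a : K, {v : Place K F | 0 < v.ord (t - algebraMap K F a)}.Finite)
    (hsum : ∀ a : K, ∑ v ∈ (hfin a).toFinset, v.ord (t - algebraMap K F a) = n)
    (hpfin : {v : Place K F | v.ord t < 0}.Finite)
    (hpsum : ∑ v ∈ hpfin.toFinset, v.ord t = -(n : ℤ))
    (hffin : ∀ f : F, f ≠ 0 → {v : Place K F | v.ord f ≠ 0}.Finite)
    (hfsum : ∀ (f : F) (hf : f ≠ 0), ∑ v ∈ (hffin f hf).toFinset, v.ord f = 0)
    (a₁ a₂ : K) (ha : a₁ ≠ a₂)
    (hS : ∀ a : K, a ≠ a₁ → a ≠ a₂ →
      Nat.card {v : Place K F // 0 < v.ord (t - algebraMap K F a)} = n) :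
    AlgebraicCurve.genus K F =
      ((n : ℤ) - (Nat.card {v : Place K F // 0 < v.ord (t - algebraMap K F a₁)} : ℤ)
        - (Nat.card {v : Place K F // 0 < v.ord (t - algebraMap K F a₂)} : ℤ)
        - (Nat.card {v : Place K F // v.ord t < 0} : ℤ) + 2).toNat / 2 :=
  h36_genus_of_degree _ fun _ hω D hD =>
    h46_hurwitz_two t n ht hres hEFT hfin hsum hpfin hpsum hffin hfsum a₁ a₂ ha hS hω D hD

end Fermat.Agent.S24
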