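/-
helper73: the generic algebra contract of S24 in hypothesis-free form
(genus of a function field from the number of places in three fibres).
-/
import Mathlib
import Fermat.Prelude.Def_AlgebraicCurve_CanonicalDivisor
import Fermat.Agent.S24.h73_Wrap
import Fermat.Agent.S24.h24_Fibre
import Fermat.Agent.S24.h36_AlgMain

set_option autoImplicit false

namespace Fermat.Agent.S24

open Polynomial KaehlerDifferential IntermediateField AlgebraicCurve

variable {K F : Type*} [Field K] [Field F] [Algebra K F] [IsAlgClosed K] [CharZero K]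

/-- **Genus from fibre counts**, hypothesis-free version. -/
theorem h73_genus_of_fibre_counts [AlgebraicCurve.HasCanonicalDivisor (K := K) (F := F)]
    (t : F) (ht : Transcendental K t) [FiniteDimensional K⟮t⟯ F] (a₁ a₂ : K) (ha : a₁ ≠ a₂)
    (hS : ∀ a : K, a ≠ a₁ → a ≠ a₂ →
      Nat.card {v : Place K F // 0 < v.ord (t - algebraMap K F a)} = Module.finrank K⟮t⟯ F) :
    AlgebraicCurve.genus K F =
      ((Module.finrank K⟮t⟯ F : ℤ)
        - (Nat.card {v : Place K F // 0 < v.ord (t - algebraMap K F a₁)} : ℤ)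
        - (Nat.card {v : Place K F // 0 < v.ord (t - algebraMap K F a₂)} : ℤ)
        - (Nat.card {v : Place K F // v.ord t < 0} : ℤ) + 2).toNat / 2 := by
  classical
  have hF : h73_IsFF K F := ⟨t, inferInstance⟩
  have hnt : Nontrivial Ω[F⁄K] := h73_nontrivial_kaehler hF ht
  have hD0 : ∀ x : F, Transcendental K x → FiniteDimensional K⟮x⟯ F :=
    fun x hx => h73_finite_of_transcendental hF hx
  have ht' : ∀ a : K, t ≠ algebraMap K F a := by
    rintro a rfl
    exact ht (isAlgebraic_algebraMap a)
  have hsum : ∀ a : K, ∑ v ∈ (h24_fibre_finite t ht a).toFinset,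
      v.ord (t - algebraMap K F a) = (Module.finrank K⟮t⟯ F : ℕ) := by
    intro a
    exact h24_fibre_sum t ht a _ (fun v => by simp)
  have hpsum : ∑ v ∈ (h24_fibre_infty_finite t ht).toFinset, v.ord t
      = -((Module.finrank K⟮t⟯ F : ℕ) : ℤ) := by
    have h := h24_fibre_infty_sum t ht (h24_fibre_infty_finite t ht).toFinset (fun v => by simp)
    rw [Finset.sum_neg_distrib] at h
    omega
  have hprin : ∀ f : F, f ≠ 0 → ∃ D : Divisor K F, (∀ v : Place K F, D v = v.ord f) ∧
      D.sum (fun _ n => n) = 0 := fun f hf => h24_exists_principal hD0 f hf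
  have hffin : ∀ f : F, f ≠ 0 → {v : Place K F | v.ord f ≠ 0}.Finite := by
    intro f hf
    obtain ⟨D, hD, -⟩ := hprin f hf
    refine D.support.finite_toSet.subset (fun v hv => ?_)
    simp only [Finset.mem_coe, Finsupp.mem_support_iff, hD v]
    exact hv
  have hfsum : ∀ (f : F) (hf : f ≠ 0), ∑ v ∈ (hffin f hf).toFinset, v.ord f = 0 := by
    intro f hf
    obtain ⟨D, hD, hDsum⟩ := hprin f hf
    have hsupp : (hffin f hf).toFinset = D.support := by
      ext v
      simp [hD v]
    rw [hsupp, ← hDsum, Finsupp.sum]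
    exact Finset.sum_congr rfl (fun v _ => (hD v).symm)
  exact h36_genus_of_hurwitz_two t (Module.finrank K⟮t⟯ F) ht' (h73_hres hF) (h73_hEFT hF)
    (h24_fibre_finite t ht) hsum (h24_fibre_infty_finite t ht) hpsum hffin hfsum a₁ a₂ ha hS

end Fermat.Agent.S24
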