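import Mathlib

set_option autoImplicit false
set_option linter.unusedSectionVars false

namespace Fermat.Agent.S24

open Module Equiv

section Scott

variable {K V : Type*} [Field K] [AddCommGroup V] [Module K V] [FiniteDimensional K V]

/-- The "commutator" space attached to three operators. -/
def ree_W (A B C : V →ₗ[K] V) : Submodule K V :=
  LinearMap.range (A - 1) ⊔ (LinearMap.range (B - 1)).map A ⊔
    (LinearMap.range (C - 1)).map (A ∘ₗ B)

/-- Scott's lemma for three operators with product one. -/
theorem ree_scott (A B C : V →ₗ[K] V) (h : A ∘ₗ B ∘ₗ C = LinearMap.id) :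
    finrank K V + finrank K ↥(ree_W A B C) ≤
      finrank K ↥(LinearMap.ker (A - 1) ⊓ LinearMap.ker (B - 1) ⊓ LinearMap.ker (C - 1)) +
        (finrank K ↥(LinearMap.range (A - 1)) + finrank K ↥(LinearMap.range (B - 1)) +
          finrank K ↥(LinearMap.range (C - 1))) := by
  let β : V →ₗ[K] ↥(LinearMap.range (A - 1)) × ↥(LinearMap.range (B - 1)) ×
      ↥(LinearMap.range (C - 1)) :=
    (A - 1).rangeRestrict.prod ((B - 1).rangeRestrict.prod (C - 1).rangeRestrict)
  let δ : ↥(LinearMap.range (A - 1)) × ↥(LinearMap.range (B - 1)) ×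
      ↥(LinearMap.range (C - 1)) →ₗ[K] V :=
    (Submodule.subtype _).coprod ((A ∘ₗ Submodule.subtype _).coprod
      ((A ∘ₗ B) ∘ₗ Submodule.subtype _))
  have hδβ : δ ∘ₗ β = 0 := by
    ext v
    have h1 : A (B (C v)) = v := by
      have := congrArg (fun f : V →ₗ[K] V => f v) h
      simpa using this
    change (A - 1) v + (A ((B - 1) v) + A (B ((C - 1) v))) = 0
    simp only [LinearMap.sub_apply, Module.End.one_apply, map_sub, h1]
    abel
  have h1 := LinearMap.finrank_range_add_finrank_ker δ
  have h2 := LinearMap.finrank_range_add_finrank_ker β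
  have h3 : LinearMap.range β ≤ LinearMap.ker δ := LinearMap.range_le_ker_iff.mpr hδβ
  have h4 : finrank K ↥(LinearMap.range β) ≤ finrank K ↥(LinearMap.ker δ) :=
    Submodule.finrank_mono h3
  have h5 : LinearMap.ker β =
      LinearMap.ker (A - 1) ⊓ LinearMap.ker (B - 1) ⊓ LinearMap.ker (C - 1) := by
    ext v
    rw [LinearMap.mem_ker]
    constructor
    · intro hv
      have ha : ((β v).1 : V) = 0 := by rw [hv]; rfl
      have hb : ((β v).2.1 : V) = 0 := by rw [hv]; rfl
      have hc : ((β v).2.2 : V) = 0 := by rw [hv]; rfl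
      exact ⟨⟨LinearMap.mem_ker.mpr ha, LinearMap.mem_ker.mpr hb⟩, LinearMap.mem_ker.mpr hc⟩
    · rintro ⟨⟨ha, hb⟩, hc⟩
      exact Prod.ext (Subtype.ext ha) (Prod.ext (Subtype.ext hb) (Subtype.ext hc))
  have h6 : LinearMap.range δ = ree_W A B C := by
    simp only [δ, ree_W, LinearMap.range_coprod, LinearMap.range_comp, Submodule.range_subtype,
      sup_assoc]
  have h7 : finrank K (↥(LinearMap.range (A - 1)) × ↥(LinearMap.range (B - 1)) ×
      ↥(LinearMap.range (C - 1))) = finrank K ↥(LinearMap.range (A - 1)) +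
        finrank K ↥(LinearMap.range (B - 1)) + finrank K ↥(LinearMap.range (C - 1)) := by
    rw [finrank_prod, finrank_prod, add_assoc]
  rw [h5] at h2
  rw [h6] at h1
  omega

/-- Functionals vanishing on the commutator space are invariant. -/
theorem ree_dual_invariant (A B C : V →ₗ[K] V) (φ : Module.Dual K V)
    (hφ : φ ∈ (ree_W A B C).dualAnnihilator) :
    (∀ v, φ (A v) = φ v) ∧ (∀ v, φ (B v) = φ v) := by
  rw [Submodule.mem_dualAnnihilator] at hφ
  have hA : ∀ v, φ (A v) = φ v := fun v => by
    have h0 : φ ((A - 1) v) = 0 :=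
      hφ _ (Submodule.mem_sup_left (Submodule.mem_sup_left ⟨v, rfl⟩))
    rw [LinearMap.sub_apply, map_sub, sub_eq_zero] at h0
    exact h0
  refine ⟨hA, fun v => ?_⟩
  have h0 : φ (A ((B - 1) v)) = 0 :=
    hφ _ (Submodule.mem_sup_left (Submodule.mem_sup_right ⟨(B - 1) v, ⟨v, rfl⟩, rfl⟩))
  rw [hA, LinearMap.sub_apply, map_sub, sub_eq_zero] at h0
  exact h0

end Scott

section PermOrb

variable {α : Type*} [Fintype α] [DecidableEq α]

/-- Number of orbits of a subgroup of permutations. -/
noncomputable def ree_orb (H : Subgroup (Perm α)) : ℕ :=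
  Nat.card (MulAction.orbitRel.Quotient H α)

/-- The permutation operator `f ↦ f ∘ π` on rational functions. -/
noncomputable def ree_P (π : Perm α) : (α → ℚ) →ₗ[ℚ] (α → ℚ) := LinearMap.funLeft ℚ ℚ π

lemma ree_P_apply (π : Perm α) (f : α → ℚ) (x : α) : ree_P π f x = f (π x) := rfl

/-- The stabiliser of a function. -/
def ree_stab (f : α → ℚ) : Subgroup (Perm α) where
  carrier := {g | ∀ x, f (g x) = f x}
  one_mem' := fun _ => rfl
  mul_mem' := fun {a b} ha hb x => by rw [Perm.mul_apply, ha, hb]
  inv_mem' := fun {a} ha x => by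
    have := ha (a⁻¹ x)
    rw [← Perm.mul_apply, mul_inv_cancel, Perm.one_apply] at this
    exact this.symm

/-- Functions invariant under a subgroup of permutations. -/
def ree_inv (H : Subgroup (Perm α)) : Submodule ℚ (α → ℚ) where
  carrier := {f | ∀ h ∈ H, ∀ x, f (h x) = f x}
  add_mem' := fun {f g} hf hg h hh x => by
    rw [Pi.add_apply, Pi.add_apply, hf h hh, hg h hh]
  zero_mem' := fun _ _ _ => rfl
  smul_mem' := fun c f hf h hh x => by
    rw [Pi.smul_apply, Pi.smul_apply, hf h hh]

lemma ree_mem_inv (H : Subgroup (Perm α)) (f : α → ℚ) :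
    f ∈ ree_inv H ↔ H ≤ ree_stab f := Iff.rfl

/-- Invariant functions are functions on the orbit space. -/
noncomputable def ree_invEquiv (H : Subgroup (Perm α)) :
    ree_inv H ≃ₗ[ℚ] (MulAction.orbitRel.Quotient H α → ℚ) where
  toFun f := Quotient.lift (f : α → ℚ) (fun a b hab => by
    obtain ⟨⟨h, hh⟩, rfl⟩ := hab
    exact f.2 h hh b)
  map_add' f g := by
    funext q
    induction q using Quotient.inductionOn with | _ a => rfl
  map_smul' c f := by
    funext q
    induction q using Quotient.inductionOn with | _ a => rfl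
  invFun g := ⟨fun x => g (Quotient.mk _ x), fun h hh x =>
    congrArg g (Quot.sound ⟨⟨h, hh⟩, rfl⟩)⟩
  left_inv f := by
    apply Subtype.ext
    funext x
    rfl
  right_inv g := by
    funext q
    induction q using Quotient.inductionOn with | _ a => rfl

theorem ree_finrank_inv (H : Subgroup (Perm α)) : finrank ℚ ↥(ree_inv H) = ree_orb H := by
  classical
  have : Fintype (MulAction.orbitRel.Quotient H α) := Fintype.ofFinite _
  rw [(ree_invEquiv H).finrank_eq, Module.finrank_fintype_fun_eq_card, ree_orb,
    Nat.card_eq_fintype_card]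

lemma ree_ker_P (π : Perm α) :
    LinearMap.ker (ree_P π - 1) = ree_inv (Subgroup.zpowers π) := by
  ext f
  rw [LinearMap.mem_ker, ree_mem_inv, Subgroup.zpowers_le, LinearMap.sub_apply, sub_eq_zero]
  constructor
  · intro h x
    exact congrFun h x
  · intro h
    funext x
    exact h x

lemma ree_inv_closure_pair (s t : Perm α) :
    ree_inv (Subgroup.closure {s, t}) =
      ree_inv (Subgroup.zpowers s) ⊓ ree_inv (Subgroup.zpowers t) := by
  ext f
  rw [Submodule.mem_inf, ree_mem_inv, ree_mem_inv, ree_mem_inv, Subgroup.closure_le,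
    Subgroup.zpowers_le, Subgroup.zpowers_le]
  constructor
  · intro h
    exact ⟨h (by simp), h (by simp)⟩
  · rintro ⟨hs, ht⟩ g hg
    rcases hg with rfl | rfl
    · exact hs
    · exact ht

lemma ree_P_single (π : Perm α) (x : α) :
    ree_P π (Pi.single (π x) (1 : ℚ)) = Pi.single x (1 : ℚ) := by
  funext y
  rw [ree_P_apply, Pi.single_apply, Pi.single_apply]
  simp only [π.injective.eq_iff]

/-- Values of a functional on the standard basis. -/
noncomputable def ree_Psi : Module.Dual ℚ (α → ℚ) →ₗ[ℚ] (α → ℚ) where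
  toFun φ := fun x => φ (Pi.single x (1 : ℚ))
  map_add' _ _ := rfl
  map_smul' _ _ := rfl

lemma ree_Psi_injective : Function.Injective (ree_Psi (α := α)) := by
  rw [← LinearMap.ker_eq_bot, LinearMap.ker_eq_bot']
  intro φ hφ
  apply LinearMap.pi_ext
  intro i c
  have h1 : φ (Pi.single i (1 : ℚ)) = 0 := congrFun hφ i
  have h2 : (Pi.single i c : α → ℚ) = c • Pi.single i (1 : ℚ) := by
    rw [← Pi.single_smul, smul_eq_mul, mul_one]
  rw [h2, map_smul, h1, smul_zero, LinearMap.zero_apply]


/-- The classifying map of the cycles of `σ`: fixed points and cycle factors. -/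
noncomputable def ree_Phi (σ : Perm α) (x : α) : α ⊕ Perm α :=
  if σ x = x then Sum.inl x else Sum.inr (σ.cycleOf x)

lemma ree_orbitRel_zpowers_iff (σ : Perm α) (x y : α) :
    MulAction.orbitRel (Subgroup.zpowers σ) α x y ↔ σ.SameCycle y x := by
  rw [MulAction.orbitRel_apply, MulAction.mem_orbit_iff]
  constructor
  · rintro ⟨⟨g, k, rfl⟩, hg⟩
    exact ⟨k, hg⟩
  · rintro ⟨k, hk⟩
    exact ⟨⟨σ ^ k, k, rfl⟩, hk⟩

lemma ree_Phi_eq_iff (σ : Perm α) (x y : α) :
    ree_Phi σ x = ree_Phi σ y ↔ σ.SameCycle y x := by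
  unfold ree_Phi
  constructor
  · intro h
    by_cases hx : σ x = x
    · by_cases hy : σ y = y
      · rw [if_pos hx, if_pos hy] at h
        rw [Sum.inl.inj h]
      · rw [if_pos hx, if_neg hy] at h
        exact absurd h (by simp)
    · by_cases hy : σ y = y
      · rw [if_neg hx, if_pos hy] at h
        exact absurd h (by simp)
      · rw [if_neg hx, if_neg hy] at h
        have h1 : σ.cycleOf x = σ.cycleOf y := Sum.inr.inj h
        by_contra hs
        have h2 : σ.cycleOf y x = x := Perm.cycleOf_apply_of_not_sameCycle hs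
        rw [← h1, Perm.cycleOf_apply_self] at h2
        exact hx h2
  · intro h
    by_cases hy : σ y = y
    · have hx : σ x = x := (h.apply_eq_self_iff).mp hy
      have hxy : y = x := by
        obtain ⟨k, hk⟩ := h
        rw [← hk, Perm.zpow_apply_eq_self_of_apply_eq_self hy]
      rw [if_pos hx, if_pos hy, hxy]
    · have hx : ¬ σ x = x := fun hx => hy ((h.apply_eq_self_iff).mpr hx)
      rw [if_neg hx, if_neg hy, h.cycleOf_eq]

lemma ree_image_Phi (σ : Perm α) :
    Finset.univ.image (ree_Phi σ) =
      (Finset.univ.filter fun x => σ x = x).disjSum σ.cycleFactorsFinset := by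
  ext z
  rw [Finset.mem_image]
  rcases z with a | c
  · rw [Finset.inl_mem_disjSum, Finset.mem_filter]
    constructor
    · rintro ⟨x, -, hx⟩
      unfold ree_Phi at hx
      by_cases h : σ x = x
      · rw [if_pos h] at hx
        rw [← Sum.inl.inj hx]
        exact ⟨Finset.mem_univ _, h⟩
      · rw [if_neg h] at hx
        exact absurd hx (by simp)
    · rintro ⟨-, ha⟩
      exact ⟨a, Finset.mem_univ _, by unfold ree_Phi; rw [if_pos ha]⟩
  · rw [Finset.inr_mem_disjSum]
    constructor
    · rintro ⟨x, -, hx⟩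
      unfold ree_Phi at hx
      by_cases h : σ x = x
      · rw [if_pos h] at hx
        exact absurd hx (by simp)
      · rw [if_neg h] at hx
        rw [← Sum.inr.inj hx, Perm.cycleOf_mem_cycleFactorsFinset_iff, Perm.mem_support]
        exact h
    · intro hc
      have hcyc : c.IsCycle := (Perm.mem_cycleFactorsFinset_iff.mp hc).1
      obtain ⟨a, ha⟩ := hcyc.nonempty_support
      have ha' : a ∈ σ.support := Perm.mem_cycleFactorsFinset_support_le hc ha
      refine ⟨a, Finset.mem_univ _, ?_⟩
      unfold ree_Phi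
      rw [if_neg (Perm.mem_support.mp ha'), ← Perm.cycle_is_cycleOf ha hc]

/-- Orbits of `⟨σ⟩` are the fixed points together with the cycle factors. -/
theorem ree_orb_zpowers (σ : Perm α) :
    ree_orb (Subgroup.zpowers σ) + σ.support.card = Fintype.card α + σ.cycleFactorsFinset.card := by
  classical
  have hlift : ∀ a b : α, MulAction.orbitRel (Subgroup.zpowers σ) α a b →
      ree_Phi σ a = ree_Phi σ b := fun a b h =>
    (ree_Phi_eq_iff σ a b).mpr ((ree_orbitRel_zpowers_iff σ a b).mp h)
  let Φ' : MulAction.orbitRel.Quotient (Subgroup.zpowers σ) α → α ⊕ Perm α :=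
    Quotient.lift (ree_Phi σ) hlift
  have hinj : Function.Injective Φ' := by
    intro q1 q2
    induction q1 using Quotient.inductionOn with | _ a => ?_
    induction q2 using Quotient.inductionOn with | _ b => ?_
    intro h
    exact Quot.sound
      ((ree_orbitRel_zpowers_iff σ a b).mpr ((ree_Phi_eq_iff σ a b).mp h))
  have h1 : ree_orb (Subgroup.zpowers σ) = (Finset.univ.image (ree_Phi σ)).card := by
    unfold ree_orb
    rw [← Nat.card_range_of_injective hinj]
    have : Set.range Φ' = ((Finset.univ.image (ree_Phi σ) : Finset (α ⊕ Perm α)) : Set _) := by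
      rw [Finset.coe_image, Finset.coe_univ, Set.image_univ]
      exact Set.range_quot_lift _
    rw [this, Nat.card_coe_set_eq, Set.ncard_coe_finset]
  have h2 : (Finset.univ.filter fun x => σ x = x).card + σ.support.card = Fintype.card α := by
    have := Finset.card_filter_add_card_filter_not (s := (Finset.univ : Finset α))
      (fun x => σ x = x)
    rw [Finset.card_univ] at this
    rw [← this]
    congr 2
  rw [h1, ree_image_Phi, Finset.card_disjSum]
  omega

/-- The sign of a permutation in terms of its number of orbits. -/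
theorem ree_sign (σ : Perm α) :
    Perm.sign σ = (-1 : ℤˣ) ^ (Fintype.card α + ree_orb (Subgroup.zpowers σ)) := by
  rw [Perm.sign_of_cycleType, Perm.sum_cycleType]
  have h := ree_orb_zpowers σ
  have hc : Multiset.card σ.cycleType = σ.cycleFactorsFinset.card := by
    rw [Perm.cycleType_def, Multiset.card_map]
    rfl
  rw [hc]
  have hsup : σ.support.card ≤ Fintype.card α := Finset.card_le_univ _
  have : Fintype.card α + ree_orb (Subgroup.zpowers σ) =
      (σ.support.card + σ.cycleFactorsFinset.card) +
        2 * (Fintype.card α - σ.support.card) := by omega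
  have e : (-1 : ℤˣ) ^ (2 * (Fintype.card α - σ.support.card)) = 1 := by
    rw [pow_mul]
    simp
  rw [this, pow_add _ _ (2 * _), e, mul_one]

/-- **Ree's inequality** (Feit-Lyndon-Scott form) for two permutations and their product. -/
theorem ree_three (s t : Perm α) :
    ree_orb (Subgroup.zpowers s) + ree_orb (Subgroup.zpowers t) +
        ree_orb (Subgroup.zpowers (s * t)) ≤
      Fintype.card α + 2 * ree_orb (Subgroup.closure {s, t}) := by
  have h : ree_P t ∘ₗ ree_P s ∘ₗ ree_P (s * t)⁻¹ = LinearMap.id := by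
    refine LinearMap.ext fun f => funext fun x => ?_
    change f ((s * t)⁻¹ (s (t x))) = f x
    rw [← Perm.mul_apply, ← Perm.mul_apply, mul_assoc, inv_mul_cancel, Perm.one_apply]
  have hsc := ree_scott (ree_P t) (ree_P s) (ree_P (s * t)⁻¹) h
  have hkA : finrank ℚ ↥(LinearMap.ker (ree_P t - 1)) = ree_orb (Subgroup.zpowers t) := by
    rw [ree_ker_P, ree_finrank_inv]
  have hkB : finrank ℚ ↥(LinearMap.ker (ree_P s - 1)) = ree_orb (Subgroup.zpowers s) := by
    rw [ree_ker_P, ree_finrank_inv]
  have hkC : finrank ℚ ↥(LinearMap.ker (ree_P (s * t)⁻¹ - 1)) =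
      ree_orb (Subgroup.zpowers (s * t)) := by
    rw [ree_ker_P, Subgroup.zpowers_inv, ree_finrank_inv]
  have hrA := LinearMap.finrank_range_add_finrank_ker (ree_P t - 1)
  have hrB := LinearMap.finrank_range_add_finrank_ker (ree_P s - 1)
  have hrC := LinearMap.finrank_range_add_finrank_ker (ree_P (s * t)⁻¹ - 1)
  have hV : finrank ℚ (α → ℚ) = Fintype.card α := Module.finrank_fintype_fun_eq_card ℚ
  have hF : finrank ℚ ↥(LinearMap.ker (ree_P t - 1) ⊓ LinearMap.ker (ree_P s - 1) ⊓
      LinearMap.ker (ree_P (s * t)⁻¹ - 1)) ≤ ree_orb (Subgroup.closure {s, t}) := by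
    rw [← ree_finrank_inv, ree_inv_closure_pair, ree_ker_P, ree_ker_P]
    apply Submodule.finrank_mono
    intro f hf
    exact ⟨hf.1.2, hf.1.1⟩
  have hW := Subspace.finrank_add_finrank_dualAnnihilator_eq
    (ree_W (ree_P t) (ree_P s) (ree_P (s * t)⁻¹))
  have hWd : finrank ℚ ↥(ree_W (ree_P t) (ree_P s) (ree_P (s * t)⁻¹)).dualAnnihilator ≤
      ree_orb (Subgroup.closure {s, t}) := by
    rw [← ree_finrank_inv]
    have hmem : ∀ φ : ↥(ree_W (ree_P t) (ree_P s) (ree_P (s * t)⁻¹)).dualAnnihilator,
        (ree_Psi ∘ₗ Submodule.subtype _) φ ∈ ree_inv (Subgroup.closure {s, t}) := by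
      intro φ
      rw [ree_mem_inv, Subgroup.closure_le]
      obtain ⟨h1, h2⟩ := ree_dual_invariant (ree_P t) (ree_P s) (ree_P (s * t)⁻¹) φ.1 φ.2
      rintro g (rfl | rfl)
      · intro x
        change φ.1 (Pi.single (g x) 1) = φ.1 (Pi.single x 1)
        rw [← h2 (Pi.single (g x) 1), ree_P_single]
      · intro x
        change φ.1 (Pi.single (g x) 1) = φ.1 (Pi.single x 1)
        rw [← h1 (Pi.single (g x) 1), ree_P_single]
    refine LinearMap.finrank_le_finrank_of_injective
      (f := LinearMap.codRestrict _ (ree_Psi ∘ₗ Submodule.subtype _) hmem) ?_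
    intro a b hab
    apply Subtype.ext
    apply ree_Psi_injective
    exact congrArg Subtype.val hab
  omega

/-- Parity: the Riemann-Hurwitz count is even. -/
theorem ree_parity (s t : Perm α) :
    Even (Fintype.card α + ree_orb (Subgroup.zpowers s) + ree_orb (Subgroup.zpowers t) +
      ree_orb (Subgroup.zpowers (s * t))) := by
  have h := Perm.sign_mul s t
  rw [ree_sign, ree_sign, ree_sign, ← pow_add] at h
  have h2 : (-1 : ℤˣ) ^ (Fintype.card α + ree_orb (Subgroup.zpowers (s * t)) +
      (Fintype.card α + ree_orb (Subgroup.zpowers s) +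
        (Fintype.card α + ree_orb (Subgroup.zpowers t)))) = 1 := by
    rw [pow_add, h, ← pow_add, ← two_mul, pow_mul]
    simp
  have hne : (-1 : ℤˣ) ≠ 1 := by decide
  have h3 := (neg_one_pow_eq_one_iff_even hne).mp h2
  rcases h3 with ⟨k, hk⟩
  exact ⟨k - Fintype.card α, by omega⟩

/-- The transitive case: `c(s) + c(t) + c(st) ≤ n + 2` and the defect is even. -/
theorem ree_three_transitive (s t : Perm α)
    (htrans : ∀ x y : α, ∃ g ∈ Subgroup.closure {s, t}, g x = y) :
    ree_orb (Subgroup.zpowers s) + ree_orb (Subgroup.zpowers t) +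
        ree_orb (Subgroup.zpowers (s * t)) ≤ Fintype.card α + 2 := by
  have h := ree_three s t
  have h1 : ree_orb (Subgroup.closure {s, t}) ≤ 1 := by
    unfold ree_orb
    rw [Finite.card_le_one_iff_subsingleton]
    constructor
    intro q1 q2
    induction q1 using Quotient.inductionOn with | _ a => ?_
    induction q2 using Quotient.inductionOn with | _ b => ?_
    obtain ⟨g, hg, hgb⟩ := htrans b a
    exact Quot.sound ⟨⟨g, hg⟩, hgb⟩
  omega

end PermOrb

section Action

variable {G X : Type*} [Group G] [MulAction G X]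

/-- Number of cycles (orbits, fixed points included) of `g` acting on `X`. -/
noncomputable def ree_orbCount (X : Type*) [MulAction G X] (g : G) : ℕ :=
  Nat.card (MulAction.orbitRel.Quotient (Subgroup.zpowers g) X)

lemma ree_orbitRel_action_iff (g : G) (x y : X) :
    MulAction.orbitRel (Subgroup.zpowers g) X x y ↔ ∃ k : ℤ, g ^ k • y = x := by
  rw [MulAction.orbitRel_apply, MulAction.mem_orbit_iff]
  constructor
  · rintro ⟨⟨h, k, rfl⟩, hg⟩
    exact ⟨k, hg⟩
  · rintro ⟨k, hk⟩
    exact ⟨⟨g ^ k, k, rfl⟩, hk⟩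

lemma ree_orbCount_eq [Fintype X] [DecidableEq X] (g : G) :
    ree_orbCount X g = ree_orb (Subgroup.zpowers (MulAction.toPerm g : Perm X)) := by
  unfold ree_orbCount ree_orb
  refine Nat.card_congr (Quotient.congr (Equiv.refl X) fun a b => ?_)
  rw [ree_orbitRel_action_iff, ree_orbitRel_zpowers_iff]
  refine exists_congr fun k => ?_
  have h : (MulAction.toPerm g : Perm X) ^ k = MulAction.toPerm (g ^ k) :=
    ((MulAction.toPermHom G X).map_zpow g k).symm
  rw [Equiv.refl_apply, Equiv.refl_apply, h, MulAction.toPerm_apply]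

/-- Ree's inequality for a transitive action of a group generated by two elements. -/
theorem ree_action [Finite X] [MulAction.IsPretransitive G X] (s t : G)
    (hgen : Subgroup.closure {s, t} = ⊤) :
    ree_orbCount X s + ree_orbCount X t + ree_orbCount X (s * t) ≤ Nat.card X + 2 := by
  classical
  have : Fintype X := Fintype.ofFinite X
  rw [ree_orbCount_eq, ree_orbCount_eq, ree_orbCount_eq, Nat.card_eq_fintype_card]
  have hmul : (MulAction.toPerm (s * t) : Perm X) = MulAction.toPerm s * MulAction.toPerm t :=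
    (MulAction.toPermHom G X).map_mul s t
  rw [hmul]
  refine ree_three_transitive _ _ fun x y => ?_
  obtain ⟨g, hg⟩ := MulAction.exists_smul_eq G x y
  refine ⟨MulAction.toPermHom G X g, ?_, hg⟩
  have h1 : g ∈ Subgroup.closure {s, t} := hgen ▸ Subgroup.mem_top g
  have h2 := Subgroup.mem_map_of_mem (MulAction.toPermHom G X) h1
  rw [MonoidHom.map_closure, Set.image_pair] at h2
  exact h2

/-- Parity of the Riemann-Hurwitz count for any action on a finite set. -/
theorem ree_action_parity [Finite X] (s t : G) :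
    Even (Nat.card X + ree_orbCount X s + ree_orbCount X t + ree_orbCount X (s * t)) := by
  classical
  have : Fintype X := Fintype.ofFinite X
  rw [ree_orbCount_eq, ree_orbCount_eq, ree_orbCount_eq, Nat.card_eq_fintype_card]
  have hmul : (MulAction.toPerm (s * t) : Perm X) = MulAction.toPerm s * MulAction.toPerm t :=
    (MulAction.toPermHom G X).map_mul s t
  rw [hmul]
  exact ree_parity _ _

end Action

end Fermat.Agent.S24
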