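import Mathlib
import Fermat.Prelude.Def_AlgebraicCurve_CanonicalDivisor

set_option autoImplicit false

open IntermediateField
open scoped IntermediateField.algebraAdjoinAdjoin TensorProduct

namespace Fermat.Agent.S24

section Kaehler

variable {K F : Type*} [Field K] [Field F] [Algebra K F]

/-- The `K`-derivation `d/dt : K[t] → F` for a transcendental `t`. -/
noncomputable def h24_derivAdjoin (t : F) (ht : Transcendental K t) :
    Derivation K (Algebra.adjoin K {t}) F :=
  Derivation.mk'
    (((Polynomial.aeval t).toLinearMap ∘ₗ (Polynomial.derivative (R := K))) ∘ₗ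
      (Polynomial.algEquivOfTranscendental K t ht).symm.toLinearMap)
    (by
      intro a b
      obtain ⟨p, rfl⟩ := (Polynomial.algEquivOfTranscendental K t ht).surjective a
      obtain ⟨q, rfl⟩ := (Polynomial.algEquivOfTranscendental K t ht).surjective b
      have hval : ∀ r : Polynomial K,
          ((Polynomial.algEquivOfTranscendental K t ht r : Algebra.adjoin K {t}) : F)
            = Polynomial.aeval t r := by
        intro r
        rw [Polynomial.algEquivOfTranscendental_apply]
        exact (Polynomial.aeval_algebraMap_apply (A := Algebra.adjoin K {t}) (B := F)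
          ⟨t, Algebra.self_mem_adjoin_singleton K t⟩ r).symm
      rw [← map_mul]
      simp only [LinearMap.comp_apply, AlgEquiv.toLinearMap_apply, AlgEquiv.symm_apply_apply,
        AlgHom.toLinearMap_apply, Polynomial.derivative_mul, map_add, map_mul]
      rw [Algebra.smul_def, Algebra.smul_def]
      change _ = (Polynomial.algEquivOfTranscendental K t ht p : F) * _ +
        (Polynomial.algEquivOfTranscendental K t ht q : F) * _
      rw [hval, hval]
      ring)

theorem h24_derivAdjoin_gen (t : F) (ht : Transcendental K t) :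
    h24_derivAdjoin t ht ⟨t, Algebra.self_mem_adjoin_singleton K t⟩ = 1 := by
  have h : (Polynomial.algEquivOfTranscendental K t ht).symm
      ⟨t, Algebra.self_mem_adjoin_singleton K t⟩ = Polynomial.X := by
    rw [AlgEquiv.symm_apply_eq, Polynomial.algEquivOfTranscendental_apply_X]
  simp [h24_derivAdjoin, h]

/-- **D2.** If `t` is transcendental over `K` (characteristic zero) and `F` is algebraic over
`K(t)`, then `dt ≠ 0` in `Ω[F⁄K]`. -/
theorem h24_D_ne_zero [CharZero K] (t : F) (ht : Transcendental K t)
    [Algebra.IsAlgebraic K⟮t⟯ F] :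
    KaehlerDifferential.D K F t ≠ 0 := by
  let A : Subalgebra K F := Algebra.adjoin K {t}
  have : CharZero K⟮t⟯ := charZero_of_injective_algebraMap (algebraMap K K⟮t⟯).injective
  have : Algebra.FormallyEtale A K⟮t⟯ := Algebra.FormallyEtale.of_isLocalization (nonZeroDivisors A)
  have : Algebra.FormallyEtale K⟮t⟯ F := Algebra.FormallyEtale.of_isSeparable _ _
  have : Algebra.FormallyEtale A F := Algebra.FormallyEtale.comp A K⟮t⟯ F
  let e := KaehlerDifferential.tensorKaehlerEquivOfFormallyEtale K A F
  let t' : A := ⟨t, Algebra.self_mem_adjoin_singleton K t⟩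
  let φ : F ⊗[A] Ω[A⁄K] →ₗ[F] F :=
    LinearMap.liftBaseChange F (h24_derivAdjoin t ht).liftKaehlerDifferential
  have h1 : φ ((1 : F) ⊗ₜ[A] KaehlerDifferential.D K A t') = 1 := by
    simp only [φ, t', LinearMap.liftBaseChange_tmul, one_smul]
    rw [Derivation.liftKaehlerDifferential_comp_D]
    exact h24_derivAdjoin_gen t ht
  have h2 : e ((1 : F) ⊗ₜ[A] KaehlerDifferential.D K A t') = KaehlerDifferential.D K F t := by
    simp [e, t']
  intro h0
  rw [← h2] at h0
  have h3 : (1 : F) ⊗ₜ[A] KaehlerDifferential.D K A t' = 0 := by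
    simpa using h0
  rw [h3, map_zero] at h1
  exact zero_ne_one h1

theorem h24_nontrivial_kaehler [CharZero K] (t : F) (ht : Transcendental K t)
    [Algebra.IsAlgebraic K⟮t⟯ F] : Nontrivial (Ω[F⁄K]) :=
  nontrivial_of_ne _ 0 (h24_D_ne_zero t ht)

end Kaehler

end Fermat.Agent.S24
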