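import Mathlib
import Fermat.Agent.S24.h30_Count

/-!
# S24: the counting trick over `K[X]` (helper30)

Instantiation of `h30_card_primesOver` at `A = K[X]` acting on `F` through `aeval t`,
`𝔭 = (X - a)`, `K` algebraically closed.
-/

set_option autoImplicit false

open Polynomial

namespace Fermat.Agent.S24

section Poly

variable {K F : Type*} [Field K] [Field F] [Algebra K F]

/-- A valuation-like function trivial on `K^×` and nonnegative at `t - a` is nonnegative on
`K[t]`. -/
theorem h30_nonneg_aeval (w : F → ℤ) (hw : h30_IsVal w)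
    (hconst : ∀ c : K, c ≠ 0 → w (algebraMap K F c) = 0)
    (t : F) (a : K) (hta0 : t - algebraMap K F a ≠ 0) (hta : 0 ≤ w (t - algebraMap K F a))
    (p : K[X]) (hp : aeval t p ≠ 0) : 0 ≤ w (aeval t p) := by
  have h1 : aeval t p = aeval (t - algebraMap K F a) (taylor a p) := by
    rw [taylor_apply, aeval_comp]
    simp
  rw [h1, aeval_eq_sum_range] at hp ⊢
  refine hw.le_sum _ _ 0 ?_ hp
  intro i _ hi
  rw [Algebra.smul_def] at hi ⊢
  have hc : algebraMap K F ((taylor a p).coeff i) ≠ 0 := left_ne_zero_of_mul hi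
  have hc' : (taylor a p).coeff i ≠ 0 := fun h => hc (by rw [h, map_zero])
  rw [hw.map_mul _ _ hc (pow_ne_zero i hta0), hconst _ hc', hw.map_pow _ hta0, zero_add]
  positivity

/-- **Counting trick over `K[X]`.** -/
theorem h30_card_primesOver_poly
    {K F E B : Type*} [Field K] [IsAlgClosed K] [Field F] [Algebra K F]
    [Algebra K[X] F] (t : F) (halg : ∀ p : K[X], algebraMap K[X] F p = aeval t p)
    [Field E] [Algebra K[X] E] [IsFractionRing K[X] E] [Algebra E F] [IsScalarTower K[X] E F]
    [CommRing B] [IsDedekindDomain B] [Algebra K[X] B] [Module.Finite K[X] B]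
    [Module.IsTorsionFree K[X] B] [Algebra B F] [IsScalarTower K[X] B F] [IsFractionRing B F]
    (a : K)
    {I : Type*} [Fintype I] [Nonempty I] (hI : Fintype.card I = Module.finrank E F)
    (w : I → F → ℤ) (hw : ∀ x, h30_IsVal (w x))
    (hconst : ∀ x (c : K), c ≠ 0 → w x (algebraMap K F c) = 0)
    (e₀ : ℕ) (he₀ : 0 < e₀) (hta : ∀ x, w x (t - algebraMap K F a) = e₀)
    (hnorm : ∀ h : F, h ≠ 0 → ∀ x₀, w x₀ (algebraMap E F (Algebra.norm E h)) = ∑ x, w x h)
    (d : I → ℕ) (hdvd : ∀ x (f : F), f ≠ 0 → (d x : ℤ) ∣ w x f)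
    (r : Setoid I) (hr : ∀ x y, r x y → w x = w y)
    (hd : ∀ x, d x * Nat.card {y // r y x} = e₀) :
    Nat.card ((Ideal.span {(X - C a : K[X])}).primesOver B) = Nat.card (Quotient r) := by
  classical
  have hinjB : Function.Injective (algebraMap K[X] B) := FaithfulSMul.algebraMap_injective K[X] B
  have hinjF : Function.Injective (algebraMap B F) := IsFractionRing.injective B F
  have hinj : Function.Injective (algebraMap K[X] F) := by
    rw [IsScalarTower.algebraMap_eq K[X] B F]
    exact hinjF.comp hinjB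
  have hXa : (X - C a : K[X]) ≠ 0 := X_sub_C_ne_zero a
  have hta' : algebraMap K[X] F (X - C a) = t - algebraMap K F a := by
    rw [halg]; simp
  have hta0 : t - algebraMap K F a ≠ 0 := by
    rw [← hta']
    exact (map_ne_zero_iff _ hinj).mpr hXa
  have hmax : (Ideal.span {(X - C a : K[X])}).IsMaximal :=
    PrincipalIdealRing.isMaximal_of_irreducible (irreducible_X_sub_C a)
  have hA : ∀ x (s : K[X]), s ≠ 0 → 0 ≤ w x (algebraMap K[X] F s) := by
    intro x s hs
    rw [halg]
    refine h30_nonneg_aeval (w x) (hw x) (hconst x) t a hta0 ?_ s ?_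
    · rw [hta x]; positivity
    · rw [← halg]; exact (map_ne_zero_iff _ hinj).mpr hs
  have h𝔭 : ∀ x (s : K[X]), s ∈ Ideal.span {(X - C a : K[X])} → s ≠ 0 →
      0 < w x (algebraMap K[X] F s) := by
    intro x s hs hs0
    obtain ⟨q, rfl⟩ := Ideal.mem_span_singleton.mp hs
    have hq0 : q ≠ 0 := right_ne_zero_of_mul hs0
    rw [map_mul, (hw x).map_mul _ _ ((map_ne_zero_iff _ hinj).mpr hXa)
      ((map_ne_zero_iff _ hinj).mpr hq0), hta', hta x]
    have := hA x q hq0
    have : (0 : ℤ) < e₀ := by exact_mod_cast he₀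
    omega
  have hrank : Module.finrank E F = Module.finrank K[X] B := IsFractionRing.finrank_eq K[X] E B F
  have hfin : FiniteDimensional E F := by
    apply Module.finite_of_finrank_pos
    rw [← hI]
    exact Fintype.card_pos
  have hIC : IsIntegralClosure B K[X] F := IsIntegralClosure.of_isIntegrallyClosed B K[X] F
  refine h30_card_primesOver (Ideal.span {(X - C a : K[X])}) ?_ (hI.trans hrank) w hw hA h𝔭
    e₀ (X - C a) (Ideal.mem_span_singleton_self _) hXa (fun x => by rw [hta', hta x]) ?_
    d hdvd r hr hd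
  · -- inertia degree one
    intro Q hQ
    have hQp : Q.IsPrime := hQ.1
    have hQo : Q.LiesOver (Ideal.span {(X - C a : K[X])}) := hQ.2
    have hQm : Q.IsMaximal := Ideal.IsMaximal.of_liesOver_isMaximal Q (Ideal.span {(X - C a : K[X])})
    rw [Ideal.inertiaDeg_eq_of_isMaximal (Ideal.span {(X - C a : K[X])}) Q]
    let : Field (K[X] ⧸ Ideal.span {(X - C a : K[X])}) := Ideal.Quotient.field _
    let : Field (B ⧸ Q) := Ideal.Quotient.field _
    have : IsAlgClosed (K[X] ⧸ Ideal.span {(X - C a : K[X])}) :=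
      IsAlgClosed.of_ringEquiv K _ (quotientSpanXSubCAlgEquiv a).symm.toRingEquiv
    have hbij : Function.Bijective
        (algebraMap (K[X] ⧸ Ideal.span {(X - C a : K[X])}) (B ⧸ Q)) :=
      IsAlgClosed.algebraMap_bijective_of_isIntegral
    have e : (K[X] ⧸ Ideal.span {(X - C a : K[X])}) ≃ₗ[K[X] ⧸ Ideal.span {(X - C a : K[X])}]
        (B ⧸ Q) := LinearEquiv.ofBijective (Algebra.linearMap _ _) hbij
    rw [← e.finrank_eq, Module.finrank_self]
  · -- the norm identity
    intro b hb x₀
    have h1 : algebraMap K[X] F (Algebra.intNorm K[X] B b)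
        = algebraMap E F (Algebra.norm E (algebraMap B F b)) := by
      rw [IsScalarTower.algebraMap_apply K[X] E F, Algebra.algebraMap_intNorm (K := E) (L := F)]
    rw [h1]
    exact hnorm _ ((map_ne_zero_iff _ hinjF).mpr hb) x₀

end Poly

end Fermat.Agent.S24
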