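import Mathlib

set_option autoImplicit false

/-!
# Scott's lemma / Ree's theorem for permutation triples (helper33, project S24)

For two permutations `a b` of a finite nonempty set `X` generating a transitive group,
`c(a) + c(b) + c(a*b) ≤ |X| + 2`, and `|X| + c(a) + c(b) + c(a*b)` is even, where `c(s)` is
the number of orbits of the cyclic group generated by `s`.
Hence `|X| - c(a) - c(b) - c(a*b) = 2 g - 2` for a natural number `g`.
-/

namespace Fermat.Agent.S24

open Module

/-- The number of orbits of the cyclic group generated by a permutation. -/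
noncomputable def h33_numOrb {X : Type*} (s : Equiv.Perm X) : ℕ :=
  Nat.card (MulAction.orbitRel.Quotient (Subgroup.zpowers s) X)

section Linear

variable {V : Type*} [AddCommGroup V] [Module ℚ V] [FiniteDimensional ℚ V]

/-- Scott's lemma, linear algebra form (rank-nullity). -/
theorem h33_scott_lin (A B C : V →ₗ[ℚ] V) (hABC : A ∘ₗ B ∘ₗ C = LinearMap.id)
    (h1 : finrank ℚ ↥(LinearMap.ker (LinearMap.id - A) ⊓ LinearMap.ker (LinearMap.id - B)) ≤ 1)
    (h2 : finrank ℚ V ≤
      finrank ℚ ↥(LinearMap.range (LinearMap.id - A) ⊔ LinearMap.range (LinearMap.id - B)) + 1) :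
    finrank ℚ ↥(LinearMap.ker (LinearMap.id - A)) + finrank ℚ ↥(LinearMap.ker (LinearMap.id - B))
      + finrank ℚ ↥(LinearMap.ker (LinearMap.id - C)) ≤ finrank ℚ V + 2 := by
  obtain ⟨A', hA'⟩ : ∃ A' : V →ₗ[ℚ] V, A' = LinearMap.id - A := ⟨_, rfl⟩
  obtain ⟨B', hB'⟩ : ∃ B' : V →ₗ[ℚ] V, B' = LinearMap.id - B := ⟨_, rfl⟩
  obtain ⟨C', hC'⟩ : ∃ C' : V →ₗ[ℚ] V, C' = LinearMap.id - C := ⟨_, rfl⟩
  rw [← hA', ← hB'] at h1 h2
  rw [← hA', ← hB', ← hC']
  have hA'v : ∀ v, A' v = v - A v := fun v => by rw [hA']; rfl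
  have hB'v : ∀ v, B' v = v - B v := fun v => by rw [hB']; rfl
  have hC'v : ∀ v, C' v = v - C v := fun v => by rw [hC']; rfl
  -- the two maps
  let δ : (LinearMap.range A' × LinearMap.range B' × LinearMap.range C') →ₗ[ℚ] V :=
    ((LinearMap.range A').subtype).coprod
      ((A ∘ₗ (LinearMap.range B').subtype).coprod (A ∘ₗ B ∘ₗ (LinearMap.range C').subtype))
  let β : V →ₗ[ℚ] (LinearMap.range A' × LinearMap.range B' × LinearMap.range C') :=
    (A'.rangeRestrict).prod ((B'.rangeRestrict).prod (C'.rangeRestrict))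
  have hδ : ∀ p : LinearMap.range A' × LinearMap.range B' × LinearMap.range C',
      δ p = (p.1 : V) + (A (p.2.1 : V) + A (B (p.2.2 : V))) := fun p => rfl
  have hβ1 : ∀ v, ((β v).1 : V) = A' v := fun v => rfl
  have hβ2 : ∀ v, ((β v).2.1 : V) = B' v := fun v => rfl
  have hβ3 : ∀ v, ((β v).2.2 : V) = C' v := fun v => rfl
  have hδβ : ∀ v, δ (β v) = 0 := by
    intro v
    have h := congrArg (fun f : V →ₗ[ℚ] V => f v) hABC
    simp only [LinearMap.comp_apply, LinearMap.id_apply] at h
    rw [hδ, hβ1, hβ2, hβ3, hA'v, hB'v, hC'v, map_sub, map_sub, map_sub, h]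
    abel
  have hle : LinearMap.range β ≤ LinearMap.ker δ := by
    rintro _ ⟨v, rfl⟩
    exact LinearMap.mem_ker.mpr (hδβ v)
  have e1 := LinearMap.finrank_range_add_finrank_ker δ
  have e2 := LinearMap.finrank_range_add_finrank_ker β
  have e3 : finrank ℚ ↥(LinearMap.range β) ≤ finrank ℚ ↥(LinearMap.ker δ) :=
    Submodule.finrank_mono hle
  have eA := LinearMap.finrank_range_add_finrank_ker A'
  have eB := LinearMap.finrank_range_add_finrank_ker B'
  have eC := LinearMap.finrank_range_add_finrank_ker C'
  have eD : finrank ℚ (LinearMap.range A' × LinearMap.range B' × LinearMap.range C')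
      = finrank ℚ (LinearMap.range A') + (finrank ℚ (LinearMap.range B')
        + finrank ℚ (LinearMap.range C')) := by
    rw [Module.finrank_prod, Module.finrank_prod]
  -- kernel of β
  have hkβ : LinearMap.ker β ≤ LinearMap.ker A' ⊓ LinearMap.ker B' := by
    intro v hv
    rw [LinearMap.mem_ker] at hv
    have hv1 : A' v = 0 := by rw [← hβ1, hv]; rfl
    have hv2 : B' v = 0 := by rw [← hβ2, hv]; rfl
    exact ⟨LinearMap.mem_ker.mpr hv1, LinearMap.mem_ker.mpr hv2⟩
  have e4 : finrank ℚ ↥(LinearMap.ker β) ≤ 1 := (Submodule.finrank_mono hkβ).trans h1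
  -- range of δ
  have hrδ : LinearMap.range A' ⊔ LinearMap.range B' ≤ LinearMap.range δ := by
    refine sup_le ?_ ?_
    · intro x hx
      refine ⟨(⟨x, hx⟩, 0, 0), ?_⟩
      rw [hδ]
      simp
    · rintro _ ⟨w, rfl⟩
      -- (1 - B) w = (1 - A)((1 - B) w) + A ((1 - B) w)
      refine ⟨(⟨A' (B' w), ⟨_, rfl⟩⟩, ⟨B' w, ⟨_, rfl⟩⟩, 0), ?_⟩
      rw [hδ]
      simp only [Submodule.coe_zero, map_zero, add_zero]
      rw [hA'v]
      abel
  have e5 : finrank ℚ ↥(LinearMap.range A' ⊔ LinearMap.range B')
      ≤ finrank ℚ ↥(LinearMap.range δ) := Submodule.finrank_mono hrδ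
  omega

end Linear

section Perm

variable {X : Type*} [Fintype X] [DecidableEq X]

omit [Fintype X] [DecidableEq X] in
theorem h33_apply_inv_self (s : Equiv.Perm X) (x : X) : s (s⁻¹ x) = x := by simp

omit [Fintype X] [DecidableEq X] in
theorem h33_inv_apply_self (s : Equiv.Perm X) (x : X) : s⁻¹ (s x) = x := by simp

/-- The permutation operator `v ↦ v ∘ s` on `X → ℚ`. -/
noncomputable def h33_L (s : Equiv.Perm X) : (X → ℚ) →ₗ[ℚ] (X → ℚ) := LinearMap.funLeft ℚ ℚ s

omit [Fintype X] [DecidableEq X] in
theorem h33_L_apply (s : Equiv.Perm X) (v : X → ℚ) (x : X) : h33_L s v x = v (s x) := rfl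

omit [Fintype X] [DecidableEq X] in
theorem h33_mem_ker_iff (s : Equiv.Perm X) (v : X → ℚ) :
    v ∈ LinearMap.ker (LinearMap.id - h33_L s) ↔ ∀ x, v (s x) = v x := by
  rw [LinearMap.mem_ker, LinearMap.sub_apply, LinearMap.id_apply, sub_eq_zero]
  constructor
  · intro h x
    have := congrFun h x
    rw [h33_L_apply] at this
    exact this.symm
  · intro h
    funext x
    rw [h33_L_apply, h x]

omit [Fintype X] [DecidableEq X] in
theorem h33_fix_zpow (s : Equiv.Perm X) (v : X → ℚ) (h : ∀ x, v (s x) = v x) (k : ℤ) (x : X) :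
    v ((s ^ k) x) = v x := by
  induction k using Int.induction_on generalizing x with
  | zero => simp
  | succ n ih =>
    rw [zpow_add, zpow_one, Equiv.Perm.mul_apply, ih, h]
  | pred n ih =>
    rw [zpow_sub, zpow_one, Equiv.Perm.mul_apply, ih]
    have := h (s⁻¹ x)
    rw [h33_apply_inv_self] at this
    exact this.symm

omit [DecidableEq X] in
/-- The fixed space of the permutation operator has dimension the number of orbits. -/
theorem h33_finrank_ker (s : Equiv.Perm X) :
    finrank ℚ ↥(LinearMap.ker (LinearMap.id - h33_L s)) = h33_numOrb s := by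
  classical
  set Q := MulAction.orbitRel.Quotient (Subgroup.zpowers s) X with hQ
  let π : X → Q := Quotient.mk''
  have hπ : Function.Surjective π := Quotient.mk''_surjective
  let Φ : (Q → ℚ) →ₗ[ℚ] (X → ℚ) := LinearMap.funLeft ℚ ℚ π
  have hΦ : Function.Injective Φ := LinearMap.funLeft_injective_of_surjective ℚ ℚ π hπ
  have hrange : LinearMap.range Φ = LinearMap.ker (LinearMap.id - h33_L s) := by
    ext v
    rw [h33_mem_ker_iff]
    constructor
    · rintro ⟨f, rfl⟩ x
      show f (π (s x)) = f (π x)
      congr 1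
      apply Quotient.sound'
      rw [MulAction.orbitRel_apply]
      exact ⟨⟨s, Subgroup.mem_zpowers s⟩, rfl⟩
    · intro h
      have hwd : ∀ x y : X, (MulAction.orbitRel (Subgroup.zpowers s) X) x y → v x = v y := by
        intro x y hxy
        rw [MulAction.orbitRel_apply] at hxy
        obtain ⟨⟨g, hg⟩, rfl⟩ := hxy
        obtain ⟨k, rfl⟩ := Subgroup.mem_zpowers_iff.mp hg
        exact h33_fix_zpow s v h k y
      refine ⟨fun q => Quotient.liftOn' q v hwd, ?_⟩
      funext x
      rfl
  let _ : Fintype Q := Fintype.ofFinite Q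
  rw [← hrange, LinearMap.finrank_range_of_inj hΦ, Module.finrank_fintype_fun_eq_card,
    h33_numOrb, Nat.card_eq_fintype_card]

omit [Fintype X] [DecidableEq X] in
theorem h33_L_comp (s t : Equiv.Perm X) : h33_L s ∘ₗ h33_L t = h33_L (t * s) := by
  ext v x
  rfl

omit [Fintype X] [DecidableEq X] in
theorem h33_L_one : h33_L (1 : Equiv.Perm X) = LinearMap.id := by
  ext v x
  rfl

omit [Fintype X] [DecidableEq X] in
theorem h33_ker_inv (s : Equiv.Perm X) :
    LinearMap.ker (LinearMap.id - h33_L s⁻¹) = LinearMap.ker (LinearMap.id - h33_L s) := by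
  ext v
  rw [h33_mem_ker_iff, h33_mem_ker_iff]
  constructor
  · intro h x
    have := h (s x)
    rw [h33_inv_apply_self] at this
    exact this.symm
  · intro h x
    have := h (s⁻¹ x)
    rw [h33_apply_inv_self] at this
    exact this.symm

omit [DecidableEq X] in
theorem h33_numOrb_inv (s : Equiv.Perm X) : h33_numOrb s⁻¹ = h33_numOrb s := by
  rw [← h33_finrank_ker, ← h33_finrank_ker, h33_ker_inv]

/-- **Ree's theorem** (via Scott's lemma): for a transitive pair of permutations,
`c(a) + c(b) + c(ab) ≤ |X| + 2`. -/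
theorem h33_scott [Nonempty X] (a b : Equiv.Perm X)
    (htr : ∀ x y : X, ∃ g, g ∈ Subgroup.closure ({a, b} : Set (Equiv.Perm X)) ∧ g x = y) :
    h33_numOrb a + h33_numOrb b + h33_numOrb (a * b) ≤ Fintype.card X + 2 := by
  classical
  have hABC : h33_L b ∘ₗ h33_L a ∘ₗ h33_L (a * b)⁻¹ = LinearMap.id := by
    rw [h33_L_comp, h33_L_comp, ← h33_L_one]
    congr 1
    group
  obtain ⟨x0⟩ := ‹Nonempty X›
  -- common fixed vectors are constant
  have h1 : finrank ℚ ↥(LinearMap.ker (LinearMap.id - h33_L b) ⊓
      LinearMap.ker (LinearMap.id - h33_L a)) ≤ 1 := by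
    have hle : LinearMap.ker (LinearMap.id - h33_L b) ⊓ LinearMap.ker (LinearMap.id - h33_L a)
        ≤ Submodule.span ℚ {(fun _ => 1 : X → ℚ)} := by
      rintro v ⟨hvb, hva⟩
      rw [SetLike.mem_coe, h33_mem_ker_iff] at hvb hva
      have hg : ∀ g ∈ Subgroup.closure ({a, b} : Set (Equiv.Perm X)), ∀ x, v (g x) = v x := by
        intro g hg
        induction hg using Subgroup.closure_induction with
        | mem g hg =>
          rcases hg with rfl | rfl
          · exact hva
          · exact hvb
        | one => intro x; rfl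
        | mul g h _ _ ihg ihh => intro x; rw [Equiv.Perm.mul_apply, ihg, ihh]
        | inv g _ ih =>
          intro x
          have := ih (g⁻¹ x)
          rw [h33_apply_inv_self] at this
          exact this.symm
      rw [Submodule.mem_span_singleton]
      refine ⟨v x0, ?_⟩
      funext y
      obtain ⟨g, hgm, hgy⟩ := htr x0 y
      simp only [Pi.smul_apply, smul_eq_mul, mul_one]
      rw [← hgy, hg g hgm]
    refine (Submodule.finrank_mono hle).trans ?_
    exact (finrank_span_le_card _).trans (by simp)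
  -- the augmentation kernel is inside the sum of ranges
  set W := LinearMap.range (LinearMap.id - h33_L b) ⊔ LinearMap.range (LinearMap.id - h33_L a)
    with hW
  have hgen : ∀ (s : Equiv.Perm X) (x : X),
      (Pi.single x 1 - Pi.single (s x) 1 : X → ℚ) ∈ LinearMap.range (LinearMap.id - h33_L s) := by
    intro s x
    refine ⟨-Pi.single (s x) 1, ?_⟩
    funext y
    simp only [LinearMap.sub_apply, LinearMap.id_apply, Pi.sub_apply, Pi.neg_apply, h33_L_apply,
      Pi.single_apply]
    by_cases h1 : y = s x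
    · subst h1
      by_cases h2 : s x = x
      · simp [h2]
      · have h3 : ¬ s (s x) = s x := fun h => h2 (s.injective h)
        simp [h2, h3]
    · by_cases h2 : y = x
      · subst h2
        simp [h1]
      · have h3 : ¬ s y = s x := fun h => h2 (s.injective h)
        simp [h1, h2, h3]
  have hWg : ∀ g ∈ Subgroup.closure ({a, b} : Set (Equiv.Perm X)), ∀ x,
      (Pi.single x 1 - Pi.single (g x) 1 : X → ℚ) ∈ W := by
    intro g hg
    induction hg using Subgroup.closure_induction with
    | mem g hg =>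
      intro x
      rcases hg with rfl | rfl
      · exact Submodule.mem_sup_right (hgen _ x)
      · exact Submodule.mem_sup_left (hgen _ x)
    | one => intro x; simp
    | mul g h _ _ ihg ihh =>
      intro x
      have := W.add_mem (ihh x) (ihg (h x))
      rw [Equiv.Perm.mul_apply]
      convert this using 1
      abel
    | inv g _ ih =>
      intro x
      have := W.neg_mem (ih (g⁻¹ x))
      rw [h33_apply_inv_self] at this
      convert this using 1
      abel
  have htop : W ⊔ Submodule.span ℚ {(Pi.single x0 1 : X → ℚ)} = ⊤ := by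
    rw [eq_top_iff]
    intro v _
    have hv : v = ∑ x, v x • (Pi.single x 1 : X → ℚ) := by
      funext y
      simp [Finset.sum_apply, Pi.single_apply]
    rw [hv]
    refine Submodule.sum_mem _ fun x _ => Submodule.smul_mem _ _ ?_
    have hx : (Pi.single x 1 : X → ℚ)
        = -(Pi.single x0 1 - Pi.single x 1) + Pi.single x0 1 := by abel
    rw [hx]
    refine Submodule.add_mem _ (Submodule.mem_sup_left (W.neg_mem ?_))
      (Submodule.mem_sup_right (Submodule.mem_span_singleton_self _))
    obtain ⟨g, hgm, hgx⟩ := htr x0 x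
    rw [← hgx]
    exact hWg g hgm x0
  have h2 : finrank ℚ (X → ℚ) ≤ finrank ℚ ↥W + 1 := by
    have h3 : finrank ℚ ↥(W ⊔ Submodule.span ℚ {(Pi.single x0 1 : X → ℚ)})
        ≤ finrank ℚ ↥W + finrank ℚ ↥(Submodule.span ℚ {(Pi.single x0 1 : X → ℚ)}) :=
      Submodule.finrank_add_le_finrank_add_finrank _ _
    rw [htop, finrank_top] at h3
    have h4 : finrank ℚ ↥(Submodule.span ℚ {(Pi.single x0 1 : X → ℚ)}) ≤ 1 :=
      (finrank_span_le_card _).trans (by simp)
    omega
  have key := h33_scott_lin (h33_L b) (h33_L a) (h33_L (a * b)⁻¹) hABC h1 h2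
  rw [h33_finrank_ker, h33_finrank_ker, h33_finrank_ker, h33_numOrb_inv,
    Module.finrank_fintype_fun_eq_card] at key
  omega

end Perm

section Parity

variable {X : Type*} [Fintype X] [DecidableEq X]

open Equiv.Perm in
/-- The number of orbits is the number of cycles plus the number of fixed points. -/
theorem h33_numOrb_eq (s : Equiv.Perm X) :
    h33_numOrb s = Multiset.card s.cycleType + (Fintype.card X - s.cycleType.sum) := by
  classical
  set Q := MulAction.orbitRel.Quotient (Subgroup.zpowers s) X with hQ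
  -- the map on representatives
  let φ : X → ({c // c ∈ s.cycleFactorsFinset} ⊕ Function.fixedPoints s) := fun x =>
    if h : s x = x then Sum.inr ⟨x, h⟩
    else Sum.inl ⟨s.cycleOf x, cycleOf_mem_cycleFactorsFinset_iff.mpr (mem_support.mpr h)⟩
  have hrel : ∀ x y : X, (MulAction.orbitRel (Subgroup.zpowers s) X) x y ↔ s.SameCycle x y := by
    intro x y
    rw [MulAction.orbitRel_apply]
    constructor
    · rintro ⟨⟨g, hg⟩, rfl⟩
      obtain ⟨k, rfl⟩ := Subgroup.mem_zpowers_iff.mp hg
      exact (Equiv.Perm.SameCycle.refl s y).symm.trans ⟨k, rfl⟩ |>.symm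
    · intro h
      obtain ⟨k, hk⟩ := h.symm
      exact ⟨⟨s ^ k, Subgroup.mem_zpowers_iff.mpr ⟨k, rfl⟩⟩, hk⟩
  have hφ : ∀ x y : X, s.SameCycle x y → φ x = φ y := by
    intro x y hxy
    by_cases hx : s x = x
    · obtain ⟨k, hk⟩ := hxy
      have hyx : y = x := by rw [← hk, zpow_apply_eq_self_of_apply_eq_self hx]
      rw [hyx]
    · have hy : ¬ s y = y := fun h => hx (hxy.apply_eq_self_iff.mpr h)
      simp only [φ, dif_neg hx, dif_neg hy]
      congr 2
      exact hxy.cycleOf_eq
  let Φ : Q → ({c // c ∈ s.cycleFactorsFinset} ⊕ Function.fixedPoints s) := fun q =>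
    Quotient.liftOn' q φ (fun x y h => hφ x y ((hrel x y).mp h))
  have hΦ : Function.Bijective Φ := by
    constructor
    · intro q1 q2
      induction q1 using Quotient.inductionOn' with | _ x => ?_
      induction q2 using Quotient.inductionOn' with | _ y => ?_
      intro h
      have h' : φ x = φ y := h
      apply Quotient.sound'
      rw [hrel]
      by_cases hx : s x = x
      · by_cases hy : s y = y
        · simp only [φ, dif_pos hx, dif_pos hy, Sum.inr.injEq] at h'
          have hxy : x = y := congrArg Subtype.val h'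
          rw [hxy]
        · simp [φ, dif_pos hx, dif_neg hy] at h'
      · by_cases hy : s y = y
        · simp [φ, dif_neg hx, dif_pos hy] at h'
        · simp only [φ, dif_neg hx, dif_neg hy, Sum.inl.injEq, Subtype.mk.injEq] at h'
          have hy' : y ∈ (s.cycleOf y).support :=
            mem_support_cycleOf_iff.mpr ⟨Equiv.Perm.SameCycle.refl s y, mem_support.mpr hy⟩
          rw [← h'] at hy'
          exact (mem_support_cycleOf_iff.mp hy').1
    · rintro (⟨c, hc⟩ | ⟨x, hx⟩)
      · obtain ⟨a, ha⟩ := IsCycle.nonempty_support (mem_cycleFactorsFinset_iff.mp hc).1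
        have hca := cycle_is_cycleOf ha hc
        have ha' : ¬ s a = a := by
          rw [hca] at ha
          exact mem_support.mp (mem_support_cycleOf_iff.mp ha).2
        refine ⟨Quotient.mk'' a, ?_⟩
        show φ a = _
        simp only [φ, dif_neg ha']
        congr 2
        exact hca.symm
      · refine ⟨Quotient.mk'' x, ?_⟩
        show φ x = _
        have hx' : s x = x := hx
        simp only [φ, dif_pos hx']
  have hcard := Nat.card_eq_of_bijective Φ hΦ
  rw [h33_numOrb, hcard, Nat.card_eq_fintype_card, Fintype.card_sum, Fintype.card_coe,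
    card_fixedPoints, cycleType_def, Multiset.card_map, Finset.card_val]

/-- `sign s = (-1)^(|X| + c(s))`. -/
theorem h33_sign_eq (s : Equiv.Perm X) :
    Equiv.Perm.sign s = (-1 : ℤˣ) ^ (Fintype.card X + h33_numOrb s) := by
  rw [Equiv.Perm.sign_of_cycleType, h33_numOrb_eq]
  have h1 := Equiv.Perm.sum_cycleType_le s
  have h2 : Fintype.card X + (Multiset.card s.cycleType + (Fintype.card X - s.cycleType.sum))
      + 2 * s.cycleType.sum = (s.cycleType.sum + Multiset.card s.cycleType)
        + 2 * Fintype.card X := by omega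
  have h3 : ∀ m k : ℕ, (-1 : ℤˣ) ^ (m + 2 * k) = (-1) ^ m := by
    intro m k
    rw [pow_add, pow_mul]
    simp
  calc (-1 : ℤˣ) ^ (s.cycleType.sum + Multiset.card s.cycleType)
      = (-1 : ℤˣ) ^ ((s.cycleType.sum + Multiset.card s.cycleType) + 2 * Fintype.card X) :=
        (h3 _ _).symm
    _ = (-1 : ℤˣ) ^ (Fintype.card X
          + (Multiset.card s.cycleType + (Fintype.card X - s.cycleType.sum))
          + 2 * s.cycleType.sum) := by rw [h2]
    _ = _ := h3 _ _

/-- Parity: `|X| + c(a) + c(b) + c(ab)` is even. -/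
theorem h33_parity (a b : Equiv.Perm X) :
    Even (Fintype.card X + h33_numOrb a + h33_numOrb b + h33_numOrb (a * b)) := by
  have h := map_mul (Equiv.Perm.sign (α := X)) a b
  rw [h33_sign_eq, h33_sign_eq a, h33_sign_eq b, ← pow_add] at h
  have h2 : (-1 : ℤˣ) ^ ((Fintype.card X + h33_numOrb (a * b))
      + (Fintype.card X + h33_numOrb a + (Fintype.card X + h33_numOrb b))) = 1 := by
    rw [pow_add, ← h, ← pow_add, ← two_mul, pow_mul]
    simp
  have h3 : Even ((Fintype.card X + h33_numOrb (a * b))
      + (Fintype.card X + h33_numOrb a + (Fintype.card X + h33_numOrb b))) := by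
    by_contra hodd
    rw [Nat.not_even_iff_odd] at hodd
    rw [hodd.neg_one_pow] at h2
    exact absurd h2 (by decide)
  rw [Nat.even_iff] at h3 ⊢
  omega

/-- Combined form: the Riemann–Hurwitz count `|X| - c(a) - c(b) - c(ab)` equals `2 g - 2`
for a natural number `g`. -/
theorem h33_exists_genus [Nonempty X] (a b : Equiv.Perm X)
    (htr : ∀ x y : X, ∃ g, g ∈ Subgroup.closure ({a, b} : Set (Equiv.Perm X)) ∧ g x = y) :
    ∃ g : ℕ, (Fintype.card X : ℤ) - h33_numOrb a - h33_numOrb b - h33_numOrb (a * b)
      = 2 * (g : ℤ) - 2 := by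
  have h1 := h33_scott a b htr
  have h2 := h33_parity a b
  obtain ⟨k, hk⟩ := h2
  refine ⟨Fintype.card X + 1 - k, ?_⟩
  have h3 : k ≤ Fintype.card X + 1 := by omega
  rw [Nat.cast_sub h3]
  push_cast
  omega

end Parity

end Fermat.Agent.S24
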