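import Mathlib
import Fermat.Prelude.Def_AlgebraicCurve_CanonicalDivisor
import Fermat.Agent.S24.h36_AlgMain
import Fermat.Agent.S24.h24_Fibre

/-!
# Genus from fibre counts, for a function field in one variable

`h36_genus_of_fibre_counts_aux` instantiates the fundamental-identity hypotheses of
`h36_genus_of_hurwitz_two` with helper24's `h24_Fibre` results.  What is left as hypotheses:
residue fields (`hres`), essential finiteness of the valuation rings (`hEFT`), finiteness of
`F` over `K(x)` for every transcendental `x` (`hD0`) and `Nontrivial Ω[F⁄K]`.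
-/

set_option autoImplicit false

open KaehlerDifferential AlgebraicCurve IntermediateField

namespace Fermat.Agent.S24

variable {K F : Type*} [Field K] [Field F] [Algebra K F]

/-- **Genus from fibre counts**, fundamental identities discharged. -/
theorem h36_genus_of_fibre_counts_aux [IsAlgClosed K] [CharZero K] [Nontrivial Ω[F⁄K]]
    [AlgebraicCurve.HasCanonicalDivisor (K := K) (F := F)]
    (t : F) (ht : Transcendental K t) [FiniteDimensional K⟮t⟯ F]
    (hres : ∀ v : Place K F, Function.Surjective (algebraMap K v.ResidueField))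
    (hEFT : ∀ v : Place K F, Algebra.EssFiniteType K v.toValuationSubring)
    (hD0 : ∀ x : F, Transcendental K x → FiniteDimensional K⟮x⟯ F)
    (a₁ a₂ : K) (ha : a₁ ≠ a₂)
    (hS : ∀ a : K, a ≠ a₁ → a ≠ a₂ →
      Nat.card {v : Place K F // 0 < v.ord (t - algebraMap K F a)} = Module.finrank K⟮t⟯ F) :
    AlgebraicCurve.genus K F =
      ((Module.finrank K⟮t⟯ F : ℤ)
        - (Nat.card {v : Place K F // 0 < v.ord (t - algebraMap K F a₁)} : ℤ)
        - (Nat.card {v : Place K F // 0 < v.ord (t - algebraMap K F a₂)} : ℤ)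
        - (Nat.card {v : Place K F // v.ord t < 0} : ℤ) + 2).toNat / 2 := by
  classical
  have ht' : ∀ a : K, t ≠ algebraMap K F a := by
    intro a h
    exact ht (h ▸ isAlgebraic_algebraMap a)
  have hfin : ∀ a : K, {v : Place K F | 0 < v.ord (t - algebraMap K F a)}.Finite :=
    fun a => h24_fibre_finite t ht a
  have hsum : ∀ a : K, ∑ v ∈ (hfin a).toFinset, v.ord (t - algebraMap K F a)
      = ((Module.finrank K⟮t⟯ F : ℕ) : ℤ) :=
    fun a => h24_fibre_sum t ht a _ (fun v => by simp)
  have hpfin : {v : Place K F | v.ord t < 0}.Finite := h24_fibre_infty_finite t ht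
  have hpsum : ∑ v ∈ hpfin.toFinset, v.ord t = -((Module.finrank K⟮t⟯ F : ℕ) : ℤ) := by
    have h := h24_fibre_infty_sum t ht hpfin.toFinset (fun v => by simp)
    rw [Finset.sum_neg_distrib] at h
    omega
  have hprin : ∀ f : F, f ≠ 0 → ∃ D : Divisor K F,
      (∀ v : Place K F, D v = v.ord f) ∧ D.sum (fun _ n => n) = 0 :=
    fun f hf => h24_exists_principal hD0 f hf
  have hffin : ∀ f : F, f ≠ 0 → {v : Place K F | v.ord f ≠ 0}.Finite := by
    intro f hf
    obtain ⟨D, hD, -⟩ := hprin f hf
    refine D.support.finite_toSet.subset fun v hv => ?_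
    simp only [Finset.mem_coe, Finsupp.mem_support_iff]
    rw [hD v]
    exact hv
  have hfsum : ∀ (f : F) (hf : f ≠ 0), ∑ v ∈ (hffin f hf).toFinset, v.ord f = 0 := by
    intro f hf
    obtain ⟨D, hD, hDsum⟩ := hprin f hf
    have hsupp : (hffin f hf).toFinset = D.support := by
      ext v
      rw [Set.Finite.mem_toFinset, Finsupp.mem_support_iff, hD v]
      rfl
    rw [hsupp, ← hDsum, Finsupp.sum]
    exact Finset.sum_congr rfl fun v _ => (hD v).symm
  exact h36_genus_of_hurwitz_two t (Module.finrank K⟮t⟯ F) ht' hres hEFT hfin hsum hpfin hpsum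
    hffin hfsum a₁ a₂ ha hS

end Fermat.Agent.S24
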