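import Mathlib
import Fermat.Prelude.Def_AlgebraicCurve_CanonicalDivisor
import Fermat.Agent.S24.h36_AlgMain2
import Fermat.Agent.S24.h73_Diff
import Fermat.Agent.S24.h73_Wrap

/-!
# Genus from fibre counts: the contract statement of the generic algebra layer

`h36_genus_of_fibre_counts`: for a function field `F` in one variable over an algebraically
closed field `K` of characteristic zero and `t : F` transcendental with `F` finite over `K(t)`,
if all fibres of `t` over `a ≠ a₁, a₂` have `[F : K(t)]` places, then the prelude genus is
`([F : K(t)] - #fibre a₁ - #fibre a₂ - #poles + 2).toNat / 2`.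
-/

set_option autoImplicit false

open KaehlerDifferential AlgebraicCurve IntermediateField

namespace Fermat.Agent.S24

variable {K F : Type*} [Field K] [Field F] [Algebra K F]

/-- **Genus from fibre counts** (contract statement of the ALG layer). -/
theorem h36_genus_of_fibre_counts [IsAlgClosed K] [CharZero K]
    [AlgebraicCurve.HasCanonicalDivisor (K := K) (F := F)]
    (t : F) (ht : Transcendental K t) [FiniteDimensional K⟮t⟯ F] (a₁ a₂ : K) (ha : a₁ ≠ a₂)
    (hS : ∀ a : K, a ≠ a₁ → a ≠ a₂ →
      Nat.card {v : Place K F // 0 < v.ord (t - algebraMap K F a)} = Module.finrank K⟮t⟯ F) :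
    AlgebraicCurve.genus K F =
      ((Module.finrank K⟮t⟯ F : ℤ)
        - Nat.card {v : Place K F // 0 < v.ord (t - algebraMap K F a₁)}
        - Nat.card {v : Place K F // 0 < v.ord (t - algebraMap K F a₂)}
        - Nat.card {v : Place K F // v.ord t < 0} + 2).toNat / 2 := by
  have hF : h73_IsFF K F := ⟨t, inferInstance⟩
  have : Nontrivial Ω[F⁄K] := h73_nontrivial_kaehler hF ht
  exact h36_genus_of_fibre_counts_aux t ht (h73_hres hF) (h73_hEFT hF)
    (fun _ hx => h73_finite_of_transcendental hF hx) a₁ a₂ ha hS

end Fermat.Agent.S24
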