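import Mathlib
import Fermat.Agent.S24.h56_CountNorm

set_option autoImplicit false
set_option linter.unusedSectionVars false

namespace Fermat.Agent.S24

open AlgebraicCurve IntermediateField

variable {K F : Type*} [Field K] [Field F] [Algebra K F]
variable {R : Type*} [CommRing R] [IsDomain R]

/-- The order of the image under a ring homomorphism into a ring of Laurent (Hahn) series is an
order function. -/
theorem h56_isOrd_order (σ : F →+* HahnSeries ℤ R)
    (hK : ∀ c : K, ∃ r : R, σ (algebraMap K F c) = HahnSeries.C r) :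
    h56_IsOrd K (fun f => (σ f).order) where
  map_mul f g hf hg := by
    have hf' : σ f ≠ 0 := (map_ne_zero_iff σ σ.injective).mpr hf
    have hg' : σ g ≠ 0 := (map_ne_zero_iff σ σ.injective).mpr hg
    change (σ (f * g)).order = (σ f).order + (σ g).order
    rw [map_mul, HahnSeries.order_mul hf' hg']
  map_add f g hf hg hfg := by
    have hfg' : σ f + σ g ≠ 0 := by
      rw [← map_add]
      exact (map_ne_zero_iff σ σ.injective).mpr hfg
    change min (σ f).order (σ g).order ≤ (σ (f + g)).order
    rw [map_add]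
    exact HahnSeries.min_order_le_order_add hfg'
  map_algebraMap a _ := by
    obtain ⟨r, hr⟩ := hK a
    simp only [hr, HahnSeries.order_C]

/-- Order of a finite product of nonzero Hahn series. -/
lemma h56_order_prod {X : Type*} (s : Finset X) (u : X → HahnSeries ℤ R)
    (hu : ∀ x ∈ s, u x ≠ 0) : (∏ x ∈ s, u x).order = ∑ x ∈ s, (u x).order := by
  classical
  induction s using Finset.induction_on with
  | empty => simp
  | insert a s ha ih =>
    rw [Finset.prod_insert ha, Finset.sum_insert ha]
    have h1 : u a ≠ 0 := hu a (Finset.mem_insert_self a s)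
    have h2 : ∏ x ∈ s, u x ≠ 0 :=
      Finset.prod_ne_zero_iff.mpr (fun x hx => hu x (Finset.mem_insert_of_mem hx))
    rw [HahnSeries.order_mul h1 h2, ih (fun x hx => hu x (Finset.mem_insert_of_mem hx))]

/-- The norm identity in product form gives the norm identity in order form. -/
theorem h56_norm_order {X : Type*} [Fintype X] (σ : X → F →+* HahnSeries ℤ R) (t : F)
    (hprod : ∀ (x₀ : X) (h : F),
      σ x₀ (algebraMap K⟮t⟯ F (Algebra.norm K⟮t⟯ h)) = ∏ x, σ x h) :
    ∀ h : F, h ≠ 0 → ∀ x₀,
      (σ x₀ (algebraMap K⟮t⟯ F (Algebra.norm K⟮t⟯ h))).order = ∑ x, (σ x h).order := by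
  intro h hh x₀
  rw [hprod x₀ h]
  exact h56_order_prod _ _ (fun x _ => (map_ne_zero_iff (σ x) (σ x).injective).mpr hh)

section final

variable [CharZero K] [IsAlgClosed K]

/-- FIBRE COUNT over `t = a` directly from a family of embeddings of `F` into Laurent series. -/
theorem h56_card_fibre_of_emb (t : F) (ht : Transcendental K t)
    [FiniteDimensional K⟮t⟯ F] (a : K) {G X : Type*} [Group G] [MulAction G X] [Fintype X]
    (g : G) (σ : X → F →+* HahnSeries ℤ R)
    (hK : ∀ x (c : K), ∃ r : R, σ x (algebraMap K F c) = HahnSeries.C r)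
    (E : ℤ) (hE : 0 < E) (hwE : ∀ x, (σ x (t - algebraMap K F a)).order = E)
    (hG : ∀ x (f : F), (σ (g • x) f).order = (σ x f).order)
    (hM : ∀ x (f : F), f ≠ 0 →
      E ∣ (σ x f).order * (Function.minimalPeriod (fun y : X => g • y) x : ℤ))
    (hprod : ∀ (x₀ : X) (h : F),
      σ x₀ (algebraMap K⟮t⟯ F (Algebra.norm K⟮t⟯ h)) = ∏ x, σ x h)
    (hcard : Fintype.card X = Module.finrank K⟮t⟯ F) :
    Nat.card {v : Place K F // 0 < v.ord (t - algebraMap K F a)} =
      Nat.card (MulAction.orbitRel.Quotient (Subgroup.zpowers g) X) :=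
  h56_card_fibre_of_norm t ht a g (fun x f => (σ x f).order)
    (fun x => h56_isOrd_order (σ x) (hK x)) E hE hwE (fun x => funext (hG x)) hM
    (h56_norm_order σ t hprod) hcard

/-- FIBRE COUNT over `t = ∞` directly from a family of embeddings of `F` into Laurent
series. -/
theorem h56_card_fibre_infty_of_emb (t : F) (ht : Transcendental K t)
    [FiniteDimensional K⟮t⟯ F] {G X : Type*} [Group G] [MulAction G X] [Fintype X]
    (g : G) (σ : X → F →+* HahnSeries ℤ R)
    (hK : ∀ x (c : K), ∃ r : R, σ x (algebraMap K F c) = HahnSeries.C r)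
    (E : ℤ) (hE : 0 < E) (hwE : ∀ x, (σ x t⁻¹).order = E)
    (hG : ∀ x (f : F), (σ (g • x) f).order = (σ x f).order)
    (hM : ∀ x (f : F), f ≠ 0 →
      E ∣ (σ x f).order * (Function.minimalPeriod (fun y : X => g • y) x : ℤ))
    (hprod : ∀ (x₀ : X) (h : F),
      σ x₀ (algebraMap K⟮t⟯ F (Algebra.norm K⟮t⟯ h)) = ∏ x, σ x h)
    (hcard : Fintype.card X = Module.finrank K⟮t⟯ F) :
    Nat.card {v : Place K F // v.ord t < 0} =
      Nat.card (MulAction.orbitRel.Quotient (Subgroup.zpowers g) X) :=
  h56_card_fibre_infty_of_norm t ht g (fun x f => (σ x f).order)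
    (fun x => h56_isOrd_order (σ x) (hK x)) E hE hwE (fun x => funext (hG x)) hM
    (h56_norm_order σ t hprod) hcard

/-- Unramified fibre: if all orders of `t - a` are `1`, the fibre has `[F : K(t)]` places. -/
theorem h56_card_fibre_unramified_of_emb (t : F) (ht : Transcendental K t)
    [FiniteDimensional K⟮t⟯ F] (a : K) {X : Type*} [Fintype X]
    (σ : X → F →+* HahnSeries ℤ R)
    (hK : ∀ x (c : K), ∃ r : R, σ x (algebraMap K F c) = HahnSeries.C r)
    (hwE : ∀ x, (σ x (t - algebraMap K F a)).order = 1)
    (hprod : ∀ (x₀ : X) (h : F),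
      σ x₀ (algebraMap K⟮t⟯ F (Algebra.norm K⟮t⟯ h)) = ∏ x, σ x h)
    (hcard : Fintype.card X = Module.finrank K⟮t⟯ F) :
    Nat.card {v : Place K F // 0 < v.ord (t - algebraMap K F a)} = Module.finrank K⟮t⟯ F := by
  have h := h56_card_fibre_of_norm_setoid t ht a (⊥ : Setoid X) (fun x f => (σ x f).order)
    (fun x => h56_isOrd_order (σ x) (hK x)) 1 one_pos hwE
    (fun x y hxy => by
      have : x = y := hxy
      rw [this])
    (fun x f _ => one_dvd _) (h56_norm_order σ t hprod) hcard
  have e : Quotient (⊥ : Setoid X) ≃ X :=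
    { toFun := Quotient.lift id (fun _ _ h => h)
      invFun := Quotient.mk _
      left_inv := fun q => by
        induction q using Quotient.inductionOn
        rfl
      right_inv := fun _ => rfl }
  rw [h, Nat.card_congr e, Nat.card_eq_fintype_card, hcard]

end final

end Fermat.Agent.S24
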