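import Mathlib
import Fermat.Agent.S24.h59_Gen
import Fermat.Agent.S24.h59_Width
import Fermat.Agent.S24.h64_ConjQ
import Fermat.Agent.S24.h78_Field

set_option autoImplicit false

open scoped MatrixGroups Manifold
open UpperHalfPlane ModularCurve CongruenceSubgroup

namespace Fermat.Agent.S24

/-! ## The twist as a ring homomorphism -/

theorem h59_twist_support {L : Type*} [Field L] {w : L} (hw : w ≠ 0) (x : LaurentSeries L) :
    (h64_twist w x).support = x.support := by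
  ext m
  simp [zpow_ne_zero _ hw]

theorem h59_twist_mul {L : Type*} [Field L] {w : L} (hw : w ≠ 0) (x y : LaurentSeries L) :
    h64_twist w (x * y) = h64_twist w x * h64_twist w y := by
  ext k
  rw [h64_twist_coeff, HahnSeries.coeff_mul, HahnSeries.coeff_mul, Finset.sum_mul]
  refine Finset.sum_congr ?_ ?_
  · ext ij
    simp only [Finset.mem_antidiagonal, h59_twist_support hw]
  · intro ij hij
    rw [Finset.mem_antidiagonal] at hij
    rw [h64_twist_coeff, h64_twist_coeff, ← hij.2.2, zpow_add₀ hw]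
    ring

/-- The twist `∑ c_k q^k ↦ ∑ c_k w^k q^k` as a ring homomorphism. -/
noncomputable def h59_twistHom {L : Type*} [Field L] (w : L) (hw : w ≠ 0) :
    LaurentSeries L →+* LaurentSeries L where
  toFun := h64_twist w
  map_one' := by
    ext k
    rw [h64_twist_coeff, HahnSeries.coeff_one]
    split_ifs with h
    · subst h; simp
    · simp
  map_mul' := h59_twist_mul hw
  map_zero' := by
    ext k
    simp
  map_add' x y := by
    ext k
    simp [add_mul]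

@[simp] theorem h59_twistHom_apply {L : Type*} [Field L] (w : L) (hw : w ≠ 0)
    (x : LaurentSeries L) : h59_twistHom w hw x = h64_twist w x := rfl

/-! ## Finite products of expansions -/

theorem h59_isQExp_prod {h : ℝ} {I : Type*} (s : Finset I) (c : I → LaurentSeries ℂ)
    (f : I → ℍ → ℂ) (hc : ∀ i ∈ s, h77_IsQExp h (c i) (f i)) :
    h77_IsQExp h (∏ i ∈ s, c i) (fun τ => ∏ i ∈ s, f i τ) := by
  classical
  induction s using Finset.induction_on with
  | empty => simpa using h77_isQExp_one h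
  | insert i s hi ih =>
    have h1 := (hc i (Finset.mem_insert_self i s)).mul
      (ih fun j hj => hc j (Finset.mem_insert_of_mem hj))
    rw [Finset.prod_insert hi]
    refine h1.congr fun τ => ?_
    rw [Finset.prod_insert hi]

theorem h59_isQExp_algebraMap (h : ℝ) (a : ℂ) :
    h77_IsQExp h (algebraMap ℂ (LaurentSeries ℂ) a) (fun _ => a) := by
  rw [algebraMap_laurentSeries_eq_single]
  have := h77_isQExp_single h 0 a
  simpa using this

/-! ## The evaluation homomorphism on `A_N` -/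

/-- The `K`-algebra `A_N = K[j(q^d) : d ∣ N]` consists of convergent series. -/
theorem h59_ringA_mem_conv (ι : AlgebraicClosure ℚ →+* ℂ) (N : ℕ)
    (a : ↥(modularFunctionFieldBar N)) (ha : a ∈ h59_ringA N) :
    (a : LaurentSeries (AlgebraicClosure ℚ)) ∈ h77_convAlg ι := by
  rw [h59_mem_ringA, h59_gens_eq_image] at ha
  exact h77_adjoin_le ι N ha

/-- The inclusion of `A_N` into the algebra of convergent series. -/
noncomputable def h59_toConv (ι : AlgebraicClosure ℚ →+* ℂ) (N : ℕ) :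
    ↥(h59_ringA N) →+* ↥(h77_convAlg ι) where
  toFun a := ⟨((a : ↥(modularFunctionFieldBar N)) : LaurentSeries (AlgebraicClosure ℚ)),
    h59_ringA_mem_conv ι N a a.2⟩
  map_one' := rfl
  map_mul' _ _ := rfl
  map_zero' := rfl
  map_add' _ _ := rfl

/-- Evaluation of the elements of `A_N` as holomorphic functions on the upper half plane. -/
noncomputable def h59_ev (ι : AlgebraicClosure ℚ →+* ℂ) (N : ℕ) :
    ↥(h59_ringA N) →+* (ℍ → ℂ) :=
  (h77_toFun ι).comp (h59_toConv ι N)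

theorem h59_ev_spec (ι : AlgebraicClosure ℚ →+* ℂ) (N : ℕ) (a : ↥(h59_ringA N)) :
    h77_IsQExp 1 (coeffMap ι ((a : ↥(modularFunctionFieldBar N)) :
      LaurentSeries (AlgebraicClosure ℚ))) (h59_ev ι N a) :=
  h77_toFun_spec ι (h59_toConv ι N a)

theorem h59_ev_eq (ι : AlgebraicClosure ℚ →+* ℂ) (N : ℕ) {a : ↥(h59_ringA N)} {f : ℍ → ℂ}
    (hf : h77_IsQExp 1 (coeffMap ι ((a : ↥(modularFunctionFieldBar N)) :
      LaurentSeries (AlgebraicClosure ℚ))) f) : h59_ev ι N a = f :=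
  (h59_ev_spec ι N a).unique_fun hf

theorem h59_ev_injective (ι : AlgebraicClosure ℚ →+* ℂ) (N : ℕ) :
    Function.Injective (h59_ev ι N) := by
  intro a b hab
  have h1 : h59_toConv ι N a = h59_toConv ι N b := h77_toFun_injective ι hab
  have h2 := congrArg (fun z : ↥(h77_convAlg ι) => (z : LaurentSeries (AlgebraicClosure ℚ))) h1
  exact Subtype.ext (Subtype.ext h2)

theorem h59_ev_mdiff (ι : AlgebraicClosure ℚ →+* ℂ) (N : ℕ) (a : ↥(h59_ringA N)) :
    MDiff (h59_ev ι N a) :=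
  h77_toFun_mdiff ι _

theorem h59_hroot (ι : AlgebraicClosure ℚ →+* ℂ) (n : ℕ) (hn : 0 < n) :
    ∃ ζ : AlgebraicClosure ℚ, ι ζ = Complex.exp (2 * Real.pi * Complex.I / n) := by
  obtain ⟨ζ, hζ⟩ := h78_exp_mem_range ι n hn.ne' 1
  exact ⟨ζ, by rw [hζ]; simp⟩

theorem h59_j_smul (γ : SL(2, ℤ)) (τ : ℍ) : h77_j (γ • τ) = h77_j τ := h64_jf_smul γ τ

theorem h59_j_leadOne : h64_LeadOne h77_j := h64_jf_leadOne

/-- Every element of `A_N` is the expansion of a `Γ₀(N)`-invariant function all of whose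
`SL(2,ℤ)`-conjugates have `K`-rational `q_N`-expansions. -/
theorem h59_good (ι : AlgebraicClosure ℚ →+* ℂ) (N : ℕ) [NeZero N]
    (a : ↥(modularFunctionFieldBar N)) (ha : a ∈ h59_ringA N) :
    ∃ f : ℍ → ℂ, h77_IsQExp 1 (coeffMap ι (a : LaurentSeries (AlgebraicClosure ℚ))) f ∧
      (∀ γ ∈ Gamma0 N, ∀ τ : ℍ, f (γ • τ) = f τ) ∧
      ∀ g : SL(2, ℤ), ∃ c : LaurentSeries (AlgebraicClosure ℚ),
        h77_IsQExp N (coeffMap ι c) (fun τ => f (g⁻¹ • τ)) := by
  have hN : 0 < N := Nat.pos_of_ne_zero (NeZero.ne N)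
  refine h59_ringA_induction N (p := fun x => ∃ f : ℍ → ℂ, h77_IsQExp 1 (coeffMap ι x) f ∧
      (∀ γ ∈ Gamma0 N, ∀ τ : ℍ, f (γ • τ) = f τ) ∧
      ∀ g : SL(2, ℤ), ∃ c : LaurentSeries (AlgebraicClosure ℚ),
        h77_IsQExp N (coeffMap ι c) (fun τ => f (g⁻¹ • τ))) ?_ ?_ ?_ ?_ a ha
  · -- generators
    intro d _ hdN
    have hd : 0 < d := Nat.pos_of_ne_zero (NeZero.ne d)
    refine ⟨fun τ => h77_j (ofComplex ((d : ℂ) * τ)), ?_, ?_, ?_⟩
    · rw [coeffMap_qExpand, h77_coeffMap_coeffEmb]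
      exact h77_isQExp_jq.comp_mul d
    · intro γ hγ τ
      have hdvd : (d : ℤ) ∣ γ 1 0 := by
        rw [Gamma0_mem, ZMod.intCast_zmod_eq_zero_iff_dvd] at hγ
        exact (Int.natCast_dvd_natCast.mpr hdN).trans hγ
      exact (h64_conj_eq_iff h59_j_smul h59_j_leadOne hd γ).2 hdvd τ
    · intro g
      have hfj : ∀ τ : ℍ, HasSum (fun k : ℤ =>
          (coeffMap ι (coeffEmb (AlgebraicClosure ℚ) jq)).coeff k *
            Function.Periodic.qParam (1 : ℝ) τ ^ k) (h77_j τ) := by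
        rw [h77_coeffMap_coeffEmb]
        exact h77_isQExp_jq
      obtain ⟨c, e, -, -, -, hc⟩ := h64_exists_qexp_conj ι (h59_hroot ι)
        (coeffEmb (AlgebraicClosure ℚ) jq) hfj h59_j_smul hd hN hdN g⁻¹
      exact ⟨c, hc⟩
  · -- constants
    intro c
    refine ⟨fun _ => ι c, ?_, fun _ _ _ => rfl, fun g => ⟨algebraMap _ _ c, ?_⟩⟩
    · rw [h59_coeffMap_algebraMap]
      exact h59_isQExp_algebraMap 1 _
    · rw [h59_coeffMap_algebraMap]
      exact h59_isQExp_algebraMap _ _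
  · -- sums
    rintro x y ⟨f, hf, hfi, hfc⟩ ⟨f', hf', hfi', hfc'⟩
    refine ⟨fun τ => f τ + f' τ, ?_, ?_, ?_⟩
    · rw [map_add]
      exact hf.add hf'
    · intro γ hγ τ
      show f (γ • τ) + f' (γ • τ) = f τ + f' τ
      rw [hfi γ hγ, hfi' γ hγ]
    · intro g
      obtain ⟨c, hc⟩ := hfc g
      obtain ⟨c', hc'⟩ := hfc' g
      exact ⟨c + c', by rw [map_add]; exact hc.add hc'⟩
  · -- products
    rintro x y ⟨f, hf, hfi, hfc⟩ ⟨f', hf', hfi', hfc'⟩
    refine ⟨fun τ => f τ * f' τ, ?_, ?_, ?_⟩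
    · rw [map_mul]
      exact hf.mul hf'
    · intro γ hγ τ
      show f (γ • τ) * f' (γ • τ) = f τ * f' τ
      rw [hfi γ hγ, hfi' γ hγ]
    · intro g
      obtain ⟨c, hc⟩ := hfc g
      obtain ⟨c', hc'⟩ := hfc' g
      exact ⟨c * c', by rw [map_mul]; exact hc.mul hc'⟩

/-- The functions attached to `A_N` are `Γ₀(N)`-invariant. -/
theorem h59_ev_invariant (ι : AlgebraicClosure ℚ →+* ℂ) (N : ℕ) [NeZero N]
    (a : ↥(h59_ringA N)) {γ : SL(2, ℤ)} (hγ : γ ∈ Gamma0 N) (τ : ℍ) :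
    h59_ev ι N a (γ • τ) = h59_ev ι N a τ := by
  obtain ⟨f, hf, hinv, -⟩ := h59_good ι N a a.2
  rw [h59_ev_eq ι N hf]
  exact hinv γ hγ τ

/-- The conjugates only depend on the left coset. -/
theorem h59_ev_coset (ι : AlgebraicClosure ℚ →+* ℂ) (N : ℕ) [NeZero N]
    (a : ↥(h59_ringA N)) {g g' : SL(2, ℤ)}
    (h : (g : SL(2, ℤ) ⧸ Gamma0 N) = g') (τ : ℍ) :
    h59_ev ι N a (g⁻¹ • τ) = h59_ev ι N a (g'⁻¹ • τ) := by
  have h1 : g⁻¹ * g' ∈ Gamma0 N := QuotientGroup.eq.mp h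
  have h2 : g⁻¹ • τ = (g⁻¹ * g') • (g'⁻¹ • τ) := by
    rw [← mul_smul, mul_assoc, mul_inv_cancel, mul_one]
  rw [h2, h59_ev_invariant ι N a h1]

/-- Every conjugate of an element of `A_N` has a `K`-rational `q_N`-expansion. -/
theorem h59_exists_cusp (ι : AlgebraicClosure ℚ →+* ℂ) (N : ℕ) [NeZero N]
    (a : ↥(h59_ringA N)) (g : SL(2, ℤ)) :
    ∃ c : LaurentSeries (AlgebraicClosure ℚ),
      h77_IsQExp N (coeffMap ι c) (fun τ => h59_ev ι N a (g⁻¹ • τ)) := by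
  obtain ⟨f, hf, -, hc⟩ := h59_good ι N a a.2
  rw [h59_ev_eq ι N hf]
  exact hc g

/-- The `K`-rational `q_N`-expansion of the `g⁻¹`-conjugate of `a ∈ A_N`. -/
noncomputable def h59_cuspFn (ι : AlgebraicClosure ℚ →+* ℂ) (N : ℕ) [NeZero N]
    (g : SL(2, ℤ)) (a : ↥(h59_ringA N)) : LaurentSeries (AlgebraicClosure ℚ) :=
  (h59_exists_cusp ι N a g).choose

theorem h59_cuspFn_spec (ι : AlgebraicClosure ℚ →+* ℂ) (N : ℕ) [NeZero N]
    (g : SL(2, ℤ)) (a : ↥(h59_ringA N)) :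
    h77_IsQExp N (coeffMap ι (h59_cuspFn ι N g a)) (fun τ => h59_ev ι N a (g⁻¹ • τ)) :=
  (h59_exists_cusp ι N a g).choose_spec

theorem h59_cuspFn_eq (ι : AlgebraicClosure ℚ →+* ℂ) (N : ℕ) [NeZero N]
    (g : SL(2, ℤ)) {a : ↥(h59_ringA N)} {c : LaurentSeries (AlgebraicClosure ℚ)}
    (hc : h77_IsQExp N (coeffMap ι c) (fun τ => h59_ev ι N a (g⁻¹ • τ))) :
    h59_cuspFn ι N g a = c :=
  h77_coeffMap_injective ι ((h59_cuspFn_spec ι N g a).unique
    (Nat.cast_pos.mpr (Nat.pos_of_ne_zero (NeZero.ne N))) hc)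

/-- The expansion at the cusp `g • ∞` as a ring homomorphism on `A_N`. -/
noncomputable def h59_cuspA (ι : AlgebraicClosure ℚ →+* ℂ) (N : ℕ) [NeZero N]
    (g : SL(2, ℤ)) : ↥(h59_ringA N) →+* LaurentSeries (AlgebraicClosure ℚ) where
  toFun := h59_cuspFn ι N g
  map_one' := h59_cuspFn_eq ι N g (by
    rw [map_one, map_one]
    exact h77_isQExp_one _)
  map_mul' a b := h59_cuspFn_eq ι N g (by
    rw [map_mul, map_mul]
    exact (h59_cuspFn_spec ι N g a).mul (h59_cuspFn_spec ι N g b))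
  map_zero' := h59_cuspFn_eq ι N g (by
    rw [map_zero, map_zero]
    exact h77_isQExp_zero _)
  map_add' a b := h59_cuspFn_eq ι N g (by
    rw [map_add, map_add]
    exact (h59_cuspFn_spec ι N g a).add (h59_cuspFn_spec ι N g b))

theorem h59_cuspA_apply (ι : AlgebraicClosure ℚ →+* ℂ) (N : ℕ) [NeZero N]
    (g : SL(2, ℤ)) (a : ↥(h59_ringA N)) : h59_cuspA ι N g a = h59_cuspFn ι N g a := rfl

theorem h59_cuspA_injective (ι : AlgebraicClosure ℚ →+* ℂ) (N : ℕ) [NeZero N]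
    (g : SL(2, ℤ)) : Function.Injective (h59_cuspA ι N g) := by
  rw [injective_iff_map_eq_zero]
  intro a ha
  have h1 := h59_cuspFn_spec ι N g a
  rw [h59_cuspA_apply] at ha
  rw [ha, map_zero] at h1
  have h2 : (fun τ => h59_ev ι N a (g⁻¹ • τ)) = fun _ => 0 :=
    h1.unique_fun (h77_isQExp_zero _)
  have h3 : h59_ev ι N a = 0 := by
    funext τ
    have := congrFun h2 (g • τ)
    simpa using this
  exact h59_ev_injective ι N (by rw [h3, map_zero])

/-- **The cusp family.** The `K`-rational `q_N`-expansion at the cusp `g • ∞`, as a field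
homomorphism on the function field. -/
noncomputable def h59_cusp (ι : AlgebraicClosure ℚ →+* ℂ) (N : ℕ) [NeZero N]
    (g : SL(2, ℤ)) : ↥(modularFunctionFieldBar N) →+* LaurentSeries (AlgebraicClosure ℚ) :=
  IsFractionRing.lift (h59_cuspA_injective ι N g)

theorem h59_cusp_coe (ι : AlgebraicClosure ℚ →+* ℂ) (N : ℕ) [NeZero N]
    (g : SL(2, ℤ)) (a : ↥(h59_ringA N)) :
    h59_cusp ι N g (a : ↥(modularFunctionFieldBar N)) = h59_cuspFn ι N g a :=
  IsFractionRing.lift_algebraMap (h59_cuspA_injective ι N g) a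

/-- Characterisation on `A_N`. -/
theorem h59_cusp_spec (ι : AlgebraicClosure ℚ →+* ℂ) (N : ℕ) [NeZero N]
    (g : SL(2, ℤ)) (a : ↥(h59_ringA N)) :
    h77_IsQExp N (coeffMap ι (h59_cusp ι N g (a : ↥(modularFunctionFieldBar N))))
      (fun τ => h59_ev ι N a (g⁻¹ • τ)) := by
  rw [h59_cusp_coe]
  exact h59_cuspFn_spec ι N g a

theorem h59_cusp_eq (ι : AlgebraicClosure ℚ →+* ℂ) (N : ℕ) [NeZero N]
    (g : SL(2, ℤ)) {a : ↥(h59_ringA N)} {c : LaurentSeries (AlgebraicClosure ℚ)}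
    (hc : h77_IsQExp N (coeffMap ι c) (fun τ => h59_ev ι N a (g⁻¹ • τ))) :
    h59_cusp ι N g (a : ↥(modularFunctionFieldBar N)) = c := by
  rw [h59_cusp_coe]
  exact h59_cuspFn_eq ι N g hc

/-- Two ring homomorphisms on the function field which agree on `A_N` are equal. -/
theorem h59_ringHom_ext (N : ℕ) {M : Type*} [Semiring M]
    {φ ψ : ↥(modularFunctionFieldBar N) →+* M}
    (h : ∀ a : ↥(h59_ringA N), φ (a : ↥(modularFunctionFieldBar N)) = ψ a) : φ = ψ :=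
  IsLocalization.ringHom_ext (nonZeroDivisors ↥(h59_ringA N)) (RingHom.ext h)

/-! ## Properties of the cusp family -/

/-- (d) The cusp expansions are the identity on constants. -/
theorem h59_cusp_algebraMap (ι : AlgebraicClosure ℚ →+* ℂ) (N : ℕ) [NeZero N]
    (g : SL(2, ℤ)) (c : AlgebraicClosure ℚ) :
    h59_cusp ι N g (algebraMap (AlgebraicClosure ℚ) ↥(modularFunctionFieldBar N) c) =
      algebraMap (AlgebraicClosure ℚ) (LaurentSeries (AlgebraicClosure ℚ)) c := by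
  have h1 : algebraMap (AlgebraicClosure ℚ) ↥(modularFunctionFieldBar N) c =
      ((algebraMap (AlgebraicClosure ℚ) ↥(h59_ringA N) c : ↥(h59_ringA N)) :
        ↥(modularFunctionFieldBar N)) := rfl
  rw [h1]
  refine h59_cusp_eq ι N g ?_
  have h2 : h59_ev ι N (algebraMap (AlgebraicClosure ℚ) ↥(h59_ringA N) c) = fun _ => ι c := by
    refine h59_ev_eq ι N ?_
    have h3 : (((algebraMap (AlgebraicClosure ℚ) ↥(h59_ringA N) c : ↥(h59_ringA N)) :
        ↥(modularFunctionFieldBar N)) : LaurentSeries (AlgebraicClosure ℚ)) =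
        algebraMap (AlgebraicClosure ℚ) (LaurentSeries (AlgebraicClosure ℚ)) c := rfl
    rw [h3, h59_coeffMap_algebraMap]
    exact h59_isQExp_algebraMap 1 _
  rw [h2, h59_coeffMap_algebraMap]
  exact h59_isQExp_algebraMap _ _

theorem h59_jbar_mem_ringA (N : ℕ) : h59_jbar N ∈ h59_ringA N := by
  rw [h59_mem_ringA]
  refine Algebra.subset_adjoin ⟨1, inferInstance, one_dvd N, ?_⟩
  rw [qExpand_one_apply]
  rfl

theorem h59_ev_jbar (ι : AlgebraicClosure ℚ →+* ℂ) (N : ℕ) :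
    h59_ev ι N ⟨h59_jbar N, h59_jbar_mem_ringA N⟩ = h77_j := by
  refine h59_ev_eq ι N ?_
  show h77_IsQExp 1 (coeffMap ι (coeffEmb (AlgebraicClosure ℚ) jq)) h77_j
  rw [h77_coeffMap_coeffEmb]
  exact h77_isQExp_jq

/-- (c) Every cusp expansion of `j` is `j(q_N^N)`. -/
theorem h59_cusp_jbar (ι : AlgebraicClosure ℚ →+* ℂ) (N : ℕ) [NeZero N] (g : SL(2, ℤ)) :
    h59_cusp ι N g (h59_jbar N) =
      qExpand (AlgebraicClosure ℚ) N (coeffEmb (AlgebraicClosure ℚ) jq) := by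
  refine h59_cusp_eq ι N g (a := ⟨h59_jbar N, h59_jbar_mem_ringA N⟩) ?_
  rw [h59_ev_jbar, coeffMap_qExpand, h77_coeffMap_coeffEmb]
  have h1 := h77_isQExp_jq.qExpand_width N
  rw [mul_one] at h1
  exact h1.congr fun τ => (h59_j_smul g⁻¹ τ).symm

theorem h59_order_coeffEmb_jq :
    (coeffEmb (AlgebraicClosure ℚ) jq).order = -1 := by
  have h := h78_order_aeval_jq (AlgebraicClosure ℚ) (P := Polynomial.X) Polynomial.X_ne_zero
  rw [Polynomial.aeval_X, Polynomial.natDegree_X] at h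
  simpa using h

/-- (c') The order of `j` at every cusp (in the parameter `q_N`) is `-N`. -/
theorem h59_cusp_jbar_order (ι : AlgebraicClosure ℚ →+* ℂ) (N : ℕ) [NeZero N] (g : SL(2, ℤ)) :
    (h59_cusp ι N g (h59_jbar N)).order = -(N : ℤ) := by
  rw [h59_cusp_jbar, h64_order_qExpand, h59_order_coeffEmb_jq]
  ring

/-- (a) The cusp expansion only depends on the left coset `g Γ₀(N)`. -/
theorem h59_cusp_mul_right (ι : AlgebraicClosure ℚ →+* ℂ) (N : ℕ) [NeZero N]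
    (g h : SL(2, ℤ)) (hh : h ∈ Gamma0 N) : h59_cusp ι N (g * h) = h59_cusp ι N g := by
  refine h59_ringHom_ext N fun a => ?_
  refine h59_cusp_eq ι N (g * h) ?_
  refine (h59_cusp_spec ι N g a).congr fun τ => ?_
  exact h59_ev_coset ι N a (QuotientGroup.eq.mpr (by simpa using hh)) τ

theorem h59_cusp_eq_of_coset (ι : AlgebraicClosure ℚ →+* ℂ) (N : ℕ) [NeZero N]
    {g g' : SL(2, ℤ)} (h : (g : SL(2, ℤ) ⧸ Gamma0 N) = g') :
    h59_cusp ι N g = h59_cusp ι N g' := by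
  have h1 : g⁻¹ * g' ∈ Gamma0 N := QuotientGroup.eq.mp h
  have h2 := h59_cusp_mul_right ι N g (g⁻¹ * g') h1
  rw [mul_inv_cancel_left] at h2
  exact h2.symm

/-- The root of unity `exp (-2πi/N)` in `K`. -/
noncomputable def h59_zeta (ι : AlgebraicClosure ℚ →+* ℂ) (N : ℕ) [NeZero N] :
    AlgebraicClosure ℚ :=
  (h78_exp_mem_range ι N (NeZero.ne N) (-1)).choose

theorem h59_zeta_spec (ι : AlgebraicClosure ℚ →+* ℂ) (N : ℕ) [NeZero N] :
    ι (h59_zeta ι N) = Complex.exp (2 * Real.pi * Complex.I * ((-1 : ℝ) : ℂ) / ((N : ℝ) : ℂ)) := by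
  have h := (h78_exp_mem_range ι N (NeZero.ne N) (-1)).choose_spec
  rw [h59_zeta, h]
  push_cast
  rfl

theorem h59_zeta_ne_zero (ι : AlgebraicClosure ℚ →+* ℂ) (N : ℕ) [NeZero N] :
    h59_zeta ι N ≠ 0 := by
  intro h0
  have h := h59_zeta_spec ι N
  rw [h0, map_zero] at h
  exact Complex.exp_ne_zero _ h.symm

/-- (b) Left multiplication by `T` twists the expansion by the root of unity
`exp (-2πi/N)`. -/
theorem h59_cusp_T_mul (ι : AlgebraicClosure ℚ →+* ℂ) (N : ℕ) [NeZero N]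
    (g : SL(2, ℤ)) (f : ↥(modularFunctionFieldBar N)) :
    h59_cusp ι N (ModularGroup.T * g) f = h64_twist (h59_zeta ι N) (h59_cusp ι N g f) := by
  have key : h59_cusp ι N (ModularGroup.T * g) =
      (h59_twistHom (h59_zeta ι N) (h59_zeta_ne_zero ι N)).comp (h59_cusp ι N g) := by
    refine h59_ringHom_ext N fun a => ?_
    rw [RingHom.comp_apply, h59_twistHom_apply]
    refine h59_cusp_eq ι N (ModularGroup.T * g) ?_
    rw [h64_coeffMap_twist, h59_zeta_spec]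
    have h1 := h59_isQExp_vadd (h59_cusp_spec ι N g a) (-1)
    refine h1.congr fun τ => ?_
    have hT : ((-1 : ℝ) +ᵥ τ : ℍ) = (ModularGroup.T)⁻¹ • τ := by
      have := UpperHalfPlane.modular_T_zpow_smul τ (-1)
      rw [zpow_neg_one] at this
      rw [this]
      simp
    show h59_ev ι N a (g⁻¹ • ((-1 : ℝ) +ᵥ τ)) = h59_ev ι N a ((ModularGroup.T * g)⁻¹ • τ)
    rw [hT, ← mul_smul, ← mul_inv_rev]
  rw [key]
  rfl

/-- Distinct cosets have distinct cusp expansions. -/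
theorem h59_cusp_coset_of_eq (ι : AlgebraicClosure ℚ →+* ℂ) (N : ℕ) [NeZero N]
    {g g' : SL(2, ℤ)} (h : h59_cusp ι N g = h59_cusp ι N g') :
    (g : SL(2, ℤ) ⧸ Gamma0 N) = g' := by
  have hN : 0 < N := Nat.pos_of_ne_zero (NeZero.ne N)
  have hmem : (⟨qExpand (AlgebraicClosure ℚ) N (coeffEmb (AlgebraicClosure ℚ) jq),
      h59_gen_mem_bar (dvd_refl N)⟩ : ↥(modularFunctionFieldBar N)) ∈ h59_ringA N := by
    rw [h59_mem_ringA]
    exact Algebra.subset_adjoin (h59_mem_gens _ (dvd_refl N))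
  set a : ↥(h59_ringA N) := ⟨_, hmem⟩ with ha
  have hev : h59_ev ι N a = fun τ : ℍ => h77_j (ofComplex ((N : ℂ) * τ)) := by
    refine h59_ev_eq ι N ?_
    show h77_IsQExp 1 (coeffMap ι (qExpand (AlgebraicClosure ℚ) N
      (coeffEmb (AlgebraicClosure ℚ) jq))) _
    rw [coeffMap_qExpand, h77_coeffMap_coeffEmb]
    exact h77_isQExp_jq.comp_mul N
  have h1 := h59_cusp_spec ι N g a
  have h2 := h59_cusp_spec ι N g' a
  rw [h] at h1
  have h3 := h1.unique_fun h2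
  rw [hev] at h3
  have h4 := (h64_conj_eq_conj_iff_mem h59_j_smul h59_j_leadOne hN g⁻¹ g'⁻¹).1
    (fun τ => congrFun h3 τ)
  rw [inv_inv] at h4
  exact QuotientGroup.eq.mpr h4

/-- The cusp family indexed by the cosets. -/
noncomputable def h59_cuspX (ι : AlgebraicClosure ℚ →+* ℂ) (N : ℕ) [NeZero N]
    (x : SL(2, ℤ) ⧸ Gamma0 N) :
    ↥(modularFunctionFieldBar N) →+* LaurentSeries (AlgebraicClosure ℚ) :=
  h59_cusp ι N (Quotient.out x)

theorem h59_cuspX_mk (ι : AlgebraicClosure ℚ →+* ℂ) (N : ℕ) [NeZero N] (g : SL(2, ℤ)) :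
    h59_cuspX ι N (g : SL(2, ℤ) ⧸ Gamma0 N) = h59_cusp ι N g :=
  h59_cusp_eq_of_coset ι N (QuotientGroup.out_eq' _)

theorem h59_cuspX_injective (ι : AlgebraicClosure ℚ →+* ℂ) (N : ℕ) [NeZero N] :
    Function.Injective (h59_cuspX ι N) := by
  intro x y hxy
  have := h59_cusp_coset_of_eq ι N hxy
  rwa [QuotientGroup.out_eq', QuotientGroup.out_eq'] at this

theorem h59_cuspX_algebraMap (ι : AlgebraicClosure ℚ →+* ℂ) (N : ℕ) [NeZero N]
    (x : SL(2, ℤ) ⧸ Gamma0 N) (c : AlgebraicClosure ℚ) :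
    h59_cuspX ι N x (algebraMap (AlgebraicClosure ℚ) ↥(modularFunctionFieldBar N) c) =
      algebraMap (AlgebraicClosure ℚ) (LaurentSeries (AlgebraicClosure ℚ)) c :=
  h59_cusp_algebraMap ι N _ c

theorem h59_cuspX_jbar (ι : AlgebraicClosure ℚ →+* ℂ) (N : ℕ) [NeZero N]
    (x : SL(2, ℤ) ⧸ Gamma0 N) :
    h59_cuspX ι N x (h59_jbar N) =
      qExpand (AlgebraicClosure ℚ) N (coeffEmb (AlgebraicClosure ℚ) jq) :=
  h59_cusp_jbar ι N _

/-- The cusp expansions commute with polynomials in `j`. -/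
theorem h59_cusp_aeval (ι : AlgebraicClosure ℚ →+* ℂ) (N : ℕ) [NeZero N] (g : SL(2, ℤ))
    (P : Polynomial (AlgebraicClosure ℚ)) :
    h59_cusp ι N g (Polynomial.aeval (h59_jbar N) P) =
      qExpand (AlgebraicClosure ℚ) N
        (Polynomial.aeval (coeffEmb (AlgebraicClosure ℚ) jq) P) := by
  have h1 : (h59_cusp ι N g).comp
      (algebraMap (AlgebraicClosure ℚ) ↥(modularFunctionFieldBar N)) =
      algebraMap (AlgebraicClosure ℚ) (LaurentSeries (AlgebraicClosure ℚ)) :=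
    RingHom.ext fun c => h59_cusp_algebraMap ι N g c
  have h2 : (qExpand (AlgebraicClosure ℚ) N).comp
      (algebraMap (AlgebraicClosure ℚ) (LaurentSeries (AlgebraicClosure ℚ))) =
      algebraMap (AlgebraicClosure ℚ) (LaurentSeries (AlgebraicClosure ℚ)) := by
    refine RingHom.ext fun c => ?_
    rw [RingHom.comp_apply, algebraMap_laurentSeries_eq_single, qExpand_single, mul_zero]
  rw [Polynomial.aeval_def, Polynomial.hom_eval₂, h1, h59_cusp_jbar, Polynomial.aeval_def,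
    Polynomial.hom_eval₂, h2]

/-- **PROD-INV.** For `a ∈ A_N` the product of all cusp expansions of `a` is the expansion of
a polynomial in `j` with coefficients in `K`. -/
theorem h59_cusp_prod (ι : AlgebraicClosure ℚ →+* ℂ) (N : ℕ) [NeZero N]
    [Fintype (SL(2, ℤ) ⧸ Gamma0 N)] (a : ↥(modularFunctionFieldBar N))
    (ha : a ∈ h59_ringA N) :
    ∃ P : Polynomial (AlgebraicClosure ℚ), ∀ x₀ : SL(2, ℤ) ⧸ Gamma0 N,
      h59_cuspX ι N x₀ (Polynomial.aeval (h59_jbar N) P) = ∏ x, h59_cuspX ι N x a := by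
  set a' : ↥(h59_ringA N) := ⟨a, ha⟩ with ha'
  set G : ℍ → ℂ := fun τ => ∏ x : SL(2, ℤ) ⧸ Gamma0 N,
    h59_ev ι N a' ((Quotient.out x : SL(2, ℤ))⁻¹ • τ) with hG
  have hc : h77_IsQExp N (coeffMap ι (∏ x, h59_cuspX ι N x a)) G := by
    rw [map_prod]
    exact h59_isQExp_prod Finset.univ _ _ (fun x _ => h59_cusp_spec ι N (Quotient.out x) a')
  have hinv : ∀ (γ : SL(2, ℤ)) (τ : ℍ), G (γ • τ) = G τ := by
    intro γ τ
    have h1 : ∀ x : SL(2, ℤ) ⧸ Gamma0 N,
        h59_ev ι N a' ((Quotient.out x : SL(2, ℤ))⁻¹ • (γ • τ)) =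
          h59_ev ι N a' ((Quotient.out (γ⁻¹ • x) : SL(2, ℤ))⁻¹ • τ) := by
      intro x
      have h2 : (Quotient.out x : SL(2, ℤ))⁻¹ • (γ • τ) = (γ⁻¹ * Quotient.out x)⁻¹ • τ := by
        rw [mul_inv_rev, inv_inv, mul_smul]
      rw [h2]
      refine h59_ev_coset ι N a' ?_ τ
      rw [QuotientGroup.out_eq']
      have h3 : ((γ⁻¹ * Quotient.out x : SL(2, ℤ)) : SL(2, ℤ) ⧸ Gamma0 N) =
          γ⁻¹ • ((Quotient.out x : SL(2, ℤ)) : SL(2, ℤ) ⧸ Gamma0 N) := rfl
      rw [h3, QuotientGroup.out_eq']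
    show ∏ x : SL(2, ℤ) ⧸ Gamma0 N, h59_ev ι N a' ((Quotient.out x : SL(2, ℤ))⁻¹ • (γ • τ)) =
      ∏ x : SL(2, ℤ) ⧸ Gamma0 N, h59_ev ι N a' ((Quotient.out x : SL(2, ℤ))⁻¹ • τ)
    rw [Finset.prod_congr rfl fun x _ => h1 x]
    exact Function.Bijective.prod_comp (MulAction.bijective γ⁻¹)
      (fun x : SL(2, ℤ) ⧸ Gamma0 N => h59_ev ι N a' ((Quotient.out x : SL(2, ℤ))⁻¹ • τ))
  obtain ⟨P, hP, -⟩ := h59_invariant_of_width ι _ G hc hinv
  refine ⟨P, fun x₀ => ?_⟩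
  rw [hP]
  exact h59_cusp_aeval ι N _ P

end Fermat.Agent.S24
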