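import Mathlib
import Fermat.Agent.S24.h56_Count

set_option autoImplicit false

namespace Fermat.Agent.S24

open AlgebraicCurve IntermediateField
open scoped IntermediateField.algebraAdjoinAdjoin

/-- For a finite separable extension `F/E` and `h ≠ 0` integral over a subring `A` of `E`, the
cofactor `h⁻¹ * N_{F/E}(h)` is integral over `A` (it is the product of the other conjugates). -/
theorem h71_isIntegral_inv_mul_norm {A E F : Type*} [CommRing A] [Field E] [Field F]
    [Algebra A E] [Algebra E F] [Algebra A F] [IsScalarTower A E F] [FiniteDimensional E F]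
    [Algebra.IsSeparable E F] {h : F} (hh : IsIntegral A h) (h0 : h ≠ 0) :
    IsIntegral A (h⁻¹ * algebraMap E F (Algebra.norm E h)) := by
  classical
  rw [← isIntegral_algHom_iff (IsScalarTower.toAlgHom A F (AlgebraicClosure F))
    (algebraMap F (AlgebraicClosure F)).injective]
  have key : IsScalarTower.toAlgHom A F (AlgebraicClosure F)
      (h⁻¹ * algebraMap E F (Algebra.norm E h))
      = ∏ σ ∈ (Finset.univ : Finset (F →ₐ[E] AlgebraicClosure F)).erase
          (IsScalarTower.toAlgHom E F (AlgebraicClosure F)), σ h := by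
    rw [IsScalarTower.coe_toAlgHom', map_mul, map_inv₀,
      ← IsScalarTower.algebraMap_apply E F (AlgebraicClosure F),
      Algebra.norm_eq_prod_embeddings E (AlgebraicClosure F) h,
      ← Finset.mul_prod_erase Finset.univ (fun σ : F →ₐ[E] AlgebraicClosure F => σ h)
        (Finset.mem_univ (IsScalarTower.toAlgHom E F (AlgebraicClosure F))),
      IsScalarTower.coe_toAlgHom', inv_mul_cancel_left₀]
    exact (map_ne_zero_iff _ (algebraMap F (AlgebraicClosure F)).injective).mpr h0
  rw [key]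
  refine IsIntegral.prod _ fun σ _ => ?_
  exact hh.map (σ.restrictScalars A)

section bridge

variable {K F : Type*} [Field K] [Field F] [Algebra K F] [CharZero K]

/-- (A) NORM FACTOR. For `h` integral over `K[t]`, the norm `N_{F/K(t)}(h)` is a polynomial
`P(t)` in `t`, and `P(t) = h * b` with `b` integral over `K[t]`. -/
theorem h71_exists_norm_factor (t : F) [FiniteDimensional K⟮t⟯ F] (h : F)
    (hh : IsIntegral (Algebra.adjoin K {t}) h) :
    ∃ (P : Polynomial K) (b : F), IsIntegral (Algebra.adjoin K {t}) b ∧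
      Polynomial.aeval t P = h * b ∧
      algebraMap K⟮t⟯ F (Algebra.norm K⟮t⟯ h) = Polynomial.aeval t P := by
  have hchar : CharZero K⟮t⟯ := charZero_of_injective_algebraMap (algebraMap K K⟮t⟯).injective
  -- the norm is integral over `K[t]`, hence lies in `K[t]`
  have hint : IsIntegral (Algebra.adjoin K {t}) (Algebra.norm K⟮t⟯ h) :=
    Algebra.isIntegral_norm K⟮t⟯ hh
  obtain ⟨y, hy⟩ := (IsIntegrallyClosed.isIntegral_iff (R := Algebra.adjoin K {t})
    (K := K⟮t⟯)).mp hint
  have hyF : algebraMap K⟮t⟯ F (Algebra.norm K⟮t⟯ h) = (y : F) := by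
    rw [← hy]; rfl
  obtain ⟨P, hP⟩ : ∃ P : Polynomial K, Polynomial.aeval t P = (y : F) := by
    have hmem : (y : F) ∈ (Polynomial.aeval (R := K) t).range := by
      rw [← Algebra.adjoin_singleton_eq_range_aeval]
      exact y.2
    exact hmem
  by_cases h0 : h = 0
  · refine ⟨0, 0, isIntegral_zero, by simp [h0], ?_⟩
    rw [h0, Algebra.norm_zero]
    simp
  · refine ⟨P, h⁻¹ * algebraMap K⟮t⟯ F (Algebra.norm K⟮t⟯ h),
      h71_isIntegral_inv_mul_norm hh h0, ?_, ?_⟩
    · rw [mul_inv_cancel_left₀ h0, hP, hyF]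
    · rw [hP, hyF]

omit [CharZero K] in
/-- An order function with `0 < w (t - a)` is nonnegative at `t` (or `t = 0`). -/
theorem h71_nonneg_at {w : F → ℤ} (hw : h56_IsOrd K w) (t : F) (a : K)
    (hpos : 0 < w (t - algebraMap K F a)) : t = 0 ∨ 0 ≤ w t := by
  by_cases ht : t = 0
  · exact Or.inl ht
  refine Or.inr ?_
  by_cases ha : a = 0
  · rw [ha, map_zero, sub_zero] at hpos
    exact hpos.le
  by_cases hta : t - algebraMap K F a = 0
  · rw [sub_eq_zero.mp hta, hw.map_algebraMap a ha]
  have ha' : algebraMap K F a ≠ 0 := (map_ne_zero_iff _ (algebraMap K F).injective).mpr ha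
  have h2 := hw.map_add (t - algebraMap K F a) (algebraMap K F a) hta ha'
    (by rw [sub_add_cancel]; exact ht)
  rw [sub_add_cancel, hw.map_algebraMap a ha] at h2
  have h3 : min (w (t - algebraMap K F a)) 0 = 0 := min_eq_right hpos.le
  rw [h3] at h2
  exact h2

/-- (B) NORM PROPERTY = hypothesis `hN` of `h56_card_fibre`, from the norm identity in order
form. The value `w x 0` is not constrained by `h56_IsOrd`; it has to be positive (`hw0`) because
`hN` also quantifies over `h = 0`. -/
theorem h71_hN (t : F) [FiniteDimensional K⟮t⟯ F] (a : K)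
    {X : Type*} [Fintype X] [Nonempty X] (w : X → F → ℤ) (hw : ∀ x, h56_IsOrd K (w x))
    (hpos : ∀ x, 0 < w x (t - algebraMap K F a)) (hw0 : ∀ x, 0 < w x 0)
    (hnorm : ∀ h : F, h ≠ 0 → ∃ x₀,
      w x₀ (algebraMap K⟮t⟯ F (Algebra.norm K⟮t⟯ h)) = ∑ x, w x h) :
    ∀ h : F, IsIntegral (Algebra.adjoin K {t}) h →
      ∃ (P : Polynomial K) (b : F), IsIntegral (Algebra.adjoin K {t}) b ∧
        Polynomial.aeval t P = h * b ∧ (P.eval a = 0 → ∃ x, 0 < w x h) := by
  intro h hh
  obtain ⟨P, b, hb, hPb, hPn⟩ := h71_exists_norm_factor (K := K) t h hh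
  refine ⟨P, b, hb, hPb, fun hPa => ?_⟩
  by_cases h0 : h = 0
  · obtain ⟨x⟩ := ‹Nonempty X›
    exact ⟨x, by rw [h0]; exact hw0 x⟩
  have hchar : CharZero K⟮t⟯ := charZero_of_injective_algebraMap (algebraMap K K⟮t⟯).injective
  obtain ⟨x₀, hx₀⟩ := hnorm h h0
  -- the norm is nonzero
  have hn0 : Polynomial.aeval t P ≠ 0 := by
    rw [← hPn]
    exact (map_ne_zero_iff _ (algebraMap K⟮t⟯ F).injective).mpr (Algebra.norm_ne_zero_iff.mpr h0)
  -- `P = (X - a) * Q`
  obtain ⟨Q, hQ⟩ := Polynomial.dvd_iff_isRoot.mpr hPa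
  have hfac : Polynomial.aeval t P = (t - algebraMap K F a) * Polynomial.aeval t Q := by
    rw [hQ, map_mul]
    simp
  have hta0 : t - algebraMap K F a ≠ 0 := fun h1 => hn0 (by rw [hfac, h1, zero_mul])
  have hQ0 : Polynomial.aeval t Q ≠ 0 := fun h1 => hn0 (by rw [hfac, h1, mul_zero])
  have hQint : IsIntegral (Algebra.adjoin K {t}) (Polynomial.aeval t Q) := by
    have hmem : Polynomial.aeval t Q ∈ Algebra.adjoin K {t} := by
      rw [Algebra.adjoin_singleton_eq_range_aeval]
      exact ⟨Q, rfl⟩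
    exact isIntegral_algebraMap (R := Algebra.adjoin K {t}) (x := ⟨_, hmem⟩)
  have hQnn : 0 ≤ w x₀ (Polynomial.aeval t Q) :=
    ((hw x₀).nonneg_of_isIntegral (h71_nonneg_at (hw x₀) t a (hpos x₀)) hQint).resolve_left hQ0
  have hsum : 0 < ∑ x, w x h := by
    rw [← hx₀, hPn, hfac, (hw x₀).map_mul _ _ hta0 hQ0]
    have := hpos x₀
    omega
  by_contra hcon
  push Not at hcon
  exact absurd hsum (not_lt.mpr (Finset.sum_nonpos fun x _ => hcon x))

omit [CharZero K] in
/-- The norm does not depend on how the intermediate field is presented. -/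
theorem h71_norm_congr {E₁ E₂ : IntermediateField K F} (he : E₁ = E₂) (h : F) :
    algebraMap E₁ F (Algebra.norm E₁ h) = algebraMap E₂ F (Algebra.norm E₂ h) := by
  subst he
  rfl

/-- (B∞) NORM PROPERTY at infinity = hypothesis `hN` of `h56_card_fibre_infty`, from the norm
identity over `K⟮t⟯` in order form. -/
theorem h71_hN_infty (t : F) [hfd : FiniteDimensional K⟮t⟯ F]
    {X : Type*} [Fintype X] [Nonempty X] (w : X → F → ℤ) (hw : ∀ x, h56_IsOrd K (w x))
    (hpos : ∀ x, 0 < w x t⁻¹) (hw0 : ∀ x, 0 < w x 0)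
    (hnorm : ∀ h : F, h ≠ 0 → ∃ x₀,
      w x₀ (algebraMap K⟮t⟯ F (Algebra.norm K⟮t⟯ h)) = ∑ x, w x h) :
    ∀ h : F, IsIntegral (Algebra.adjoin K {t⁻¹}) h →
      ∃ (P : Polynomial K) (b : F), IsIntegral (Algebra.adjoin K {t⁻¹}) b ∧
        Polynomial.aeval t⁻¹ P = h * b ∧ (P.eval 0 = 0 → ∃ x, 0 < w x h) := by
  have hfd' : FiniteDimensional K⟮t⁻¹⟯ F := (h56_adjoin_inv_eq (K := K) t).symm ▸ hfd
  refine h71_hN (K := K) t⁻¹ 0 w hw (fun x => by rw [map_zero, sub_zero]; exact hpos x) hw0 ?_
  intro h h0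
  obtain ⟨x₀, hx₀⟩ := hnorm h h0
  exact ⟨x₀, by rw [h71_norm_congr (h56_adjoin_inv_eq (K := K) t) h]; exact hx₀⟩

end bridge

section laurent

variable {K F : Type*} [Field K] [Field F] [Algebra K F] {R : Type*} [Field R]

/-- The order function attached to a ring hom into Laurent series, normalised to be positive
at `0` (as required by `h71_hN`). -/
noncomputable def h71_ordOf (σ : F →+* LaurentSeries R) (f : F) : ℤ :=
  letI := Classical.propDecidable (f = 0)
  if f = 0 then 1 else (σ f).order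

theorem h71_ordOf_zero (σ : F →+* LaurentSeries R) : h71_ordOf σ 0 = 1 := by
  simp [h71_ordOf]

theorem h71_ordOf_of_ne (σ : F →+* LaurentSeries R) {f : F} (hf : f ≠ 0) :
    h71_ordOf σ f = (σ f).order := by
  simp [h71_ordOf, hf]

theorem h71_ordOf_isOrd (σ : F →+* LaurentSeries R)
    (hconst : ∀ c : K, c ≠ 0 → (σ (algebraMap K F c)).order = 0) :
    h56_IsOrd K (h71_ordOf σ) where
  map_mul f g hf hg := by
    rw [h71_ordOf_of_ne σ hf, h71_ordOf_of_ne σ hg, h71_ordOf_of_ne σ (mul_ne_zero hf hg),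
      map_mul]
    exact HahnSeries.order_mul ((map_ne_zero_iff _ σ.injective).mpr hf)
      ((map_ne_zero_iff _ σ.injective).mpr hg)
  map_add f g hf hg hfg := by
    rw [h71_ordOf_of_ne σ hf, h71_ordOf_of_ne σ hg, h71_ordOf_of_ne σ hfg, map_add]
    exact HahnSeries.min_order_le_order_add (by
      rw [← map_add]; exact (map_ne_zero_iff _ σ.injective).mpr hfg)
  map_algebraMap c hc := by
    rw [h71_ordOf_of_ne σ ((map_ne_zero_iff _ (algebraMap K F).injective).mpr hc)]
    exact hconst c hc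

theorem h71_order_prod {ι : Type*} (s : Finset ι) (f : ι → LaurentSeries R)
    (hf : ∀ i ∈ s, f i ≠ 0) : (∏ i ∈ s, f i).order = ∑ i ∈ s, (f i).order := by
  classical
  induction s using Finset.induction_on with
  | empty => simp
  | insert i s hi ih =>
    rw [Finset.prod_insert hi, Finset.sum_insert hi,
      HahnSeries.order_mul (hf i (Finset.mem_insert_self i s))
        (Finset.prod_ne_zero_iff.mpr fun j hj => hf j (Finset.mem_insert_of_mem hj)),
      ih fun j hj => hf j (Finset.mem_insert_of_mem hj)]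

/-- The norm identity for a family of Laurent-series embeddings gives the norm identity in order
form (hypothesis `hnorm` of `h71_hN`). -/
theorem h71_hnorm_of_family {E : Type*} [Field E] [Algebra E F] {X : Type*} [Fintype X]
    (σ : X → F →+* LaurentSeries R)
    (hnorm : ∀ (x₀ : X) (h : F), σ x₀ (algebraMap E F (Algebra.norm E h)) = ∏ x, σ x h)
    (h : F) (h0 : h ≠ 0) (x₀ : X) :
    h71_ordOf (σ x₀) (algebraMap E F (Algebra.norm E h)) = ∑ x, h71_ordOf (σ x) h := by
  have hn0 : algebraMap E F (Algebra.norm E h) ≠ 0 := by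
    intro hz
    have h1 := hnorm x₀ h
    rw [hz, map_zero] at h1
    have h2 := Finset.prod_eq_zero_iff.mp h1.symm
    obtain ⟨x, -, hx⟩ := h2
    exact h0 ((map_eq_zero_iff _ (σ x).injective).mp hx)
  rw [h71_ordOf_of_ne _ hn0, hnorm x₀ h,
    h71_order_prod _ _ fun x _ => (map_ne_zero_iff _ (σ x).injective).mpr h0]
  exact Finset.sum_congr rfl fun x _ => (h71_ordOf_of_ne _ h0).symm

end laurent

end Fermat.Agent.S24
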