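import Mathlib
import Fermat.Agent.S24.h24_Fibre
import Fermat.Agent.S24.h56_Count
import Fermat.Agent.S24.h71_NormProp

set_option autoImplicit false

namespace Fermat.Agent.S24

open AlgebraicCurve IntermediateField

variable {K F : Type*} [Field K] [Field F] [Algebra K F] [IsAlgClosed K] [CharZero K]

/-- FIBRE COUNT FROM A FAMILY OF LAURENT EMBEDDINGS (finite fibre `t = a`).
`σ x : F →+* R((z))`, `x ∈ X`, satisfy: trivial order on constants, `ord (σ x (t - a)) = E > 0`,
`ord ∘ σ (g • x) = ord ∘ σ x`, `E ∣ ord (σ x f) * (size of the ⟨g⟩-orbit of x)`, the norm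
identity, and `#X ≤ [F : K(t)]`. Then the places over `t = a` are in bijection with the
`⟨g⟩`-orbits on `X`. -/
theorem h71_card_fibre_of_family (t : F) (ht : Transcendental K t) [FiniteDimensional K⟮t⟯ F]
    (a : K) {G X : Type*} [Group G] [MulAction G X] [Fintype X] [Nonempty X] (g : G)
    {R : Type*} [Field R] (σ : X → F →+* LaurentSeries R)
    (hconst : ∀ x (c : K), c ≠ 0 → (σ x (algebraMap K F c)).order = 0)
    (E : ℤ) (hE : 0 < E) (hσE : ∀ x, (σ x (t - algebraMap K F a)).order = E)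
    (hG : ∀ x (f : F), (σ (g • x) f).order = (σ x f).order)
    (hM : ∀ x (f : F), f ≠ 0 →
      E ∣ (σ x f).order * (Function.minimalPeriod (fun y : X => g • y) x : ℤ))
    (hnorm : ∀ (x₀ : X) (h : F),
      σ x₀ (algebraMap K⟮t⟯ F (Algebra.norm K⟮t⟯ h)) = ∏ x, σ x h)
    (hcard : Fintype.card X ≤ Module.finrank K⟮t⟯ F) :
    Nat.card {v : Place K F // 0 < v.ord (t - algebraMap K F a)} =
      Nat.card (MulAction.orbitRel.Quotient (Subgroup.zpowers g) X) := by
  classical
  have hta : t - algebraMap K F a ≠ 0 := fun h0 =>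
    ht (by rw [sub_eq_zero.mp h0]; exact isAlgebraic_algebraMap a)
  have hw : ∀ x, h56_IsOrd K (h71_ordOf (σ x)) := fun x => h71_ordOf_isOrd (σ x) (hconst x)
  have hwE : ∀ x, h71_ordOf (σ x) (t - algebraMap K F a) = E := fun x => by
    rw [h71_ordOf_of_ne _ hta, hσE x]
  have hG' : ∀ x, h71_ordOf (σ (g • x)) = h71_ordOf (σ x) := by
    intro x
    funext f
    by_cases hf : f = 0
    · rw [hf, h71_ordOf_zero, h71_ordOf_zero]
    · rw [h71_ordOf_of_ne _ hf, h71_ordOf_of_ne _ hf, hG x f]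
  have hM' : ∀ x (f : F), f ≠ 0 →
      E ∣ h71_ordOf (σ x) f * (Function.minimalPeriod (fun y : X => g • y) x : ℤ) := by
    intro x f hf
    rw [h71_ordOf_of_ne _ hf]
    exact hM x f hf
  obtain ⟨x₀⟩ := ‹Nonempty X›
  have hN := h71_hN (K := K) t a (fun x => h71_ordOf (σ x)) hw
    (fun x => by rw [hwE x]; exact hE) (fun x => by rw [h71_ordOf_zero]; exact one_pos)
    (fun h h0 => ⟨x₀, h71_hnorm_of_family σ hnorm h h0 x₀⟩)
  have hfin := h24_fibre_finite t ht a
  have hsum : ∑ᶠ v ∈ {v : Place K F | 0 < v.ord (t - algebraMap K F a)},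
      v.ord (t - algebraMap K F a) = (Module.finrank K⟮t⟯ F : ℕ) := by
    rw [finsum_mem_eq_finite_toFinset_sum _ hfin]
    exact h24_fibre_sum t ht a hfin.toFinset (fun v => by simp)
  exact (h56_card_fibre (K := K) t a g (fun x => h71_ordOf (σ x)) hw E hE hwE hG' hM'
    (fun h _ hh => hN h hh) (Module.finrank K⟮t⟯ F) hcard hfin hsum).1

/-- FIBRE COUNT FROM A FAMILY OF LAURENT EMBEDDINGS (poles of `t`). Same as
`h71_card_fibre_of_family` with `ord (σ x t) = -E < 0`. -/
theorem h71_card_poles_of_family (t : F) (ht : Transcendental K t) [FiniteDimensional K⟮t⟯ F]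
    {G X : Type*} [Group G] [MulAction G X] [Fintype X] [Nonempty X] (g : G)
    {R : Type*} [Field R] (σ : X → F →+* LaurentSeries R)
    (hconst : ∀ x (c : K), c ≠ 0 → (σ x (algebraMap K F c)).order = 0)
    (E : ℤ) (hE : 0 < E) (hσE : ∀ x, (σ x t).order = -E)
    (hG : ∀ x (f : F), (σ (g • x) f).order = (σ x f).order)
    (hM : ∀ x (f : F), f ≠ 0 →
      E ∣ (σ x f).order * (Function.minimalPeriod (fun y : X => g • y) x : ℤ))
    (hnorm : ∀ (x₀ : X) (h : F),
      σ x₀ (algebraMap K⟮t⟯ F (Algebra.norm K⟮t⟯ h)) = ∏ x, σ x h)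
    (hcard : Fintype.card X ≤ Module.finrank K⟮t⟯ F) :
    Nat.card {v : Place K F // v.ord t < 0} =
      Nat.card (MulAction.orbitRel.Quotient (Subgroup.zpowers g) X) := by
  classical
  have ht0 : t ≠ 0 := fun h0 => ht (by rw [h0]; exact isAlgebraic_zero)
  have hw : ∀ x, h56_IsOrd K (h71_ordOf (σ x)) := fun x => h71_ordOf_isOrd (σ x) (hconst x)
  have hwE : ∀ x, h71_ordOf (σ x) t⁻¹ = E := fun x => by
    rw [(hw x).map_inv ht0, h71_ordOf_of_ne _ ht0, hσE x, neg_neg]
  have hG' : ∀ x, h71_ordOf (σ (g • x)) = h71_ordOf (σ x) := by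
    intro x
    funext f
    by_cases hf : f = 0
    · rw [hf, h71_ordOf_zero, h71_ordOf_zero]
    · rw [h71_ordOf_of_ne _ hf, h71_ordOf_of_ne _ hf, hG x f]
  have hM' : ∀ x (f : F), f ≠ 0 →
      E ∣ h71_ordOf (σ x) f * (Function.minimalPeriod (fun y : X => g • y) x : ℤ) := by
    intro x f hf
    rw [h71_ordOf_of_ne _ hf]
    exact hM x f hf
  obtain ⟨x₀⟩ := ‹Nonempty X›
  have hN := h71_hN_infty (K := K) t (fun x => h71_ordOf (σ x)) hw
    (fun x => by rw [hwE x]; exact hE) (fun x => by rw [h71_ordOf_zero]; exact one_pos)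
    (fun h h0 => ⟨x₀, h71_hnorm_of_family σ hnorm h h0 x₀⟩)
  have hfin := h24_fibre_infty_finite t ht
  have hsum : ∑ᶠ v ∈ {v : Place K F | v.ord t < 0}, -v.ord t
      = (Module.finrank K⟮t⟯ F : ℕ) := by
    rw [finsum_mem_eq_finite_toFinset_sum _ hfin]
    exact h24_fibre_infty_sum t ht hfin.toFinset (fun v => by simp)
  exact (h56_card_fibre_infty (K := K) t g (fun x => h71_ordOf (σ x)) hw E hE hwE hG' hM'
    (fun h _ hh => hN h hh) (Module.finrank K⟮t⟯ F) hcard hfin hsum).1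

end Fermat.Agent.S24
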