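import Mathlib
import Fermat.Agent.S24.h54_PointGen
import Fermat.Agent.S24.h59_Gen
import Fermat.Agent.S24.h77_QBridge
import Fermat.Agent.S24.h64_Conj

set_option autoImplicit false

open UpperHalfPlane ModularCurve
open scoped MatrixGroups Manifold

namespace Fermat.Agent.S24

/-- Elements of `A_N` are convergent. -/
theorem h89_mem_convAlg (ι : AlgebraicClosure ℚ →+* ℂ) (N : ℕ)
    (a : ↥(h59_ringA N)) :
    ((a : ↥(modularFunctionFieldBar N)) : LaurentSeries (AlgebraicClosure ℚ)) ∈ h77_convAlg ι := by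
  have h := (h59_mem_ringA N a).1 a.2
  rw [h59_gens_eq_image] at h
  exact h77_adjoin_le ι N h

/-- The inclusion of `A_N` into the algebra of convergent Laurent series. -/
noncomputable def h89_incl (ι : AlgebraicClosure ℚ →+* ℂ) (N : ℕ) :
    ↥(h59_ringA N) →+* ↥(h77_convAlg ι) where
  toFun a := ⟨((a : ↥(modularFunctionFieldBar N)) : LaurentSeries (AlgebraicClosure ℚ)),
    h89_mem_convAlg ι N a⟩
  map_one' := rfl
  map_mul' _ _ := rfl
  map_zero' := rfl
  map_add' _ _ := rfl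

/-- The evaluation hom `A_N →+* (ℍ → ℂ)`. -/
noncomputable def h89_ev (ι : AlgebraicClosure ℚ →+* ℂ) (N : ℕ) :
    ↥(h59_ringA N) →+* (ℍ → ℂ) :=
  (h77_toFun ι).comp (h89_incl ι N)

theorem h89_ev_spec (ι : AlgebraicClosure ℚ →+* ℂ) (N : ℕ) (a : ↥(h59_ringA N)) :
    h77_IsQExp 1 (ModularCurve.coeffMap ι
      ((a : ↥(modularFunctionFieldBar N)) : LaurentSeries (AlgebraicClosure ℚ))) (h89_ev ι N a) :=
  h77_toFun_spec ι (h89_incl ι N a)

theorem h89_ev_eq (ι : AlgebraicClosure ℚ →+* ℂ) (N : ℕ) (a : ↥(h59_ringA N)) {g : ℍ → ℂ}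
    (hg : h77_IsQExp 1 (ModularCurve.coeffMap ι
      ((a : ↥(modularFunctionFieldBar N)) : LaurentSeries (AlgebraicClosure ℚ))) g) :
    h89_ev ι N a = g :=
  h77_toFun_eq ι (f := h89_incl ι N a) hg

theorem h89_j_smul (γ : SL(2, ℤ)) (τ : ℍ) : h77_j (γ • τ) = h77_j τ := h64_jf_smul γ τ

theorem h89_j_leadOne : h64_LeadOne h77_j := h64_jf_leadOne

/-- Key invariance: every element of `A_N` is the expansion of a `Γ₀(N)`-invariant function. -/
theorem h89_exists_invariant (ι : AlgebraicClosure ℚ →+* ℂ) (N : ℕ) [NeZero N]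
    (a : ↥(h59_ringA N)) :
    ∃ g : ℍ → ℂ, h77_IsQExp 1 (ModularCurve.coeffMap ι
        ((a : ↥(modularFunctionFieldBar N)) : LaurentSeries (AlgebraicClosure ℚ))) g ∧
      ∀ γ ∈ CongruenceSubgroup.Gamma0 N, ∀ τ : ℍ, g (γ • τ) = g τ := by
  refine h59_ringA_induction N
    (p := fun x => ∃ g : ℍ → ℂ, h77_IsQExp 1 (ModularCurve.coeffMap ι x) g ∧
      ∀ γ ∈ CongruenceSubgroup.Gamma0 N, ∀ τ : ℍ, g (γ • τ) = g τ) ?_ ?_ ?_ ?_ a.1 a.2
  · intro d hd hdN
    refine ⟨fun τ : ℍ => h77_j (ofComplex ((d : ℂ) * τ)), ?_, ?_⟩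
    · have h1 : qExpand (AlgebraicClosure ℚ) d (coeffEmb (AlgebraicClosure ℚ) jq)
          = coeffEmb (AlgebraicClosure ℚ) (qExpand ℚ d jq) :=
        (coeffMap_qExpand _ d jq).symm
      rw [h1, h77_coeffMap_coeffEmb]
      exact h77_isQExp_jqd d
    · intro γ hγ τ
      have hd0 : 0 < d := Nat.pos_of_ne_zero (NeZero.ne d)
      have hdvd : (d : ℤ) ∣ γ 1 0 := by
        rw [CongruenceSubgroup.Gamma0_mem, ZMod.intCast_zmod_eq_zero_iff_dvd] at hγ
        exact (Int.natCast_dvd_natCast.mpr hdN).trans hγ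
      exact ((h64_conj_eq_iff h89_j_smul h89_j_leadOne hd0 γ).2 hdvd) τ
  · intro c
    refine ⟨fun _ => ι c, ?_, fun _ _ _ => rfl⟩
    rw [ModularCurve.algebraMap_laurentSeries_eq_single, ModularCurve.coeffMap_single]
    have := h77_isQExp_single 1 0 (ι c)
    simpa using this
  · rintro x y ⟨g, hg, hgi⟩ ⟨g', hg', hgi'⟩
    refine ⟨g + g', by rw [map_add]; exact hg.add hg', fun γ hγ τ => ?_⟩
    simp only [Pi.add_apply, hgi γ hγ τ, hgi' γ hγ τ]
  · rintro x y ⟨g, hg, hgi⟩ ⟨g', hg', hgi'⟩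
    refine ⟨g * g', by rw [map_mul]; exact hg.mul hg', fun γ hγ τ => ?_⟩
    simp only [Pi.mul_apply, hgi γ hγ τ, hgi' γ hγ τ]

/-- The evaluation data of level `N` (input record of `h54_PointGen`). -/
theorem h89_evData (ι : AlgebraicClosure ℚ →+* ℂ) (N : ℕ) [NeZero N] :
    h54_EvData N ι (h89_ev ι N) where
  mdiff a := h77_toFun_mdiff ι (h89_incl ι N a)
  inj := by
    intro a b hab
    have h := h77_toFun_injective ι hab
    have h2 : ((a : ↥(modularFunctionFieldBar N)) : LaurentSeries (AlgebraicClosure ℚ))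
        = ((b : ↥(modularFunctionFieldBar N)) : LaurentSeries (AlgebraicClosure ℚ)) :=
      congrArg (fun z : ↥(h77_convAlg ι) => (z : LaurentSeries (AlgebraicClosure ℚ))) h
    exact Subtype.ext (Subtype.ext h2)
  const c := by
    refine h89_ev_eq ι N _ ?_
    have h1 : (((algebraMap (AlgebraicClosure ℚ) ↥(h59_ringA N) c : ↥(h59_ringA N)) :
        ↥(modularFunctionFieldBar N)) : LaurentSeries (AlgebraicClosure ℚ))
        = algebraMap (AlgebraicClosure ℚ) (LaurentSeries (AlgebraicClosure ℚ)) c := rfl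
    rw [h1, ModularCurve.algebraMap_laurentSeries_eq_single, ModularCurve.coeffMap_single]
    have := h77_isQExp_single 1 0 (ι c)
    simpa using this
  invariant γ hγ a τ := by
    obtain ⟨g, hg, hgi⟩ := h89_exists_invariant ι N a
    rw [h89_ev_eq ι N a hg]
    exact hgi γ hγ τ

/-- `j` as an element of `A_N`. -/
noncomputable def h89_jA (N : ℕ) : ↥(h59_ringA N) :=
  ⟨h59_jbar N, by
    rw [h59_mem_ringA]
    have h := Algebra.subset_adjoin (R := AlgebraicClosure ℚ)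
      (h59_mem_gens (AlgebraicClosure ℚ) (N := N) (d := 1) (one_dvd N))
    rwa [qExpand_one_apply] at h⟩

theorem h89_coe_jA (N : ℕ) : ((h89_jA N : ↥(h59_ringA N)) : ↥(modularFunctionFieldBar N))
    = h59_jbar N := rfl

theorem h89_ev_jA (ι : AlgebraicClosure ℚ →+* ℂ) (N : ℕ) : h89_ev ι N (h89_jA N) = h77_j := by
  refine h89_ev_eq ι N _ ?_
  have h1 : (((h89_jA N : ↥(h59_ringA N)) : ↥(modularFunctionFieldBar N)) :
      LaurentSeries (AlgebraicClosure ℚ)) = coeffEmb (AlgebraicClosure ℚ) jq := rfl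
  rw [h1, h77_coeffMap_coeffEmb]
  exact h77_isQExp_jq

/-- The generator `j(q^N)` as an element of `A_N`. -/
noncomputable def h89_jNA (N : ℕ) [NeZero N] : ↥(h59_ringA N) :=
  ⟨⟨qExpand (AlgebraicClosure ℚ) N (coeffEmb (AlgebraicClosure ℚ) jq),
      h59_gen_mem_bar (dvd_refl N)⟩, by
    rw [h59_mem_ringA]
    exact Algebra.subset_adjoin (h59_mem_gens (AlgebraicClosure ℚ) (dvd_refl N))⟩

theorem h89_ev_jNA (ι : AlgebraicClosure ℚ →+* ℂ) (N : ℕ) [NeZero N] :
    h89_ev ι N (h89_jNA N) = fun τ : ℍ => h77_j (ofComplex ((N : ℂ) * τ)) := by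
  refine h89_ev_eq ι N _ ?_
  have h1 : (((h89_jNA N : ↥(h59_ringA N)) : ↥(modularFunctionFieldBar N)) :
      LaurentSeries (AlgebraicClosure ℚ))
      = coeffEmb (AlgebraicClosure ℚ) (qExpand ℚ N jq) :=
    (coeffMap_qExpand _ N jq).symm
  rw [h1, h77_coeffMap_coeffEmb]
  exact h77_isQExp_jqd N

/-- SEPARATION: the conjugates of `A_N` separate the cosets of `Γ₀(N)`. -/
theorem h89_sep (ι : AlgebraicClosure ℚ →+* ℂ) (N : ℕ) [NeZero N] (g g' : SL(2, ℤ))
    (h : ∀ (a : ↥(h59_ringA N)) (τ : ℍ), h89_ev ι N a (g⁻¹ • τ) = h89_ev ι N a (g'⁻¹ • τ)) :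
    (g : SL(2, ℤ) ⧸ CongruenceSubgroup.Gamma0 N) = g' := by
  have hN : 0 < N := Nat.pos_of_ne_zero (NeZero.ne N)
  have h1 := h (h89_jNA N)
  rw [h89_ev_jNA] at h1
  have h2 := (h64_conj_eq_conj_iff_mem h89_j_smul h89_j_leadOne hN g⁻¹ g'⁻¹).1 h1
  rw [inv_inv] at h2
  exact QuotientGroup.eq.mpr h2

end Fermat.Agent.S24
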